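import Mathlib.Logic.Basic
import Mathlib.Data.Nat.Prime.Defs
import Mathlib.Tactic.NormNum.Prime

/-!
# Five is prime, as an instance

Shared by the level five files of the switch.
-/

set_option autoImplicit false

namespace Fermat.SW

/-- `5` is prime, as an instance. -/
instance fact_prime_five : Fact (Nat.Prime 5) := ⟨Nat.prime_five⟩

end Fermat.SW
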