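import Fermat.Agent.EC.Unramified
import Fermat.Agent.SW.FactFive
import Fermat.Agent.CFT.Kummer.Ord
import Fermat.Agent.CFT.Density.CycloChar
import Fermat.Agent.CFT.Density.Places
import Mathlib.NumberTheory.NumberField.Cyclotomic.Basic
import Mathlib.NumberTheory.NumberField.Discriminant.Different

/-!
# `ℚ(ζ₅)` has no unramified extension

A homomorphism of `Gal(ℚ̄/ℚ)` with open kernel which kills every element of inertia fixing `ζ₅`
kills every element fixing `ζ₅`: the field it cuts out would have discriminant `125^m`, below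
Minkowski's bound for `m ≥ 2`.
-/

set_option autoImplicit false

noncomputable section

open NumberField Fermat.CFT

namespace Fermat.SW

local notation "ℚbar" => AlgebraicClosure ℚ
local notation "Γℚ" => (AlgebraicClosure ℚ ≃ₐ[ℚ] AlgebraicClosure ℚ)

/-- The first three terms of the binomial expansion bound `(1 + x) ^ k` from below for `x ≥ 0`. -/
lemma one_add_pow_ge (x : ℝ) (hx : 0 ≤ x) (k : ℕ) :
    1 + k * x + k * (k - 1) / 2 * x ^ 2 ≤ (1 + x) ^ k := by
  induction k with
  | zero => simp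
  | succ k ih =>
    rw [pow_succ]
    refine le_trans ?_ (mul_le_mul_of_nonneg_right ih (by linarith))
    push_cast
    have h : 0 ≤ (k : ℝ) * ((k : ℝ) - 1) / 2 * x ^ 3 := by
      rcases k.eq_zero_or_pos with rfl | hk
      · simp
      · have : (1 : ℝ) ≤ k := by exact_mod_cast hk
        positivity
    nlinarith

/-- The numerical inequality of Minkowski's bound for degree at least eight. -/
lemma minkowski_growth : ∀ n : ℕ, 8 ≤ n →
    (67 / 20 : ℝ) ^ n * ((4 / 3 : ℝ) ^ n * (n.factorial : ℝ) ^ 2) ≤ (n : ℝ) ^ (2 * n) := by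
  intro n hn
  induction n, hn using Nat.le_induction with
  | base => norm_num [Nat.factorial]
  | succ n hn ih =>
    have hb := one_add_pow_ge (1 / (n : ℝ)) (by positivity) n
    have h1 : (39 / 16 : ℝ) ≤ (1 + 1 / (n : ℝ)) ^ n := by
      refine le_trans ?_ hb
      have h8 : (8 : ℝ) ≤ n := by exact_mod_cast hn
      have e : 1 + (n : ℝ) * (1 / n) + n * ((n : ℝ) - 1) / 2 * (1 / n) ^ 2 =
          5 / 2 - 1 / (2 * (n : ℝ)) := by field_simp; ring
      rw [e]
      have : 1 / (2 * (n : ℝ)) ≤ 1 / 16 := by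
        apply one_div_le_one_div_of_le (by norm_num); linarith
      linarith
    have h2 : (67 / 20 : ℝ) * (4 / 3) ≤ ((1 + 1 / (n : ℝ)) ^ n) ^ 2 :=
      le_trans (by norm_num) (pow_le_pow_left₀ (by norm_num) h1 2)
    have e : ((n + 1 : ℕ) : ℝ) ^ (2 * (n + 1)) =
        (n : ℝ) ^ (2 * n) * ((1 + 1 / (n : ℝ)) ^ n) ^ 2 * ((n : ℝ) + 1) ^ 2 := by
      push_cast
      rw [← pow_mul, show n * 2 = 2 * n by ring, ← mul_pow, mul_add, pow_add]
      congr 2
      field_simp
    rw [e, Nat.factorial_succ]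
    push_cast
    calc (67 / 20 : ℝ) ^ (n + 1) * ((4 / 3) ^ (n + 1) * (((n : ℝ) + 1) * n.factorial) ^ 2)
        = ((67 / 20 : ℝ) ^ n * ((4 / 3) ^ n * (n.factorial : ℝ) ^ 2)) * (67 / 20 * (4 / 3)) *
            ((n : ℝ) + 1) ^ 2 := by ring
      _ ≤ _ := by gcongr

/-- A number field of degree `4m`, `m ≥ 2`, has discriminant above `125^m`. -/
theorem discr_gt {Y : Type*} [Field Y] [NumberField Y] {m : ℕ} (hm : 2 ≤ m)
    (hn : Module.finrank ℚ Y = 4 * m) : 125 ^ m < (discr Y).natAbs := by
  have hb := NumberField.abs_discr_ge' Y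
  rw [hn] at hb
  have hr : 2 * InfinitePlace.nrComplexPlaces Y ≤ 4 * m := by
    have := InfinitePlace.card_add_two_mul_card_eq_rank Y
    omega
  have hπ : (4 / Real.pi) ^ (2 * InfinitePlace.nrComplexPlaces Y) ≤ (4 / 3 : ℝ) ^ (4 * m) := by
    refine le_trans (pow_le_pow_left₀ (by positivity) ?_ _) (pow_le_pow_right₀ (by norm_num) hr)
    exact div_le_div_of_nonneg_left (by norm_num) (by norm_num) Real.pi_gt_three.le
  have hg := minkowski_growth (4 * m) (by omega)
  have h1 : ((67 / 20 : ℝ)) ^ (4 * m) ≤ ((discr Y).natAbs : ℝ) := by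
    rw [Nat.cast_natAbs, Int.cast_abs]
    refine le_trans ?_ (le_of_le_of_eq hb Int.cast_abs)
    rw [le_div_iff₀ (by positivity)]
    refine le_trans ?_ hg
    gcongr
  have h2 : ((125 ^ m : ℕ) : ℝ) < (67 / 20 : ℝ) ^ (4 * m) := by
    rw [pow_mul]; push_cast
    exact pow_lt_pow_left₀ (by norm_num) (by norm_num) (by omega)
  exact_mod_cast h2.trans_le h1

attribute [local instance] FractionRing.liftAlgebra in
/-- **No nontrivial unramified extension of `ℚ(ζ₅)`.** -/
theorem eq_one_of_inertia_five {M : Type*} [Group M] (θ : Γℚ →* M) (hopen : IsOpen (θ.ker : Set Γℚ))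
    (hin : ∀ ℓ : ℕ, ℓ.Prime → ∀ A : ValuationSubring ℚbar, A.LiesOverPrime ℓ →
      ∀ σ ∈ A.inertiaSubgroupIn ℚ, cycChar 5 σ = 1 → θ σ = 1) {σ : Γℚ} (hσ : cycChar 5 σ = 1) :
    θ σ = 1 := by
  classical
  have : Fact (Nat.Prime 5) := ⟨Nat.prime_five⟩
  by_contra hne
  set ψ : Γℚ →* M × (ZMod 5)ˣ := θ.prod (cycChar 5) with hψ
  have hψopen : IsOpen (ψ.ker : Set Γℚ) := by
    refine Subgroup.isOpen_mono (H₁ := θ.ker ⊓ (cycChar 5).ker) ?_
      (hopen.inter (isOpen_cycChar_ker 5))
    intro x hx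
    simp only [Subgroup.mem_inf, MonoidHom.mem_ker] at hx
    simp [hψ, MonoidHom.mem_ker, hx.1, hx.2]
  let U : ClosedSubgroup Γℚ := ⟨ψ.ker, Subgroup.isClosed_of_isOpen _ hψopen⟩
  set Y : IntermediateField ℚ ℚbar := IntermediateField.fixedField ψ.ker with hY
  have hfix : Y.fixingSubgroup = ψ.ker := InfiniteGalois.fixingSubgroup_fixedField U
  have : FiniteDimensional ℚ Y := (InfiniteGalois.isOpen_iff_finite Y).mp (by
    change IsOpen (Y.fixingSubgroup : Set Γℚ)
    rw [hfix]; exact hψopen)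
  have : IsGalois ℚ Y := (InfiniteGalois.normal_iff_isGalois Y).mp (by
    rw [hfix]; infer_instance)
  obtain ⟨z, hz⟩ := exists_primitiveRoot_qbar (q := 5)
  set K : IntermediateField ℚ ℚbar := IntermediateField.adjoin ℚ {z} with hK
  have hcyc : IsCyclotomicExtension {5} ℚ K := hz.intermediateField_adjoin_isCyclotomicExtension ℚ
  have : FiniteDimensional ℚ K :=
    IntermediateField.adjoin.finiteDimensional (Algebra.IsIntegral.isIntegral (R := ℚ) z)
  have hKY : K ≤ Y := by
    rw [hK, IntermediateField.adjoin_simple_le_iff, hY, IntermediateField.mem_fixedField_iff]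
    intro g hg
    rw [MonoidHom.mem_ker, hψ, MonoidHom.prod_apply, Prod.mk_eq_one] at hg
    exact (cycChar_eq_one_iff hz).mp hg.2
  have : NumberField K := ⟨⟩
  have : NumberField Y := ⟨⟩
  let : Algebra K Y := (IntermediateField.inclusion hKY).toRingHom.toAlgebra
  have : IsScalarTower ℚ K Y := IsScalarTower.of_algebraMap_eq fun _ => rfl
  have : IsGalois K Y := IsGalois.tower_top_of_isGalois ℚ K Y
  -- everywhere unramified
  have hdiff : differentIdeal (𝓞 K) (𝓞 Y) = ⊤ := by
    by_contra hd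
    obtain ⟨P, hP, hle⟩ := Ideal.exists_le_maximal _ hd
    have := hP
    have hPbot : P ≠ ⊥ := fun e => differentIdeal_ne_bot (le_bot_iff.mp (e ▸ hle))
    set w : Pl Y := ⟨P, hP.isPrime, hPbot⟩
    have : Finite (𝓞 K ⧸ (plUnder K w).asIdeal) :=
      Ideal.finiteQuotientOfFreeOfNeBot _ (plUnder K w).ne_bot
    have : (P.under (𝓞 K)).IsPrime := Ideal.IsPrime.under _ P
    have : Finite (P.under (𝓞 K)).ResidueField := by
      have : (P.under (𝓞 K)).IsMaximal := (plUnder K w).isMaximal
      have : Finite (𝓞 K ⧸ P.under (𝓞 K)) := ‹Finite (𝓞 K ⧸ (plUnder K w).asIdeal)›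
      exact Finite.of_surjective _ (Ideal.bijective_algebraMap_quotient_residueField _).2
    refine dvd_differentIdeal_iff.mp (Ideal.dvd_iff_le.mpr hle) ?_
    rw [← Ideal.ramificationIdx_eq_one_iff, show P.ramificationIdx (𝓞 K) = plRamIdx K w from
      (plRamIdx_eq w).symm]
    refine plRamIdx_eq_one_of_inertia w fun g hg => ?_
    obtain ⟨ℓ, hℓ, hℓw⟩ := Fermat.CFT.exists_prime_natCast_mem w
    obtain ⟨A, hA, hAw⟩ := exists_place_over Y w.isPrime hℓ hℓw
    obtain ⟨τ, hτ, hτg⟩ := Fermat.CFT.exists_mem_inertia_restrict hℓ hA (L := Y)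
      (g := g.restrictScalars ℚ) (fun x => by
        rw [show primeBelow Y A = w.asIdeal from hAw]; exact hg x)
    have hres : ∀ x : Y, τ (x : ℚbar) = ((g x : Y) : ℚbar) := fun x => by
      have := AlgEquiv.restrictNormal_commutes τ Y x
      rw [show τ.restrictNormal Y = AlgEquiv.restrictNormalHom Y τ from rfl, hτg] at this
      exact this.symm
    have hτz : τ z = z := by
      have := hres (algebraMap K Y ⟨z, IntermediateField.mem_adjoin_simple_self ℚ z⟩)
      rw [g.commutes] at this
      exact this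
    have hτ1 := (cycChar_eq_one_iff hz).mpr hτz
    have hmem : τ ∈ Y.fixingSubgroup := by
      rw [hfix, MonoidHom.mem_ker, hψ, MonoidHom.prod_apply, hin ℓ hℓ A hA τ hτ hτ1, hτ1]
      rfl
    refine AlgEquiv.ext fun x => Subtype.ext ?_
    rw [← hres x, AlgEquiv.one_apply]
    exact (IntermediateField.mem_fixingSubgroup_iff Y τ).mp hmem _ x.2
  -- the discriminant
  have hd := NumberField.natAbs_discr_eq_absNorm_differentIdeal_mul_natAbs_discr_pow K (𝓞 K) Y (𝓞 Y)
  rw [hdiff, Ideal.absNorm_top, one_mul, IsCyclotomicExtension.Rat.discr_prime 5 K] at hd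
  norm_num at hd
  set m := Module.finrank K Y with hm
  have hn : Module.finrank ℚ Y = 4 * m := by
    rw [← Module.finrank_mul_finrank ℚ K Y, ← hm,
      IsCyclotomicExtension.finrank (n := 5) K
        (Polynomial.cyclotomic.irreducible_rat (by norm_num))]
    rfl
  have h2 : 2 ≤ m := by
    by_contra hlt
    have hm1 : m = 1 := by
      have : 0 < m := Module.finrank_pos
      omega
    have hfr : Module.finrank ℚ K = Module.finrank ℚ Y := by
      rw [← Module.finrank_mul_finrank ℚ K Y, ← hm, hm1, mul_one]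
    have heq : K = Y := IntermediateField.eq_of_le_of_finrank_eq hKY hfr
    apply hne
    have hmem : σ ∈ Y.fixingSubgroup := by
      rw [← heq, IntermediateField.mem_fixingSubgroup_iff]
      intro x hx
      have h1 := (cycChar_eq_one_iff hz).mp hσ
      induction hx using IntermediateField.adjoin_induction with
      | mem y hy => rw [Set.mem_singleton_iff.mp hy]; exact h1
      | algebraMap q => exact σ.commutes q
      | add a b _ _ ha hb => rw [map_add, ha, hb]
      | inv a _ ha => rw [map_inv₀, ha]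
      | mul a b _ _ ha hb => rw [map_mul, ha, hb]
    rw [hfix, MonoidHom.mem_ker, hψ, MonoidHom.prod_apply, Prod.mk_eq_one] at hmem
    exact hmem.1
  have hgt := discr_gt h2 hn
  omega

end Fermat.SW

end
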