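import Fermat.Agent.SW.Surj
import Fermat.Agent.SW.Minkowski5

/-!
# Irreducible semistable representations modulo five are surjective

If the image has no element of order five it is generated, over the kernel of the determinant, by
conjugates of the fourth power of a generator `τ` of inertia at five (Minkowski for `ℚ(ζ₅)`). With
complex conjugation put in the form `diag(1, -1)`, either `τ⁴` is a scalar, the image is abelian and
a line is stable, or all conjugates of `τ` lie in one non-split torus and complex conjugation would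
centralise it.
-/

set_option autoImplicit false

noncomputable section

open Fermat.CFT Fermat.EC Fermat.EC.Val Matrix
open scoped Pointwise

namespace Fermat.SW.Surj

local notation "ℚbar" => AlgebraicClosure ℚ
local notation "Γℚ" => (AlgebraicClosure ℚ ≃ₐ[ℚ] AlgebraicClosure ℚ)

local notation "M2" => Matrix (Fin 2) (Fin 2) (ZMod 5)
local notation "GL2" => GL (Fin 2) (ZMod 5)

/-- The matrix of complex conjugation. -/
def cM : M2 := !![1, 0; 0, -1]

/-- A matrix given by its entries which is a scalar if it has a double eigenvalue. -/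
def Deg (x y z w : ZMod 5) : Prop :=
  (x + w) ^ 2 = 4 * (x * w - y * z) → y = 0 ∧ z = 0 ∧ x = w

/-- `Deg` is decidable, so that `decide` can run over all entries. -/
instance : ∀ x y z w : ZMod 5, Decidable (Deg x y z w) := fun _ _ _ _ => by
  unfold Deg; infer_instance

/-- Two degenerate words in `τ` and conjugation force equal diagonal and nonzero off-diagonal
entries. -/
lemma word_ids : ∀ a b c d : ZMod 5, (a * d - b * c = 2 ∨ a * d - b * c = 3) → a + d ≠ 0 →
    (a + d) ^ 2 ≠ 2 * (a * d - b * c) →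
    Deg (a * a + b * c) (a * b + b * d) (-(c * a + d * c)) (-(c * b + d * d)) →
    Deg (a * ((a * a + b * c) * a + (a * b + b * d) * c) -
          b * ((c * a + d * c) * a + (c * b + d * d) * c))
        (a * ((a * a + b * c) * b + (a * b + b * d) * d) -
          b * ((c * a + d * c) * b + (c * b + d * d) * d))
        (-c * ((a * a + b * c) * a + (a * b + b * d) * c) +
          d * ((c * a + d * c) * a + (c * b + d * d) * c))
        (-c * ((a * a + b * c) * b + (a * b + b * d) * d) +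
          d * ((c * a + d * c) * b + (c * b + d * d) * d)) →
    a = d ∧ b ≠ 0 ∧ c ≠ 0 := by
  decide

set_option synthInstance.maxSize 256 in -- headroom for the `Decidable` instance of the statement
/-- A degenerate word in two such matrices forces the upper entries to agree up to sign. -/
lemma pair_ids : ∀ a b e u : ZMod 5, a ≠ 0 → b ≠ 0 → e ≠ 0 → u ≠ 0 →
    (a * a - b * e = 2 ∨ a * a - b * e = 3) → (a + a) ^ 2 ≠ 2 * (a * a - b * e) →
    Deg (a * a + b * (b * e * u ^ 3)) (a * u + b * a) (-(e * a + a * (b * e * u ^ 3)))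
      (-(e * u + a * a)) → u = b ∨ u = -b := by
  decide

/-- `x⁴ = 1` for nonzero `x` modulo `5`. -/
lemma pow_four_eq_one : ∀ x : ZMod 5, x ≠ 0 → x ^ 4 = 1 := by decide

/-- A matrix with a double eigenvalue that is not a scalar has fourth power of order five. -/
lemma order_five (W : M2) (hdet : W.det ≠ 0) (h : W.trace ^ 2 = 4 * W.det)
    (hns : ∀ s : ZMod 5, W ≠ s • 1) : (W ^ 4) ^ 5 = 1 ∧ W ^ 4 ≠ 1 := by
  set l : ZMod 5 := 3 * W.trace with hl
  have h5 : (5 : ZMod 5) = 0 := by decide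
  have hN : (W - l • 1) * (W - l • 1) = 0 := by
    rw [Matrix.det_fin_two, Matrix.trace_fin_two] at h
    rw [Matrix.trace_fin_two] at hl
    ext i j
    fin_cases i <;> fin_cases j <;>
      simp [Matrix.mul_apply, Fin.sum_univ_two, Matrix.sub_apply, Matrix.smul_apply, hl]
    · linear_combination (4 : ZMod 5) * h + (4 * W 0 0 * W 1 1 + W 1 1 * W 1 1 - 3 *
        W 0 1 * W 1 0) * h5
    · linear_combination (-(W 0 1) * (W 0 0 + W 1 1)) * h5
    · linear_combination (-(W 1 0) * (W 0 0 + W 1 1)) * h5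
    · linear_combination (4 : ZMod 5) * h + (4 * W 0 0 * W 1 1 + W 0 0 * W 0 0 - 3 *
        W 0 1 * W 1 0) * h5
  have h5' : W ^ 5 = l ^ 5 • (1 : M2) := by
    have e : (W - l • 1) ^ 5 = 0 := by rw [pow_succ, pow_succ, pow_succ, sq, hN]; simp
    rw [sub_pow_char_of_commute (p := 5) ((Commute.one_right W).smul_right l), smul_pow, one_pow,
      sub_eq_zero] at e
    exact e
  have hl0 : l ≠ 0 := by
    intro e
    have ht : W.trace = 0 := (mul_eq_zero.mp e).resolve_left (by decide)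
    rw [ht, zero_pow two_ne_zero] at h
    exact hdet ((mul_eq_zero.mp h.symm).resolve_left (by decide))
  have hl5 : l ^ 5 = l := ZMod.pow_card l
  rw [hl5] at h5'
  refine ⟨?_, fun e => hns l ?_⟩
  · rw [← pow_mul, mul_comm 4 5, pow_mul, h5', smul_pow, one_pow,
      show l ^ 4 = 1 from ZMod.pow_card_sub_one_eq_one hl0, one_smul]
  · rw [← h5', pow_succ, e, one_mul]

/-- A non-scalar fourth power in terms of trace and determinant. -/
lemma trace_ne_of_nonscalar {T : M2} (h : ∀ s : ZMod 5, T ^ 4 ≠ s • 1) :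
    T.trace ≠ 0 ∧ T.trace ^ 2 ≠ 2 * T.det := by
  have hch : T * T = T.trace • T - T.det • 1 := by
    ext i j
    fin_cases i <;> fin_cases j <;>
      simp [Matrix.mul_apply, Fin.sum_univ_two, Matrix.trace_fin_two, Matrix.det_fin_two] <;> ring
  have h4 : T ^ 4 = (T.trace * (T.trace ^ 2 - 2 * T.det)) • T -
      (T.det * (T.trace ^ 2 - T.det)) • 1 := by
    rw [show T ^ 4 = T * T * (T * T) by noncomm_ring, hch]
    simp only [sub_mul, mul_sub, smul_mul_assoc, mul_smul_comm, one_mul, mul_one, hch, smul_sub,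
      smul_smul]
    module
  constructor
  · intro e
    refine h (-(T.det * (T.trace ^ 2 - T.det))) ?_
    rw [h4, e, zero_mul, zero_smul, zero_sub, neg_smul]
  · intro e
    refine h (-(T.det * (T.trace ^ 2 - T.det))) ?_
    rw [h4, e, sub_self, mul_zero, zero_smul, zero_sub, neg_smul]

variable {ρ : Γℚ →* GL2}

/-- In an image without elements of order five a matrix with a double eigenvalue is a scalar. -/
theorem deg_of (hno : ∀ σ, ρ σ ^ 5 = 1 → ρ σ = 1) (σ : Γℚ) {x y z w : ZMod 5}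
    (hσ : (ρ σ : M2) = !![x, y; z, w]) : Deg x y z w := by
  intro h
  by_contra hns
  have hd : (ρ σ : M2).det ≠ 0 := ((Matrix.isUnit_iff_isUnit_det _).mp (ρ σ).isUnit).ne_zero
  obtain ⟨h20, hne⟩ := order_five (ρ σ : M2) hd
    (by rw [hσ, Matrix.trace_fin_two_of, Matrix.det_fin_two_of]; exact h)
    (fun s hs => hns (by
      rw [hσ] at hs
      have e00 := congrFun (congrFun hs 0) 0
      have e01 := congrFun (congrFun hs 0) 1
      have e10 := congrFun (congrFun hs 1) 0
      have e11 := congrFun (congrFun hs 1) 1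
      simp at e00 e01 e10 e11
      exact ⟨e01, e10, e00.trans e11.symm⟩))
  refine hne ?_
  rw [← Units.val_pow_eq_pow_val, ← map_pow, hno (σ ^ 4) (Units.ext (by
    rw [map_pow, Units.val_pow_eq_pow_val, Units.val_pow_eq_pow_val]; exact h20)), Units.val_one]

/-- The words in `τ` and complex conjugation force the shape of `τ`. -/
theorem shape (hno : ∀ σ, ρ σ ^ 5 = 1 → ρ σ = 1) {c : Γℚ} (hc : (ρ c : M2) = cM) {τ : Γℚ}
    (hD : (ρ τ : M2).det = 2 ∨ (ρ τ : M2).det = 3) (h4 : ∀ s : ZMod 5, (ρ τ : M2) ^ 4 ≠ s • 1) :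
    (ρ τ : M2) 0 0 = (ρ τ : M2) 1 1 ∧ (ρ τ : M2) 0 1 ≠ 0 ∧ (ρ τ : M2) 1 0 ≠ 0 := by
  obtain ⟨ht, ht2⟩ := trace_ne_of_nonscalar h4
  rw [Matrix.trace_fin_two, Matrix.det_fin_two] at ht2
  rw [Matrix.det_fin_two] at hD
  rw [Matrix.trace_fin_two] at ht
  set a := (ρ τ : M2) 0 0 with ha
  set b := (ρ τ : M2) 0 1 with hb
  set e := (ρ τ : M2) 1 0 with he
  set d := (ρ τ : M2) 1 1 with hd
  have hTe : (ρ τ : M2) = !![a, b; e, d] := Matrix.eta_fin_two _
  refine word_ids a b e d hD ht ht2 (deg_of hno (c * τ * τ) ?_)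
    (deg_of hno (c * τ * c * (τ * τ * τ)) ?_) <;>
    · simp only [map_mul, Units.val_mul, hc, hTe, cM]
      ext i j
      fin_cases i <;> fin_cases j <;> simp [Matrix.mul_apply, Fin.sum_univ_two] <;> ring

/-- Two images of that shape with the same determinant are equal or flips of each other. -/
theorem shape_pair (hno : ∀ σ, ρ σ ^ 5 = 1 → ρ σ = 1) {c : Γℚ} (hc : (ρ c : M2) = cM) {x y : Γℚ}
    {a b e b' e' : ZMod 5} (hx : (ρ x : M2) = !![a, b; e, a]) (hy : (ρ y : M2) = !![a, b'; e', a])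
    (hD : a * a - b * e = 2 ∨ a * a - b * e = 3) (ht2 : (a + a) ^ 2 ≠ 2 * (a * a - b * e))
    (hbe : b * e = b' * e') (ha : a ≠ 0) (hb : b ≠ 0) (he : e ≠ 0) :
    (b' = b ∧ e' = e) ∨ (b' = -b ∧ e' = -e) := by
  have hb' : b' ≠ 0 := fun h => mul_ne_zero hb he (by rw [hbe, h, zero_mul])
  have he' : e' = b * e * b' ^ 3 := by
    have := pow_four_eq_one b' hb'
    linear_combination (-e') * this - b' ^ 3 * hbe
  have main : b * e' - b' * e = 0 := by
    rcases pair_ids a b e b' ha hb he hb' hD ht2 (deg_of hno (c * x * y) (by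
      simp only [map_mul, Units.val_mul, hc, hx, hy, cM, ← he']
      ext i j
      fin_cases i <;> fin_cases j <;> simp [Matrix.mul_apply, Fin.sum_univ_two] <;>
        ring)) with h | h
    · rw [h] at hbe ⊢
      have : e' = e := mul_left_cancel₀ hb hbe.symm
      rw [this]; ring
    · rw [h] at hbe ⊢
      have : e' = -e := mul_left_cancel₀ hb (by linear_combination hbe)
      rw [this]; ring
  have h1 : e' * e' = e * e := by
    have : b * (e' * e' - e * e) = 0 := by linear_combination e' * main - e * hbe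
    exact sub_eq_zero.mp ((mul_eq_zero.mp this).resolve_left hb)
  rcases mul_self_eq_mul_self_iff.mp h1 with h | h
  · refine Or.inl ⟨?_, h⟩
    subst h
    exact mul_right_cancel₀ he (by linear_combination -main)
  · refine Or.inr ⟨?_, h⟩
    subst h
    exact mul_right_cancel₀ he (by linear_combination -main)

/-- In an image without elements of order five no element has order a power of five. -/
lemma eq_one_of_pow_five_pow (hno : ∀ σ, ρ σ ^ 5 = 1 → ρ σ = 1) :
    ∀ (k : ℕ) (σ : Γℚ), ρ σ ^ (5 ^ k) = 1 → ρ σ = 1 := by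
  intro k
  induction k with
  | zero => intro σ h; simpa using h
  | succ k ih =>
    intro σ h
    refine hno σ ?_
    have := ih (σ ^ 5) (by rw [map_pow, ← pow_mul, ← pow_succ']; exact h)
    rwa [map_pow] at this

/-- A unit modulo five whose square is not one is a generator. -/
lemma generator_mod_five (u : (ZMod 5)ˣ) (hu : u ^ 2 ≠ 1) :
    orderOf u = 4 ∧ ((u : ZMod 5) = 2 ∨ (u : ZMod 5) = 3) := by
  refine ⟨?_, ?_⟩
  · have := orderOf_eq_prime_pow (x := u) (p := 2) (n := 1) (by simpa using hu)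
      (by simpa using ZMod.units_pow_card_sub_one_eq_one 5 u)
    simpa using this
  · revert hu; revert u; decide

/-- An exponent expressing `ρ σ` by `ρ τ` expresses the cyclotomic character as well. -/
lemma cycChar_eq_pow (hdet : ∀ σ, (ρ σ : M2).det = ((cycChar 5 σ : (ZMod 5)ˣ) : ZMod 5))
    {σ τ : Γℚ} {j : ℕ} (h : ρ σ = ρ τ ^ j) : cycChar 5 σ = cycChar 5 τ ^ j :=
  Units.ext (by
    rw [Units.val_pow_eq_pow_val, ← hdet, ← hdet, h, Units.val_pow_eq_pow_val, Matrix.det_pow])

/-- With cyclotomic determinant a generator of inertia at five has determinant of order four. -/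
lemma cycChar_sq_ne_one (hdet : ∀ σ, (ρ σ : M2).det = ((cycChar 5 σ : (ZMod 5)ˣ) : ZMod 5))
    {A : ValuationSubring ℚbar} (hA : A.LiesOverPrime 5) {τ : Γℚ}
    (hgen : ∀ σ ∈ A.inertiaSubgroupIn ℚ, ∃ j : ℕ, ρ σ = ρ τ ^ j) :
    cycChar 5 τ ^ 2 ≠ 1 := by
  intro h2
  set ε : Γℚ →* (ZMod 5)ˣ := (powMonoidHom 2).comp (cycChar 5) with hε
  have hεopen : IsOpen (ε.ker : Set Γℚ) := Subgroup.isOpen_mono (H₁ := (cycChar 5).ker)
    (fun x hx => by simp_all [MonoidHom.mem_ker]) (isOpen_cycChar_ker 5)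
  obtain ⟨u, hu⟩ := cycChar_surjective 5 (ZMod.unitOfCoprime 2 (by norm_num))
  have h1 := Galois.eq_one_of_forall_inertia ε hεopen (fun ℓ hℓ => by
    rcases eq_or_ne ℓ 5 with rfl | hne
    · refine ⟨A, hA, fun σ hσ => ?_⟩
      obtain ⟨j, hj⟩ := hgen σ hσ
      simp only [hε, MonoidHom.comp_apply, powMonoidHom_apply, cycChar_eq_pow hdet hj]
      rw [← pow_mul, mul_comm, pow_mul, h2, one_pow]
    · obtain ⟨B, hB⟩ := Fermat.CFT.exists_place hℓ
      exact ⟨B, hB, fun σ hσ => by
        simp [hε, cycChar_eq_one_of_mem_inertia hℓ hne hB hσ]⟩) u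
  rw [hε, MonoidHom.comp_apply, hu] at h1
  exact absurd h1 (by decide)

/-- If the fourth power of a generator of inertia at five is central, so is the image of the kernel
of the cyclotomic character. -/
lemma mem_center_of_cycChar_eq_one (hopen : IsOpen (ρ.ker : Set Γℚ))
    (hdet : ∀ σ, (ρ σ : M2).det = ((cycChar 5 σ : (ZMod 5)ˣ) : ZMod 5))
    (hunr : ∀ ℓ : ℕ, ℓ.Prime → ℓ ≠ 5 → ∀ B : ValuationSubring ℚbar, B.LiesOverPrime ℓ →
      ∀ σ ∈ B.inertiaSubgroupIn ℚ, ρ σ = 1)
    {A : ValuationSubring ℚbar} (hA : A.LiesOverPrime 5) {τ : Γℚ}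
    (hgen : ∀ σ ∈ A.inertiaSubgroupIn ℚ, ∃ j : ℕ, ρ σ = ρ τ ^ j)
    (hord : orderOf (cycChar 5 τ) = 4) (hcen : ρ τ ^ 4 ∈ Subgroup.center GL2)
    {σ : Γℚ} (hσ : cycChar 5 σ = 1) : ρ σ ∈ Subgroup.center GL2 := by
  rw [← QuotientGroup.eq_one_iff]
  set θ : Γℚ →* GL2 ⧸ Subgroup.center GL2 := (QuotientGroup.mk' _).comp ρ with hθ
  change θ σ = 1
  refine Fermat.SW.eq_one_of_inertia_five θ
    (Subgroup.isOpen_mono (fun x hx => by
      rw [MonoidHom.mem_ker] at hx ⊢
      rw [hθ, MonoidHom.comp_apply, hx, map_one]) hopen)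
    (fun ℓ hℓ B hB x hx hx1 => ?_) hσ
  rw [hθ, MonoidHom.comp_apply, QuotientGroup.mk'_apply, QuotientGroup.eq_one_iff]
  rcases eq_or_ne ℓ 5 with rfl | hne
  · obtain ⟨g, hg⟩ := Fermat.CFT.exists_smul_place hℓ hA hB
    subst hg
    have hx' := Fermat.CFT.mem_inertiaSubgroupIn_smul hℓ hB hx g⁻¹
    rw [inv_inv, show g⁻¹ • g • A = A from inv_smul_smul g A] at hx'
    obtain ⟨j, hj⟩ := hgen _ hx'
    have hj4 : 4 ∣ j := by
      rw [← hord, orderOf_dvd_iff_pow_eq_one, ← cycChar_eq_pow hdet hj, map_mul, map_mul, hx1,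
        mul_one, ← map_mul, inv_mul_cancel, map_one]
    obtain ⟨i, rfl⟩ := hj4
    have hmem : ρ (g⁻¹ * x * g) ∈ Subgroup.center GL2 := by
      rw [hj, pow_mul]; exact pow_mem hcen i
    have := (Subgroup.Normal.conj_mem inferInstance _ hmem (ρ g))
    rwa [← map_inv, ← map_mul, ← map_mul, show g * (g⁻¹ * x * g) * g⁻¹ = x by group] at this
  · rw [hunr ℓ hℓ hne B hB x hx]; exact one_mem _

/-- If `ρ` maps the kernel of the cyclotomic character into the centre, the image is abelian. -/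
lemma commute_of_center {τ : Γℚ} (hord : orderOf (cycChar 5 τ) = 4)
    (hz : ∀ σ, cycChar 5 σ = 1 → ρ σ ∈ Subgroup.center GL2) (x y : Γℚ) :
    ρ x * ρ y = ρ y * ρ x := by
  have hform : ∀ x, ∃ (j : ℕ) (z : GL2), z ∈ Subgroup.center GL2 ∧ ρ x = ρ τ ^ j * z := by
    intro x
    obtain ⟨j, hj⟩ : ∃ j : ℕ, cycChar 5 τ ^ j = cycChar 5 x := by
      have htop : Subgroup.zpowers (cycChar 5 τ) = ⊤ := Subgroup.eq_top_of_card_eq _ (by
        rw [Nat.card_zpowers, hord, Nat.card_eq_fintype_card, ZMod.card_units])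
      exact (mem_powers_iff_mem_zpowers.mpr (htop ▸ Subgroup.mem_top _))
    refine ⟨j, ρ ((τ ^ j)⁻¹ * x), hz _ ?_, ?_⟩
    · rw [map_mul, map_inv, map_pow, hj, inv_mul_cancel]
    · rw [← map_pow, ← map_mul, mul_inv_cancel_left]
  obtain ⟨i, z, hzc, hi⟩ := hform x
  obtain ⟨j, z', hzc', hj⟩ := hform y
  rw [hi, hj]
  have hz1 := Subgroup.mem_center_iff.mp hzc
  have hz2 := Subgroup.mem_center_iff.mp hzc'
  have h1 : ∀ g : GL2, Commute z g := fun g => (hz1 g).symm
  have h2 : ∀ g : GL2, Commute g z' := fun g => hz2 g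
  have : Commute (ρ τ ^ i * z) (ρ τ ^ j * z') :=
    ((Commute.pow_pow_self _ i j).mul_right (h2 _)).mul_left
      ((h1 _).mul_right (h2 _))
  exact this.eq

/-- An image commuting with `diag(1, -1)` is reducible. -/
lemma false_of_commute_cM (hirr : Irr ρ) {c : Γℚ} (hc : (ρ c : M2) = cM)
    (hcomm : ∀ x, ρ x * ρ c = ρ c * ρ x) : False := by
  obtain ⟨σ, hσ⟩ := hirr ![1, 0] (by intro e; simpa using congrFun e 0)
  refine hσ ((ρ σ : M2) 0 0) ?_
  have h10 : (ρ σ : M2) 1 0 = 0 := by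
    have := congrArg (fun g : GL2 => (g : M2) 1 0) (hcomm σ)
    simp [hc, cM, Matrix.mul_apply] at this
    revert this
    generalize (ρ σ : M2) 1 0 = w
    revert w
    decide
  ext i
  fin_cases i <;> simp [Matrix.mulVec, dotProduct, Fin.sum_univ_two, h10]

/-- The matrix with the off-diagonal entries negated and the diagonal entries equal to the first. -/
def torusFlip (T : M2) : M2 := !![T 0 0, -T 0 1; -T 1 0, T 0 0]

/-- All conjugates of `τ` are `ρ τ` or its flip. -/
lemma conj_eq_or_flip (hdet : ∀ σ, (ρ σ : M2).det = ((cycChar 5 σ : (ZMod 5)ˣ) : ZMod 5))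
    (hno : ∀ σ, ρ σ ^ 5 = 1 → ρ σ = 1) {c : Γℚ} (hc : (ρ c : M2) = cM) {τ : Γℚ}
    (hD : (ρ τ : M2).det = 2 ∨ (ρ τ : M2).det = 3) (h4 : ∀ s : ZMod 5, (ρ τ : M2) ^ 4 ≠ s • 1)
    (g : Γℚ) : (ρ (g * τ * g⁻¹) : M2) = (ρ τ : M2) ∨
      (ρ (g * τ * g⁻¹) : M2) = torusFlip (ρ τ : M2) := by
  obtain ⟨h01, hb, he⟩ := shape hno hc hD h4
  set T := (ρ τ : M2) with hT
  have hTe : T = !![T 0 0, T 0 1; T 1 0, T 0 0] := by
    conv_lhs => rw [Matrix.eta_fin_two T, ← h01]
  have hD' : T 0 0 * T 0 0 - T 0 1 * T 1 0 = 2 ∨ T 0 0 * T 0 0 - T 0 1 * T 1 0 = 3 := by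
    rwa [hTe, Matrix.det_fin_two_of] at hD
  have ha0 : T 0 0 ≠ 0 := fun e => (trace_ne_of_nonscalar h4).1 (by
    rw [Matrix.trace_fin_two, ← h01, e, add_zero])
  have ht2' : (T 0 0 + T 0 0) ^ 2 ≠ 2 * (T 0 0 * T 0 0 - T 0 1 * T 1 0) := fun e =>
    (trace_ne_of_nonscalar h4).2 (by
      rw [Matrix.trace_fin_two, Matrix.det_fin_two, ← h01]; exact e)
  -- the conjugate has the same determinant, trace and shape
  have hdet' : (ρ (g * τ * g⁻¹) : M2).det = T.det := by
    rw [hdet, hT, hdet, map_mul, map_mul, map_inv, mul_comm (cycChar 5 g), mul_inv_cancel_right]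
  have htr : (ρ (g * τ * g⁻¹) : M2).trace = T.trace := by
    rw [map_mul, map_mul, map_inv, Units.val_mul, Units.val_mul, Matrix.trace_mul_cycle,
      ← Units.val_mul, inv_mul_cancel, Units.val_one, one_mul]
  have h4g : ∀ s : ZMod 5, (ρ (g * τ * g⁻¹) : M2) ^ 4 ≠ s • 1 := by
    intro s hs
    refine h4 s ?_
    rw [map_mul, map_mul, map_inv, Units.val_mul, Units.val_mul] at hs
    rw [hT, ← Units.val_pow_eq_pow_val]
    have : ((ρ g * ρ τ * (ρ g)⁻¹) ^ 4 : GL2).val = s • (1 : M2) := by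
      rw [Units.val_pow_eq_pow_val, Units.val_mul, Units.val_mul]; exact hs
    rw [conj_pow, Units.val_mul, Units.val_mul] at this
    have h := congrArg (fun X : M2 => ((ρ g)⁻¹ : GL2).val * X * (ρ g : M2)) this
    simp only [mul_smul_comm, mul_one, smul_mul_assoc, ← mul_assoc, Units.inv_mul, one_mul] at h
    rwa [mul_assoc, Units.inv_mul, mul_one] at h
  obtain ⟨g01, gb, ge⟩ := shape hno hc (by rw [hdet']; exact hD) h4g
  set X := (ρ (g * τ * g⁻¹) : M2) with hX
  have hXe : X = !![X 0 0, X 0 1; X 1 0, X 0 0] := by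
    conv_lhs => rw [Matrix.eta_fin_two X, ← g01]
  have hdiag : X 0 0 = T 0 0 := by
    rw [Matrix.trace_fin_two, Matrix.trace_fin_two, ← g01, ← h01] at htr
    exact mul_left_cancel₀ (show (2 : ZMod 5) ≠ 0 by decide) (by linear_combination htr)
  have hbe : T 0 1 * T 1 0 = X 0 1 * X 1 0 := by
    have e := hdet'
    rw [Matrix.det_fin_two, Matrix.det_fin_two, ← g01, ← h01, hdiag] at e
    linear_combination e
  rw [hdiag] at hXe
  -- so it is the matrix or its flip
  rcases shape_pair hno hc hTe hXe hD' ht2' hbe ha0 hb he with ⟨h1, h2⟩ | ⟨h1, h2⟩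
  · left; rw [hXe, h1, h2]; exact hTe.symm
  · right; rw [hXe, h1, h2, torusFlip]

/-- If all conjugates of `τ` are `ρ τ` or its flip, the choice between them is a character. -/
lemma exists_conj_char {τ : Γℚ} (h01 : (ρ τ : M2) 0 0 = (ρ τ : M2) 1 1)
    (hne : (ρ τ : M2) ≠ torusFlip (ρ τ : M2))
    (hconj : ∀ g : Γℚ, (ρ (g * τ * g⁻¹) : M2) = (ρ τ : M2) ∨
      (ρ (g * τ * g⁻¹) : M2) = torusFlip (ρ τ : M2)) :
    ∃ χ : Γℚ →* Multiplicative (ZMod 2),
      ∀ g, χ g = 1 ↔ (ρ (g * τ * g⁻¹) : M2) = (ρ τ : M2) := by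
  classical
  set T := (ρ τ : M2) with hT
  set T' : M2 := torusFlip T with hT'
  set χf : Γℚ → Multiplicative (ZMod 2) := fun g =>
    if (ρ (g * τ * g⁻¹) : M2) = T then 1 else Multiplicative.ofAdd 1 with hχf
  -- conjugation exchanges the matrix and its flip
  have hswap : ∀ g : Γℚ, ((ρ g : M2) * T' * ((ρ g)⁻¹ : GL2).val =
      if (ρ (g * τ * g⁻¹) : M2) = T then T' else T) := by
    intro g
    have hsum : T' = (2 * T 0 0) • (1 : M2) - T := by
      conv_rhs => rw [Matrix.eta_fin_two T, ← h01]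
      ext i j; fin_cases i <;> fin_cases j <;> simp [hT', torusFlip] <;> ring
    have hg : (ρ g : M2) * T' * ((ρ g)⁻¹ : GL2).val =
        (2 * T 0 0) • (1 : M2) - (ρ (g * τ * g⁻¹) : M2) := by
      rw [hsum, mul_sub, sub_mul, mul_smul_comm, smul_mul_assoc, mul_one, Units.mul_inv, map_mul,
        map_mul, map_inv, Units.val_mul, Units.val_mul]
    rw [hg]
    rcases hconj g with h | h
    · rw [if_pos h, h, hsum]
    · rw [if_neg (by rw [h]; exact Ne.symm hne), h, hsum, sub_sub_cancel]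
  -- so the choice is multiplicative
  have hmul : ∀ x y, χf (x * y) = χf x * χf y := by
    intro x y
    have e : (ρ (x * y * τ * (x * y)⁻¹) : M2) =
        (ρ x : M2) * (ρ (y * τ * y⁻¹) : M2) * ((ρ x)⁻¹ : GL2).val := by
      rw [← Units.val_mul, ← Units.val_mul, ← map_inv, ← map_mul, ← map_mul]
      exact congrArg (fun z => (ρ z : M2)) (by group)
    simp only [hχf, e]
    rcases hconj y with hy | hy
    · rw [hy, if_pos rfl, mul_one]
      rw [show (ρ x : M2) * T * ((ρ x)⁻¹ : GL2).val = (ρ (x * τ * x⁻¹) : M2) by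
        rw [map_mul, map_mul, map_inv, Units.val_mul, Units.val_mul]]
    · rw [hy, hswap x, if_neg (Ne.symm hne)]
      by_cases hx : (ρ (x * τ * x⁻¹) : M2) = T
      · rw [if_pos hx, if_pos hx, if_neg (Ne.symm hne), one_mul]
      · rw [if_neg hx, if_neg hx, if_pos rfl]; decide
  refine ⟨MonoidHom.mk' χf hmul, fun g => ?_⟩
  change χf g = 1 ↔ _
  simp only [hχf]
  split_ifs with h
  · exact iff_of_true rfl h
  · exact iff_of_false (by decide) h

/-- An element whose determinant has order four cannot have a non-scalar fourth power. -/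
lemma false_of_nonscalar (hopen : IsOpen (ρ.ker : Set Γℚ))
    (hdet : ∀ σ, (ρ σ : M2).det = ((cycChar 5 σ : (ZMod 5)ˣ) : ZMod 5))
    (hno : ∀ σ, ρ σ ^ 5 = 1 → ρ σ = 1)
    (hunr : ∀ ℓ : ℕ, ℓ.Prime → ℓ ≠ 5 → ∀ B : ValuationSubring ℚbar, B.LiesOverPrime ℓ →
      ∀ σ ∈ B.inertiaSubgroupIn ℚ, ρ σ = 1) {c : Γℚ} (hc : (ρ c : M2) = cM) {τ : Γℚ}
    (hD : (ρ τ : M2).det = 2 ∨ (ρ τ : M2).det = 3) (h4 : ∀ s : ZMod 5, (ρ τ : M2) ^ 4 ≠ s • 1) :
    False := by
  obtain ⟨h01, hb, -⟩ := shape hno hc hD h4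
  set T := (ρ τ : M2) with hT
  have hne : T ≠ torusFlip T := fun e => hb (by
    have := congrFun (congrFun e 0) 1
    simp [torusFlip] at this
    revert this
    generalize T 0 1 = w
    revert w
    decide)
  -- conjugation gives a sign character `χ` killing `τ`
  obtain ⟨χ, hχ⟩ := exists_conj_char h01 hne (conj_eq_or_flip hdet hno hc hD h4)
  have hker : ∀ x, ρ x = 1 → χ x = 1 := fun x hx => (hχ x).mpr (by simp [hx])
  have hsq : ∀ x : Multiplicative (ZMod 2), x ^ 2 = 1 := by decide +revert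
  -- it factors through the cyclotomic character, so kills `c` too
  have hχ0 : ∀ x, cycChar 5 x = 1 → χ x = 1 := fun x hx =>
    eq_one_of_sq (p := 5) χ (Subgroup.isOpen_mono (fun x hx => hker x hx) hopen) hsq
      (by norm_num) (fun ℓ hℓ hne B hB σ hσ => hker σ (hunr ℓ hℓ hne B hB σ hσ)) hx
  have hτχ : χ τ = 1 := (hχ τ).mpr (by simp)
  have hcyc : cycChar 5 c = cycChar 5 τ ^ 2 := by
    apply Units.ext
    rw [Units.val_pow_eq_pow_val, ← hdet, ← hdet, hc]
    rcases hD with h | h <;> rw [h] <;> simp [cM, Matrix.det_fin_two_of] <;> decide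
  have h1 := hχ0 ((τ ^ 2)⁻¹ * c) (by rw [map_mul, map_inv, map_pow, hcyc, inv_mul_cancel])
  rw [map_mul, map_inv, map_pow, hτχ, one_pow, inv_one, one_mul] at h1
  have hcT : (ρ (c * τ * c⁻¹) : M2) = T := (hχ c).mp h1
  -- so `cM` commutes with `T`, which it does not
  have := congrArg (fun X : M2 => X * cM) hcT
  rw [show (ρ (c * τ * c⁻¹) : M2) * cM = cM * T by
    rw [map_mul, map_mul, map_inv, Units.val_mul, Units.val_mul, mul_assoc, ← hc, Units.inv_mul,
      mul_one, ← hT]] at this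
  have e01 := congrFun (congrFun this 0) 1
  simp [cM, Matrix.mul_apply] at e01
  revert e01 hb
  generalize T 0 1 = w
  revert w
  decide

/-- The normalised theorem: no irreducible `ρ` modulo five with cyclotomic determinant, no image
element of order five and no ramification outside five has complex conjugation `cM`. -/
theorem absurd_five_normalised (hopen : IsOpen (ρ.ker : Set Γℚ))
    (hdet : ∀ σ, (ρ σ : M2).det = ((cycChar 5 σ : (ZMod 5)ˣ) : ZMod 5)) (hirr : Irr ρ)
    (hno : ∀ σ, ρ σ ^ 5 = 1 → ρ σ = 1)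
    (hunr : ∀ ℓ : ℕ, ℓ.Prime → ℓ ≠ 5 → ∀ B : ValuationSubring ℚbar, B.LiesOverPrime ℓ →
      ∀ σ ∈ B.inertiaSubgroupIn ℚ, ρ σ = 1) {c : Γℚ} (hc : (ρ c : M2) = cM) : False := by
  classical
  let U : ClosedSubgroup Γℚ := ⟨ρ.ker, Subgroup.isClosed_of_isOpen _ hopen⟩
  set L : IntermediateField ℚ ℚbar := IntermediateField.fixedField ρ.ker with hL
  have hfix : L.fixingSubgroup = ρ.ker := InfiniteGalois.fixingSubgroup_fixedField U
  have : FiniteDimensional ℚ L := (InfiniteGalois.isOpen_iff_finite L).mp (by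
    change IsOpen (L.fixingSubgroup : Set Γℚ)
    rw [hfix]; exact hopen)
  have : IsGalois ℚ L := (InfiniteGalois.normal_iff_isGalois L).mp (by
    rw [hfix]; infer_instance)
  obtain ⟨A, hA⟩ := Fermat.CFT.exists_place Nat.prime_five
  have hP : IsPlace A 5 := ⟨Nat.prime_five, hA⟩
  obtain ⟨τ, -, hgen⟩ := Fermat.GR.RT.exists_inertia_generator (ρ := ρ) hP hfix.le fun σ hσ => by
    obtain ⟨k, hk⟩ := Fermat.FLAT.exists_pow_eq_one_of_wild hP hfix.le hσ
    exact eq_one_of_pow_five_pow hno k σ hk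
  obtain ⟨hord, hD⟩ := generator_mod_five _ (cycChar_sq_ne_one hdet hA hgen)
  rw [← hdet] at hD
  by_cases h4 : ∃ s : ZMod 5, (ρ τ : M2) ^ 4 = s • 1
  · -- scalar fourth power: the image is abelian
    obtain ⟨s, hs⟩ := h4
    have hcen : ρ τ ^ 4 ∈ Subgroup.center GL2 := Subgroup.mem_center_iff.mpr fun g => Units.ext (by
      simp only [Units.val_mul, Units.val_pow_eq_pow_val, hs, smul_mul_assoc, mul_smul_comm,
        one_mul, mul_one])
    have hz : ∀ σ, cycChar 5 σ = 1 → ρ σ ∈ Subgroup.center GL2 := fun σ hσ =>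
      mem_center_of_cycChar_eq_one hopen hdet hunr hA hgen hord hcen hσ
    exact false_of_commute_cM hirr hc fun x => commute_of_center hord hz x c
  · -- non-scalar: all conjugates of `τ` are in one torus
    push Not at h4
    exact false_of_nonscalar hopen hdet hno hunr hc hD h4

set_option synthInstance.maxSize 256 in -- headroom for the `Decidable` instance of the statement
/-- An involution of determinant `-1` is diagonalisable with eigenvalues `1` and `-1`. -/
lemma exists_diagonalise {C : M2} (h2 : C * C = 1) (hd : C.det = -1) :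
    ∃ P : GL2, C * (P : M2) = (P : M2) * cM := by
  have htr : C 0 0 + C 1 1 = 0 := by
    have e00 := congrFun (congrFun h2 0) 0
    have e11 := congrFun (congrFun h2 1) 1
    have e01 := congrFun (congrFun h2 0) 1
    have e10 := congrFun (congrFun h2 1) 0
    simp [Matrix.mul_apply, Fin.sum_univ_two] at e00 e11 e01 e10
    rw [Matrix.det_fin_two] at hd
    revert e00 e11 e01 e10 hd
    generalize C 0 0 = x
    generalize C 0 1 = y
    generalize C 1 0 = z
    generalize C 1 1 = w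
    revert x y z w
    decide
  -- `1` and `-1` are eigenvalues
  have hk : ∀ e : ZMod 5, e * e = 1 → (C - e • 1).det = 0 := fun e he => by
    rw [Matrix.det_fin_two] at hd ⊢
    simp
    linear_combination hd - e * htr + he
  obtain ⟨v, hv, hCv⟩ := Matrix.exists_mulVec_eq_zero_iff.mpr (hk 1 (one_mul 1))
  obtain ⟨w, hw, hCw⟩ := Matrix.exists_mulVec_eq_zero_iff.mpr (hk (-1) (by ring))
  rw [Matrix.sub_mulVec, Matrix.smul_mulVec, Matrix.one_mulVec, sub_eq_zero] at hCv hCw
  set P : M2 := !![v 0, w 0; v 1, w 1] with hP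
  have hv0 := congrFun hCv 0
  have hv1 := congrFun hCv 1
  have hw0 := congrFun hCw 0
  have hw1 := congrFun hCw 1
  simp [Matrix.mulVec, dotProduct, Fin.sum_univ_two] at hv0 hv1 hw0 hw1
  -- their eigenvectors are independent
  have hPd : P.det ≠ 0 := by
    intro hd0
    rw [hP, Matrix.det_fin_two_of] at hd0
    obtain ⟨i, hi⟩ : ∃ i, v i ≠ 0 := by
      by_contra hall
      push Not at hall
      exact hv (funext hall)
    have hprop : ∀ j, w j * v i = w i * v j := fun j => by
      fin_cases i <;> fin_cases j <;> simp <;>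
        first | ring1 | linear_combination hd0 | linear_combination -hd0
    set r := w i / v i with hr
    have hwv : w = r • v := funext fun j => by
      rw [Pi.smul_apply, smul_eq_mul, hr, div_mul_eq_mul_div, eq_div_iff hi, hprop j]
    have h1 : C *ᵥ w = r • v := by rw [hwv, Matrix.mulVec_smul, hCv, one_smul]
    rw [← hwv, hCw] at h1
    have h3 : (2 : ZMod 5) • w = 0 := by
      rw [two_smul]
      conv_lhs => arg 1; rw [← h1]
      simp
    exact hw ((smul_eq_zero.mp h3).resolve_left (by decide))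
  refine ⟨Matrix.GeneralLinearGroup.mkOfDetNeZero P hPd, ?_⟩
  change C * P = P * cM
  rw [hP, cM]
  ext i j
  fin_cases i <;> fin_cases j <;> simp [Matrix.mul_apply, Fin.sum_univ_two, hv0, hv1, hw0, hw1]

/-- **Surjectivity modulo five.** An irreducible representation with cyclotomic determinant and
unipotent inertia away from five is onto. -/
theorem surjective_five {ρ : Γℚ →* GL2} (hopen : IsOpen (ρ.ker : Set Γℚ))
    (hdet : ∀ σ, (ρ σ : M2).det = ((cycChar 5 σ : (ZMod 5)ˣ) : ZMod 5)) (hirr : Irr ρ)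
    (hunip : ∀ ℓ : ℕ, ℓ.Prime → ℓ ≠ 5 → ∀ B : ValuationSubring ℚbar, B.LiesOverPrime ℓ →
      ∀ σ ∈ B.inertiaSubgroupIn ℚ, ((ρ σ : M2) - 1) * ((ρ σ : M2) - 1) = 0) :
    Function.Surjective ρ := by
  classical
  by_cases hτ : ∃ τ, ρ τ ≠ 1 ∧ ρ τ ^ 5 = 1
  · obtain ⟨τ, h1, h2⟩ := hτ
    exact surjective_of_order hirr hdet h1 h2
  -- otherwise `ρ` has no element of order five, so is unramified outside `5`
  exfalso
  push Not at hτ
  have hno : ∀ σ, ρ σ ^ 5 = 1 → ρ σ = 1 := fun σ h => by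
    by_contra hne
    exact hτ σ hne h
  have hunr : ∀ ℓ : ℕ, ℓ.Prime → ℓ ≠ 5 → ∀ B : ValuationSubring ℚbar, B.LiesOverPrime ℓ →
      ∀ σ ∈ B.inertiaSubgroupIn ℚ, ρ σ = 1 := fun ℓ hℓ hne B hB σ hσ =>
    hno σ (Units.ext (by
      rw [Units.val_pow_eq_pow_val, Units.val_one]
      exact pow_eq_one_of_sq (hunip ℓ hℓ hne B hB σ hσ)))
  -- diagonalise complex conjugation
  obtain ⟨c, hcc, hcz⟩ := exists_complexConj
  obtain ⟨z, hz⟩ := exists_primitiveRoot_qbar (q := 5)
  have hcd : (ρ c : M2).det = -1 := by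
    have e : c z = z ^ 4 := by
      have h1 := hcz z 5 (by norm_num) hz.pow_eq_one
      rw [h1]
      exact inv_eq_of_mul_eq_one_right (by rw [← pow_succ', hz.pow_eq_one])
    rw [hdet, cycChar_eq_of_apply hz e]
    decide
  obtain ⟨P, hP⟩ := exists_diagonalise (C := (ρ c : M2))
    (by rw [← Units.val_mul, ← map_mul, hcc, map_one, Units.val_one]) hcd
  set κ : GL2 →* GL2 := (MulAut.conj P⁻¹).toMonoidHom with hκ
  have hκinj : Function.Injective κ := (MulAut.conj P⁻¹).injective
  have hκv : ∀ h : GL2, (κ h : M2) = (P⁻¹ : GL2).val * (h : M2) * (P : M2) := fun h => by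
    simp [hκ]
  set ρ' : Γℚ →* GL2 := κ.comp ρ with hρ'
  have hker : ∀ x, ρ x = 1 → ρ' x = 1 := fun x hx => by simp [hρ', hx]
  -- the normalised representation is impossible
  refine absurd_five_normalised (ρ := ρ') (c := c) ?_ ?_ ?_ ?_ ?_ ?_
  · exact Subgroup.isOpen_mono (fun x hx => hker x hx) hopen
  · intro σ
    rw [← hdet, hρ', MonoidHom.comp_apply, hκv, Matrix.det_mul, Matrix.det_mul,
      mul_comm, ← mul_assoc, ← Matrix.det_mul, ← Units.val_mul, mul_inv_cancel, Units.val_one,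
      Matrix.det_one, one_mul]
  · intro v hv
    obtain ⟨σ, hσ⟩ := hirr ((P : M2) *ᵥ v) (fun e => hv (by
      have := congrArg ((P⁻¹ : GL2).val *ᵥ ·) e
      simp only [Matrix.mulVec_mulVec, Units.inv_mul, Matrix.one_mulVec, Matrix.mulVec_zero] at this
      exact this))
    refine ⟨σ, fun a ha => hσ a ?_⟩
    rw [hρ', MonoidHom.comp_apply, hκv] at ha
    have := congrArg ((P : M2) *ᵥ ·) ha
    simp only [Matrix.mulVec_mulVec, ← mul_assoc, Units.mul_inv, one_mul,
      Matrix.mulVec_smul] at this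
    rw [Matrix.mulVec_mulVec]
    exact this
  · intro σ hσ
    refine hker σ (hno σ (hκinj ?_))
    rw [map_pow, map_one]
    exact hσ
  · exact fun ℓ hℓ hne B hB σ hσ => hker σ (hunr ℓ hℓ hne B hB σ hσ)
  · rw [hρ', MonoidHom.comp_apply, hκv, mul_assoc, hP, ← mul_assoc, Units.inv_mul, one_mul]

end Fermat.SW.Surj

end
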