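import Fermat.Agent.SW.Surj3
import Fermat.Agent.SW.Surj5
import Fermat.Agent.GR.RT.Targets

/-!
# The residual representation of a semistable curve

The `p`-torsion of a semistable model, with a choice of basis, is a representation `tRep` of the
kind `Fermat.GR.RT.IsSemistableResidual` for odd `p` when surjective; it is surjective when
irreducible and `p ∈ {3, 5}` (`Surj3`, `Surj5`), or irreducible, `p` odd and inertia at some prime
other than `p` acts nontrivially. This is what modularity lifting is applied to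
(`Top/Modularity`).
-/

set_option autoImplicit false

noncomputable section

open WeierstrassCurve WeierstrassCurve.Affine Fermat.EC Fermat.EC.Val Fermat.CFT Matrix
open scoped WeierstrassCurve.Affine

namespace Fermat.SW.Tors

local notation "ℚbar" => AlgebraicClosure ℚ
local notation "Γℚ" => (AlgebraicClosure ℚ ≃ₐ[ℚ] AlgebraicClosure ℚ)

variable (W : WeierstrassCurve ℤ) {p : ℕ} [hp : Fact p.Prime]

/-- A basis of the `p`-torsion. -/
def tbasis (hW : W.Δ ≠ 0) : Module.Basis (Fin 2) (ZMod p) (TorW (modQ W) p) :=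
  haveI := (FR.finrank_torsion W (p := p) hW).2
  Module.finBasisOfFinrankEq (ZMod p) _ (FR.finrank_torsion W (p := p) hW).1

/-- The matrix representation on the `p`-torsion. -/
def tRep (hW : W.Δ ≠ 0) : Γℚ →* GL (Fin 2) (ZMod p) :=
  ((LinearMap.toMatrixAlgEquiv (tbasis W hW)).toMulEquiv.toMonoidHom.comp
    (Point.galoisRepModuleEnd (K := ℚbar) ℚ (modQ W).toAffine p)).toHomUnits

variable {W}

/-- The matrix of `σ` in the chosen basis. -/
theorem val_tRep (hW : W.Δ ≠ 0) (σ : Γℚ) :
    (tRep (p := p) W hW σ : Matrix (Fin 2) (Fin 2) (ZMod p)) =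
    LinearMap.toMatrixAlgEquiv (tbasis W hW)
      (Point.galoisRepModuleEnd (K := ℚbar) ℚ (modQ W).toAffine p σ) := rfl

/-- The matrix of `σ` is `1` exactly when `σ` fixes the torsion. -/
theorem tRep_eq_one (hW : W.Δ ≠ 0) {σ : Γℚ} :
    tRep (p := p) W hW σ = 1 ↔ ∀ x : TorW (modQ W) p, σ • x = x := by
  rw [Units.ext_iff, val_tRep, Units.val_one,
    ← map_one (LinearMap.toMatrixAlgEquiv (tbasis (p := p) W hW)),
    (LinearMap.toMatrixAlgEquiv (tbasis (p := p) W hW)).injective.eq_iff, LinearMap.ext_iff]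
  rfl

/-- The determinant is the cyclotomic character. -/
theorem det_tRep (hW : W.Δ ≠ 0) (σ : Γℚ) :
    (tRep (p := p) W hW σ : Matrix (Fin 2) (Fin 2) (ZMod p)).det =
    ((cycChar p σ : (ZMod p)ˣ) : ZMod p) := by
  rw [val_tRep, ← det_galoisRep_eq_cycChar W hW σ,
    ← LinearMap.det_toMatrix (tbasis (p := p) W hW)]
  rfl

/-- The trace is the trace of the Galois action on the torsion. -/
theorem trace_tRep (hW : W.Δ ≠ 0) (σ : Γℚ) :
    (tRep (p := p) W hW σ : Matrix (Fin 2) (Fin 2) (ZMod p)).trace =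
      Point.galoisTrace (K := ℚbar) ℚ (modQ W).toAffine p σ := by
  rw [val_tRep, Point.galoisTrace_def,
    LinearMap.trace_eq_matrix_trace (ZMod p) (tbasis (p := p) W hW)]
  rfl

/-- The torsion representation has open kernel. -/
theorem isOpen_ker_tRep (hW : W.Δ ≠ 0) : IsOpen ((tRep (p := p) W hW).ker : Set Γℚ) := by
  classical
  obtain ⟨-, hfin⟩ := FR.finrank_torsion W (p := p) hW
  have : Finite (TorW (modQ W) p) := Module.finite_of_finite (ZMod p)
  have := Fintype.ofFinite (TorW (modQ W) p)
  let co : ((modQ W).toAffine⁄ℚbar).Point → Finset ℚbar := fun P =>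
    match P with
    | .zero => ∅
    | .some x y _ => {x, y}
  set S : Finset ℚbar := Finset.univ.biUnion fun x : TorW (modQ W) p => co x.1
  set F : IntermediateField ℚ ℚbar := IntermediateField.adjoin ℚ (S : Set ℚbar)
  have : FiniteDimensional ℚ F := IntermediateField.finiteDimensional_adjoin
    fun x _ => (Algebra.IsAlgebraic.isAlgebraic x).isIntegral
  refine isOpen_ker_of_forall _ F fun σ hσ => (tRep_eq_one hW).mpr fun x => ?_
  apply Subtype.ext
  change σ • x.1 = x.1
  rcases hP : x.1 with _ | ⟨a, b, hns⟩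
  · rfl
  · simp only [Point.algEquiv_smul_def, Point.map_some, Point.some.injEq]
    have hS : ∀ z ∈ co x.1, σ z = z := fun z hz =>
      hσ z (IntermediateField.subset_adjoin ℚ _ (Finset.mem_biUnion.mpr ⟨x, Finset.mem_univ _, hz⟩))
    rw [hP] at hS
    exact ⟨hS a (by simp [co]), hS b (by simp [co])⟩

/-- Away from `p` inertia acts unipotently at a semistable curve. -/
theorem unipotent_tRep (hW : W.Δ ≠ 0) (hss : W.IsSemistableModel) (hp2 : p ≠ 2) {q : ℕ}
    (hq : q.Prime) (hqp : q ≠ p) {A : ValuationSubring ℚbar} (hA : A.LiesOverPrime q)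
    {σ : Γℚ} (hσ : σ ∈ A.inertiaSubgroupIn ℚ) :
    ((tRep (p := p) W hW σ : Matrix (Fin 2) (Fin 2) (ZMod p)) - 1) *
      ((tRep (p := p) W hW σ : Matrix (Fin 2) (Fin 2) (ZMod p)) - 1) = 0 := by
  rw [val_tRep, ← map_one (LinearMap.toMatrixAlgEquiv (tbasis (p := p) W hW)), ← map_sub, ← map_mul]
  refine (map_eq_zero_iff _ (LinearMap.toMatrixAlgEquiv (tbasis (p := p) W hW)).injective).mpr
    (LinearMap.ext fun x => ?_)
  have hx : p • x.1 = 0 := by
    rw [← natCast_zsmul]; exact (Submodule.mem_torsionBy_iff _ _).mp x.2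
  have h := smul_sub_smul_sub W ⟨hq, hA⟩ (isInert_of_mem_inertia hσ) hW (hss q hq) hp.out hp2 hqp hx
  change σ • (σ • x - x) - (σ • x - x) = 0
  exact Subtype.ext (sub_eq_zero.mpr h)

/-- Away from `p` inertia acts trivially when `p` divides the exponent of the discriminant. -/
theorem unramified_tRep (hW : W.Δ ≠ 0) (hss : W.IsSemistableModel) (hp2 : p ≠ 2) {q : ℕ}
    (hq : q.Prime) (hqp : q ≠ p) (hdvd : p ∣ padicValInt q W.Δ)
    {A : ValuationSubring ℚbar} (hA : A.LiesOverPrime q)
    {σ : Γℚ} (hσ : σ ∈ A.inertiaSubgroupIn ℚ) : tRep (p := p) W hW σ = 1 := by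
  refine (tRep_eq_one hW).mpr fun x => Subtype.ext ?_
  have hx : p • x.1 = 0 := by
    rw [← natCast_zsmul]; exact (Submodule.mem_torsionBy_iff _ _).mp x.2
  exact smul_eq_self W ⟨hq, hA⟩ (isInert_of_mem_inertia hσ) hW (hss q hq) hp.out hp2 hqp hdvd hx

/-- The representation is the torsion representation of the curve, read by traces of Frobenius. -/
theorem isTorsionOf_tRep (hW : W.Δ ≠ 0) (hss : W.IsSemistableModel) (hp2 : p ≠ 2) :
    Fermat.GR.RT.IsTorsionOf p W (tRep (p := p) W hW) := by
  intro ℓ hℓ hgood hℓp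
  have hg : ¬ (ℓ : ℤ) ∣ W.Δ := hgood
  refine ⟨fun A hA σ hσ => unramified_tRep hW hss hp2 hℓ hℓp ?_ hA hσ, fun A hA φ hφ => ?_⟩
  · rw [padicValInt.eq_zero_of_not_dvd hg]
    exact dvd_zero p
  · rw [trace_tRep]
    exact FR.galoisTrace_frobenius W hℓ hℓp hg hA hφ

/-- An irreducible module gives an irreducible matrix representation. -/
theorem irr_tRep (hW : W.Δ ≠ 0) (hirr : W.ModRepIsIrreducible p) :
    Surj.Irr (tRep (p := p) W hW) := by
  intro v hv
  by_contra hall
  push Not at hall
  set b := tbasis (p := p) W hW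
  -- a common eigenvector would span a stable line
  set x : TorW (modQ W) p := b.equivFun.symm v
  have hx : x ≠ 0 := fun h => hv (by
    rw [← b.equivFun.apply_symm_apply v]
    exact (congrArg b.equivFun h).trans (map_zero _))
  set N : Submodule (ZMod p) (TorW (modQ W) p) := Submodule.span (ZMod p) {x}
  have hstab : Point.IsGaloisStable ℚ N := by
    intro σ z hz
    obtain ⟨a, rfl⟩ := Submodule.mem_span_singleton.mp hz
    obtain ⟨c, hc⟩ := hall σ
    refine Submodule.mem_span_singleton.mpr ⟨a * c, ?_⟩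
    rw [val_tRep] at hc
    have h1 : Point.galoisRepModuleEnd (K := ℚbar) ℚ (modQ W).toAffine p σ x = c • x := by
      refine b.equivFun.injective ?_
      rw [map_smul, show b.equivFun x = v from b.equivFun.apply_symm_apply v, ← hc]
      ext i
      rw [LinearMap.toMatrixAlgEquiv, AlgEquiv.ofLinearEquiv_apply,
        show v = b.equivFun x from (b.equivFun.apply_symm_apply v).symm]
      exact (congrFun (LinearMap.toMatrix_mulVec_repr b b _ x) i).symm
    rw [show σ • (a • x) = Point.galoisRepModuleEnd (K := ℚbar) ℚ (modQ W).toAffine p σ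
      (a • x) from rfl, map_smul, h1, smul_smul]
  -- irreducibility makes the line zero or everything
  rcases hirr.2 N hstab with h | h
  · exact hx ((Submodule.span_singleton_eq_bot).mp h)
  · have h2 := (FR.finrank_torsion W (p := p) hW).1
    have h1 : Module.finrank (ZMod p) N ≤ 1 := by
      refine le_of_eq (finrank_span_singleton hx)
    rw [show Module.finrank (ZMod p) N = Module.finrank (ZMod p) (TorW (modQ W) p) by
      rw [h]; exact finrank_top (ZMod p) (TorW (modQ W) p)] at h1
    have : Module.finrank (ZMod p) (TorW (modQ W) p) = 2 := h2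
    omega

/-- A surjective torsion representation is a semistable residual representation. -/
theorem isSemistableResidual_tRep (hW : W.Δ ≠ 0) (hss : W.IsSemistableModel) (hp2 : p ≠ 2)
    (hsurj : Function.Surjective (tRep (p := p) W hW)) :
    Fermat.GR.RT.IsSemistableResidual p (tRep (p := p) W hW) :=
  ⟨isOpen_ker_tRep hW, det_tRep hW, hsurj,
    fun _ hq hqp _ hA _ hσ => unipotent_tRep hW hss hp2 hq hqp hA hσ⟩

/-- An irreducible representation on `3`-torsion is surjective. -/
theorem surjective_tRep_three (hW : W.Δ ≠ 0) (hss : W.IsSemistableModel)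
    (hirr : W.ModRepIsIrreducible 3) [Fact (Nat.Prime 3)] :
    Function.Surjective (tRep (p := 3) W hW) :=
  Surj.surjective_three (isOpen_ker_tRep hW) (det_tRep hW) (irr_tRep hW hirr)
    fun _ hq hqp _ hA _ hσ => unipotent_tRep hW hss (by norm_num) hq hqp hA hσ

/-- An irreducible representation on `5`-torsion is surjective. -/
theorem surjective_tRep_five (hW : W.Δ ≠ 0) (hss : W.IsSemistableModel)
    (hirr : W.ModRepIsIrreducible 5) [Fact (Nat.Prime 5)] :
    Function.Surjective (tRep (p := 5) W hW) :=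
  Surj.surjective_five (isOpen_ker_tRep hW) (det_tRep hW) (irr_tRep hW hirr)
    fun _ hq hqp _ hA _ hσ => unipotent_tRep hW hss (by norm_num) hq hqp hA hσ

/-- An element of order `p` in inertia gives surjectivity. -/
theorem surjective_tRep_of_ramified (hW : W.Δ ≠ 0) (hss : W.IsSemistableModel) (hp2 : p ≠ 2)
    (hirr : W.ModRepIsIrreducible p) {q : ℕ} (hq : q.Prime) (hqp : q ≠ p)
    {A : ValuationSubring ℚbar} (hA : A.LiesOverPrime q) {τ : Γℚ}
    (hτ : τ ∈ A.inertiaSubgroupIn ℚ) (hne : tRep (p := p) W hW τ ≠ 1) :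
    Function.Surjective (tRep (p := p) W hW) :=
  Surj.surjective_of_order (irr_tRep hW hirr) (det_tRep hW) hne (by
    rw [← map_pow]
    exact (tRep_eq_one hW).mpr fun x =>
      pow_smul_eq_self_of_inertia (p := p) W hW ⟨hq, hA⟩ (hss q hq) hp2 hqp hτ x)

end Fermat.SW.Tors

end
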