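import Fermat.Agent.EC.TorsionLine
import Fermat.Agent.FLAT.Tame

/-!
# Multiplicative reduction with discriminant exponent prime to `p` ramifies

For `p ≥ 5`: if inertia at `q ≠ p` fixed the `p`-torsion, every torsion point would lie on the
identity component, but the `p`-division polynomial vanishes at the node modulo `q`.
-/

set_option autoImplicit false

noncomputable section

open Polynomial WeierstrassCurve WeierstrassCurve.Affine Fermat.EC Fermat.EC.Val Fermat.EC.Red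
open Fermat.EC.Node Fermat.EC.Line
open scoped WeierstrassCurve.Affine

namespace Fermat.SW.Ram

local notation "ℚbar" => AlgebraicClosure ℚ

/-- The division polynomials vanish at a point where the curve is singular. -/
theorem preΨ'_eval_node {R : Type*} [CommRing R] (V : WeierstrassCurve R) {r : R}
    (h3 : V.Ψ₃.eval r = 0) (h2 : V.Ψ₂Sq.eval r = 0) :
    ∀ n : ℕ, 3 ≤ n → (V.preΨ' n).eval r = 0 := by
  intro n
  induction n using Nat.strong_induction_on with
  | _ n ih =>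
    intro hn
    rcases (show n = 3 ∨ n = 4 ∨ 5 ≤ n by omega) with rfl | rfl | h5
    · rw [V.preΨ'_three]; exact h3
    · rw [V.preΨ'_four, Fermat.EC.ModP.preΨ₄_eval_of_Ψ₃ V h3, h2, zero_pow two_ne_zero, neg_zero]
    rcases Nat.even_or_odd' n with ⟨k, rfl | rfl⟩
    · obtain ⟨m, rfl⟩ : ∃ m, k = m + 3 := ⟨k - 3, by omega⟩
      rw [V.preΨ'_even]
      simp [ih (m + 3) (by omega) (by omega)]
    · obtain ⟨m, rfl⟩ : ∃ m, k = m + 2 := ⟨k - 2, by omega⟩
      rw [V.preΨ'_odd]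
      split_ifs <;> simp [ih (m + 3) (by omega) (by omega), ih (m + 4) (by omega) (by omega)]

/-- A translated model with a normalised node. -/
private theorem exists_nodal_change (W : WeierstrassCurve ℤ) (hΔ : W.Δ ≠ 0) {q : ℕ}
    {A : ValuationSubring ℚbar} (h : IsPlace A q) (hbad : (q : ℤ) ∣ W.Δ)
    (hc : ¬ (q : ℤ) ∣ W.c₄) :
    ∃ r t : ℤ, ((q : ℤ) ∣ (Fermat.EC.trans r t • W).a₃ ∧ (q : ℤ) ∣ (Fermat.EC.trans r t • W).a₄ ∧
      (q : ℤ) ∣ (Fermat.EC.trans r t • W).a₆) ∧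
      IsNodal A q (changed ⟨1, (r : ℚbar), 0, (t : ℚbar)⟩ (overQbar W))
        (padicValInt q W.Δ : ℚ) (padicValInt q W.Δ + 1 : ℕ) := by
  have := Fact.mk h.1
  set m := padicValInt q W.Δ
  obtain ⟨r, t, h3, h4, h6, hb⟩ := exists_node_int W h.1 hbad hc (m + 1)
  set V := Fermat.EC.trans r t • W with hV
  have hVΔ : V.Δ = W.Δ := trans_Δ W r t
  obtain ⟨hva, ha0⟩ := padicValInt_a₆_eq V h.1 h3 h4 h6 hb (hVΔ ▸ hΔ)
    (by rw [hVΔ]; exact Nat.lt_succ_self m)
  have hd : ∀ {z : ℤ}, (q : ℤ) ^ (m + 1) ∣ z → (q : ℤ) ∣ z := fun hz =>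
    (dvd_pow_self _ (Nat.succ_ne_zero m)).trans hz
  refine ⟨r, t, ⟨hd h3, hd h4, h6⟩, ?_⟩
  have eV : changed ⟨1, (r : ℚbar), 0, (t : ℚbar)⟩ (overQbar W) = overQbar V := by
    ext <;>
      simp [changed, overQbar, hV, Fermat.EC.trans, variableChange_a₁, variableChange_a₂,
        variableChange_a₃, variableChange_a₄, variableChange_a₆]
  have hmpos : 0 < m :=
    ((padicValInt_dvd_iff 1 W.Δ).mp (by simpa using hbad)).resolve_left hΔ
  rw [eV]
  refine ⟨integralAt_overQbar V h, by exact_mod_cast hmpos, by push_cast; linarith, ?_, ?_, ?_, ?_⟩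
  · rw [overQbar_a₃]; exact_mod_cast ge_intCast_of_dvd h h3
  · rw [overQbar_a₄]; exact_mod_cast ge_intCast_of_dvd h h4
  · rw [overQbar_a₆]
    refine ⟨Int.cast_ne_zero.mpr ha0, ?_⟩
    rw [ord_intCast h ha0, hva, hVΔ]
  · have : (overQbar V).b₂ = ((V.b₂ : ℤ) : ℚbar) := by
      simp [overQbar, WeierstrassCurve.baseChange, map_b₂]
    rw [this]; exact is_intCast h hb

/-- The division polynomial vanishes at the abscissa of the node modulo `q`. -/
private theorem dvd_preΨ'_eval_node (W : WeierstrassCurve ℤ) (q : ℕ) [Fact q.Prime] {r t : ℤ}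
    (h3 : (q : ℤ) ∣ (Fermat.EC.trans r t • W).a₃) (h4 : (q : ℤ) ∣ (Fermat.EC.trans r t • W).a₄)
    (h6 : (q : ℤ) ∣ (Fermat.EC.trans r t • W).a₆) {p : ℕ} (hp : 3 ≤ p) :
    (q : ℤ) ∣ (W.preΨ' p).eval r := by
  set V := Fermat.EC.trans r t • W with hV
  set φ := Int.castRingHom (ZMod q) with hφ
  have key : ∀ {z : ℤ}, (q : ℤ) ∣ z → φ z = 0 := fun hz => by
    rw [hφ, eq_intCast, ZMod.intCast_zmod_eq_zero_iff_dvd]; exact hz
  have v3 := key h3
  have v4 := key h4
  have v6 := key h6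
  have b6 : φ V.b₆ = 0 := by
    simp only [WeierstrassCurve.b₆, map_add, map_mul, map_pow, map_ofNat, v3, v6]; ring
  have b8 : φ V.b₈ = 0 := by
    simp only [WeierstrassCurve.b₈, map_add, map_sub, map_mul, map_pow, map_ofNat, v3, v4, v6]; ring
  have e2 : (W.map φ).Ψ₂Sq.eval (r : ZMod q) = φ V.b₆ := by
    simp only [hV, Fermat.EC.trans, WeierstrassCurve.Ψ₂Sq, variableChange_b₆, map_b₂,
      map_b₄, map_b₆, eval_add, eval_mul, eval_pow, eval_X, eval_C, eval_ofNat, map_add, map_mul,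
      map_pow, map_ofNat, inv_one, Units.val_one, one_pow, one_mul, hφ, eq_intCast]
    ring
  have e3 : (W.map φ).Ψ₃.eval (r : ZMod q) = φ V.b₈ := by
    simp only [hV, Fermat.EC.trans, WeierstrassCurve.Ψ₃, variableChange_b₈, map_b₂, map_b₄,
      map_b₆, map_b₈, eval_add, eval_mul, eval_pow, eval_X, eval_C, eval_ofNat, map_add, map_mul,
      map_pow, map_ofNat, inv_one, Units.val_one, one_pow, one_mul, hφ, eq_intCast]
    ring
  have h0 := preΨ'_eval_node (W.map φ) (e3.trans b8) (e2.trans b6) p hp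
  rw [map_preΨ', show ((r : ZMod q)) = φ r from (eq_intCast φ r).symm, eval_map,
    eval₂_at_apply] at h0
  rw [← ZMod.intCast_zmod_eq_zero_iff_dvd, ← eq_intCast φ]
  exact h0

/-- A torsion point reduces to the node when the division polynomial vanishes there. -/
private theorem exists_torsion_gt (W : WeierstrassCurve ℤ) (hΔ : W.Δ ≠ 0) {q : ℕ}
    {A : ValuationSubring ℚbar} (h : IsPlace A q) {p : ℕ} (hp : p.Prime) (hp5 : 5 ≤ p)
    (hqp : q ≠ p) {r : ℤ} (hdvd : (q : ℤ) ∣ (W.preΨ' p).eval r) :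
    ∃ (a b : ℚbar) (hns : (overQbar W).toAffine.Nonsingular a b),
      p • Point.some a b hns = 0 ∧ Gt A q (a - (r : ℚbar)) 0 := by
  classical
  obtain ⟨hfac, -, -⟩ := preΨ'_factor (W := W) hΔ hp (by omega)
  set X₀ := (nzTors hΔ hp).image (xco W)
  have hpq : ¬ q ∣ p := fun e => hqp ((Nat.prime_dvd_prime_iff_eq h.1 hp).mp e)
  -- the abscissas of the `p`-torsion are integral at `A`
  have hge : ∀ x ∈ X₀, Ge A q (x - (r : ℚbar)) 0 := by
    intro x hx
    obtain ⟨P, hP, rfl⟩ := Finset.mem_image.mp hx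
    obtain ⟨hP1, hP2⟩ := (mem_nzTors hΔ hp).mp hP
    rcases P with _ | ⟨a, b, hns⟩
    · exact absurd rfl hP2
    refine Ge.sub h ?_ (ge_intCast h r)
    by_contra hn
    exact hP2 (eq_zero_of_nsmul_eq_zero h (integralAt_overQbar W h) (P := Point.some a b hns) hn
      hpq hP1)
  -- one is `≡ r`, else `p * ∏ (r - x)`, the value at `r`, would be a unit
  have hroot : ∃ x ∈ X₀, Gt A q (x - (r : ℚbar)) 0 := by
    by_contra hno
    push Not at hno
    have hIs : ∀ x ∈ X₀, Is A q ((r : ℚbar) - x) ((fun _ : ℚbar => (0 : ℚ)) x) := fun x hx => by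
      have := ((hge x hx).is_of_not_gt (hno x hx)).neg h
      rwa [neg_sub] at this
    have hprod : Is A q ((p : ℚbar) * ∏ x ∈ X₀, ((r : ℚbar) - x)) 0 := by
      have hp0 : Is A q (p : ℚbar) 0 := by
        have hpz : ¬ (q : ℤ) ∣ (p : ℤ) := by exact_mod_cast hpq
        simpa using is_intCast h hpz
      simpa using hp0.mul h (Is.prod h hIs)
    have he := congrArg (Polynomial.eval (r : ℚbar)) hfac
    rw [eval_map, show (r : ℚbar) = Int.castRingHom ℚbar r from (eq_intCast _ r).symm,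
      eval₂_at_apply, eval_mul, eval_C, eval_prod, eq_intCast, eq_intCast] at he
    simp only [eval_sub, eval_X, eval_C] at he
    rw [← he] at hprod
    exact hprod.not_gt ((ge_intCast_of_dvd h (k := 1) (by simpa using hdvd)).gt (by norm_num))
  -- take a point with that abscissa
  obtain ⟨x, hx, hgt⟩ := hroot
  obtain ⟨P, hP, rfl⟩ := Finset.mem_image.mp hx
  obtain ⟨hP1, hP2⟩ := (mem_nzTors hΔ hp).mp hP
  rcases P with _ | ⟨a, b, hns⟩
  · exact absurd rfl hP2
  exact ⟨a, b, hns, hP1, hgt⟩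

/-- On a nodal model a point with small abscissa has small ordinate. -/
private theorem gt_y_of_gt_x {q : ℕ} {A : ValuationSubring ℚbar} (h : IsPlace A q)
    {W : Affine ℚbar} {m : ℚ} {M : ℕ} (hN : IsNodal A q W m (M + 1 : ℕ)) {x y : ℚbar}
    (he : W.Equation x y) (gx : Gt A q x 0) : Gt A q y 0 := by
  have hgy := ge_y h hN.int he gx.ge
  by_contra hn
  have hIsY : Is A q y 0 := hgy.is_of_not_gt hn
  rw [equation_iff] at he
  have hM : (0 : ℚ) < (M + 1 : ℕ) := by exact_mod_cast Nat.succ_pos M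
  have : Gt A q (y ^ 2) 0 := by
    have e : y ^ 2 = -(W.a₁ * y * x) - W.a₃ * y +
        (x * x * x + W.a₂ * x * x + (W.a₄ * x + W.a₆)) := by
      linear_combination he
    rw [e]
    exact ((((hN.int.a₁.mul h hgy).mul_gt h gx).mono (by simp)).neg h |>.sub h
      ((hN.a₃.mul h hgy).gt (by linarith))).add h
      (((((gx.ge.mul h gx.ge).mul_gt h gx).mono (by simp)).add h
        (((hN.int.a₂.mul h gx.ge).mul_gt h gx).mono (by simp))).add h
        (((hN.a₄.mul h gx.ge).gt (by linarith)).add h (hN.a₆.gt hN.mpos)))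
  exact (show Is A q (y ^ 2) 0 by simpa using hIsY.pow h 2).not_gt this

/-- No integral order strictly between `0` and `m / 2` lies in `(m / p) ℤ`. -/
private theorem false_of_low_order {p : ℕ} (hp : p.Prime) {m : ℕ} (hpm : ¬ p ∣ m) {s : ℚ}
    {k j : ℤ} (hs : s = k) (hs0 : 0 < s) (hsm : s < (m : ℚ) / 2)
    (hj : (p : ℚ) * s = j * (m : ℚ)) : False := by
  subst hs
  have hZ : (p : ℤ) * k = j * (m : ℤ) := by exact_mod_cast hj
  obtain ⟨j', rfl⟩ : (p : ℤ) ∣ j :=
    ((Nat.prime_iff_prime_int.mp hp).dvd_or_dvd (Dvd.intro k hZ)).resolve_right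
      (fun e => hpm (Int.natCast_dvd_natCast.mp e))
  have hk' : k = j' * (m : ℤ) := by
    apply mul_left_cancel₀ (show (p : ℤ) ≠ 0 by exact_mod_cast hp.ne_zero)
    rw [hZ]; ring
  have h1 : 0 < k := by exact_mod_cast hs0
  have h2 : 2 * k < (m : ℤ) := by exact_mod_cast (show (2 : ℚ) * k < m by linarith)
  rw [hk'] at h1 h2
  have hj1 : 1 ≤ j' := by nlinarith
  nlinarith

/-- Some inertia element at `q` moves the `p`-torsion. -/
theorem exists_inertia_moves (W : WeierstrassCurve ℤ) (hΔ : W.Δ ≠ 0) {q : ℕ}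
    {A : ValuationSubring ℚbar} (h : IsPlace A q) (hbad : (q : ℤ) ∣ W.Δ)
    (hc : ¬ (q : ℤ) ∣ W.c₄) {p : ℕ} (hp : p.Prime) (hp5 : 5 ≤ p) (hqp : q ≠ p)
    (hord : ¬ p ∣ padicValInt q W.Δ) :
    ∃ τ ∈ A.inertiaSubgroupIn ℚ, ∃ P : (overQbar W).Point, p • P = 0 ∧ τ • P ≠ P := by
  classical
  by_contra hall
  push Not at hall
  have := Fact.mk h.1
  -- move the node to the origin; some `p`-torsion point reduces to it
  obtain ⟨r, t, ⟨h3, h4, h6⟩, hN⟩ := exists_nodal_change W hΔ h hbad hc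
  obtain ⟨a, b, hns, hP1, hgt⟩ := exists_torsion_gt W hΔ h hp hp5 hqp
    (dvd_preΨ'_eval_node W q h3 h4 h6 (p := p) (by omega))
  set C : VariableChange ℚbar := ⟨1, (r : ℚbar), 0, (t : ℚbar)⟩ with hC
  set ψ := pointHom C (overQbar W)
  have hψP : p • ψ (Point.some a b hns) = 0 := by rw [← map_nsmul, hP1, map_zero]
  have e₁ : ψ (Point.some a b hns) = Point.some _ _ (nonsingular_new C _ hns) := rfl
  have hnx : newX C a = a - (r : ℚbar) := by simp [hC, newX]
  have gx : Gt A q (newX C a) 0 := by rw [hnx]; exact hgt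
  have gy : Gt A q (newY C a b) 0 :=
    gt_y_of_gt_x h hN (nonsingular_new C (overQbar W) hns).1 gx
  -- so it lies off the identity component
  have hnot : ¬ InE0 A q (ψ (Point.some a b hns)) := by
    rw [e₁]; exact fun e => e (singRed_of_gt h hN gx gy)
  obtain ⟨x₁, y₁, hns', s, e₂, hlow⟩ := low_of_torsion h hN (hp.odd_of_ne_two (by omega)) hψP hnot
  rw [e₁] at e₂
  obtain ⟨ex, -⟩ := Point.some.inj e₂
  -- its abscissa is fixed by inertia, so has integral valuation
  have hfix : ∀ σ ∈ A.inertiaSubgroupIn ℚ, σ x₁ = x₁ := by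
    intro σ hσ
    have hσP := hall σ hσ _ hP1
    obtain ⟨hh, eσ⟩ := smul_some W σ hns
    rw [eσ] at hσP
    rw [← ex, hnx, map_sub, (Point.some.inj hσP).1, map_intCast]
  obtain ⟨k, hk⟩ := Fermat.FLAT.exists_int_ord h hlow.2.2.1.1 hfix
  have hψP' : p • Point.some x₁ y₁ hns' = 0 := by rw [← e₂, ← e₁]; exact hψP
  -- but its component forces `p ∣ v(Δ)`
  obtain ⟨j, hj⟩ := component h hN hp (by omega) hψP' hlow
  exact false_of_low_order hp hord (hlow.2.2.1.2 ▸ hk) hlow.1 hlow.2.1 hj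

end Fermat.SW.Ram

end
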