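import Mathlib.LinearAlgebra.Matrix.Determinant.Basic
import Mathlib.Algebra.Field.ZMod
import Mathlib.Data.Fintype.Pi
import Mathlib.Tactic

/-!
# `SL(2, 𝔽_p)` and monoids of matrices: generation by unipotents, and recognition

The main result is `eq_SL2`, with the unipotents `upU` and `loU`.
-/

set_option autoImplicit false

open Matrix

namespace Fermat.SW.SL2

variable {p : ℕ} [hp : Fact p.Prime]

local notation "M₂" => Matrix (Fin 2) (Fin 2) (ZMod p)

/-- An upper unipotent matrix. -/
def upU (a : ZMod p) : M₂ := !![1, a; 0, 1]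

/-- A lower unipotent matrix. -/
def loU (a : ZMod p) : M₂ := !![1, 0; a, 1]

/-- A set containing both unipotent subgroups and closed under products contains `SL₂`. -/
theorem mem_of_unipotents (S : Submonoid M₂) (hU : ∀ a, upU a ∈ S) (hL : ∀ a, loU a ∈ S) (M : M₂)
    (hM : M.det = 1) : M ∈ S := by
  have main : ∀ M : M₂, M.det = 1 → M 1 0 ≠ 0 → M ∈ S := by
    intro M hM hc
    have e : M = upU ((M 0 0 - 1) / M 1 0) * loU (M 1 0) * upU ((M 1 1 - 1) / M 1 0) := by
      rw [Matrix.det_fin_two] at hM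
      ext i j
      fin_cases i <;> fin_cases j <;>
        simp [upU, loU, Matrix.mul_apply, Fin.sum_univ_two] <;> field_simp <;>
        first
          | ring1
          | linear_combination -hM
    rw [e]
    exact S.mul_mem (S.mul_mem (hU _) (hL _)) (hU _)
  by_cases hc : M 1 0 = 0
  · have hd : M 1 1 ≠ 0 ∧ M 0 0 ≠ 0 := by
      rw [Matrix.det_fin_two, hc, mul_zero, sub_zero] at hM
      exact ⟨fun e => by simp [e] at hM, fun e => by simp [e] at hM⟩
    have h1 : (loU 1 * M).det = 1 := by
      rw [Matrix.det_mul, hM, mul_one, Matrix.det_fin_two]; simp [loU]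
    have h2 : (loU (1 : ZMod p) * M : M₂) 1 0 ≠ 0 := by
      simpa [loU, Matrix.mul_apply, Fin.sum_univ_two, hc] using hd.2
    have e : M = loU (-1) * (loU 1 * M) := by
      rw [← mul_assoc, show loU (-1 : ZMod p) * loU 1 = 1 by
        ext i j; fin_cases i <;> fin_cases j <;> simp [loU, Matrix.mul_apply, Fin.sum_univ_two],
        one_mul]
    rw [e]
    exact S.mul_mem (hL _) (main _ h1 h2)
  · exact main M hM hc

/-- Powers of an upper unipotent matrix. -/
lemma upU_pow (a : ZMod p) (n : ℕ) : upU a ^ n = upU ((n : ZMod p) * a) := by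
  induction n with
  | zero => ext i j; fin_cases i <;> fin_cases j <;> simp [upU]
  | succ n ih =>
    rw [pow_succ, ih]
    ext i j
    fin_cases i <;> fin_cases j <;> simp [upU, Matrix.mul_apply, Fin.sum_univ_two]
    ring

/-- Powers of a lower unipotent matrix. -/
lemma loU_pow (a : ZMod p) (n : ℕ) : loU a ^ n = loU ((n : ZMod p) * a) := by
  induction n with
  | zero => ext i j; fin_cases i <;> fin_cases j <;> simp [loU]
  | succ n ih =>
    rw [pow_succ, ih]
    ext i j
    fin_cases i <;> fin_cases j <;> simp [loU, Matrix.mul_apply, Fin.sum_univ_two]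
    ring

/-- A nonzero `x` has every element of `ZMod p` as a natural multiple. -/
lemma exists_natCast_mul (x : ZMod p) (hx : x ≠ 0) (d : ZMod p) : ∃ n : ℕ, (n : ZMod p) * x = d :=
  ⟨(d / x).val, by rw [ZMod.natCast_zmod_val, div_mul_cancel₀ _ hx]⟩

/-- A submonoid contains a left inverse of each of its invertible matrices. -/
lemma exists_inverse_mem {G : Submonoid M₂} {g : M₂} (hg : g ∈ G) (hd : g.det ≠ 0) :
    ∃ g' ∈ G, g' * g = 1 := by
  have hu : IsUnit g := (Matrix.isUnit_iff_isUnit_det g).mpr (isUnit_iff_ne_zero.mpr hd)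
  obtain ⟨u, rfl⟩ := hu
  have hpos : 0 < orderOf u := orderOf_pos u
  refine ⟨(u : M₂) ^ (orderOf u - 1), pow_mem hg _, ?_⟩
  rw [← pow_succ, show orderOf u - 1 + 1 = orderOf u by omega, ← Units.val_pow_eq_pow_val,
    pow_orderOf_eq_one, Units.val_one]

/-- A monoid of invertible matrices which is transitive on nonzero vectors, in which the stabiliser
of the first vector is unipotent, and with a nontrivial element of that kind, is `SL(2, 𝔽_p)`. -/
theorem eq_SL2 {G : Submonoid M₂} (hdet : ∀ g ∈ G, g.det ≠ 0) {x : ZMod p} (hx : x ≠ 0)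
    (hT : !![1, x; 0, 1] ∈ G)
    (htr : ∀ a b : ZMod p, ¬ (a = 0 ∧ b = 0) → ∃ g ∈ G, g 0 0 = a ∧ g 1 0 = b)
    (hst : ∀ g ∈ G, g 0 0 = 1 → g 1 0 = 0 → g 1 1 = 1) (M : M₂) :
    M ∈ G ↔ M.det = 1 := by
  have hU : ∀ d : ZMod p, upU d ∈ G := fun d => by
    obtain ⟨n, rfl⟩ := exists_natCast_mul x hx d
    rw [← upU_pow]
    exact pow_mem hT n
  obtain ⟨z, hz, hLz⟩ : ∃ z : ZMod p, z ≠ 0 ∧ !![1, 0; z, 1] ∈ G := by
    obtain ⟨g1, hg1, e0, e1⟩ := htr 0 1 (by simp)
    have hr : g1 0 1 ≠ 0 := fun h => hdet g1 hg1 (by rw [Matrix.det_fin_two, h, e0]; ring)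
    obtain ⟨g1', hg1', hinv⟩ := exists_inverse_mem hg1 (hdet g1 hg1)
    set L := g1 * !![1, x; 0, 1] * g1' with hL
    have hmem : L ∈ G := mul_mem (mul_mem hg1 hT) hg1'
    have hLg : L * g1 = g1 * !![1, x; 0, 1] := by rw [hL, mul_assoc, hinv, mul_one]
    have q00 := congrFun (congrFun hLg 0) 0
    have q01 := congrFun (congrFun hLg 0) 1
    have q10 := congrFun (congrFun hLg 1) 0
    have q11 := congrFun (congrFun hLg 1) 1
    simp [Matrix.mul_apply, Fin.sum_univ_two, e0, e1] at q00 q01 q10 q11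
    refine ⟨x / g1 0 1, div_ne_zero hx hr, ?_⟩
    have : L = !![1, 0; x / g1 0 1, 1] := by
      ext i j; fin_cases i <;> fin_cases j
      · simp only [Fin.zero_eta, Matrix.of_apply, Matrix.cons_val']
        rw [q00, zero_mul, add_zero] at q01
        simpa using mul_right_cancel₀ hr (q01.trans (one_mul _).symm)
      · simpa using q00
      · simp only [Fin.zero_eta, Fin.mk_one, Matrix.of_apply, Matrix.cons_val']
        rw [q10, one_mul] at q11
        simp
        rw [eq_div_iff hr]
        linear_combination q11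
      · simpa using q10
    rwa [← this]
  have hLow : ∀ d : ZMod p, loU d ∈ G := fun d => by
    obtain ⟨n, rfl⟩ := exists_natCast_mul z hz d
    rw [← loU_pow]
    exact pow_mem hLz n
  refine ⟨fun hM => ?_, mem_of_unipotents G hU hLow M⟩
  -- modulo `SL₂`, an element of `G` is diagonal with first entry one, hence the identity
  have hd := hdet M hM
  have hN : M * !![1, 0; 0, M.det⁻¹] ∈ G :=
    mem_of_unipotents G hU hLow _ (by simp [Matrix.det_mul, Matrix.det_fin_two_of, hd])
  obtain ⟨N', hN', hinv⟩ := exists_inverse_mem hN (by simp [hd])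
  have e : N' * M = !![1, 0; 0, M.det] := by
    have h1 : (!![1, 0; 0, M.det⁻¹] : M₂) * !![1, 0; 0, M.det] = 1 := by
      ext i j; fin_cases i <;> fin_cases j <;> simp [Matrix.mul_apply, Fin.sum_univ_two, hd]
    calc N' * M = N' * (M * !![1, 0; 0, M.det⁻¹]) * !![1, 0; 0, M.det] := by
          rw [mul_assoc, mul_assoc, h1, mul_one]
      _ = _ := by rw [hinv, one_mul]
  simpa [e] using hst _ (mul_mem hN' hM) (by simp [e]) (by simp [e])

end Fermat.SW.SL2
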