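import Fermat.Agent.SW.AuxPrime
import Fermat.Agent.SW.SL2
import Fermat.Agent.GR.RT.Tame
import Fermat.Agent.EC.Unramified
import Fermat.Agent.CFT.Density.Places

/-!
# Surjectivity of two-dimensional residual representations

An irreducible `ρ : Γ_ℚ → GL₂(𝔽_p)` with cyclotomic determinant is surjective as soon as its image
has an element of order `p`; `Surj3` shows that for `p = 3` it always is surjective when inertia
away from `3` is unipotent.
-/

set_option autoImplicit false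

noncomputable section

open Fermat.CFT Fermat.EC.Val Fermat.EC.Galois Fermat.SW.SL2 Matrix

namespace Fermat.SW.Surj

local notation "ℚbar" => AlgebraicClosure ℚ
local notation "Γℚ" => (AlgebraicClosure ℚ ≃ₐ[ℚ] AlgebraicClosure ℚ)

variable {p : ℕ} [hp : Fact p.Prime]

local notation "M2" => Matrix (Fin 2) (Fin 2) (ZMod p)
local notation "GL2" => GL (Fin 2) (ZMod p)

/-- No line is stable under the range of `ρ`. -/
def Irr (ρ : Γℚ →* GL2) : Prop :=
  ∀ v : Fin 2 → ZMod p, v ≠ 0 → ∃ σ : Γℚ, ∀ c : ZMod p, (ρ σ : M2) *ᵥ v ≠ c • v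

/-- A unipotent matrix has order dividing `p`. -/
theorem pow_eq_one_of_sq {X : M2} (hX : (X - 1) * (X - 1) = 0) : X ^ p = 1 := by
  have h1 : (X - 1) ^ p = 0 := by
    refine pow_eq_zero_of_le hp.out.two_le ?_
    rw [pow_two, hX]
  rw [sub_pow_char_of_commute (p := p) (Commute.one_right X), one_pow, sub_eq_zero] at h1
  exact h1

/-- A matrix with `p`-th power one fixes a nonzero vector. -/
lemma exists_fixed_vector {M : M2} (hM : M ^ p = 1) :
    ∃ v : Fin 2 → ZMod p, v ≠ 0 ∧ M *ᵥ v = v := by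
  have hnil : (M - 1) ^ p = 0 := by
    rw [sub_pow_char_of_commute (p := p) (Commute.one_right M), hM, one_pow, sub_self]
  have hdet : (M - 1).det = 0 := by
    have := congrArg Matrix.det hnil
    rw [Matrix.det_pow, Matrix.det_zero] at this
    exact pow_eq_zero_iff hp.out.ne_zero |>.mp this
  obtain ⟨v, hv, hMv⟩ := Matrix.exists_mulVec_eq_zero_iff.mpr hdet
  exact ⟨v, hv, by rwa [Matrix.sub_mulVec, Matrix.one_mulVec, sub_eq_zero] at hMv⟩

/-- An irreducible image with an element of order `p` contains `SL₂`. -/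
theorem sl2_le_range {ρ : Γℚ →* GL2} (hirr : Irr ρ) {τ : Γℚ} (hτ : ρ τ ≠ 1) (hτp : ρ τ ^ p = 1)
    (g : GL2) (hg : (g : M2).det = 1) : g ∈ ρ.range := by
  obtain ⟨v, hv, hTv⟩ := exists_fixed_vector (M := (ρ τ : M2))
    (by rw [← Units.val_pow_eq_pow_val, hτp, Units.val_one])
  obtain ⟨σ, hσ⟩ := hirr v hv
  set w := (ρ σ : M2) *ᵥ v with hw
  -- the basis `v, w`
  set P : M2 := !![v 0, w 0; v 1, w 1] with hP
  have hPdet : P.det ≠ 0 := by
    intro hd
    rw [hP, Matrix.det_fin_two_of] at hd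
    by_cases hv0 : v 0 = 0
    · have hv1 : v 1 ≠ 0 := fun e => hv (by ext i; fin_cases i <;> simp [hv0, e])
      refine hσ (w 1 / v 1) ?_
      have hw0 : w 0 = 0 := by
        rw [hv0, zero_mul, zero_sub, neg_eq_zero, mul_eq_zero] at hd
        exact hd.resolve_right hv1
      ext i; fin_cases i
      · simp [hw0, hv0]
      · simp [hv1]
    · refine hσ (w 0 / v 0) ?_
      ext i; fin_cases i
      · simp [hv0]
      · simp
        field_simp
        linear_combination hd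
  obtain ⟨Pu, hPu⟩ : ∃ Pu : GL2, (Pu : M2) = P :=
    ⟨Matrix.GeneralLinearGroup.mkOfDetNeZero P hPdet, rfl⟩
  set κ : GL2 →* GL2 := (MulAut.conj Pu⁻¹).toMonoidHom with hκ
  have hdet : ∀ h : GL2, (κ h : M2).det = (h : M2).det := fun h => by
    simp only [hκ, MulEquiv.coe_toMonoidHom, MulAut.conj_apply, inv_inv, Units.val_mul,
      Matrix.det_mul]
    have : ((Pu⁻¹ : GL2) : M2).det * (Pu : M2).det = 1 := by
      rw [← Matrix.det_mul, ← Units.val_mul, inv_mul_cancel, Units.val_one, Matrix.det_one]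
    linear_combination (h : M2).det * this
  have hcol : ∀ (h : GL2) (u : Fin 2 → ZMod p), (h : M2) *ᵥ ((Pu : M2) *ᵥ u) = (Pu : M2) *ᵥ u →
      (κ h : M2) *ᵥ u = u := fun h u hu => by
    simp only [hκ, MulEquiv.coe_toMonoidHom, MulAut.conj_apply, inv_inv, Units.val_mul,
      ← Matrix.mulVec_mulVec, hu]
    rw [Matrix.mulVec_mulVec, ← Units.val_mul, inv_mul_cancel, Units.val_one, Matrix.one_mulVec]
  have hPv : (Pu : M2) *ᵥ ![1, 0] = v := by
    rw [hPu]; ext i; fin_cases i <;> simp [hP, Matrix.mulVec, dotProduct, Fin.sum_univ_two]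
  have hPw : (Pu : M2) *ᵥ ![0, 1] = w := by
    rw [hPu]; ext i; fin_cases i <;> simp [hP, Matrix.mulVec, dotProduct, Fin.sum_univ_two]
  have hTw : (ρ (σ * τ * σ⁻¹) : M2) *ᵥ w = w := by
    rw [hw, map_mul, map_mul, Units.val_mul, Units.val_mul, Matrix.mulVec_mulVec, mul_assoc,
      ← Units.val_mul (ρ σ⁻¹), ← map_mul ρ σ⁻¹, inv_mul_cancel, map_one, Units.val_one, mul_one,
      ← Matrix.mulVec_mulVec, hTv]
  -- determinant one
  have hdet1 : ∀ h : GL2, h ^ p = 1 → (h : M2).det = 1 := fun h hh => by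
    have := congrArg (fun x : GL2 => (x : M2).det) hh
    simpa [Matrix.det_pow, ZMod.pow_card] using this
  have hσp : ρ (σ * τ * σ⁻¹) ^ p = 1 := by
    rw [map_mul, map_mul, map_inv, conj_pow, hτp, mul_one, mul_inv_cancel]
  have hσ1 : ρ (σ * τ * σ⁻¹) ≠ 1 := by
    rw [map_mul, map_mul, map_inv]
    exact fun e => hτ (conj_eq_one_iff.mp e)
  have hκinj : Function.Injective κ := (MulAut.conj Pu⁻¹).injective
  have h1 : ∃ a : ZMod p, a ≠ 0 ∧ (κ (ρ τ) : M2) = upU a := by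
    have hfix := hcol (ρ τ) ![1, 0] (by rw [hPv]; exact hTv)
    have hd := (hdet (ρ τ)).trans (hdet1 _ hτp)
    rw [Matrix.det_fin_two] at hd
    have e00 := congrFun hfix 0
    have e10 := congrFun hfix 1
    simp [Matrix.mulVec, dotProduct, Fin.sum_univ_two] at e00 e10
    rw [e00, e10, one_mul, mul_zero, sub_zero] at hd
    refine ⟨(κ (ρ τ) : M2) 0 1, fun ha => hτ (hκinj ?_), ?_⟩
    · rw [map_one]; ext i j; fin_cases i <;> fin_cases j <;> simp [e00, e10, hd, ha]
    · ext i j; fin_cases i <;> fin_cases j <;> simp [upU, e00, e10, hd]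
  have h2 : ∃ b : ZMod p, b ≠ 0 ∧ (κ (ρ (σ * τ * σ⁻¹)) : M2) = loU b := by
    have hfix := hcol (ρ (σ * τ * σ⁻¹)) ![0, 1] (by rw [hPw]; exact hTw)
    have hd := (hdet (ρ (σ * τ * σ⁻¹))).trans (hdet1 _ hσp)
    rw [Matrix.det_fin_two] at hd
    have e01 := congrFun hfix 0
    have e11 := congrFun hfix 1
    simp [-map_mul, Matrix.mulVec, dotProduct, Fin.sum_univ_two] at e01 e11
    rw [e01, e11, mul_one, zero_mul, sub_zero] at hd
    refine ⟨(κ (ρ (σ * τ * σ⁻¹)) : M2) 1 0, fun ha => hσ1 (hκinj ?_), ?_⟩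
    · rw [map_one]; ext i j
      fin_cases i <;> fin_cases j <;> simp [-map_mul, e01, e11, hd, ha]
    · ext i j; fin_cases i <;> fin_cases j <;> simp [-map_mul, loU, e01, e11, hd]
  obtain ⟨a, ha, hA⟩ := h1
  obtain ⟨b, hb, hB⟩ := h2
  set S : Submonoid M2 := ((ρ.range.map κ).toSubmonoid).map (Units.coeHom M2) with hS
  have hmem : ∀ x : Γℚ, (κ (ρ x) : M2) ∈ S := fun x =>
    ⟨κ (ρ x), ⟨ρ x, ⟨x, rfl⟩, rfl⟩, rfl⟩
  have hU : ∀ c, upU c ∈ S := fun c => by
    have := S.pow_mem (hmem τ) (c / a).val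
    rw [hA, upU_pow, ZMod.natCast_zmod_val, div_mul_cancel₀ _ ha] at this
    exact this
  have hL : ∀ c, loU c ∈ S := fun c => by
    have := S.pow_mem (hmem (σ * τ * σ⁻¹)) (c / b).val
    rw [hB, loU_pow, ZMod.natCast_zmod_val, div_mul_cancel₀ _ hb] at this
    exact this
  obtain ⟨u, ⟨u', hu', rfl⟩, hu⟩ :=
    mem_of_unipotents S hU hL (κ g : M2) ((hdet g).trans hg)
  exact hκinj (Units.ext hu) ▸ hu'

/-- An irreducible image with an element of order `p` and full determinant is everything. -/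
theorem surjective_of_order {ρ : Γℚ →* GL2} (hirr : Irr ρ)
    (hdet : ∀ σ, (ρ σ : M2).det = ((cycChar p σ : (ZMod p)ˣ) : ZMod p)) {τ : Γℚ} (hτ : ρ τ ≠ 1)
    (hτp : ρ τ ^ p = 1) : Function.Surjective ρ := by
  intro g
  obtain ⟨σ, hσ⟩ := cycChar_surjective p (Matrix.GeneralLinearGroup.det g)
  obtain ⟨x, hx⟩ := sl2_le_range hirr hτ hτp ((ρ σ)⁻¹ * g) (by
    have e : ((ρ σ : GL2) : M2).det = (g : M2).det := by
      rw [hdet, hσ]; rfl
    rw [Units.val_mul, Matrix.det_mul, ← e, ← Matrix.det_mul, ← Units.val_mul, inv_mul_cancel,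
      Units.val_one, Matrix.det_one])
  exact ⟨σ * x, by rw [map_mul, hx, mul_inv_cancel_left]⟩

/-- The quadratic character of the mod `p` cyclotomic one is ramified at `p`. -/
theorem exists_inertia_pow_half_ne_one (hp2 : p ≠ 2) {A : ValuationSubring ℚbar}
    (hA : A.LiesOverPrime p) :
    ∃ τ ∈ A.inertiaSubgroupIn ℚ, cycChar p τ ^ ((p - 1) / 2) ≠ 1 := by
  set ε : Γℚ →* (ZMod p)ˣ := (powMonoidHom ((p - 1) / 2)).comp (cycChar p) with hε
  have hp3 : 3 ≤ p := Nat.lt_of_le_of_ne hp.out.two_le hp2.symm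
  by_contra hno
  push Not at hno
  obtain ⟨g, hg⟩ := IsCyclic.exists_generator (α := (ZMod p)ˣ)
  obtain ⟨u, hu⟩ := cycChar_surjective p g
  have h1 := eq_one_of_forall_inertia ε (Subgroup.isOpen_mono (H₁ := (cycChar p).ker)
    (fun x hx => by simp_all [MonoidHom.mem_ker]) (isOpen_cycChar_ker p)) (fun ℓ hℓ => by
      rcases eq_or_ne ℓ p with rfl | hne
      · exact ⟨A, hA, hno⟩
      · obtain ⟨B, hB⟩ := Fermat.CFT.exists_place hℓ
        exact ⟨B, hB, fun σ hσ => by
          simp [hε, cycChar_eq_one_of_mem_inertia hℓ hne hB hσ]⟩) u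
  rw [hε, MonoidHom.comp_apply, hu, powMonoidHom_apply, ← orderOf_dvd_iff_pow_eq_one,
    orderOf_eq_card_of_forall_mem_zpowers hg, Nat.card_eq_fintype_card, ZMod.card_units] at h1
  have := Nat.le_of_dvd (by omega) h1
  omega

/-- A homomorphism to a commutative group of exponent two, unramified outside an odd `p`, kills
the kernel of the mod `p` cyclotomic character. -/
theorem eq_one_of_sq {C : Type*} [CommGroup C] (χ : Γℚ →* C) (hopen : IsOpen (χ.ker : Set Γℚ))
    (h2 : ∀ x : C, x ^ 2 = 1) (hp2 : p ≠ 2)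
    (hunr : ∀ ℓ : ℕ, ℓ.Prime → ℓ ≠ p → ∀ B : ValuationSubring ℚbar, B.LiesOverPrime ℓ →
      ∀ σ ∈ B.inertiaSubgroupIn ℚ, χ σ = 1) {σ : Γℚ} (hσ : cycChar p σ = 1) : χ σ = 1 := by
  classical
  -- the quadratic character of the cyclotomic one
  set ε : Γℚ →* (ZMod p)ˣ := (powMonoidHom ((p - 1) / 2)).comp (cycChar p) with hε
  have hp3 : 3 ≤ p := Nat.lt_of_le_of_ne hp.out.two_le hp2.symm
  have hhalf : (p - 1) / 2 * 2 = p - 1 := by
    obtain ⟨m, hm⟩ := hp.out.odd_of_ne_two hp2; omega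
  have hεsq : ∀ σ, ε σ ^ 2 = 1 := fun σ => by
    simp only [hε, MonoidHom.comp_apply, powMonoidHom_apply, ← pow_mul, hhalf,
      ZMod.units_pow_card_sub_one_eq_one]
  obtain ⟨A, hA⟩ := Fermat.CFT.exists_place hp.out
  have hP : IsPlace A p := ⟨hp.out, hA⟩
  set ψ : Γℚ →* C × (ZMod p)ˣ := χ.prod ε with hψ
  have hψ2 : ∀ σ, ψ σ ^ 2 = 1 := fun σ => Prod.ext (h2 _) (hεsq σ)
  have hψopen : IsOpen (ψ.ker : Set Γℚ) := by
    refine Subgroup.isOpen_mono (H₁ := χ.ker ⊓ (cycChar p).ker) ?_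
      (hopen.inter (isOpen_cycChar_ker p))
    intro x hx
    simp only [Subgroup.mem_inf, MonoidHom.mem_ker] at hx
    simp [hψ, hε, MonoidHom.mem_ker, hx.1, hx.2]
  let U : ClosedSubgroup Γℚ := ⟨ψ.ker, Subgroup.isClosed_of_isOpen _ hψopen⟩
  set L : IntermediateField ℚ ℚbar := IntermediateField.fixedField ψ.ker with hL
  have hfix : L.fixingSubgroup = ψ.ker := InfiniteGalois.fixingSubgroup_fixedField U
  have : FiniteDimensional ℚ L := (InfiniteGalois.isOpen_iff_finite L).mp (by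
    change IsOpen (L.fixingSubgroup : Set Γℚ)
    rw [hfix]; exact hψopen)
  have : IsGalois ℚ L := (InfiniteGalois.normal_iff_isGalois L).mp (by
    rw [hfix]; infer_instance)
  obtain ⟨τ, hτ, hgen⟩ := Fermat.GR.RT.exists_inertia_generator (ρ := ψ) hP hfix.le fun σ hσ =>
    Fermat.GR.RT.wild_eq_one hP hfix.le (Nat.coprime_two_left.mpr (hp.out.odd_of_ne_two hp2))
      (fun σ _ => ⟨1, by rw [pow_one]; exact hψ2 σ⟩) hσ
  obtain ⟨τ₀, hτ₀, hετ₀⟩ : ∃ τ₀ ∈ A.inertiaSubgroupIn ℚ, ε τ₀ ≠ 1 :=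
    exists_inertia_pow_half_ne_one hp2 hA
  obtain ⟨j₀, hj₀⟩ := hgen τ₀ hτ₀
  have hετ : ε τ ≠ 1 := fun e => hετ₀ (by
    have := congrArg Prod.snd hj₀
    simpa [hψ, e] using this)
  -- inertia of `χ` factors through `ε`
  have hχ : ∀ σ ∈ A.inertiaSubgroupIn ℚ, ε σ = 1 → χ σ = 1 := by
    intro σ hσ he
    obtain ⟨j, hj⟩ := hgen σ hσ
    have e1 : χ σ = χ τ ^ j := by simpa [hψ] using congrArg Prod.fst hj
    have e2 : ε σ = ε τ ^ j := by simpa [hψ] using congrArg Prod.snd hj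
    have hord : orderOf (ε τ) = 2 := orderOf_eq_prime (hεsq τ) hετ
    rw [he, eq_comm, ← orderOf_dvd_iff_pow_eq_one, hord] at e2
    obtain ⟨i, rfl⟩ := e2
    rw [e1, pow_mul, h2, one_pow]
  -- divide by a power of `ε`
  have hneg : ∀ x, ε x ≠ 1 → ε x = -1 := fun x hx => by
    rcases sq_eq_one_iff.mp (show ((ε x : ZMod p)) ^ 2 = 1 by
      rw [← Units.val_pow_eq_pow_val, hεsq, Units.val_one]) with e | e
    · exact absurd (Units.ext e) hx
    · exact Units.ext (by simpa using e)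
  have hker : ε.ker ≤ χ.ker := by
    let f : Γℚ →* C :=
      { toFun := fun x => if ε x = 1 then 1 else χ τ
        map_one' := by simp
        map_mul' := fun x y => by
          by_cases hx : ε x = 1 <;> by_cases hy : ε y = 1
          · simp [hx, hy]
          · simp [hx, hy]
          · simp [hx, hy]
          · have : ε (x * y) = 1 := by rw [map_mul, hneg x hx, hneg y hy, neg_mul_neg, one_mul]
            simp [hx, hy, this, ← sq, h2] }
    have hf : f τ = χ τ := if_neg hετ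
    set θ : Γℚ →* C := χ * f with hθ
    have hθopen : IsOpen (θ.ker : Set Γℚ) := by
      refine Subgroup.isOpen_mono (H₁ := ψ.ker) ?_ hψopen
      intro x hx
      simp only [hψ, MonoidHom.mem_ker, MonoidHom.prod_apply, Prod.mk_eq_one] at hx
      simp [hθ, f, MonoidHom.mem_ker, hx.1, hx.2]
    have h0 : ∀ x, θ x = 1 := eq_one_of_forall_inertia θ hθopen fun ℓ hℓ => by
      rcases eq_or_ne ℓ p with rfl | hne
      · refine ⟨A, hA, fun σ hσ => ?_⟩
        obtain ⟨j, hj⟩ := hgen σ hσ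
        have e1 : χ σ = χ τ ^ j := by simpa [hψ] using congrArg Prod.fst hj
        have e2 : ε σ = ε τ ^ j := by simpa [hψ] using congrArg Prod.snd hj
        have e3 : f σ = χ τ ^ j := by
          rcases Nat.even_or_odd j with ⟨i, rfl⟩ | ⟨i, rfl⟩
          · simp [f, e2, ← two_mul, pow_mul, hεsq, h2]
          · simp [f, e2, pow_succ, pow_mul, hεsq, h2, hετ]
        simp [hθ, e1, e3, ← sq, h2]
      · obtain ⟨B, hB⟩ := Fermat.CFT.exists_place hℓ
        exact ⟨B, hB, fun σ hσ => by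
          simp [hθ, f, hε, cycChar_eq_one_of_mem_inertia hℓ hne hB hσ, hunr ℓ hℓ hne B hB σ hσ]⟩
    intro x hx
    have := h0 x
    rw [MonoidHom.mem_ker] at hx ⊢
    simpa [hθ, f, hx] using this
  exact hker (by simp [hε, MonoidHom.mem_ker, hσ])

end Fermat.SW.Surj

end
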