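import Fermat.Agent.EC.Level35

/-!
# Supersingular reduction at three gives an irreducible three-torsion

A stable line of order three would give a rational root of `Ψ₃`, whose numerator and denominator
would both be divisible by three.
-/

set_option autoImplicit false

noncomputable section

open WeierstrassCurve WeierstrassCurve.Affine Polynomial
open Fermat.EC Fermat.EC.Level

namespace Fermat.SW

local notation "ℚbar" => AlgebraicClosure ℚ

/-- A stable line of order three gives a rational root of the division polynomial. -/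
theorem exists_root_psi_three (W : WeierstrassCurve ℤ) (hΔ : W.Δ ≠ 0)
    (hred : ¬ W.ModRepIsIrreducible 3) :
    ∃ r : ℚ, 3 * r ^ 4 + W.b₂ * r ^ 3 + 3 * W.b₄ * r ^ 2 + 3 * W.b₆ * r + W.b₈ = 0 := by
  obtain ⟨r, hr⟩ := exists_rat_root_Ψ₃ W hΔ hred
  refine ⟨r, Rat.cast_injective (α := ℚbar) ?_⟩
  rw [WeierstrassCurve.Ψ₃, IsRoot.def] at hr
  simp only [eval_add, eval_mul, eval_pow, eval_C, eval_X, eval_ofNat] at hr
  have e2 : (overQbar W).b₂ = (W.b₂ : ℚbar) := by
    simp [overQbar, WeierstrassCurve.baseChange, map_b₂]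
  have e4 : (overQbar W).b₄ = (W.b₄ : ℚbar) := by
    simp [overQbar, WeierstrassCurve.baseChange, map_b₄]
  have e6 : (overQbar W).b₆ = (W.b₆ : ℚbar) := by
    simp [overQbar, WeierstrassCurve.baseChange, map_b₆]
  have e8 : (overQbar W).b₈ = (W.b₈ : ℚbar) := by
    simp [overQbar, WeierstrassCurve.baseChange, map_b₈]
  rw [e2, e4, e6, e8] at hr
  push_cast
  exact hr

/-- Good supersingular reduction at three: the three-torsion is irreducible. -/
theorem irreducible_three_of_supersingular (W : WeierstrassCurve ℤ)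
    (hgood : ¬ (3 : ℤ) ∣ W.Δ) (hb2 : (3 : ℤ) ∣ W.b₂) : W.ModRepIsIrreducible 3 := by
  by_contra hred
  have hΔ : W.Δ ≠ 0 := fun e => hgood (e ▸ dvd_zero _)
  obtain ⟨r, hr⟩ := exists_root_psi_three W hΔ hred
  -- `3 ∤ b₈`, as `b₂, b₈ ≡ 0` would force `Δ ≡ 0`
  have hb8 : ¬ (3 : ℤ) ∣ W.b₈ := by
    intro h8
    apply hgood
    obtain ⟨u, hu⟩ := hb2
    have h4 : (3 : ℤ) ∣ W.b₄ := by
      refine Int.prime_three.dvd_of_dvd_pow (n := 2) ⟨u * W.b₆ - 4 * (W.b₈ / 3), ?_⟩
      obtain ⟨v, hv⟩ := h8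
      rw [hv, Int.mul_ediv_cancel_left _ (by norm_num)]
      have := W.b_relation
      rw [hu, hv] at this
      linear_combination this
    obtain ⟨v, hv⟩ := h4
    obtain ⟨w, hw⟩ := h8
    refine ⟨-(W.b₂ * W.b₂ * w) - 72 * v ^ 3 - 9 * W.b₆ ^ 2 + 9 * u * 3 * v * W.b₆, ?_⟩
    simp only [WeierstrassCurve.Δ]
    rw [hw, hv, hu]
    ring
  -- clear denominators and read the equation modulo three
  set a := r.num with ha
  set d : ℤ := (r.den : ℤ) with hd
  have hint : 3 * a ^ 4 + W.b₂ * a ^ 3 * d + 3 * W.b₄ * a ^ 2 * d ^ 2 + 3 * W.b₆ * a * d ^ 3 +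
      W.b₈ * d ^ 4 = 0 := by
    apply Int.cast_injective (α := ℚ)
    push_cast
    have hrd : (r : ℚ) * d = a := by rw [hd, ha]; exact_mod_cast Rat.mul_den_eq_num r
    rw [← hrd]
    linear_combination ((d : ℚ) ^ 4) * hr
  obtain ⟨u, hu⟩ := hb2
  have h3d : (3 : ℤ) ∣ d := by
    have : (3 : ℤ) ∣ W.b₈ * d ^ 4 :=
      ⟨-(a ^ 4 + u * a ^ 3 * d + W.b₄ * a ^ 2 * d ^ 2 + W.b₆ * a * d ^ 3), by
        rw [hu] at hint; linear_combination hint⟩
    exact Int.prime_three.dvd_of_dvd_pow ((Int.prime_three.dvd_or_dvd this).resolve_left hb8)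
  obtain ⟨v, hv⟩ := h3d
  have h3a : (3 : ℤ) ∣ a := by
    refine Int.prime_three.dvd_of_dvd_pow (n := 4)
      ⟨-(u * a ^ 3 * v + W.b₄ * a ^ 2 * v ^ 2 * 3 + W.b₆ * a * v ^ 3 * 9 + W.b₈ * v ^ 4 * 9), ?_⟩
    rw [hu, hv] at hint
    apply mul_left_cancel₀ (show (3 : ℤ) ≠ 0 by norm_num)
    linear_combination hint
  have hco : Nat.Coprime a.natAbs r.den := r.reduced
  have h1 : 3 ∣ a.natAbs := Int.natCast_dvd.mp (by exact_mod_cast h3a)
  have h2 : 3 ∣ r.den := Int.natCast_dvd_natCast.mp (by push_cast; rw [← hd]; exact ⟨v, hv⟩)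
  exact absurd (Nat.dvd_gcd h1 h2) (by rw [hco]; norm_num)

end Fermat.SW
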