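import Fermat.Agent.SW.Local3

/-!
# Supersingular reduction at three: an inertia element of order eight

`exists_inertia_order_eight`, which makes the three-torsion of such a curve satisfy the hypotheses
of the weight one input (`RM/Main`).
-/

set_option autoImplicit false

noncomputable section

open WeierstrassCurve.Affine Fermat.EC Fermat.EC.Val Fermat.EC.Red Fermat.FLAT
open scoped WeierstrassCurve.Affine Pointwise

namespace Fermat.SW

local notation "ℚbar" => AlgebraicClosure ℚ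

variable {A : ValuationSubring ℚbar} {W : WeierstrassCurve ℤ}

/-- All three-torsion abscissae have order `-1/4`. -/
theorem ord_root_supersingular (h : IsPlace A 3) (hgood : ¬ (3 : ℤ) ∣ W.Δ) (hb2 : (3 : ℤ) ∣ W.b₂)
    {x : ℚbar} (hx : (overQbar W : WeierstrassCurve ℚbar).Ψ₃.eval x = 0) :
    Is A 3 x (-1 / 4) := by
  obtain ⟨k, hk⟩ := hb2
  -- A good supersingular model has `b₄` and `b₈` prime to `3`.
  have hb4 : ¬ (3 : ℤ) ∣ W.b₄ := by
    rintro ⟨m, hm⟩
    apply hgood
    refine ⟨-(3 * k ^ 2 * W.b₈) - 8 * 9 * m ^ 3 - 9 * W.b₆ ^ 2 + 9 * k * 3 * m * W.b₆, ?_⟩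
    rw [WeierstrassCurve.Δ, hk, hm]; ring
  have hb8 : ¬ (3 : ℤ) ∣ W.b₈ := by
    rintro ⟨m, hm⟩
    have e := W.b_relation
    rw [hk, hm] at e
    exact hb4 (Int.prime_three.dvd_of_dvd_pow (n := 2) ⟨k * W.b₆ - 4 * m, by linear_combination e⟩)
  have hev : (3 : ℚbar) * x ^ 4 + (W.b₂ : ℚbar) * x ^ 3 + 3 * (W.b₄ : ℚbar) * x ^ 2 +
      3 * (W.b₆ : ℚbar) * x + (W.b₈ : ℚbar) = 0 := by
    have e := hx
    simp [WeierstrassCurve.Ψ₃, overQbar, WeierstrassCurve.baseChange] at e
    linear_combination e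
  have h3i : Is A 3 (3 : ℚbar) 1 := ⟨by norm_num, by exact_mod_cast ord_q (L := ℚbar) h⟩
  have h2 : Ge A 3 (W.b₂ : ℚbar) 1 := by
    rw [hk]; push_cast
    simpa using h3i.ge.mul h (ge_intCast h k)
  have h8 : Is A 3 (W.b₈ : ℚbar) 0 := is_intCast h hb8
  have hx0 : x ≠ 0 := fun e => h8.1 (by rw [e] at hev; linear_combination hev)
  have hxr : Is A 3 x (ord A 3 x) := is_ord hx0
  set r := ord A 3 x with hr
  -- A root of order `≥ 0` would make `b₈` divisible by `3`.
  have hneg : r < 0 := by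
    by_contra hh
    push Not at hh
    have hg : Ge A 3 x 0 := hxr.ge.mono hh
    have t : Gt A 3 ((3 : ℚbar) * x ^ 4 + (W.b₂ : ℚbar) * x ^ 3 + 3 * (W.b₄ : ℚbar) * x ^ 2 +
        3 * (W.b₆ : ℚbar) * x) 0 := by
      refine Gt.add h (Gt.add h (Gt.add h ?_ ?_) ?_) ?_
      · exact (h3i.ge.mul h (hg.pow h 4)).gt (by norm_num)
      · exact (h2.mul h (hg.pow h 3)).gt (by norm_num)
      · exact ((h3i.ge.mul h (ge_intCast h _)).mul h (hg.pow h 2)).gt (by norm_num)
      · exact ((h3i.ge.mul h (ge_intCast h _)).mul h hg).gt (by norm_num)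
    have := h8.add h t
    rw [show (W.b₈ : ℚbar) + _ = 0 from (add_comm _ _).trans hev] at this
    exact this.1 rfl
  -- So `3 x ^ 4` alone dominates the other terms and balances `b₈`: `1 + 4 r = 0`.
  have hA : Is A 3 ((3 : ℚbar) * x ^ 4 + (W.b₂ : ℚbar) * x ^ 3 + 3 * (W.b₄ : ℚbar) * x ^ 2 +
      3 * (W.b₆ : ℚbar) * x) (1 + 4 * r) := by
    refine Is.add h (Is.add h (Is.add h ?_ ?_) ?_) ?_
    · simpa using h3i.mul h (hxr.pow h 4)
    · exact (h2.mul h (hxr.ge.pow h 3)).gt (by push_cast; linarith)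
    · exact ((h3i.ge.mul h (ge_intCast h _)).mul h (hxr.ge.pow h 2)).gt (by push_cast; linarith)
    · exact ((h3i.ge.mul h (ge_intCast h _)).mul h hxr.ge).gt (by linarith)
  have heq := (h8.neg h).unique (r := (0 : ℚ)) (s := 1 + 4 * r) (by
    rwa [show -(W.b₈ : ℚbar) = (3 : ℚbar) * x ^ 4 + (W.b₂ : ℚbar) * x ^ 3 +
      3 * (W.b₄ : ℚbar) * x ^ 2 + 3 * (W.b₆ : ℚbar) * x by linear_combination -hev])
  exact ⟨hx0, by linarith⟩

/-- An eighth root of unity congruent to one is one. -/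
lemma eq_one_of_pow_eight (h : IsPlace A 3) {z : ℚbar} (hz : z ^ 8 = 1) (hd : Gt A 3 (z - 1) 0) :
    z = 1 := by
  have hz0 : z ≠ 0 := fun e => by rw [e] at hz; norm_num at hz
  have hu : Is A 3 z 0 := by
    refine ⟨hz0, ?_⟩
    have := ord_pow h z 8
    rw [hz, ord_one h] at this
    push_cast at this; linarith
  have h2 : Is A 3 (2 : ℚbar) 0 := by
    simpa using is_natCast (A := A) (L := ℚbar) h (a := 2) (by norm_num)
  have hne : ∀ i : ℕ, z ^ i + 1 ≠ 0 := fun i e => by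
    have := h2.add h (Fermat.EC.Cyclo.gt_pow_sub_one h hu.ge hd i)
    rw [show (2 : ℚbar) + (z ^ i - 1) = z ^ i + 1 by ring, e] at this
    exact this.1 rfl
  have : (z - 1) * ((z ^ 1 + 1) * (z ^ 2 + 1) * (z ^ 4 + 1)) = 0 := by linear_combination hz
  exact sub_eq_zero.mp ((mul_eq_zero.mp this).resolve_right
    (mul_ne_zero (mul_ne_zero (hne 1) (hne 2)) (hne 4)))

/-- **Inertia contains an element of order eight on the three-torsion.** -/
theorem exists_inertia_order_eight (h : IsPlace A 3) (hgood : ¬ (3 : ℤ) ∣ W.Δ)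
    (hb2 : (3 : ℤ) ∣ W.b₂) : ∃ ι ∈ A.inertiaSubgroupIn ℚ, ∀ (n : ℕ) (P : TorW (modQ W) 3),
      P ≠ 0 → ι ^ n • P = P → 8 ∣ n := by
  classical
  have : Fact (Nat.Prime 3) := ⟨Nat.prime_three⟩
  have : NeZero (8 : ℚbar) := ⟨by norm_num⟩
  -- an inertia element multiplying an eighth root of `3` by a primitive `ζ`
  obtain ⟨π, hπ⟩ := exists_pi 3 8 (by norm_num)
  obtain ⟨ζ, hζ⟩ := HasEnoughRootsOfUnity.exists_primitiveRoot ℚbar 8
  obtain ⟨ι, hι, hιπ⟩ := exists_move h (e := 8) (by norm_num) hπ hζ.pow_eq_one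
  refine ⟨ι, hι, fun n P hP hn => ?_⟩
  have hi := isInert_of_mem_inertia hι
  have hπn : ∀ n : ℕ, (ι ^ n) π = ζ ^ n * π :=
    move_pow h (by norm_num) hζ.pow_eq_one hι hιπ
  rcases hP' : (P : (overQbar W).Point) with _ | ⟨x, y, hns⟩
  · exact absurd (Subtype.ext hP') hP
  -- a point of order three has parameter `-x / y` of order `1 / 8`
  have hroot : (overQbar W : WeierstrassCurve ℚbar).Ψ₃.eval x = 0 := by
    have := wv_eq_zero_of_order hns (n := 3) (by norm_num)
      (fun k h1 h2 => Fermat.EC.Line.nsmul_ne_zero_of_lt Nat.prime_three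
        (by rw [← hP']; exact three_smul_coe P) (by rw [← hP']; exact fun e => hP (Subtype.ext e))
        h1 h2)
      (by rw [← hP']; exact three_smul_coe P)
    rwa [show ((3 : ℕ) : ℤ) = 3 from rfl, wv_three] at this
  have hxo := ord_root_supersingular h hgood hb2 hroot
  obtain ⟨w, hw, hxw, hyw⟩ := exists_of_not_ge h (integralAt_overQbar W h) hns.1
    (not_ge_of_neg hxo (by norm_num))
  have hw8 : w = 1 / 8 := by have := hxw.unique hxo; linarith
  have ht := ge_tpar_of h hxw hyw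
  rw [hw8] at ht
  have hpi := is_pi h (e := 8) (by norm_num) hπ
  set u := -x / y / π with hu
  have hu0 : Is A 3 u 0 := by
    have := ht.div h hpi
    norm_num at this
    exact this
  have hfix : (ι ^ n) (-x / y) = -x / y := by
    have e := congrArg Subtype.val hn
    change ι ^ n • (P : (overQbar W).Point) = P at e
    rw [hP', Point.algEquiv_smul_def, Point.map_some, Point.some.injEq] at e
    rw [map_div₀, map_neg]
    exact congrArg₂ (fun a b => -a / b) e.1 e.2
  have hπ0 := hpi.1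
  -- if it is fixed, `ζⁿ` is congruent to `1`, hence equal to it
  have hd : Gt A 3 ((ι ^ n) u - u) 0 :=
    (isInert_of_mem_inertia (pow_mem hι n)).gt_sub h hu0.ge
  have hz0 : ζ ^ n ≠ 0 := pow_ne_zero _ (hζ.ne_zero (by norm_num))
  have hιu : (ι ^ n) u = u / ζ ^ n := by
    rw [hu, map_div₀, hfix, hπn, div_div, mul_comm (ζ ^ n)]
    field_simp
  have hzu : Is A 3 (ζ ^ n) 0 := by
    refine ⟨hz0, ?_⟩
    have := ord_pow h (ζ ^ n) 8
    rw [← pow_mul, mul_comm n 8, pow_mul, hζ.pow_eq_one, one_pow, ord_one h] at this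
    push_cast at this; linarith
  have hone : Gt A 3 (ζ ^ n - 1) 0 := by
    have := ((hd.neg h).mul_ge h hzu.ge).div h hu0
    rw [hιu] at this
    have e : -(u / ζ ^ n - u) * ζ ^ n / u = ζ ^ n - 1 := by
      field_simp [hu0.1]; ring
    rw [e] at this
    simpa using this
  exact (hζ.pow_eq_one_iff_dvd n).mp (eq_one_of_pow_eight h
    (by rw [← pow_mul, mul_comm n 8, pow_mul, hζ.pow_eq_one, one_pow]) hone)

end Fermat.SW
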