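import Fermat.Agent.SW.AuxPrime
import Fermat.Agent.SW.FactFive

/-!
# The auxiliary prime of the switch at level three

The main result is `exists_aux_prime3`.
-/

set_option autoImplicit false

noncomputable section

open WeierstrassCurve.Affine Fermat.EC.Val Fermat.CFT
open scoped WeierstrassCurve.Affine

namespace Fermat.SW

/-- Modulo `5`, minus the cube of a non-square is a non-square. -/
lemma not_square_neg_cube : ∀ u : (ZMod 5)ˣ, (∀ s : ZMod 5, (u : ZMod 5) ≠ s ^ 2) →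
    ∀ s : ZMod 5, (-1 : ZMod 5) * (u : ZMod 5) ^ 3 ≠ s ^ 2 := by
  decide

/-- Every power of a square unit modulo `5` is a nonzero square. -/
lemma isSquare_zpow_two (u : (ZMod 5)ˣ) (m : ℤ) :
    ∃ r : ZMod 5, r ≠ 0 ∧ (((u ^ (2 : ℤ)) ^ m : (ZMod 5)ˣ) : ZMod 5) = r ^ 2 :=
  ⟨((u ^ m : (ZMod 5)ˣ) : ZMod 5), Units.ne_zero _, by
    rw [← zpow_mul, mul_comm, zpow_mul, zpow_two, Units.val_mul, pow_two]⟩

/-- A nonzero square times a non-square modulo `5` is a non-square. -/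
lemma mul_not_square (x y : ZMod 5) (hx : ∃ r : ZMod 5, r ≠ 0 ∧ x = r ^ 2)
    (hy : ∀ s : ZMod 5, y ≠ s ^ 2) (s : ZMod 5) : x * y ≠ s ^ 2 := by
  obtain ⟨r, hr, rfl⟩ := hx
  intro h
  exact hy (s / r) (by rw [div_pow, ← h]; field_simp)

/-- The non-squares modulo `5` are `2` and `3`. -/
lemma mod_five_of_not_square (n : ℕ) (h : ∀ s : ZMod 5, (n : ZMod 5) ≠ s ^ 2) :
    n % 5 = 2 ∨ n % 5 = 3 := by
  rw [← ZMod.natCast_mod n 5] at h
  have h5 := Nat.mod_lt n (show 5 > 0 by norm_num)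
  interval_cases hh : n % 5
  · exact absurd rfl (h 0)
  · exact absurd rfl (h 1)
  · exact Or.inl rfl
  · exact Or.inr rfl
  · exact absurd rfl (h 2)

/-- **The auxiliary prime at level three.** -/
theorem exists_aux_prime3 (W : WeierstrassCurve ℤ) (hW : W.Δ ≠ 0) (hss : W.IsSemistableModel)
    [Fact (Nat.Prime 3)] (T : Finset ℕ) :
    ∃ ℓ : ℕ, ℓ.Prime ∧ ℓ ∉ T ∧ ¬ (ℓ : ℤ) ∣ W.Δ ∧ ℓ ≠ 3 ∧ ℓ % 4 = 3 ∧
      (ℓ % 5 = 2 ∨ ℓ % 5 = 3) ∧ (W.apOfModel ℓ : ZMod 3) = 0 := by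
  obtain ⟨A5, hA5⟩ := exists_place (ℓ := 5) Nat.prime_five
  have h5 : IsPlace A5 5 := ⟨Nat.prime_five, hA5⟩
  obtain ⟨τ, hτ, hτns⟩ := Fermat.FLAT.exists_cycChar_not_square (p := 5) h5 (by norm_num)
  obtain ⟨c, hcc, hcz⟩ := exists_complexConj
  obtain ⟨z5, hz5⟩ := exists_primitiveRoot_qbar (q := 5)
  obtain ⟨ℓ, B, φ, hℓ, hT, hgood, hne3, hne5, hℓ4, hB, hφ, ⟨m, hφz⟩, htr⟩ :=
    exists_frobenius_trace_zero (p := 3) W hW hss (by norm_num) h5 (by norm_num) (by norm_num)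
      hτ hcc hcz z5 T
  refine ⟨ℓ, hℓ, hT, hgood, hne3, hℓ4, ?_, htr⟩
  have hg5 : ∀ s : ZMod 5, ((cycChar 5 (c * τ ^ 3) : (ZMod 5)ˣ) : ZMod 5) ≠ s ^ 2 := by
    rw [map_mul, map_pow, Units.val_mul, Units.val_pow_eq_pow_val,
      cycChar_conj_eq_neg_one hcz hz5]
    exact not_square_neg_cube _ hτns
  have e : cycChar 5 φ = cycChar 5 ((c * τ ^ 3) ^ (2 * m + 1)) := by
    refine Units.ext ?_
    rw [cycChar_eq_of_apply hz5 (hφz.trans
      (apply_eq_pow_cycChar ((c * τ ^ 3) ^ (2 * m + 1)) hz5.pow_eq_one)), ZMod.natCast_zmod_val]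
  have h1 := cycChar_frobenius (q := 5) hℓ hne5 hB hφ
  rw [e, map_zpow, zpow_add_one, zpow_mul, Units.val_mul] at h1
  refine mod_five_of_not_square ℓ fun s => ?_
  rw [← h1]
  exact mul_not_square _ _ (isSquare_zpow_two _ m) hg5 s

end Fermat.SW
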