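import Fermat.Agent.SW.Fam3

/-!
# The shear of the level three family

The shear is `shear3`.
-/

set_option autoImplicit false

noncomputable section

open WeierstrassCurve.Affine Matrix

namespace Fermat.SW.Three

local notation "ℚbar" => AlgebraicClosure ℚ

variable {ω : ℚbar} (hω : IsPrimitiveRoot ω 3)

/-- The powers of `diag (1, ω)`. -/
lemma matD_one_pow (n : ℕ) : (matD ω 1) ^ n = matD ω n := by
  induction n with
  | zero => ext i j; fin_cases i <;> fin_cases j <;> simp [matD]
  | succ n ih =>
    rw [pow_succ, ih]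
    ext i j; fin_cases i <;> fin_cases j <;>
      simp [matD, Matrix.mul_apply, Fin.sum_univ_two, pow_succ]

/-- The diagonal element multiplies the second coordinate by a power of `ω`. -/
lemma act_matD (n : ℕ) (v : ℚbar × ℚbar) : act (matD ω n) v = (v.1, ω ^ n * v.2) := by
  simp [act, matD]

include hω

/-- A matrix fixing the first label acts as a power of `diag(1, ω)`. -/
lemma stab3 (h : Matrix (Fin 2) (Fin 2) ℚbar) (hh : (fam3 hω).Pres h) (v : ℚbar × ℚbar)
    (hv : (fam3 hω).Reg v) (hx : X3 (act h v) = X3 v) (hy : Y3 (act h v) = Y3 v) :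
    ∃ i : Fin 3, act h v = act (matD ω i.val) v := by
  have h4 : C4 (act h v) = C4 v := (hh v).1
  obtain ⟨e1, e3⟩ := fst_eq_of_XY (v := v) (w := act h v) hv h4 hx hy
  obtain ⟨h2, -⟩ := ne_of_reg (v := v) hv
  have : NeZero 3 := ⟨by norm_num⟩
  obtain ⟨i, hi, hie⟩ := hω.eq_pow_of_pow_eq_one (ξ := (act h v).2 / v.2) (by
    rw [div_pow, e3, div_self (pow_ne_zero _ h2)])
  refine ⟨⟨i, hi⟩, ?_⟩
  rw [act_matD]
  refine Prod.ext e1 ?_
  change _ = ω ^ i * v.2
  rw [hie, div_mul_cancel₀ _ h2]

/-- **The shear of level three.** The diagonal matrix of `ω` as a shear of `fam3`. -/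
def shear3 : (fam3 hω).Shear where
  g := matD ω 1
  pres := fun {R} _ _ w => ⟨(r_pres3 hω 1 w).1, (r_pres3 hω 1 w).2.1⟩
  pow_eq := by
    rw [matD_one_pow, matD, hω.pow_eq_one]
    exact Matrix.one_fin_two.symm
  j0 := ((0, none) : Fin 2 × Option (Fin 3))
  j1 := ((0, some 0) : Fin 2 × Option (Fin 3))
  j2 := ((0, some 1) : Fin 2 × Option (Fin 3))
  ne := by intro h; exact absurd (congrArg Prod.snd h) (by decide)
  fix0 := fun v => by
    simp [Fam.px, Fam.py, fam3, formX, formY, tMat3, sgn, act, matD, X3, Y3, mul_pow,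
      hω.pow_eq_one]
  move := fun v => by
    simp [Fam.px, Fam.py, fam3, formX, formY, tMat3, sgn, act, matD, X3, Y3]
    constructor <;> ring
  deg := 1
  deg_pos := one_pos
  hom := fun c v => by
    change C4 (c * v.1, c * v.2) = _ * C4 v ∧ C6 (c * v.1, c * v.2) = _ * C6 v
    simp only [C4, C6]
    constructor <;> ring
  -- the matrices fixing the first mark are powers of the shear
  stab := fun h hh v hv hx hy => by
    obtain ⟨i, e⟩ := stab3 hω h hh v hv
      (by simpa [Fam.px, fam3, formX, tMat3, sgn, act] using hx)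
      (by simpa [Fam.py, fam3, formY, tMat3, sgn, act] using hy)
    exact ⟨i.val, fun j => by rw [matD_one_pow, e]; exact ⟨rfl, rfl⟩⟩
  -- those fixing every mark are scalars
  scalar := fun h hh v hv hall => by
    obtain ⟨i, e⟩ := stab3 hω h hh v hv
      (by simpa [Fam.px, fam3, formX, tMat3, sgn,
            act] using (hall ((0, none) : Fin 2 × Option (Fin 3))).1)
      (by simpa [Fam.py, fam3, formY, tMat3, sgn,
            act] using (hall ((0, none) : Fin 2 × Option (Fin 3))).2)
    obtain ⟨h1, h2⟩ := hall ((0, some 0) : Fin 2 × Option (Fin 3))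
    rw [e] at h1 h2
    have hj : ((0, some i) : Fin 2 × Option (Fin 3)) = ((0, some 0) : Fin 2 × Option (Fin 3)) := by
      refine (fam3 hω).label_inj hv (j := ((0, some i) : Fin 2 × Option (Fin 3))) ?_ ?_
      · refine Eq.trans ?_ h1
        simp [Fam.px, fam3, tMat3, sgn, act, matD]
        congr 1
        exact Prod.ext (by ring) (by ring)
      · refine Eq.trans ?_ h2
        simp [Fam.py, fam3, tMat3, sgn, act, matD]
        congr 1
        exact Prod.ext (by ring) (by ring)
    have hi : i = 0 := Option.some.inj (congrArg Prod.snd hj)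
    refine ⟨1, one_pow 1, ?_⟩
    rw [e, hi]
    simp [act, matD]

end Fermat.SW.Three
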