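import Fermat.Agent.SW.ParamGen
import Fermat.Agent.SW.Shear3

/-!
# Scaling and continuity for the family of level three

The main results are `scalesAt` and `cont3`.
-/

set_option autoImplicit false

noncomputable section

open WeierstrassCurve WeierstrassCurve.Affine Fermat.EC.Val
open scoped WeierstrassCurve.Affine

namespace Fermat.SW.Three

local notation "ℚbar" => AlgebraicClosure ℚ
local notation "Γℚ" => (AlgebraicClosure ℚ ≃ₐ[ℚ] AlgebraicClosure ℚ)

variable {ω : ℚbar} (hω : IsPrimitiveRoot ω 3) {A : ValuationSubring ℚbar} {q : ℕ}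

include hω in
/-- The parameters of a curve with unramified `3`-torsion are unramified. -/
private lemma param_fixed (hq : q.Prime) (hq3 : q ≠ 3) {B : ValuationSubring ℚbar}
    (h : IsPlace B q) {a b : ℚ} (hab : a ^ 3 ≠ b ^ 2)
    (hunr : ∀ ι ∈ B.inertiaSubgroupIn ℚ, ∀ x : TorQ a b 3, ι • x = x) {u : ℚbar × ℚbar}
    (hu : (fam3 hω).Over a b u) (hu4 : C4 u = algebraMap ℚ ℚbar a)
    (hreg : C4 u ^ 3 ≠ C6 u ^ 2) {ι : Γℚ} (hι : ι ∈ B.inertiaSubgroupIn ℚ) :
    ι u.1 = u.1 ∧ ι u.2 = u.2 := by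
  classical
  obtain ⟨-, hb⟩ := ne_of_reg hreg
  have hιω : ι ω = ω := Fermat.FLAT.apply_root_eq h
    (fun hd => hq3 ((Nat.prime_dvd_prime_iff_eq hq Nat.prime_three).mp hd)) hω.pow_eq_one
    (isInert_of_mem_inertia hι)
  -- inertia fixes the points of the family
  have hpt : ∀ j, ι ((fam3 hω).px j u) = (fam3 hω).px j u ∧
      ι ((fam3 hω).py j u) = (fam3 hω).py j u := by
    intro j
    obtain ⟨hns, e⟩ := (fam3 hω).markQ_some_coe hab hu j
    have h1 := congrArg Subtype.val (hunr ι hι ((fam3 hω).markQ hab hu (some j)))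
    change ι • ((fam3 hω).markQ hab hu (some j) : ((shortCurve a b)⁄ℚbar).Point) = _ at h1
    rwa [e, Affine.Point.algEquiv_smul_def, Affine.Point.map_some, Affine.Point.some.injEq] at h1
  have h0 := hpt ((0, none) : Fin 2 × Option (Fin 3))
  have h1 := (hpt ((0, some 0) : Fin 2 × Option (Fin 3))).1
  simp [Fam.px, Fam.py, fam3, formX, formY, tMat3, sgn, act, X3, Y3, map_ofNat] at h0
  simp [Fam.px, fam3, formX, tMat3, sgn, act, X3, cS, hιω, map_ofNat] at h1
  -- so the image of `u` has the same covariant and first point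
  have hc : C4 (ι u.1, ι u.2) = C4 u := by
    have : ι (C4 u) = C4 u := by rw [hu4, AlgEquiv.commutes]
    rw [← this]; simp [C4, map_mul, map_add, map_pow, map_ofNat]
  obtain ⟨e1, e3⟩ := fst_eq_of_XY (v := u) (w := (ι u.1, ι u.2)) hreg hc
    (by simp only [X3]; rw [h0.1]) (by simp only [Y3]; rw [h0.2])
  refine ⟨e1, ?_⟩
  simp only at e1 e3
  by_contra hne
  have : NeZero 3 := ⟨by norm_num⟩
  set w := ι u.2 with hw
  -- a different second coordinate is the rotated one, against regularity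
  have hsum : w ^ 2 + w * u.2 + u.2 ^ 2 = 0 := by
    refine (mul_eq_zero.mp (show (w - u.2) * (w ^ 2 + w * u.2 + u.2 ^ 2) = 0 by
      linear_combination e3)).resolve_left (sub_ne_zero.mpr hne)
  obtain ⟨-, hcs0⟩ := cS_sq hω
  have hden : (1 + 2 * ω) ≠ 0 := fun e => hcs0 (by rw [cS, e, div_zero])
  have key : (w - u.2) * (u.1 + w + u.2) = 0 := by
    rw [e1] at h1
    field_simp at h1
    linear_combination (1 / 4 : ℚbar) * h1
  have h2 := (mul_eq_zero.mp key).resolve_left (sub_ne_zero.mpr hne)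
  apply hb
  linear_combination (u.1 ^ 2 - u.1 * (w + u.2) + (w + u.2) ^ 2) * h2 - (w + 2 * u.2) * hsum

/-- For a primitive parameter `c₄` and the discriminant are not both small. -/
private lemma not_both_small (hq : q.Prime) (hq2 : q ≠ 2) (hq3 : q ≠ 3) {B : ValuationSubring ℚbar}
    (h : IsPlace B q) {n d : ℚbar} (hn0 : Ge B q n 0) (hd0 : Ge B q d 0)
    (hunit : ¬ (Gt B q n 0 ∧ Gt B q d 0)) :
    ¬ (Gt B q (9 * n * (n ^ 3 + 8 * d ^ 3)) 0 ∧
      Gt B q (46656 * (d * (n ^ 3 - d ^ 3)) ^ 3) 0) := by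
  rintro ⟨g4, g12⟩
  have an := (mem_iff_ge h n).mpr hn0
  have bd := (mem_iff_ge h d).mpr hd0
  have cst : ∀ c : ℕ, ((c : ℕ) : ℚbar) ∈ B := natCast_mem B
  have hunitc : ∀ c : ℕ, c.Coprime q → Is B q ((c : ℕ) : ℚbar) 0 := fun c hc =>
    is_natCast h fun hd => hq.one_lt.ne' (Nat.dvd_one.mp (hc ▸ Nat.dvd_gcd hd dvd_rfl))
  have hco : ∀ c : ℕ, (∀ r : ℕ, r.Prime → r ∣ c → r = 2 ∨ r = 3) → c.Coprime q := fun c hc =>
    ((Nat.Prime.coprime_iff_not_dvd hq).mpr fun hd => by
      rcases hc q hq hd with e | e <;> contradiction).symm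
  -- `9` and `46656` are units at `q`, so `d (n³ - d³)` is small
  have h9 : Is B q (9 : ℚbar) 0 := by
    simpa using hunitc 9 (hco 9 fun r hr hd =>
      Or.inr ((Nat.prime_dvd_prime_iff_eq hr Nat.prime_three).mp
      (hr.dvd_of_dvd_pow (n := 2) (by simpa using hd))))
  have h6 : Is B q (46656 : ℚbar) 0 := by
    simpa using hunitc 46656 (hco 46656 fun r hr hd => by
      have h23 : r ∣ 2 ^ 6 * 3 ^ 6 := hd
      rcases hr.dvd_mul.mp h23 with h2 | h3
      · exact Or.inl ((Nat.prime_dvd_prime_iff_eq hr Nat.prime_two).mp (hr.dvd_of_dvd_pow h2))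
      · exact Or.inr ((Nat.prime_dvd_prime_iff_eq hr Nat.prime_three).mp (hr.dvd_of_dvd_pow h3)))
  have hdg : Gt B q (d * (n ^ 3 - d ^ 3)) 0 := by
    by_contra hne
    have hI := (h6.mul h ((Ge.is_of_not_gt (by
      rw [← mem_iff_ge h]; exact mul_mem bd (sub_mem (pow_mem an 3) (pow_mem bd 3))) hne).pow h 3))
    simp only [mul_zero, add_zero] at hI
    exact hI.not_gt g12
  -- if `n` is small then `d` and `n³ - d³` are units
  by_cases gn : Gt B q n 0
  · have hdI : Is B q d 0 := hd0.is_of_not_gt fun g => hunit ⟨gn, g⟩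
    have h3 : Is B q (n ^ 3 - d ^ 3) 0 := by
      have gn3 : Gt B q (n ^ 3) 0 := by
        have := gn.mul_ge h ((mem_iff_ge h (n ^ 2)).mp (pow_mem an 2))
        simpa [← pow_succ'] using this
      have := ((hdI.pow h 3).neg h).add h (y := n ^ 3) (by simpa using gn3)
      simpa [sub_eq_neg_add] using this
    exact ((hdI.mul h h3).not_gt) (by simpa using hdg)
  -- else `n³ + 8 d³` is small, and the same two are units
  · have hnI := hn0.is_of_not_gt gn
    have g8 : Gt B q (n ^ 3 + 8 * d ^ 3) 0 := by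
      by_contra hne
      have := (h9.mul h hnI).mul h (Ge.is_of_not_gt (by
        rw [← mem_iff_ge h]
        exact add_mem (pow_mem an 3) (mul_mem (cst 8) (pow_mem bd 3))) hne)
      simp only [add_zero] at this
      exact this.not_gt g4
    have hdI : Is B q d 0 := hd0.is_of_not_gt fun g => by
      have g3 : Gt B q (8 * d ^ 3) 0 := by
        have := g.mul_ge h ((mem_iff_ge h (8 * d ^ 2)).mp (mul_mem (cst 8) (pow_mem bd 2)))
        rw [show d * (8 * d ^ 2) = 8 * d ^ 3 by ring] at this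
        simpa using this
      have := (hnI.pow h 3).add h (by simpa using g3)
      simp only [Nat.cast_ofNat, mul_zero] at this
      exact this.not_gt g8
    have h3 : Is B q (n ^ 3 - d ^ 3) 0 := by
      have := ((h9.mul h (hdI.pow h 3)).neg h).add h (by simpa using g8)
      rw [show -(9 * d ^ 3) + (n ^ 3 + 8 * d ^ 3) = n ^ 3 - d ^ 3 by ring] at this
      simpa using this
    exact ((hdI.mul h h3).not_gt) (by simpa using hdg)

include hω in
/-- **Semistable scaling** of a short curve with unramified `3`-torsion. -/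
theorem scalesAt (hq : q.Prime) (hq2 : q ≠ 2) (hq3 : q ≠ 3) : ScalesAt 3 q := by
  intro B h a b hab hunr
  obtain ⟨u, hu4, hu6⟩ := (fam3 hω).exists_value (algebraMap ℚ ℚbar a) (algebraMap ℚ ℚbar b)
    (Fam.pow_ne hab)
  have hu : (fam3 hω).Over a b u := Prod.ext hu4 hu6
  change C4 u = _ at hu4
  change C6 u = _ at hu6
  have hreg : C4 u ^ 3 ≠ C6 u ^ 2 := by rw [hu4, hu6]; exact Fam.pow_ne hab
  obtain ⟨hv0, -⟩ := ne_of_reg hreg
  have hfix : ∀ ι ∈ B.inertiaSubgroupIn ℚ, ι u.1 = u.1 ∧ ι u.2 = u.2 := fun ι hι =>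
    param_fixed hω hq hq3 h hab hunr hu hu4 hreg hι
  -- scale the inertia-fixed parameter to a primitive one `(n, d)`
  obtain ⟨m, hn0, hd0, hunit⟩ := exists_primitive_scale h hv0
    (fun ι hι => (hfix ι hι).1) fun ι hι => (hfix ι hι).2
  set t : ℚbar := (q : ℚbar) ^ (-m) with ht
  set n := t * u.1 with hn
  set d := t * u.2 with hd
  have hz : ∀ (e : ℕ), algebraMap ℚ ℚbar ((q : ℚ) ^ ((e : ℤ) * -m)) = t ^ e := fun e => by
    rw [map_zpow₀, map_natCast, ht, ← zpow_natCast, ← zpow_mul, mul_comm]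
  -- the scaled invariants are integral polynomials in `n, d`
  have e4 : algebraMap ℚ ℚbar (a * (q : ℚ) ^ (4 * -m)) = 9 * n * (n ^ 3 + 8 * d ^ 3) := by
    rw [map_mul, show (4 : ℤ) = ((4 : ℕ) : ℤ) from rfl, hz, ← hu4, C4, hn, hd]; ring
  have e6 : algebraMap ℚ ℚbar (b * (q : ℚ) ^ (6 * -m)) =
      27 * (n ^ 6 - 20 * n ^ 3 * d ^ 3 - 8 * d ^ 6) := by
    rw [map_mul, show (6 : ℤ) = ((6 : ℕ) : ℤ) from rfl, hz, ← hu6, C6, hn, hd]; ring
  have e12 : algebraMap ℚ ℚbar ((a ^ 3 - b ^ 2) * (q : ℚ) ^ (12 * -m)) =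
      46656 * (d * (n ^ 3 - d ^ 3)) ^ 3 := by
    rw [map_mul, show (12 : ℤ) = ((12 : ℕ) : ℤ) from rfl, hz, map_sub, map_pow,
      map_pow, ← hu4, ← hu6, disc_eq, hn, hd]; ring
  have an := (mem_iff_ge h n).mpr hn0
  have bd := (mem_iff_ge h d).mpr hd0
  have cst : ∀ c : ℕ, ((c : ℕ) : ℚbar) ∈ B := natCast_mem B
  refine ⟨-m, ?_, ?_, ?_⟩
  · rw [e4, ← mem_iff_ge h]
    exact mul_mem (mul_mem (cst 9) an) (add_mem (pow_mem an 3) (mul_mem (cst 8) (pow_mem bd 3)))
  · rw [e6, ← mem_iff_ge h]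
    exact mul_mem (cst 27) (sub_mem (sub_mem (pow_mem an 6)
      (mul_mem (mul_mem (cst 20) (pow_mem an 3)) (pow_mem bd 3))) (mul_mem (cst 8) (pow_mem bd 6)))
  rw [e4, e12]
  -- and two of them cannot both be small
  exact not_both_small hq hq2 hq3 h hn0 hd0 hunit

include hω in
/-- The scaled forms of the family are continuous in the combination and the scale. -/
theorem cont3 {x : ℚbar × ℚbar × ℚbar} (h : IsPlace A q) (v w : ℚbar × ℚbar) :
    ContAt A q x (fun y => y.2.2 ^ 4 * (fam3 hω).c4.toFun (comb v w y)) ∧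
      ContAt A q x (fun y => y.2.2 ^ 6 * (fam3 hω).c6.toFun (comb v w y)) := by
  have hu : ContAt A q x fun y => (comb v w y).1 :=
    (contAt_fst.mul h (contAt_const v.1)).add h (contAt_snd.mul h (contAt_const w.1))
  have hw : ContAt A q x fun y => (comb v w y).2 :=
    (contAt_fst.mul h (contAt_const v.2)).add h (contAt_snd.mul h (contAt_const w.2))
  exact ⟨(contAt_thd.pow h 4).mul h
    (((contAt_const 9).mul h hu).mul h ((hu.pow h 3).add h ((contAt_const 8).mul h (hw.pow h 3)))),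
   (contAt_thd.pow h 6).mul h
    ((contAt_const 27).mul h (((hu.pow h 6).sub h
      (((contAt_const 20).mul h (hu.pow h 3)).mul h (hw.pow h 3))).sub h
      ((contAt_const 8).mul h (hw.pow h 6))))⟩

end Fermat.SW.Three
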