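import Fermat.Agent.SW.Switch
import Fermat.Agent.SW.GoodQ3
import Fermat.Agent.SW.AuxPrime3

/-!
# The switches with a prescribed curve at three

A twisted form of the family of curves with the `p`-torsion of `W` has a rational point with
prescribed behaviour at finitely many primes: `W` itself at the bad primes, a curve `V3` at three up
to `3 ^ M`, and a curve with trace zero at an auxiliary prime, which makes the `q`-torsion
irreducible. The main theorems `exists_switch5` and `exists_switch3` return such a curve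
(`Switched`) for every local target at three (`Target5`, `Target3`); the targets are made in
`Targets` and, packed as `MultTarget`, in `Cusp`; `Chain` chooses between them. With `V3 = W` this
is the plain switch from five to three (`exists_switch`).
-/

set_option autoImplicit false

noncomputable section

open Fermat.EC.Val

namespace Fermat.SW

local notation "ℚbar" => AlgebraicClosure ℚ
local notation "Γℚ" => (AlgebraicClosure ℚ ≃ₐ[ℚ] AlgebraicClosure ℚ)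

/-- Parameters, fixed by the decomposition group, approximating `V` on the family of `W[5]`.
A target carries its own choice of the family data `ζ, v, w`: it is only made from a local datum
(`target5_of_datum`), and the switch works with the choice it is given. -/
def Target5 (A : ValuationSubring ℚbar) (W V : WeierstrassCurve ℤ) (M : ℕ) : Prop :=
  ∃ (ζ : ℚbar) (hζ : IsPrimitiveRoot ζ 5) (v w : ℚbar × ℚbar),
    (Five.fam5 hζ).Over (modQ W).c₄ (modQ W).c₆ v ∧ (Five.fam5 hζ).Twisted v w ∧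
    w.1 * v.2 - w.2 * v.1 ≠ 0 ∧
    ∃ s t μ : ℚbar, (∀ σ ∈ A.decompositionSubgroup ℚ, σ s = s ∧ σ t = t ∧ σ μ = μ) ∧
      Ge A 3 (μ ^ 4 * Five.C4 (comb v w (s, t, μ)) - (V.c₄ : ℚbar)) (M + 6 : ℕ) ∧
      Ge A 3 (μ ^ 6 * Five.C6 (comb v w (s, t, μ)) - (V.c₆ : ℚbar)) (M + 6 : ℕ)

/-- Parameters, fixed by the decomposition group, approximating `V` on the family of `W[3]`, for
every choice of the family data `ω, v, w`, unlike `Target5`: so `W` is a target for itself with the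
parameters `(1, 0, 1)` whatever the choice (`target3_self`), and the switch makes the choice. -/
def Target3 (A : ValuationSubring ℚbar) (W V : WeierstrassCurve ℤ) (M : ℕ) : Prop :=
  ∀ {ω : ℚbar} (hω : IsPrimitiveRoot ω 3) {v w : ℚbar × ℚbar},
    (Three.fam3 hω).Over (modQ W).c₄ (modQ W).c₆ v → (Three.fam3 hω).Twisted v w →
    w.1 * v.2 - w.2 * v.1 ≠ 0 →
    ∃ s t μ : ℚbar, (∀ σ ∈ A.decompositionSubgroup ℚ, σ s = s ∧ σ t = t ∧ σ μ = μ) ∧
      Ge A 3 (μ ^ 4 * Three.C4 (comb v w (s, t, μ)) - (V.c₄ : ℚbar)) (M + 6 : ℕ) ∧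
      Ge A 3 (μ ^ 6 * Three.C6 (comb v w (s, t, μ)) - (V.c₆ : ℚbar)) (M + 6 : ℕ)

/-- `X ^ 2 + 2` has no root modulo five. -/
lemma sq_add_two_ne_zero_zmod_five : ∀ x : ZMod 5, x ^ 2 + ((2 : ℕ) : ZMod 5) ≠ 0 := by decide

/-- `X ^ 2 + 3` has no root modulo five. -/
lemma sq_add_three_ne_zero_zmod_five : ∀ x : ZMod 5, x ^ 2 + ((3 : ℕ) : ZMod 5) ≠ 0 := by decide

/-- A switch in a family of level `p` with prescribed curves at `3` and at an auxiliary prime. -/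
private theorem exists_switch_prescribed {p : ℕ} [hp : Fact p.Prime] {F : Fam ℚbar p} (S : F.Shear)
    (hp2 : p ≠ 2) {W : WeierstrassCurve ℤ} (hΔ : W.Δ ≠ 0) (hW : W.IsSemistableModel)
    (hsc : ∀ q : ℕ, q.Prime → q ≠ 2 → q ≠ 3 → q ≠ p → ScalesAt p q)
    {v w : ℚbar × ℚbar} (hv : F.Over (modQ W).c₄ (modQ W).c₆ v) (hw : F.Twisted v w)
    (hind : w.1 * v.2 - w.2 * v.1 ≠ 0)
    (hcont : ∀ {B : ValuationSubring ℚbar} {q : ℕ} {x : ℚbar × ℚbar × ℚbar}, IsPlace B q →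
      ContAt B q x (fun y => y.2.2 ^ 4 * F.c4.toFun (comb v w y)) ∧
        ContAt B q x (fun y => y.2.2 ^ 6 * F.c6.toFun (comb v w y)))
    {A : ValuationSubring ℚbar} (hA3 : IsPlace A 3) {V3 : WeierstrassCurve ℤ} (hV3 : V3.Δ ≠ 0)
    (hV3ss : (3 : ℤ) ∣ V3.Δ → ¬ (3 : ℤ) ∣ V3.c₄) {M : ℕ} (hM : 1 ≤ M)
    (hpar3 : ∃ s t μ : ℚbar, (∀ σ ∈ A.decompositionSubgroup ℚ, σ s = s ∧ σ t = t ∧ σ μ = μ) ∧
      Ge A 3 (μ ^ 4 * F.c4.toFun (comb v w (s, t, μ)) - (V3.c₄ : ℚbar)) (M + 6 : ℕ) ∧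
      Ge A 3 (μ ^ 6 * F.c6.toFun (comb v w (s, t, μ)) - (V3.c₆ : ℚbar)) (M + 6 : ℕ))
    {ℓ : ℕ} [hℓ : Fact ℓ.Prime] (hℓ2 : ℓ ≠ 2) (hℓ3 : ℓ ≠ 3) (hℓp : ℓ ≠ p) (hℓ4 : ℓ % 4 = 3)
    (hℓgood : ¬ (ℓ : ℤ) ∣ W.Δ) (hℓa : (W.apOfModel ℓ : ZMod p) = 0) :
    ∃ W' : WeierstrassCurve ℤ, W'.Δ ≠ 0 ∧ W'.IsSemistableModel ∧
      (∃ e : TorW (modQ W) p ≃+ TorW (modQ W') p, ∀ (σ : Γℚ) x, e (σ • x) = σ • e x) ∧
      (∃ n : ℤ, ¬ (3 : ℤ) ∣ n ∧ ScaledCong W' V3 ((3 : ℤ) ^ M) n) ∧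
      ∃ n : ℤ, ¬ (ℓ : ℤ) ∣ n ∧ ScaledCong W' auxE ℓ n := by
  classical
  -- prescribe `auxE` at `ℓ`, `V3` at three and `W` at the other primes of `T`
  set T := switchPrimes W p ℓ with hTdef
  let V : ℕ → WeierstrassCurve ℤ := fun q => if q = ℓ then auxE else if q = 3 then V3 else W
  have hVΔ : ∀ q ∈ T, (V q).Δ ≠ 0 := fun q _ => by
    simp only [V]
    split_ifs <;> first | exact hΔ | exact hV3 | (rw [auxE_Δ]; norm_num)
  let P : ℕ → ValuationSubring ℚbar := fun q =>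
    if q = 3 then A else if h : q.Prime then (Fermat.CFT.exists_place h).choose else ⊤
  have hP : ∀ q ∈ T, IsPlace (P q) q := fun q hq => by
    have hq' := prime_of_mem_switchPrimes hℓ.out hq
    by_cases h : q = 3
    · subst h; simp only [P, if_pos rfl]; exact hA3
    · simp only [P, if_neg h, dif_pos hq']
      exact ⟨hq', (Fermat.CFT.exists_place hq').choose_spec⟩
  have hpar : ∀ q ∈ T, ∃ s t μ : ℚbar,
      (∀ σ ∈ (P q).decompositionSubgroup ℚ, σ s = s ∧ σ t = t ∧ σ μ = μ) ∧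
      Ge (P q) q (μ ^ 4 * F.c4.toFun (comb v w (s, t, μ)) - ((V q).c₄ : ℚbar)) (M + 6 : ℕ) ∧
      Ge (P q) q (μ ^ 6 * F.c6.toFun (comb v w (s, t, μ)) - ((V q).c₆ : ℚbar)) (M + 6 : ℕ) ∧
      (q = 2 → μ ^ 4 * F.c4.toFun (comb v w (s, t, μ)) = ((V q).c₄ : ℚbar) ∧
        μ ^ 6 * F.c6.toFun (comb v w (s, t, μ)) = ((V q).c₆ : ℚbar)) := by
    intro q hq
    by_cases h : q = ℓ
    · subst h
      simp only [V, if_pos rfl]
      obtain ⟨s, t, μ, hfix, e4, e6⟩ :=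
        exists_fixed_param_auxE S hp2 hℓ2 hℓp hℓ4 hℓgood hℓa (hP q hq) hv hw hind
      exact ⟨s, t, μ, hfix, Or.inl (sub_eq_zero.mpr e4), Or.inl (sub_eq_zero.mpr e6),
        fun _ => ⟨e4, e6⟩⟩
    · simp only [V, if_neg h]
      by_cases h' : q = 3
      · subst h'
        simp only [P, if_pos rfl]
        obtain ⟨s, t, μ, hfix, a4, a6⟩ := hpar3
        exact ⟨s, t, μ, hfix, a4, a6, fun e => absurd e (by norm_num)⟩
      simp only [if_neg h']
      obtain ⟨e4, e6⟩ := self_param hv w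
      exact ⟨1, 0, 1, fun σ _ => ⟨map_one σ, map_zero σ, map_one σ⟩,
        Or.inl (sub_eq_zero.mpr e4), Or.inl (sub_eq_zero.mpr e6), fun _ => ⟨e4, e6⟩⟩
  obtain ⟨W', hW'Δ, he, hout, hin⟩ := exists_switch_model_gen F hp2 W hΔ hv hw T
    (fun q hq => prime_of_mem_switchPrimes hℓ.out hq) (by simp [hTdef, switchPrimes])
    (by simp [hTdef, switchPrimes]) (by simp [hTdef, switchPrimes])
    (fun q hq hd => mem_switchPrimes_of_dvd hΔ hq hd)
    (fun q hq hqT => hsc q hq (fun e => hqT (by simp [hTdef, switchPrimes, e]))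
      (fun e => hqT (by simp [hTdef, switchPrimes, e]))
      (fun e => hqT (by simp [hTdef, switchPrimes, e])))
    hcont V hVΔ P hP M hpar
  have hss : W'.IsSemistableModel :=
    isSemistableModel_of_scaledCong T V (by omega) hout hin fun q _ hq hd => by
      by_cases h : q = ℓ
      · subst h
        simp only [V, if_pos rfl] at hd
        exact absurd hd (auxE_not_dvd hq hℓ2)
      · by_cases h' : q = 3
        · subst h'
          simp only [V, if_neg h] at hd ⊢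
          exact hV3ss hd
        · simp only [V, if_neg h, if_neg h'] at hd ⊢
          exact hW q hq hd
  refine ⟨W', hW'Δ, hss, he, ?_, ?_⟩
  · obtain ⟨n, hn, hc⟩ := hin 3 (by simp [hTdef, switchPrimes])
    simp only [V, if_neg (Ne.symm hℓ3)] at hc
    exact ⟨n, hn, hc⟩
  · obtain ⟨n, hn, hc⟩ := hin ℓ (by simp [hTdef, switchPrimes])
    simp only [V, if_pos rfl] at hc
    exact ⟨n, hn, hc.of_dvd (dvd_pow_self _ (by omega))⟩

/-- `W'` is a switch of `W` to `V` at three: a semistable curve with the `p`-torsion of `W` and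
irreducible `q`-torsion, congruent to `V` up to scaling modulo `3 ^ M`. -/
structure Switched (p q : ℕ) (W W' V : WeierstrassCurve ℤ) (M : ℕ) : Prop where
  /-- `W'` is nonsingular. -/
  Δ_ne : W'.Δ ≠ 0
  /-- `W'` is semistable. -/
  semistable : W'.IsSemistableModel
  /-- The `q`-torsion of `W'` is irreducible. -/
  irreducible : W'.ModRepIsIrreducible q
  /-- `W'` has the `p`-torsion of `W`. -/
  equiv : ∃ e : TorW (modQ W) p ≃+ TorW (modQ W') p, ∀ (σ : Γℚ) x, e (σ • x) = σ • e x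
  /-- `W'` is congruent to `V` up to scaling modulo `3 ^ M`. -/
  cong : ∃ n : ℤ, ¬ (3 : ℤ) ∣ n ∧ ScaledCong W' V ((3 : ℤ) ^ M) n

/-- **The switch at level five with a prescribed curve at three.** -/
theorem exists_switch5 (W : WeierstrassCurve ℤ) (hΔ : W.Δ ≠ 0) (hW : W.IsSemistableModel)
    {A : ValuationSubring ℚbar} (hA3 : IsPlace A 3) (V3 : WeierstrassCurve ℤ) (hV3 : V3.Δ ≠ 0)
    (hV3ss : (3 : ℤ) ∣ V3.Δ → ¬ (3 : ℤ) ∣ V3.c₄) (M : ℕ) (hM : 1 ≤ M) (htar : Target5 A W V3 M) :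
    ∃ W' : WeierstrassCurve ℤ, Switched 5 3 W W' V3 M := by
  have : Fact (Nat.Prime 5) := ⟨Nat.prime_five⟩
  have : Fact (Nat.Prime 3) := ⟨Nat.prime_three⟩
  obtain ⟨ℓ, hℓ, hℓT, hℓgood, hℓ5, hℓ4, hℓ3, hℓa⟩ := exists_aux_prime W hΔ hW ({2, 3, 5} : Finset ℕ)
  simp only [Finset.mem_insert, Finset.mem_singleton, not_or] at hℓT
  have := Fact.mk hℓ
  obtain ⟨ζ, hζ, v, w, hv, hw, hind, hpar3⟩ := htar
  obtain ⟨W', hW'Δ, hss, he, hc3, n, hn, hc⟩ := exists_switch_prescribed (Five.shear5 hζ)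
    (by norm_num) hΔ hW (fun q hq h2 h3 h5 => scales5 hζ hq h2 h3 h5) hv hw hind
    (fun h => cont5 hζ h v w) hA3 hV3 hV3ss hM hpar3 hℓT.1 hℓT.2.1 hℓ5 hℓ4 hℓgood hℓa
  exact ⟨W', hW'Δ, hss, irreducible_three_of_auxE hℓT.1 hℓT.2.1 hℓ4 hℓ3 hn hc, he, hc3⟩

/-- **The switch.** There is a semistable curve with irreducible three-torsion whose traces are
congruent modulo five to those of `W`. -/
theorem exists_switch (W : WeierstrassCurve ℤ) (hΔ : W.Δ ≠ 0) (hW : W.IsSemistableModel) :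
    ∃ W' : WeierstrassCurve ℤ, W'.Δ ≠ 0 ∧ W'.IsSemistableModel ∧ W'.ModRepIsIrreducible 3 ∧
      ∀ ℓ : ℕ, ℓ.Prime → W.IsGoodPrimeFor ℓ → W'.IsGoodPrimeFor ℓ → ℓ ≠ 5 →
        (5 : ℤ) ∣ (W'.apOfModel ℓ - W.apOfModel ℓ) := by
  have : Fact (Nat.Prime 5) := ⟨Nat.prime_five⟩
  obtain ⟨A, hA⟩ := Fermat.CFT.exists_place Nat.prime_three
  obtain ⟨ζ, hζ⟩ := Fermat.CFT.exists_primitiveRoot_qbar (q := 5)
  have hWc : (modQ W).c₄ ^ 3 ≠ (modQ W).c₆ ^ 2 := c_ne_of_delta (modQ_Δ_ne hΔ)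
  obtain ⟨v, hv4, hv6⟩ := (Five.fam5 hζ).exists_value (algebraMap ℚ ℚbar (modQ W).c₄)
    (algebraMap ℚ ℚbar (modQ W).c₆) (Fam.pow_ne hWc)
  have hv : (Five.fam5 hζ).Over (modQ W).c₄ (modQ W).c₆ v := Prod.ext hv4 hv6
  obtain ⟨w, hw, hind⟩ := (Five.fam5 hζ).exists_twisted_indep hWc hv
  obtain ⟨e4, e6⟩ := self_param hv w
  -- `W` is a target for itself at three
  obtain ⟨W', h'⟩ := exists_switch5 W hΔ hW ⟨Nat.prime_three, hA⟩ W hΔ (hW 3 Nat.prime_three) 1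
    le_rfl ⟨ζ, hζ, v, w, hv, hw, hind, 1, 0, 1,
      fun σ _ => ⟨map_one σ, map_zero σ, map_one σ⟩,
      Or.inl (sub_eq_zero.mpr e4), Or.inl (sub_eq_zero.mpr e6)⟩
  obtain ⟨e, he⟩ := h'.equiv
  refine ⟨W', h'.Δ_ne, h'.semistable, h'.irreducible, fun q hq hg hg' hq5 => ?_⟩
  exact_mod_cast apOfModel_congr_of_equiv (p := 5) e he hq hq5 hg hg'

/-- **The switch at level three with a prescribed curve at three.** -/
theorem exists_switch3 (W : WeierstrassCurve ℤ) (hΔ : W.Δ ≠ 0) (hW : W.IsSemistableModel)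
    {A : ValuationSubring ℚbar} (hA3 : IsPlace A 3) (V3 : WeierstrassCurve ℤ) (hV3 : V3.Δ ≠ 0)
    (hV3ss : (3 : ℤ) ∣ V3.Δ → ¬ (3 : ℤ) ∣ V3.c₄) (M : ℕ) (hM : 1 ≤ M) (htar : Target3 A W V3 M) :
    ∃ W' : WeierstrassCurve ℤ, Switched 3 5 W W' V3 M := by
  have : Fact (Nat.Prime 5) := ⟨Nat.prime_five⟩
  have : Fact (Nat.Prime 3) := ⟨Nat.prime_three⟩
  obtain ⟨ℓ, hℓ, hℓT, hℓgood, hℓne, hℓ4, hℓ5, hℓa⟩ :=
    exists_aux_prime3 W hΔ hW ({2, 3, 5} : Finset ℕ)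
  simp only [Finset.mem_insert, Finset.mem_singleton, not_or] at hℓT
  have := Fact.mk hℓ
  obtain ⟨ζ, hζ⟩ := Fermat.CFT.exists_primitiveRoot_qbar (q := 3)
  have hWc : (modQ W).c₄ ^ 3 ≠ (modQ W).c₆ ^ 2 := c_ne_of_delta (modQ_Δ_ne hΔ)
  obtain ⟨v, hv4, hv6⟩ := (Three.fam3 hζ).exists_value (algebraMap ℚ ℚbar (modQ W).c₄)
    (algebraMap ℚ ℚbar (modQ W).c₆) (Fam.pow_ne hWc)
  have hv : (Three.fam3 hζ).Over (modQ W).c₄ (modQ W).c₆ v := Prod.ext hv4 hv6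
  obtain ⟨w, hw, hind⟩ := (Three.fam3 hζ).exists_twisted_indep hWc hv
  obtain ⟨W', hW'Δ, hss, he, hc3, n, hn, hc⟩ := exists_switch_prescribed (Three.shear3 hζ)
    (by norm_num) hΔ hW (fun q hq h2 h3 _ => Three.scalesAt hζ hq h2 h3) hv hw hind
    (fun h => Three.cont3 hζ h v w) hA3 hV3 hV3ss hM (htar hζ hv hw hind)
    hℓT.1 hℓT.2.1 hℓne hℓ4 hℓgood hℓa
  refine ⟨W', hW'Δ, hss, irreducible_of_frobenius W' hℓ (p := 5) hℓT.2.2 ?_ fun x => ?_,
    he, hc3⟩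
  · exact fun hd => auxE_not_dvd hℓ hℓT.1 ((delta_c4_of_scaledCong hn hc).1.mp hd)
  · rw [apOfModel_of_scaledCong hn hc, apOfModel_auxE hℓ4, Int.cast_zero, zero_mul, sub_zero,
      ← ZMod.natCast_mod]
    rcases hℓ5 with e | e <;> rw [e]
    exacts [sq_add_two_ne_zero_zmod_five x, sq_add_three_ne_zero_zmod_five x]

end Fermat.SW
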