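import Fermat.Agent.SW.Descent
import Fermat.Agent.SW.SL2
import Mathlib.LinearAlgebra.Determinant
import Mathlib.FieldTheory.Finiteness

/-!
# The marks realise every symplectic identification

`Shear.exists_rho_eq`: with a shear, the preserving matrices induce every automorphism of
determinant one of the torsion. So a local identification of torsion can be moved onto the marks,
which is how `Align` finds the local parameters of a target.
-/

set_option autoImplicit false
set_option linter.unusedSectionVars false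

noncomputable section

open WeierstrassCurve WeierstrassCurve.Affine Matrix
open scoped WeierstrassCurve.Affine

namespace Fermat.SW.Fam

local notation "ℚbar" => AlgebraicClosure ℚ

variable {p : ℕ} [hp : Fact p.Prime] (F : Fam ℚbar p)

variable {F} in
/-- A preserving matrix has a preserving inverse. -/
lemma Pres.exists_inv {g : Matrix (Fin 2) (Fin 2) ℚbar} (hg : F.Pres g) :
    ∃ m, F.Pres m ∧ m * g = 1 ∧ g * m = 1 := by
  obtain ⟨v, hv1, hv2⟩ := F.exists_value 1 0 (by norm_num)
  have hv : F.Reg v := by unfold Reg; rw [hv1, hv2]; norm_num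
  obtain ⟨i, j, e⟩ := F.exists_pres_act (hg.reg hv) (w := v) (hg.cval_eq v).symm
  have h : F.rMat i * F.tMat j * g = 1 :=
    pres_eq (Pres.mul (F.pres_rt i j) hg) F.pres_one hv (by rw [act_mul, e, act_one])
  exact ⟨_, F.pres_rt i j, h, mul_eq_one_comm.mp h⟩

/-- A preserving matrix permutes the labelled points, uniformly in the parameter. -/
lemma exists_label_act {g : Matrix (Fin 2) (Fin 2) ℚbar} (hg : F.Pres g) (j : F.κ) :
    ∃ k, ∀ v : ℚbar × ℚbar, F.px j (act g v) = F.px k v ∧ F.py j (act g v) = F.py k v := by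
  obtain ⟨i, k, e⟩ := F.pres_cases (Pres.mul (F.pres_t j) hg)
  refine ⟨k, fun v => ?_⟩
  unfold px py
  rw [← act_mul, e]
  exact F.px_r i k v

variable {F} in
/-- A preserving matrix moves parameters over `(a, b)` to parameters over `(a, b)`. -/
lemma Over.act {a b : ℚ} {v : ℚbar × ℚbar} (hv : F.Over a b v)
    {g : Matrix (Fin 2) (Fin 2) ℚbar} (hg : F.Pres g) : F.Over a b (Fermat.SW.act g v) :=
  (hg.cval_eq v).trans hv

section

variable {a b : ℚ} (hab : a ^ 3 ≠ b ^ 2) {v : ℚbar × ℚbar} (hv : F.Over a b v)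

/-- Marks agree when their coordinates do. -/
lemma markQ_congr {v' : ℚbar × ℚbar} (hv' : F.Over a b v') {j k : F.κ}
    (hx : F.px j v' = F.px k v) (hy : F.py j v' = F.py k v) :
    F.markQ hab hv' (some j) = F.markQ hab hv (some k) := by
  obtain ⟨h1, e1⟩ := F.markQ_some_coe hab hv' j
  obtain ⟨h2, e2⟩ := F.markQ_some_coe hab hv k
  apply Subtype.ext
  rw [e1, e2, Affine.Point.some.injEq]
  exact ⟨hx, hy⟩

/-- Labels of the same torsion point at two parameters have the same coordinates. -/
lemma coords_of_markQ_eq {v' : ℚbar × ℚbar} (hv' : F.Over a b v') {j k : F.κ}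
    (h : F.markQ hab hv' (some j) = F.markQ hab hv (some k)) :
    F.px j v' = F.px k v ∧ F.py j v' = F.py k v := by
  obtain ⟨h1, e1⟩ := F.markQ_some_coe hab hv' j
  obtain ⟨h2, e2⟩ := F.markQ_some_coe hab hv k
  have := congrArg Subtype.val h
  rwa [e1, e2, Affine.Point.some.injEq] at this

variable (hp2 : p ≠ 2)

/-- The automorphism of the torsion induced by a preserving matrix. -/
def rho (g : Matrix (Fin 2) (Fin 2) ℚbar) (hg : F.Pres g) :
    TorQ a b p →ₗ[ZMod p] TorQ a b p :=
  (F.psi hp2 hab hab hv (hv.act hg)).toAddMonoidHom.toZModLinearMap p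

/-- `rho g` sends the point with a label at `v` to the point with that label at `g v`. -/
lemma rho_apply (g : Matrix (Fin 2) (Fin 2) ℚbar) (hg : F.Pres g) (o : Option F.κ) :
    F.rho hab hv hp2 g hg (F.markQ hab hv o) = F.markQ hab (hv.act hg) o :=
  F.psi_apply hp2 hab hab hv (hv.act hg) o

/-- `rho` of the identity matrix is the identity. -/
lemma rho_one : F.rho hab hv hp2 1 F.pres_one = LinearMap.id := by
  refine LinearMap.ext fun x => ?_
  obtain ⟨o, rfl⟩ := (F.markQ hab hv).surjective x
  rw [rho_apply, LinearMap.id_apply]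
  rcases o with _ | j
  · rw [markQ_none, markQ_none]
  · exact F.markQ_congr hab hv _ (by rw [act_one]) (by rw [act_one])

/-- `rho` reverses products. -/
lemma rho_mul {g h : Matrix (Fin 2) (Fin 2) ℚbar} (hg : F.Pres g) (hh : F.Pres h) :
    F.rho hab hv hp2 (g * h) (hg.mul hh) =
      (F.rho hab hv hp2 h hh).comp (F.rho hab hv hp2 g hg) := by
  refine LinearMap.ext fun x => ?_
  obtain ⟨o, rfl⟩ := (F.markQ hab hv).surjective x
  rw [LinearMap.comp_apply, rho_apply, rho_apply]
  rcases o with _ | j
  · rw [markQ_none, markQ_none, map_zero]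
  obtain ⟨k, hk⟩ := F.exists_label_act hg j
  rw [show F.markQ hab (hv.act hg) (some j) = F.markQ hab hv (some k) from
    F.markQ_congr hab hv _ (hk v).1 (hk v).2, rho_apply]
  exact F.markQ_congr hab (hv.act hh) _ (by rw [act_mul]; exact (hk _).1)
    (by rw [act_mul]; exact (hk _).2)

include F hab hv in
/-- The `p`-torsion is a plane over `ZMod p`. -/
lemma finrank_torQ : Module.finrank (ZMod p) (TorQ a b p) = 2 := by
  have hcard : Nat.card (TorQ a b p) = p ^ 2 := by
    rw [Nat.card_congr (F.markQ hab hv).symm, Nat.card_eq_fintype_card, Fintype.card_option]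
    exact F.card_κ
  have : Finite (TorQ a b p) :=
    Nat.finite_of_card_ne_zero (by rw [hcard]; exact pow_ne_zero _ hp.out.ne_zero)
  have : Module.Finite (ZMod p) (TorQ a b p) := Module.Finite.of_finite
  have h := Module.natCard_eq_pow_finrank (K := ZMod p) (V := TorQ a b p)
  rw [hcard, Nat.card_zmod] at h
  exact (Nat.pow_right_injective hp.out.two_le h).symm

end

/-- A shear: a preserving matrix fixing one label and moving another, generating the stabiliser. -/
structure Shear where
  /-- The shearing matrix. -/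
  g : Matrix (Fin 2) (Fin 2) ℚbar
  /-- It preserves both forms. -/
  pres : F.Pres g
  /-- Its order divides `p`. -/
  pow_eq : g ^ p = 1
  /-- The label which it fixes. -/
  j0 : F.κ
  /-- The label which it moves. -/
  j1 : F.κ
  /-- The label to which `j1` is moved. -/
  j2 : F.κ
  /-- The moved label changes. -/
  ne : j1 ≠ j2
  /-- Acting by `g` leaves the point with label `j0` unchanged. -/
  fix0 : ∀ v : ℚbar × ℚbar, F.px j0 (act g v) = F.px j0 v ∧ F.py j0 (act g v) = F.py j0 v
  /-- Acting by `g` turns the point with label `j1` into the one with label `j2`. -/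
  move : ∀ v : ℚbar × ℚbar, F.px j1 (act g v) = F.px j2 v ∧ F.py j1 (act g v) = F.py j2 v
  /-- The degree of homogeneity. -/
  deg : ℕ
  /-- The degree is positive. -/
  deg_pos : 0 < deg
  /-- The forms are homogeneous of degrees `4 deg` and `6 deg`. -/
  hom : ∀ (c : ℚbar) (v : ℚbar × ℚbar), F.c4.toFun (c * v.1, c * v.2) =
    (c ^ deg) ^ 4 * F.c4.toFun v ∧
    F.c6.toFun (c * v.1, c * v.2) = (c ^ deg) ^ 6 * F.c6.toFun v
  /-- A preserving matrix fixing all points acts by a scalar `c` with `c ^ deg = 1`. -/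
  scalar : ∀ h : Matrix (Fin 2) (Fin 2) ℚbar, F.Pres h → ∀ v : ℚbar × ℚbar, F.Reg v →
    (∀ j, F.px j (act h v) = F.px j v ∧ F.py j (act h v) = F.py j v) →
    ∃ c : ℚbar, c ^ deg = 1 ∧ act h v = (c * v.1, c * v.2)
  /-- A preserving matrix fixing the point `j0` acts as a power of `g`. -/
  stab : ∀ h : Matrix (Fin 2) (Fin 2) ℚbar, F.Pres h → ∀ v : ℚbar × ℚbar, F.Reg v →
    F.px j0 (act h v) = F.px j0 v → F.py j0 (act h v) = F.py j0 v →
    ∃ n : ℕ, ∀ j, F.px j (act h v) = F.px j (act (g ^ n) v) ∧
      F.py j (act h v) = F.py j (act (g ^ n) v)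

variable {F}

/-- Powers of a preserving matrix preserve the forms. -/
lemma Pres.pow {g : Matrix (Fin 2) (Fin 2) ℚbar} (hg : F.Pres g) (n : ℕ) : F.Pres (g ^ n) := by
  induction n with
  | zero => rw [pow_zero]; exact F.pres_one
  | succ n ih => rw [pow_succ]; exact ih.mul hg

variable (S : F.Shear)

section RhoMatrices

variable {a b : ℚ} (hab : a ^ 3 ≠ b ^ 2) {v : ℚbar × ℚbar} (hv : F.Over a b v) (hp2 : p ≠ 2)
  (B : Module.Basis (Fin 2) (ZMod p) (TorQ a b p))

/-- The matrices, in a basis of the torsion, of the automorphisms induced by preserving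
matrices. -/
private def rhoMatrices : Submonoid (Matrix (Fin 2) (Fin 2) (ZMod p)) where
  carrier := {M | ∃ g, ∃ hg : F.Pres g, LinearMap.toMatrix B B (F.rho hab hv hp2 g hg) = M}
  mul_mem' := by
    rintro M N ⟨g, hg, rfl⟩ ⟨h, hh, rfl⟩
    exact ⟨h * g, hh.mul hg, by rw [rho_mul, LinearMap.toMatrix_comp B B B]⟩
  one_mem' := ⟨1, F.pres_one, by rw [rho_one]; exact LinearMap.toMatrix_id B⟩

/-- The induced automorphisms are invertible. -/
private lemma det_ne_zero_of_mem_rhoMatrices {M : Matrix (Fin 2) (Fin 2) (ZMod p)}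
    (hM : M ∈ rhoMatrices hab hv hp2 B) : M.det ≠ 0 := by
  obtain ⟨g, hg, rfl⟩ := hM
  obtain ⟨m, hm, hmg, -⟩ := Pres.exists_inv hg
  intro h0
  have e : (F.rho hab hv hp2 g hg).comp (F.rho hab hv hp2 m hm) = LinearMap.id := by
    rw [← F.rho_mul hab hv hp2 hm hg]
    simp only [hmg]
    exact F.rho_one hab hv hp2
  have := congrArg (fun l => (LinearMap.toMatrix B B l).det) e
  simp only [LinearMap.toMatrix_comp B B B, Matrix.det_mul, LinearMap.toMatrix_id,
    Matrix.det_one] at this
  rw [h0, zero_mul] at this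
  exact zero_ne_one this

/-- The first column of a linear map. -/
private lemma apply_zero_eq (l : TorQ a b p →ₗ[ZMod p] TorQ a b p) :
    l (B 0) = (LinearMap.toMatrix B B l 0 0) • B 0 + (LinearMap.toMatrix B B l 1 0) • B 1 := by
  conv_lhs => rw [← B.sum_repr (l (B 0))]
  rw [Fin.sum_univ_two, LinearMap.toMatrix_apply, LinearMap.toMatrix_apply]

/-- The preserving matrices act transitively on the nonzero first columns. -/
private lemma exists_mem_rhoMatrices_col {j0 : F.κ} (hB0 : B 0 = F.markQ hab hv (some j0))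
    {c d : ZMod p} (hcd : ¬ (c = 0 ∧ d = 0)) :
    ∃ g ∈ rhoMatrices hab hv hp2 B, g 0 0 = c ∧ g 1 0 = d := by
  classical
  have hB : ∀ s t : ZMod p, s • B 0 + t • B 1 = 0 → s = 0 ∧ t = 0 := fun s t e => by
    have := Fintype.linearIndependent_iff.mp B.linearIndependent ![s, t]
      (by rw [Fin.sum_univ_two]; exact e)
    exact ⟨this 0, this 1⟩
  obtain ⟨o, ho⟩ := (F.markQ hab hv).surjective (c • B 0 + d • B 1)
  rcases o with _ | j
  · rw [markQ_none] at ho
    exact absurd (hB c d ho.symm) hcd
  obtain ⟨m, hm, -, hmr⟩ := Pres.exists_inv (F.pres_t j0)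
  have hg : F.Pres (m * F.tMat j) := Pres.mul hm (F.pres_t j)
  refine ⟨_, ⟨_, hg, rfl⟩, ?_⟩
  have e : F.rho hab hv hp2 _ hg (B 0) = c • B 0 + d • B 1 := by
    rw [← ho, hB0, rho_apply]
    refine F.markQ_congr hab hv _ ?_ ?_ <;>
      · simp only [px, py]
        rw [← act_mul, ← mul_assoc, hmr, one_mul]
  rw [apply_zero_eq] at e
  have h1 := hB (LinearMap.toMatrix B B (F.rho hab hv hp2 _ hg) 0 0 - c)
    (LinearMap.toMatrix B B (F.rho hab hv hp2 _ hg) 1 0 - d) (by
      rw [sub_smul, sub_smul]
      linear_combination (norm := module) e)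
  exact ⟨sub_eq_zero.mp h1.1, sub_eq_zero.mp h1.2⟩

/-- The matrices of the powers of the shear. -/
private lemma toMatrix_rho_pow (n : ℕ) :
    LinearMap.toMatrix B B (F.rho hab hv hp2 (S.g ^ n) (Pres.pow S.pres n)) =
      LinearMap.toMatrix B B (F.rho hab hv hp2 S.g S.pres) ^ n := by
  induction n with
  | zero => simp only [pow_zero]; rw [rho_one]; exact LinearMap.toMatrix_id B
  | succ n ih =>
    simp only [pow_succ]
    rw [F.rho_mul hab hv hp2 (Pres.pow S.pres n) S.pres, LinearMap.toMatrix_comp B B B, ih,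
      ← pow_succ', pow_succ]

/-- An induced automorphism fixing the mark of `j0` is a power of the shear. -/
private lemma exists_rho_eq_pow (g : Matrix (Fin 2) (Fin 2) ℚbar) (hg : F.Pres g)
    (h : F.rho hab hv hp2 g hg (F.markQ hab hv (some S.j0)) = F.markQ hab hv (some S.j0)) :
    ∃ n, F.rho hab hv hp2 g hg = F.rho hab hv hp2 (S.g ^ n) (Pres.pow S.pres n) := by
  rw [rho_apply] at h
  obtain ⟨hx, hy⟩ := F.coords_of_markQ_eq hab hv _ h
  obtain ⟨n, hn⟩ := S.stab g hg v (F.reg_of_cval (pow_ne hab) hv) hx hy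
  refine ⟨n, LinearMap.ext fun x => ?_⟩
  obtain ⟨o, rfl⟩ := (F.markQ hab hv).surjective x
  rw [rho_apply, rho_apply]
  rcases o with _ | j
  · rw [markQ_none, markQ_none]
  · exact F.markQ_congr hab _ _ (hn j).1 (hn j).2

/-- The shear fixes the mark of `j0`, moves that of `j1`, and the two marks are independent. -/
private lemma shear_marks :
    F.rho hab hv hp2 S.g S.pres (F.markQ hab hv (some S.j0)) = F.markQ hab hv (some S.j0) ∧
      F.rho hab hv hp2 S.g S.pres (F.markQ hab hv (some S.j1)) ≠ F.markQ hab hv (some S.j1) ∧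
      LinearIndependent (ZMod p) ![F.markQ hab hv (some S.j0), F.markQ hab hv (some S.j1)] := by
  classical
  set f := F.rho hab hv hp2 S.g S.pres with hf
  set P0 := F.markQ hab hv (some S.j0) with hP0
  set P1 := F.markQ hab hv (some S.j1) with hP1
  have hf0 : f P0 = P0 := by
    rw [hf, hP0, rho_apply]
    exact F.markQ_congr hab hv _ (S.fix0 v).1 (S.fix0 v).2
  have hf1 : f P1 ≠ P1 := by
    rw [hf, hP1, rho_apply, F.markQ_congr hab hv (hv.act S.pres) (S.move v).1 (S.move v).2]
    intro h
    exact S.ne (Option.some.inj ((F.markQ hab hv).injective h)).symm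
  have hP0ne : P0 ≠ 0 := by
    rw [hP0, ← F.markQ_none hab hv]
    exact fun h => Option.some_ne_none _ ((F.markQ hab hv).injective h)
  refine ⟨hf0, hf1, LinearIndependent.pair_iff.mpr fun s t hst => ?_⟩
  by_cases ht : t = 0
  · subst ht
    rw [zero_smul, add_zero, smul_eq_zero] at hst
    exact ⟨hst.resolve_right hP0ne, rfl⟩
  · exfalso
    have e : P1 = (-s / t) • P0 := by
      have h1 : t • P1 = -s • P0 := by
        rw [neg_smul]; exact eq_neg_of_add_eq_zero_right hst
      rw [div_eq_inv_mul, mul_smul, ← h1, smul_smul, inv_mul_cancel₀ ht, one_smul]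
    exact hf1 (by rw [e, map_smul, hf0])

end RhoMatrices

include S in
/-- **Every linear automorphism of determinant one is induced by a preserving matrix.** -/
theorem Shear.exists_rho_eq {a b : ℚ} (hab : a ^ 3 ≠ b ^ 2) {v : ℚbar × ℚbar}
    (hv : F.Over a b v) (hp2 : p ≠ 2) (L : TorQ a b p →ₗ[ZMod p] TorQ a b p)
    (hL : LinearMap.det L = 1) :
    ∃ g, ∃ hg : F.Pres g, F.rho hab hv hp2 g hg = L := by
  classical
  have h2 := F.finrank_torQ hab hv
  have : Module.Finite (ZMod p) (TorQ a b p) :=
    Module.finite_of_finrank_pos (by omega)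
  obtain ⟨hf0, hf1, hli⟩ := shear_marks S hab hv hp2
  set f := F.rho hab hv hp2 S.g S.pres with hf
  -- In the basis of the two marks the shear is upper unipotent and nontrivial.
  let B : Module.Basis (Fin 2) (ZMod p) (TorQ a b p) :=
    basisOfLinearIndependentOfCardEqFinrank hli (by rw [Fintype.card_fin, h2])
  have hB0 : B 0 = F.markQ hab hv (some S.j0) := by simp [B]
  have hB1 : B 1 = F.markQ hab hv (some S.j1) := by simp [B]
  rw [← hB0] at hf0
  rw [← hB1] at hf1
  have e00 : LinearMap.toMatrix B B f 0 0 = 1 := by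
    rw [LinearMap.toMatrix_apply, hf0, B.repr_self]; simp
  have e10 : LinearMap.toMatrix B B f 1 0 = 0 := by
    rw [LinearMap.toMatrix_apply, hf0, B.repr_self]; simp
  have e11 : LinearMap.toMatrix B B f 1 1 = 1 := by
    have hd : (LinearMap.toMatrix B B f ^ p).det = 1 := by
      rw [hf, ← toMatrix_rho_pow S hab hv hp2 B p]
      simp only [S.pow_eq]
      rw [rho_one]
      simp
    rw [Matrix.det_pow, Matrix.det_fin_two, e00, e10, mul_zero, sub_zero, one_mul,
      ZMod.pow_card] at hd
    exact hd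
  have hTeq : LinearMap.toMatrix B B f = !![1, LinearMap.toMatrix B B f 0 1; 0, 1] := by
    ext i j; fin_cases i <;> fin_cases j <;> simp [e00, e10, e11]
  have hx : LinearMap.toMatrix B B f 0 1 ≠ 0 := by
    intro h
    apply hf1
    have : LinearMap.toMatrix B B f = LinearMap.toMatrix B B LinearMap.id := by
      rw [hTeq, h]
      simp only [LinearMap.toMatrix_id]
      ext i j; fin_cases i <;> fin_cases j <;> simp
    rw [(LinearMap.toMatrix B B).injective this, LinearMap.id_apply]
  have hfm : LinearMap.toMatrix B B f ∈ rhoMatrices hab hv hp2 B := ⟨_, S.pres, rfl⟩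
  -- Preserving maps fixing the first vector are powers of the shear.
  have hst : ∀ g ∈ rhoMatrices hab hv hp2 B, g 0 0 = 1 → g 1 0 = 0 → g 1 1 = 1 := by
    rintro _ ⟨h, hh, rfl⟩ h00 h10
    have e := apply_zero_eq B (F.rho hab hv hp2 h hh)
    rw [h00, h10, one_smul, zero_smul, add_zero, hB0] at e
    obtain ⟨n, hn⟩ := exists_rho_eq_pow S hab hv hp2 h hh e
    rw [hn, toMatrix_rho_pow, ← hf, hTeq, ← SL2.upU, SL2.upU_pow, SL2.upU]
    simp
  -- These and transitivity on nonzero vectors give all of `SL₂`.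
  have hMem := (SL2.eq_SL2 (fun M => det_ne_zero_of_mem_rhoMatrices hab hv hp2 B) hx (hTeq ▸ hfm)
    (fun c d => exists_mem_rhoMatrices_col hab hv hp2 B hB0) hst (LinearMap.toMatrix B B L)).mpr
    (by rw [LinearMap.det_toMatrix, hL])
  obtain ⟨g, hg, e⟩ := hMem
  exact ⟨g, hg, (LinearMap.toMatrix B B).injective e⟩

end Fermat.SW.Fam
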