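import Fermat.Agent.SW.Adapt

/-!
# Local parameters of a target

`Shear.exists_fixed_param`: a curve whose `p`-torsion is that of `W` over a decomposition group
(`LocalDatum`) is, up to scaling, a member of the twisted family at a parameter fixed by that
group: what the switches need at each prescribed prime.
-/

set_option autoImplicit false

noncomputable section

open WeierstrassCurve WeierstrassCurve.Affine
open scoped WeierstrassCurve.Affine

namespace Fermat.SW.Fam

local notation "ℚbar" => AlgebraicClosure ℚ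
local notation "Γℚ" => (AlgebraicClosure ℚ ≃ₐ[ℚ] AlgebraicClosure ℚ)

variable {p : ℕ} [hp : Fact p.Prime] {F : Fam ℚbar p} (S : F.Shear)

include S in
/-- An equivariant identification is, up to the centraliser, one of the natural ones. -/
theorem Shear.exists_psi_commute (hp2 : p ≠ 2) {a b a' b' : ℚ} (hab : a ^ 3 ≠ b ^ 2)
    (hab' : a' ^ 3 ≠ b' ^ 2) {v : ℚbar × ℚbar} (hv : F.Over a b v) (D : Set Γℚ)
    (e : TorQ a b p ≃+ TorQ a' b' p) (he : ∀ σ ∈ D, ∀ x, e (σ • x) = σ • e x)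
    (hz : ∀ c : ZMod p, c ≠ 0 → ∃ z : TorQ a b p →ₗ[ZMod p] TorQ a b p,
      LinearMap.det z = c ∧ ∀ σ ∈ D, ∀ x, z (σ • x) = σ • z x) :
    ∃ u, ∃ hu : F.Over a' b' u, ∀ σ ∈ D, ∀ x,
      F.psi hp2 hab hab' hv hu (σ • x) = σ • F.psi hp2 hab hab' hv hu x := by
  classical
  obtain ⟨u0, h4, h6⟩ := F.exists_value (algebraMap ℚ ℚbar a') (algebraMap ℚ ℚbar b') (pow_ne hab')
  have hu0 : F.Over a' b' u0 := Prod.ext h4 h6
  have h2 := F.finrank_torQ hab hv
  have : Module.Finite (ZMod p) (TorQ a b p) := Module.finite_of_finrank_pos (by omega)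
  let P : TorQ a b p ≃ₗ[ZMod p] TorQ a' b' p :=
    LinearEquiv.ofBijective ((F.psi hp2 hab hab' hv hu0).toAddMonoidHom.toZModLinearMap p)
      (F.psi hp2 hab hab' hv hu0).bijective
  let E : TorQ a b p ≃ₗ[ZMod p] TorQ a' b' p :=
    LinearEquiv.ofBijective (e.toAddMonoidHom.toZModLinearMap p) e.bijective
  -- precompose with `z` so that the discrepancy has determinant `1`
  set d := LinearMap.det ((E.trans P.symm).toLinearMap) with hd
  have hd0 : d ≠ 0 := (LinearEquiv.isUnit_det' _).ne_zero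
  obtain ⟨z, hzd, hzD⟩ := hz d⁻¹ (inv_ne_zero hd0)
  set L₀ := (E.trans P.symm).toLinearMap.comp z with hL₀
  set L := (P.toLinearMap.comp L₀).comp P.symm.toLinearMap with hL
  have hdet : LinearMap.det L = 1 := by
    rw [hL, LinearMap.comp_assoc, LinearMap.det_conj, hL₀, LinearMap.det_comp, ← hd, hzd,
      mul_inv_cancel₀ hd0]
  -- realise it by a symmetry `g` of the parameter
  obtain ⟨g, hg, hgL⟩ := S.exists_rho_eq hab' hu0 hp2 L hdet
  refine ⟨act g u0, hu0.act hg, ?_⟩
  -- then `psi` is `e ∘ z`, which commutes with `D`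
  have key : ∀ x, F.psi hp2 hab hab' hv (hu0.act hg) x = e (z x) := by
    intro x
    have h1 : F.psi hp2 hab hab' hv (hu0.act hg) x =
        F.rho hab' hu0 hp2 g hg (F.psi hp2 hab hab' hv hu0 x) := by
      obtain ⟨o, rfl⟩ := (F.markQ hab hv).surjective x
      rw [psi_apply, psi_apply, rho_apply]
    rw [h1, hgL]
    change P (P.symm (E (z (P.symm (P x))))) = E (z x)
    rw [LinearEquiv.apply_symm_apply, LinearEquiv.symm_apply_apply]
  intro σ hσ x
  rw [key, key, hzD σ hσ, he σ hσ]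

include S in
/-- If the natural identification commutes with `σ`, then `σ` moves both parameters alike up to a
scalar. -/
theorem Shear.exists_scalar (hp2 : p ≠ 2) {a b a' b' : ℚ} (hab : a ^ 3 ≠ b ^ 2)
    (hab' : a' ^ 3 ≠ b' ^ 2) {v u : ℚbar × ℚbar} (hv : F.Over a b v) (hu : F.Over a' b' u)
    (σ : Γℚ) (hσ : ∀ x, F.psi hp2 hab hab' hv hu (σ • x) = σ • F.psi hp2 hab hab' hv hu x) :
    ∃ c : ℚbar, c ^ S.deg = 1 ∧
      Prod.map σ σ u = act (F.coc hab hv σ) (c * u.1, c * u.2) := by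
  obtain ⟨hc, hcv⟩ := F.coc_spec hab hv σ
  set c := F.coc hab hv σ with hcdef
  obtain ⟨m, hm, hmc, hcm⟩ := Pres.exists_inv hc
  obtain ⟨cu, hcu, hcuu⟩ := F.exists_cocycle hab' hu σ
  set u' := act m (Prod.map σ σ u) with hu'
  have hback : Prod.map σ σ u = act c u' := by rw [hu', ← act_mul, hcm, act_one]
  have hlab : ∀ j, F.px j (act (m * cu) u) = F.px j u ∧ F.py j (act (m * cu) u) = F.py j u := by
    intro k
    rw [act_mul, ← hcuu, ← hu']
    -- the label `k` is the image of some label `j`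
    obtain ⟨o, ho⟩ : ∃ o, σ • F.markQ hab hv o = F.markQ hab hv (some k) := by
      obtain ⟨o, ho⟩ := (F.markQ hab hv).surjective (σ⁻¹ • F.markQ hab hv (some k))
      exact ⟨o, by rw [ho, smul_inv_smul]⟩
    rcases o with _ | j
    · rw [markQ_none, smul_zero, ← F.markQ_none hab hv] at ho
      exact absurd ((F.markQ hab hv).injective ho) (by simp)
    obtain ⟨k', hk'⟩ := F.exists_label_image σ hc j
    have hkk : k' = k := by
      obtain ⟨h1, e1⟩ := F.markQ_some_coe hab hv j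
      obtain ⟨h2, e2⟩ := F.markQ_some_coe hab hv k
      have hval : σ • (F.markQ hab hv (some j) : ((shortCurve a b)⁄ℚbar).Point) =
          F.markQ hab hv (some k) := congrArg Subtype.val ho
      rw [e1, e2, Affine.Point.algEquiv_smul_def, Affine.Point.map_some,
        Affine.Point.some.injEq] at hval
      obtain ⟨f1, f2⟩ := hk' v hcv
      exact F.label_inj (F.reg_of_cval (pow_ne hab) hv) (f1.symm.trans hval.1)
        (f2.symm.trans hval.2)
    subst hkk
    have hx := hσ (F.markQ hab hv (some j))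
    rw [ho, psi_apply, psi_apply] at hx
    obtain ⟨h1, e1⟩ := F.markQ_some_coe hab' hu j
    obtain ⟨h2, e2⟩ := F.markQ_some_coe hab' hu k'
    have hval : (F.markQ hab' hu (some k') : ((shortCurve a' b')⁄ℚbar).Point) =
        σ • (F.markQ hab' hu (some j) : ((shortCurve a' b')⁄ℚbar).Point) := congrArg Subtype.val hx
    rw [e1, e2, Affine.Point.algEquiv_smul_def, Affine.Point.map_some,
      Affine.Point.some.injEq] at hval
    -- the image label works for every parameter moved by `c`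
    have himg : σ (F.px j u) = F.px k' u' ∧ σ (F.py j u) = F.py k' u' := by
      obtain ⟨i, k'', e⟩ := F.pres_cases (Pres.mul (pres_matσ σ (F.pres_t j)) hc)
      have hgen : ∀ w w' : ℚbar × ℚbar, Prod.map σ σ w = act c w' →
          σ (F.px j w) = F.px k'' w' ∧ σ (F.py j w) = F.py k'' w' := by
        intro w w' hw
        simp only [px, py, natural_σ, act_matσ, hw]
        rw [← act_mul, e]
        exact F.px_r i k'' w'
      have hkk' : k'' = k' := F.label_inj (F.reg_of_cval (pow_ne hab) hv)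
        ((hgen v v hcv).1.symm.trans (hk' v hcv).1) ((hgen v v hcv).2.symm.trans (hk' v hcv).2)
      subst hkk'
      exact hgen u u' hback
    exact ⟨himg.1.symm.trans hval.1.symm, himg.2.symm.trans hval.2.symm⟩
  obtain ⟨z, hz, hzu⟩ := S.scalar _ (Pres.mul hm hcu) u (F.reg_of_cval (pow_ne hab') hu) hlab
  refine ⟨z, hz, ?_⟩
  rw [← hzu, ← act_mul, ← mul_assoc, hcm, one_mul]
  exact hcuu

include S in
/-- **The local parameters of a target**: they are fixed by `D`. -/
theorem Shear.exists_fixed_param (hp2 : p ≠ 2) {a b a' b' : ℚ} (hab : a ^ 3 ≠ b ^ 2)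
    (hab' : a' ^ 3 ≠ b' ^ 2) {v w : ℚbar × ℚbar} (hv : F.Over a b v) (hw : F.Twisted v w)
    (hind : w.1 * v.2 - w.2 * v.1 ≠ 0) (D : Set Γℚ)
    (e : TorQ a b p ≃+ TorQ a' b' p) (he : ∀ σ ∈ D, ∀ x, e (σ • x) = σ • e x)
    (hz : ∀ c : ZMod p, c ≠ 0 → ∃ z : TorQ a b p →ₗ[ZMod p] TorQ a b p,
      LinearMap.det z = c ∧ ∀ σ ∈ D, ∀ x, z (σ • x) = σ • z x) :
    ∃ s t μ : ℚbar, μ ≠ 0 ∧ (∀ σ ∈ D, σ s = s ∧ σ t = t ∧ σ μ = μ) ∧
      μ ^ 4 * F.c4.toFun (s * v.1 + t * w.1, s * v.2 + t * w.2) = algebraMap ℚ ℚbar a' ∧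
      μ ^ 6 * F.c6.toFun (s * v.1 + t * w.1, s * v.2 + t * w.2) = algebraMap ℚ ℚbar b' := by
  obtain ⟨u, hu, hψ⟩ := S.exists_psi_commute hp2 hab hab' hv D e he hz
  set Dt := w.1 * v.2 - w.2 * v.1 with hDt
  set α := (w.1 * u.2 - w.2 * u.1) / Dt with hα
  set β := (v.2 * u.1 - v.1 * u.2) / Dt with hβ
  have hu1 : u.1 = α * v.1 + β * w.1 := by rw [hα, hβ]; field_simp; ring
  have hu2 : u.2 = α * v.2 + β * w.2 := by rw [hα, hβ]; field_simp; ring
  -- the scalar by which `σ` moves the coordinates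
  have hsig : ∀ σ ∈ D, ∃ z : ℚbar, z ^ S.deg = 1 ∧ σ α = z * α ∧ σ β = z * β := by
    intro σ hσ
    obtain ⟨z, hz1, hzu⟩ := S.exists_scalar hp2 hab hab' hv hu σ (hψ σ hσ)
    refine ⟨z, hz1, ?_⟩
    obtain ⟨hc, hcv⟩ := F.coc_spec hab hv σ
    have hcw := hw σ _ hc hcv
    set c := F.coc hab hv σ
    obtain ⟨m, -, hmc, -⟩ := Pres.exists_inv hc
    have key : act c ((σ α - z * α) * v.1 + (σ β - z * β) * w.1,
        (σ α - z * α) * v.2 + (σ β - z * β) * w.2) = (0, 0) := by
      simp only [Prod.map, act, Prod.mk.injEq, Algebra.algebraMap_self,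
        RingHom.id_apply] at hzu hcv hcw ⊢
      rw [hu1, hu2, map_add, map_add, map_mul, map_mul, map_mul, map_mul, hcv.1, hcv.2, hcw.1,
        hcw.2] at hzu
      constructor
      · linear_combination hzu.1
      · linear_combination hzu.2
    have h0 := congrArg (act m) key
    rw [← act_mul, hmc, act_one] at h0
    simp only [act, mul_zero, add_zero, Prod.mk.injEq] at h0
    constructor
    · refine sub_eq_zero.mp ((mul_eq_zero.mp
        (show (σ α - z * α) * Dt = 0 from ?_)).resolve_right hind)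
      linear_combination w.1 * h0.2 - w.2 * h0.1
    · refine sub_eq_zero.mp ((mul_eq_zero.mp
        (show (σ β - z * β) * Dt = 0 from ?_)).resolve_right hind)
      linear_combination v.2 * h0.1 - v.1 * h0.2
  have hval : F.c4.toFun u = algebraMap ℚ ℚbar a' ∧ F.c6.toFun u = algebraMap ℚ ℚbar b' :=
    ⟨congrArg Prod.fst hu, congrArg Prod.snd hu⟩
  rw [show u = (α * v.1 + β * w.1, α * v.2 + β * w.2) from Prod.ext hu1 hu2] at hval
  by_cases h0 : α = 0
  · have hβ0 : β ≠ 0 := fun h => F.ne_zero_of_over hab' hu (Prod.ext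
      (by simp [hu1, h0, h]) (by simp [hu2, h0, h]))
    refine ⟨0, 1, β ^ S.deg, pow_ne_zero _ hβ0, fun σ hσ => ⟨map_zero σ, map_one σ, ?_⟩, ?_, ?_⟩
    · obtain ⟨z, hz1, -, hb⟩ := hsig σ hσ
      rw [map_pow, hb, mul_pow, hz1, one_mul]
    all_goals
      simp only [h0, zero_mul, zero_add, one_mul] at hval ⊢
    · rw [← (S.hom β (w.1, w.2)).1]; exact hval.1
    · rw [← (S.hom β (w.1, w.2)).2]; exact hval.2
  · refine ⟨1, β / α, α ^ S.deg, pow_ne_zero _ h0, fun σ hσ => ⟨map_one σ, ?_, ?_⟩, ?_, ?_⟩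
    · obtain ⟨z, hz1, ha, hb⟩ := hsig σ hσ
      have : z ≠ 0 := fun h => by rw [h, zero_pow S.deg_pos.ne'] at hz1; exact zero_ne_one hz1
      rw [map_div₀, ha, hb, mul_div_mul_left _ _ this]
    · obtain ⟨z, hz1, ha, -⟩ := hsig σ hσ
      rw [map_pow, ha, mul_pow, hz1, one_mul]
    · rw [← (S.hom α _).1]
      convert hval.1 using 3 <;> field_simp
    · rw [← (S.hom α _).2]
      convert hval.2 using 3 <;> field_simp

end Fermat.SW.Fam
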