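import Fermat.Agent.EC.Unramified
import Fermat.Agent.EC.Ord
import Fermat.Agent.CFT.Density.Places

/-!
# Elements fixed by a decomposition group are limits of rational numbers

The main results are `exists_rat_approx` and `exists_rat_forall_ge`.
-/

set_option autoImplicit false

open scoped Pointwise NumberField
open NumberField Fermat.CFT Fermat.EC.Val

noncomputable section

namespace Fermat.SW

local notation "ℚbar" => AlgebraicClosure ℚ
local notation "Γℚ" => (AlgebraicClosure ℚ ≃ₐ[ℚ] AlgebraicClosure ℚ)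

variable {q : ℕ} {A : ValuationSubring ℚbar}

/-- Automorphisms of a normal subfield fixing the prime below lift to the decomposition group. -/
lemma exists_decomp_lift (h : IsPlace A q) (L : IntermediateField ℚ ℚbar) [FiniteDimensional ℚ L]
    [Normal ℚ L] {g : L ≃ₐ[ℚ] L} (hg : g • primeBelow L A = primeBelow L A) :
    ∃ σ ∈ A.decompositionSubgroup ℚ, AlgEquiv.restrictNormalHom L σ = g := by
  let : TopologicalSpace (𝓞 ℚbar) := ⊥
  have : DiscreteTopology (𝓞 ℚbar) := ⟨rfl⟩
  have hcont : ContinuousSMul Γℚ (𝓞 ℚbar) := Fermat.CFT.continuousSMul_algebraicIntegers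
  have : CompactSpace L.fixingSubgroup :=
    isCompact_iff_compactSpace.mp (L.fixingSubgroup_isClosed.isCompact)
  have : ContinuousSMul L.fixingSubgroup (𝓞 ℚbar) :=
    ⟨show Continuous fun z : L.fixingSubgroup × 𝓞 ℚbar => (z.1 : Γℚ) • z.2 from
      hcont.continuous_smul.comp
        ((continuous_subtype_val.comp continuous_fst).prodMk continuous_snd)⟩
  have := Fermat.EC.Galois.smulCommClass_fixing L
  have := Fermat.EC.Galois.isInvariant_fixing L
  obtain ⟨σ, hσ⟩ := AlgEquiv.restrictNormalHom_surjective ℚbar (F := ℚ) (K₁ := L) g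
  set Q := primeOf A with hQ
  have : Q.IsPrime := primeOf_isPrime A
  have : (σ • Q).IsPrime := by rw [hQ, ← primeOf_smul]; exact primeOf_isPrime _
  have hunder : (σ • Q).under (𝓞 L) = Q.under (𝓞 L) := by
    ext x
    have h1 : σ⁻¹ • algebraMap (𝓞 L) (𝓞 ℚbar) x = algebraMap _ _ (g⁻¹ • x) := by
      rw [← hσ, ← map_inv, algebraMap_restrict_smul]
    rw [Ideal.mem_comap, Ideal.mem_comap, Ideal.mem_pointwise_smul_iff_inv_smul_mem, h1]
    change g⁻¹ • x ∈ primeBelow L A ↔ x ∈ primeBelow L A
    rw [← Ideal.mem_pointwise_smul_iff_inv_smul_mem, hg]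
  obtain ⟨k, hk⟩ := Algebra.IsInvariant.exists_smul_of_under_eq_of_profinite (A := 𝓞 L)
    (G := L.fixingSubgroup) (σ • Q) Q hunder
  refine ⟨(k : Γℚ) * σ, ?_, ?_⟩
  · rw [mem_decompositionSubgroup_iff h.1 h.2, mul_smul]
    exact hk.symm
  · rw [map_mul, hσ, (restrict_eq_one_iff L k.1).mpr k.2, one_mul]

/-- Elements of the prime below `A` have positive order. -/
lemma gt_of_mem_primeBelow (h : IsPlace A q) (L : IntermediateField ℚ ℚbar) {x : 𝓞 L}
    (hx : x ∈ primeBelow L A) : Gt A q ((x : L) : ℚbar) 0 := by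
  rw [← nonunit_iff_gt h]
  exact mem_primeOf.mp hx

/-- Algebraic integers have nonnegative order. -/
lemma ge_of_integer (h : IsPlace A q) (L : IntermediateField ℚ ℚbar) (x : 𝓞 L) :
    Ge A q ((x : L) : ℚbar) 0 := by
  rw [← mem_iff_ge h]
  exact coe_mem_valuationSubring A (algebraMap (𝓞 L) (𝓞 ℚbar) x)

/-- High powers of the prime below have high order. -/
lemma exists_pow_bound (h : IsPlace A q) (L : IntermediateField ℚ ℚbar) [FiniteDimensional ℚ L]
    (N : ℕ) : ∃ M : ℕ, ∀ x ∈ primeBelow L A ^ M, Ge A q ((x : L) : ℚbar) N := by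
  classical
  obtain ⟨s, hs⟩ := IsNoetherian.noetherian (primeBelow L A)
  -- The finitely many generators, so all elements, have order `≥ δ > 0`.
  obtain ⟨δ, hδ0, hδ⟩ : ∃ δ : ℚ, 0 < δ ∧ ∀ x ∈ primeBelow L A, Ge A q ((x : L) : ℚbar) δ := by
    obtain ⟨δ, hδ0, hδ⟩ : ∃ δ : ℚ, 0 < δ ∧ ∀ x ∈ s, Ge A q ((x : L) : ℚbar) δ := by
      have hmem : ∀ x ∈ s, Gt A q ((x : L) : ℚbar) 0 := fun x hx =>
        gt_of_mem_primeBelow h L (hs ▸ Submodule.subset_span hx)
      clear hs
      induction s using Finset.induction_on with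
      | empty => exact ⟨1, one_pos, by simp⟩
      | @insert a t _ ih =>
        obtain ⟨d, hd, hd'⟩ := ih fun x hx => hmem x (Finset.mem_insert_of_mem hx)
        rcases hmem a (Finset.mem_insert_self _ _) with ha | ha
        · refine ⟨d, hd, fun x hx => ?_⟩
          rcases Finset.mem_insert.mp hx with rfl | hx
          · exact Or.inl ha
          · exact hd' x hx
        · refine ⟨min d (ord A q ((a : L) : ℚbar)), lt_min hd ha, fun x hx => ?_⟩
          rcases Finset.mem_insert.mp hx with rfl | hx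
          · exact Or.inr (min_le_right _ _)
          · exact (hd' x hx).mono (min_le_left _ _)
    refine ⟨δ, hδ0, fun x hx => ?_⟩
    rw [← hs] at hx
    induction hx using Submodule.span_induction with
    | mem y hy => exact hδ y hy
    | zero => exact Or.inl (by simp)
    | add y z _ _ hy hz => simpa using hy.add h hz
    | smul a y _ hy =>
      have := (ge_of_integer h L a).mul h hy
      simpa using this
  -- Elements of the `M`-th power have order `≥ M δ`.
  have hM : ∀ M : ℕ, ∀ x ∈ primeBelow L A ^ M, Ge A q ((x : L) : ℚbar) (M * δ) := by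
    intro M
    induction M with
    | zero => intro x _; simpa using ge_of_integer h L x
    | succ M ih =>
      intro x hx
      rw [pow_succ] at hx
      induction hx using Submodule.mul_induction_on' with
      | mem_mul_mem a ha b hb =>
        have := (ih a ha).mul h (hδ b hb)
        push_cast
        rw [add_mul, one_mul]
        simpa using this
      | add a _ b _ ha hb => simpa using ha.add h hb
  obtain ⟨M, hMN⟩ := exists_nat_gt ((N : ℚ) / δ)
  refine ⟨M, fun x hx => (hM M x hx).mono ?_⟩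
  rw [div_lt_iff₀ hδ0] at hMN
  exact hMN.le

/-- Integral version of the approximation. -/
lemma exists_int_approx (h : IsPlace A q) (L : IntermediateField ℚ ℚbar) [FiniteDimensional ℚ L]
    [Normal ℚ L] (x : 𝓞 L)
    (hx : ∀ g : L ≃ₐ[ℚ] L, g • primeBelow L A = primeBelow L A → g • x = x) (N : ℕ) :
    ∃ z : ℤ, Ge A q (((x : L) : ℚbar) - z) N := by
  classical
  have : IsGalois ℚ L := ⟨⟩
  obtain ⟨M, hM⟩ := exists_pow_bound h L N
  set P := primeBelow L A
  have hP0 : P ≠ ⊥ := ne_bot_of_natCast_mem h.1 (natCast_mem_primeBelow L h.2)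
  set D : Subgroup (L ≃ₐ[ℚ] L) := MulAction.stabilizer _ P with hD
  have : Fintype (L ≃ₐ[ℚ] L) := Fintype.ofFinite _
  -- an element which is `1` at `P` and `0` at the conjugates
  set S : Finset (Ideal (𝓞 L)) := Finset.univ.image fun g : L ≃ₐ[ℚ] L => g • P
  obtain ⟨e, he⟩ := IsDedekindDomain.exists_forall_sub_mem_ideal (s := S) (fun i => i)
    (fun _ => M) (fun i hi => by
      obtain ⟨g, -, rfl⟩ := Finset.mem_image.mp hi
      have : (g • P).IsPrime := Ideal.IsPrime.smul g
      refine Ideal.prime_of_isPrime ?_ inferInstance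
      intro h0
      refine hP0 (le_bot_iff.mp fun y hy => ?_)
      have : g • y ∈ g • P := Ideal.smul_mem_pointwise_smul g y P hy
      rw [h0, Ideal.mem_bot, smul_eq_zero_iff_eq] at this
      exact Ideal.mem_bot.mpr this)
    (fun i _ j _ hij => hij) (fun i => if i.1 = P then 1 else 0)
  have hPS : P ∈ S := Finset.mem_image.mpr ⟨1, Finset.mem_univ _, one_smul _ _⟩
  have : Fintype D := Fintype.ofFinite _
  set e' : 𝓞 L := ∏ d : D, (d : L ≃ₐ[ℚ] L) • e
  set y : 𝓞 L := x * e' with hy
  have hyD : ∀ d ∈ D, d • y = y := by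
    intro d hd
    have he' : d • e' = e' := by
      rw [Finset.smul_prod']
      simp only [← mul_smul]
      exact Fintype.prod_equiv (Equiv.mulLeft (⟨d, hd⟩ : D)) _ _ fun c => rfl
    rw [hy, smul_mul', hx d hd, he']
  -- congruences
  have h1 : y - x ∈ P ^ M := by
    have : e' - 1 ∈ P ^ M := by
      rw [← Ideal.Quotient.eq_zero_iff_mem, map_sub, map_one, map_prod,
        Finset.prod_eq_one, sub_self]
      intro d _
      rw [← map_one (Ideal.Quotient.mk (P ^ M)), Ideal.Quotient.eq]
      have h0 := he P hPS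
      simp only [if_true] at h0
      have hd : (d : L ≃ₐ[ℚ] L) • (P ^ M) = P ^ M := by
        rw [smul_pow', d.2]
      have := Ideal.smul_mem_pointwise_smul (d : L ≃ₐ[ℚ] L) _ _ h0
      rwa [hd, smul_sub, smul_one] at this
    have := Ideal.mul_mem_left _ x this
    rwa [mul_sub, mul_one] at this
  have h2 : ∀ g : L ≃ₐ[ℚ] L, g ∉ D → g • y ∈ P ^ M := by
    intro g hg
    have hgi : g⁻¹ • P ∈ S := Finset.mem_image.mpr ⟨g⁻¹, Finset.mem_univ _, rfl⟩
    have hne : g⁻¹ • P ≠ P := fun h0 => hg (by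
      rw [hD, MulAction.mem_stabilizer_iff]
      exact (inv_smul_eq_iff.mp h0).symm)
    have h0 := he _ hgi
    simp only [hne, if_false, sub_zero] at h0
    have hye : y ∈ (g⁻¹ • P) ^ M := by
      refine Ideal.mul_mem_left _ _ ?_
      have hsplit : e' = e * ∏ d ∈ (Finset.univ : Finset D).erase 1, (d : L ≃ₐ[ℚ] L) • e := by
        have := Finset.mul_prod_erase (Finset.univ : Finset D)
          (fun d : D => (d : L ≃ₐ[ℚ] L) • e) (Finset.mem_univ (1 : D))
        simp only [OneMemClass.coe_one, one_smul] at this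
        exact this.symm
      rw [hsplit]
      exact Ideal.mul_mem_right _ _ h0
    have := Ideal.smul_mem_pointwise_smul g _ _ hye
    rwa [smul_pow', smul_inv_smul] at this
  -- the trace from the decomposition field
  let f : (L ≃ₐ[ℚ] L) ⧸ D → 𝓞 L := Quotient.lift (fun g => g • y) fun a b hab => by
    have hmem : a⁻¹ * b ∈ D := QuotientGroup.leftRel_apply.mp hab
    have := hyD _ hmem
    rw [mul_smul] at this
    exact (inv_smul_eq_iff.mp this).symm
  have : Fintype ((L ≃ₐ[ℚ] L) ⧸ D) := Fintype.ofFinite _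
  set s : 𝓞 L := ∑ c, f c with hs
  have hsinv : ∀ g : L ≃ₐ[ℚ] L, g • s = s := by
    intro g
    rw [hs, Finset.smul_sum]
    refine Fintype.sum_equiv (MulAction.toPerm g) _ _ fun c => ?_
    induction c using QuotientGroup.induction_on with
    | _ a =>
      change g • (a • y) = f (g • (a : (L ≃ₐ[ℚ] L) ⧸ D))
      rw [MulAction.Quotient.smul_coe, ← mul_smul]
      rfl
  obtain ⟨z, hz⟩ := Algebra.IsInvariant.isInvariant (A := ℤ) (G := L ≃ₐ[ℚ] L) s hsinv
  refine ⟨z, ?_⟩
  have h3 : s - x ∈ P ^ M := by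
    rw [hs, ← Finset.add_sum_erase _ _ (Finset.mem_univ ((1 : L ≃ₐ[ℚ] L) : (L ≃ₐ[ℚ] L) ⧸ D))]
    have hone : f ((1 : L ≃ₐ[ℚ] L) : (L ≃ₐ[ℚ] L) ⧸ D) = y := one_smul _ y
    rw [hone, add_sub_right_comm]
    refine add_mem h1 (sum_mem fun c hc => ?_)
    obtain ⟨hc1, -⟩ := Finset.mem_erase.mp hc
    induction c using QuotientGroup.induction_on with
    | _ a =>
      refine h2 a fun ha => hc1 ?_
      exact QuotientGroup.eq.mpr (by simpa using D.inv_mem ha)
  have := (hM _ h3).neg h
  rw [← hz, eq_intCast] at this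
  simpa using this

/-- **Elements fixed by the decomposition group are limits of rationals.** -/
theorem exists_rat_approx (h : IsPlace A q) {x : ℚbar}
    (hx : ∀ σ ∈ A.decompositionSubgroup ℚ, σ x = x) (N : ℕ) :
    ∃ r : ℚ, Ge A q (x - algebraMap ℚ ℚbar r) N := by
  have halg : IsAlgebraic ℤ x :=
    (IsFractionRing.isAlgebraic_iff ℤ ℚ ℚbar).mpr (Algebra.IsAlgebraic.isAlgebraic x)
  obtain ⟨c, hc0, hint⟩ := halg.exists_integral_multiple
  rw [zsmul_eq_mul] at hint
  -- clear denominators inside a finite normal extension `L`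
  set F : IntermediateField ℚ ℚbar := IntermediateField.adjoin ℚ {x}
  have : FiniteDimensional ℚ F :=
    IntermediateField.adjoin.finiteDimensional (Algebra.IsIntegral.isIntegral x)
  set L : IntermediateField ℚ ℚbar := IntermediateField.normalClosure ℚ F ℚbar
  have : FiniteDimensional ℚ L := normalClosure.is_finiteDimensional ℚ F ℚbar
  have : Normal ℚ L := normalClosure.normal ℚ F ℚbar
  have hxL : x ∈ L :=
    IntermediateField.le_normalClosure F (IntermediateField.mem_adjoin_simple_self ℚ x)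
  have hy : (c : ℚbar) * x ∈ L := mul_mem (intCast_mem L c) hxL
  have hyint : IsIntegral ℤ (⟨(c : ℚbar) * x, hy⟩ : L) :=
    (isIntegral_algebraMap_iff (FaithfulSMul.algebraMap_injective L ℚbar)).mp hint
  let y : 𝓞 L := ⟨⟨(c : ℚbar) * x, hy⟩, hyint⟩
  -- there `y` is fixed by the decomposition group below `A`
  have hfix : ∀ g : L ≃ₐ[ℚ] L, g • primeBelow L A = primeBelow L A → g • y = y := by
    intro g hg
    obtain ⟨σ, hσ, rfl⟩ := exists_decomp_lift h L hg
    refine RingOfIntegers.ext (Subtype.ext ?_)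
    refine (AlgEquiv.restrictNormal_commutes σ L (y : L)).trans ?_
    change σ ((c : ℚbar) * x) = (c : ℚbar) * x
    rw [map_mul, map_intCast, hx σ hσ]
  -- so it is close to an integer; divide by `c`
  obtain ⟨z, hz⟩ := exists_int_approx h L y hfix (N + padicValInt q c)
  refine ⟨(z : ℚ) / c, ?_⟩
  have hcI : Is A q (c : ℚbar) (padicValInt q c) := ⟨Int.cast_ne_zero.mpr hc0, ord_intCast h hc0⟩
  have e : x - algebraMap ℚ ℚbar ((z : ℚ) / c) = (((y : L) : ℚbar) - z) / (c : ℚbar) := by
    rw [map_div₀, map_intCast, map_intCast, sub_div]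
    congr 1
    change x = (c : ℚbar) * x / (c : ℚbar)
    rw [mul_div_cancel_left₀ _ hcI.1]
  rw [e]
  refine (hz.div h hcI).mono ?_
  push_cast
  linarith

/-! ### weak approximation on the rationals -/

/-- Chinese remainders for finitely many prime powers. -/
lemma exists_int_crt (T : Finset ℕ) (hT : ∀ q ∈ T, q.Prime) (r : ℕ → ℤ) (N : ℕ → ℕ) :
    ∃ z : ℤ, ∀ q ∈ T, (q : ℤ) ^ N q ∣ z - r q := by
  classical
  induction T using Finset.induction_on with
  | empty => exact ⟨0, by simp⟩
  | @insert a t hat ih =>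
    obtain ⟨z, hz⟩ := ih fun q hq => hT q (Finset.mem_insert_of_mem hq)
    set m : ℤ := ∏ q ∈ t, (q : ℤ) ^ N q with hm
    have hco : IsCoprime ((a : ℤ) ^ N a) m := by
      refine IsCoprime.prod_right fun q hq => IsCoprime.pow ?_
      rw [Int.isCoprime_iff_nat_coprime]
      simpa using (Nat.coprime_primes (hT a (Finset.mem_insert_self _ _))
        (hT q (Finset.mem_insert_of_mem hq))).mpr fun e => hat (e ▸ hq)
    obtain ⟨u, v, huv⟩ := hco
    refine ⟨z + v * m * (r a - z), fun q hq => ?_⟩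
    rcases Finset.mem_insert.mp hq with rfl | hq
    · exact ⟨-u * (r q - z), by linear_combination (r q - z) * huv⟩
    · rw [show z + v * m * (r a - z) - r q = (z - r q) + v * m * (r a - z) by ring]
      exact dvd_add (hz q hq) (((Finset.dvd_prod_of_mem _ hq).mul_left v).mul_right _)

/-- **Weak approximation on the rationals.** -/
theorem exists_rat_forall_ge (T : Finset ℕ) (P : ℕ → ValuationSubring ℚbar)
    (hP : ∀ q ∈ T, IsPlace (P q) q) (r : ℕ → ℚ) (N : ℕ) :
    ∃ z : ℚ, ∀ q ∈ T, Ge (P q) q (algebraMap ℚ ℚbar z - algebraMap ℚ ℚbar (r q)) N := by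
  classical
  set c : ℤ := ∏ q ∈ T, ((r q).den : ℤ) with hc
  have hc0 : c ≠ 0 := Finset.prod_ne_zero_iff.mpr fun q _ => by exact_mod_cast (r q).den_nz
  have hint : ∀ q ∈ T, ∃ m : ℤ, (m : ℚ) = r q * c := by
    intro q hq
    obtain ⟨d, hd⟩ : ((r q).den : ℤ) ∣ c := Finset.dvd_prod_of_mem _ hq
    refine ⟨(r q).num * d, ?_⟩
    rw [hd]
    push_cast
    rw [← mul_assoc, Rat.mul_den_eq_num]
  let m : ℕ → ℤ := fun q => if hq : q ∈ T then (hint q hq).choose else 0
  obtain ⟨z, hz⟩ := exists_int_crt T (fun q hq => (hP q hq).1) m (fun q => N + padicValInt q c)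
  refine ⟨(z : ℚ) / c, fun q hq => ?_⟩
  have h := hP q hq
  have hcI : Is (P q) q (c : ℚbar) (padicValInt q c) :=
    ⟨Int.cast_ne_zero.mpr hc0, ord_intCast h hc0⟩
  have hm : ((m q : ℤ) : ℚ) = r q * c := by
    simp only [m, dif_pos hq]
    exact (hint q hq).choose_spec
  have e : algebraMap ℚ ℚbar ((z : ℚ) / c) - algebraMap ℚ ℚbar (r q) =
      ((z - m q : ℤ) : ℚbar) / (c : ℚbar) := by
    rw [← map_sub, ← map_intCast (algebraMap ℚ ℚbar) (z - m q), ← map_intCast (algebraMap ℚ ℚbar) c,
      ← map_div₀]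
    congr 1
    push_cast
    rw [hm]
    field_simp
  rw [e]
  refine ((ge_intCast_of_dvd h (hz q hq)).div h hcI).mono ?_
  push_cast
  linarith

end Fermat.SW
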