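import Fermat.Prelude.Def_FLTPrelim_Modularity
import Mathlib.FieldTheory.Finite.Basic
import Mathlib.NumberTheory.LegendreSymbol.Basic

/-!
# The curve `y² = x³ + x` at primes `≡ 3 mod 4`

The curve is `auxE`, and `apOfModel_auxE` gives `a_ℓ = 0` at these primes.
-/

set_option autoImplicit false

noncomputable section

open WeierstrassCurve WeierstrassCurve.Affine

namespace Fermat.SW

/-- `y² = x³ + x`. -/
def auxE : WeierstrassCurve ℤ := ⟨0, 0, 0, 1, 0⟩

/-- The discriminant of the auxiliary curve is `-64`. -/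
lemma auxE_Δ : auxE.Δ = -64 := by
  simp [auxE, WeierstrassCurve.Δ, WeierstrassCurve.b₂, WeierstrassCurve.b₄, WeierstrassCurve.b₆,
    WeierstrassCurve.b₈]

/-- An odd prime does not divide the discriminant of the auxiliary curve. -/
lemma auxE_not_dvd {ℓ : ℕ} (hℓ : ℓ.Prime) (h2 : ℓ ≠ 2) : ¬ (ℓ : ℤ) ∣ auxE.Δ := by
  rw [auxE_Δ, Int.dvd_neg]
  intro hd
  have h : ℓ ∣ 2 ^ 6 := by exact_mod_cast hd
  exact h2 ((Nat.prime_dvd_prime_iff_eq hℓ Nat.prime_two).mp (hℓ.dvd_of_dvd_pow h))

/-- **Supersingularity**: `a_ℓ = 0` for `ℓ ≡ 3 (mod 4)`. -/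
theorem apOfModel_auxE {ℓ : ℕ} [hℓ : Fact ℓ.Prime] (h4 : ℓ % 4 = 3) : auxE.apOfModel ℓ = 0 := by
  classical
  have hneg : ¬ IsSquare (-1 : ZMod ℓ) := by
    rw [ZMod.exists_sq_eq_neg_one_iff]; omega
  have hsq : ∀ y : ZMod ℓ, y ≠ 0 → (IsSquare (-y) ↔ ¬ IsSquare y) := by
    intro y hy
    constructor
    · rintro hn hp
      refine hneg ?_
      have := hn.div hp
      rwa [neg_div, div_self hy] at this
    · intro hn
      have hn1 : (quadraticChar (ZMod ℓ)) y = -1 := quadraticChar_neg_one_iff_not_isSquare.mpr hn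
      have hm1 : (quadraticChar (ZMod ℓ)) (-1) = -1 :=
        quadraticChar_neg_one_iff_not_isSquare.mpr hneg
      refine (quadraticChar_one_iff_isSquare (neg_ne_zero.mpr hy)).mp ?_
      rw [show -y = -1 * y by ring, map_mul, hn1, hm1]; norm_num
  -- the reduction is `y² = x³ + x`, and `-1` is not a square mod `ℓ`
  set E : Affine (ZMod ℓ) := (auxE.reductionMod ℓ).toAffine with hE
  have hΔ : E.Δ ≠ 0 := by
    change (auxE.map (Int.castRingHom (ZMod ℓ))).Δ ≠ 0
    rw [WeierstrassCurve.map_Δ, eq_intCast, Ne, ZMod.intCast_zmod_eq_zero_iff_dvd]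
    exact auxE_not_dvd hℓ.out (by omega)
  have heq : ∀ x y : ZMod ℓ, E.Nonsingular x y ↔ y ^ 2 = x ^ 3 + x := by
    intro x y
    rw [← Affine.equation_iff_nonsingular_of_Δ_ne_zero hΔ, Affine.equation_iff]
    simp [hE, auxE, WeierstrassCurve.reductionMod]
  -- exactly one of `z`, `-z` carries points: match it with `±x` by the class of `y`
  let f : E.Point → Option (ZMod ℓ) := fun P =>
    match P with
    | .zero => none
    | .some x y _ => some (if IsSquare y then x else -x)
  have hbij : Function.Bijective f := by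
    constructor
    · intro P Q hPQ
      rcases P with _ | ⟨x, y, hxy⟩ <;> rcases Q with _ | ⟨x', y', hxy'⟩ <;> simp [f] at hPQ ⊢
      have a := (heq x y).mp hxy
      have b := (heq x' y').mp hxy'
      by_cases hy : IsSquare y <;> by_cases hy' : IsSquare y' <;> simp [hy, hy'] at hPQ
      · subst hPQ
        refine ⟨rfl, ?_⟩
        rcases sq_eq_sq_iff_eq_or_eq_neg.mp (a.trans b.symm) with h | h
        · exact h
        · by_contra hne
          have h0 : y' ≠ 0 := fun e => hne (by rw [h, e, neg_zero])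
          exact (hsq y' h0).mp (h ▸ hy) hy'
      · exfalso
        have h0 : y' ≠ 0 := fun e => hy' (e ▸ IsSquare.zero)
        refine hneg ⟨y / y', ?_⟩
        subst hPQ
        field_simp
        linear_combination -a - b
      · exfalso
        have h0 : y ≠ 0 := fun e => hy (e ▸ IsSquare.zero)
        refine hneg ⟨y' / y, ?_⟩
        subst hPQ
        field_simp
        linear_combination -a - b
      · subst hPQ
        refine ⟨rfl, ?_⟩
        rcases sq_eq_sq_iff_eq_or_eq_neg.mp (a.trans b.symm) with h | h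
        · exact h
        · by_contra hne
          have h0 : y' ≠ 0 := fun e => hne (by rw [h, e, neg_zero])
          exact hy (h ▸ (hsq y' h0).mpr hy')
    · rintro (_ | z)
      · exact ⟨.zero, rfl⟩
      by_cases hs : IsSquare (z ^ 3 + z)
      · obtain ⟨r, hr⟩ := hs
        by_cases hr' : IsSquare r
        · exact ⟨.some z r ((heq _ _).mpr (by rw [hr]; ring)), by simp [f, hr']⟩
        · refine ⟨.some z (-r) ((heq _ _).mpr (by rw [hr]; ring)), ?_⟩
          have : r ≠ 0 := fun e => hr' (e ▸ IsSquare.zero)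
          simp [f, (hsq r this).mpr hr']
      · have hne : z ^ 3 + z ≠ 0 := fun e => hs (e ▸ IsSquare.zero)
        obtain ⟨r, hr⟩ := (hsq _ hne).mpr hs
        have hr0 : r ≠ 0 := fun e => hne (by
          rw [e, mul_zero] at hr; exact neg_eq_zero.mp hr)
        by_cases hr' : IsSquare r
        · refine ⟨.some (-z) (-r) ((heq _ _).mpr (by linear_combination -hr)), ?_⟩
          have : ¬ IsSquare (-r) := fun h => (hsq r hr0).mp h hr'
          simp [f, this]
        · exact ⟨.some (-z) r ((heq _ _).mpr (by linear_combination -hr)), by simp [f, hr']⟩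
  -- so there are `ℓ + 1` points
  rw [WeierstrassCurve.apOfModel, WeierstrassCurve.traceOfFrobenius, WeierstrassCurve.card,
    show Nat.card (auxE.reductionMod ℓ).toAffine.Point = Nat.card (Option (ZMod ℓ)) from
      Nat.card_congr (Equiv.ofBijective f hbij)]
  simp [Nat.card_eq_fintype_card]

end Fermat.SW
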