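import Fermat.Agent.SW.Target
import Fermat.Agent.FLAT.Residual
import Mathlib.Analysis.Complex.Polynomial.Basic

/-!
# An auxiliary prime with vanishing trace

The main result is `exists_aux_prime`.
-/

set_option autoImplicit false

noncomputable section

open WeierstrassCurve WeierstrassCurve.Affine Fermat.EC Fermat.EC.Val Fermat.CFT
open scoped WeierstrassCurve.Affine ComplexConjugate

namespace Fermat.SW

local notation "ℚbar" => AlgebraicClosure ℚ
local notation "Γℚ" => (AlgebraicClosure ℚ ≃ₐ[ℚ] AlgebraicClosure ℚ)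

/-- Complex conjugation. -/
theorem exists_complexConj : ∃ c : Γℚ, c * c = 1 ∧
    ∀ (z : ℚbar) (n : ℕ), 0 < n → z ^ n = 1 → c z = z⁻¹ := by
  let φ : ℚbar →ₐ[ℚ] ℂ := IsAlgClosed.lift
  let : Algebra ℚbar ℂ := φ.toRingHom.toAlgebra
  have : IsScalarTower ℚ ℚbar ℂ := IsScalarTower.of_algHom φ
  have : Normal ℚ ℚbar := Fermat.CFT.qbar_normal
  set c : Γℚ := (Complex.conjAe.restrictScalars ℚ).restrictNormal ℚbar
  have hc : ∀ x, φ (c x) = conj (φ x) := fun x =>
    AlgEquiv.restrictNormal_commutes (Complex.conjAe.restrictScalars ℚ) ℚbar x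
  refine ⟨c, AlgEquiv.ext fun x => ?_, fun z n hn hz => ?_⟩
  · apply φ.toRingHom.injective
    change φ (c (c x)) = φ x
    rw [hc, hc, Complex.conj_conj]
  · apply φ.toRingHom.injective
    change φ (c z) = φ z⁻¹
    rw [hc, map_inv₀, Complex.inv_eq_conj]
    refine Complex.norm_eq_one_of_pow_eq_one (n := n) ?_ hn.ne'
    rw [← map_pow, hz, map_one]

variable {p : ℕ} [hp : Fact p.Prime]

/-- The determinant on the `p`-torsion is the cyclotomic character. -/
lemma det_galoisRep_eq_cycChar (W : WeierstrassCurve ℤ) (hW : W.Δ ≠ 0) (σ : Γℚ) :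
    LinearMap.det (Point.galoisRepModuleEnd (K := ℚbar) ℚ (modQ W).toAffine p σ) =
      ((cycChar p σ : (ZMod p)ˣ) : ZMod p) := by
  have : NeZero p := ⟨hp.out.ne_zero⟩
  have hd := Fermat.EC.Weil.galoisRepDet_eq_cyclotomic_prime (modQ W) (modQ_Δ_ne hW) hp.out
    (ExtCitation.card_rootsOfUnity_eq_self p) σ
  rw [cycChar, MonoidHom.mk'_apply, ← hd, Point.galoisRepDet_apply, LinearEquiv.coe_det]
  rfl

/-- An involution of determinant `-1` has trace zero. -/
lemma trace_eq_zero_of_sq_one (W : WeierstrassCurve ℤ) (hW : W.Δ ≠ 0) (c : Γℚ) (hc : c * c = 1)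
    (hdet : ((cycChar p c : (ZMod p)ˣ) : ZMod p) = -1) :
    LinearMap.trace (ZMod p) _ (Point.galoisRepModuleEnd (K := ℚbar) ℚ
      (modQ W).toAffine p c) = 0 := by
  obtain ⟨h2, hfin⟩ := FR.finrank_torsion W (p := p) hW
  set L := Point.galoisRepModuleEnd (K := ℚbar) ℚ (modQ W).toAffine p c with hL
  have hd : LinearMap.det L = -1 := (det_galoisRep_eq_cycChar W hW c).trans hdet
  by_contra ht
  have : Nontrivial (TorW (modQ W) p) := Module.nontrivial_of_finrank_pos (R := ZMod p)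
    (by rw [h2]; norm_num)
  obtain ⟨x, hx⟩ := exists_ne (0 : TorW (modQ W) p)
  have h := Conj2.cayley h2 L x
  have hLL : L (L x) = x := by
    rw [hL, Point.galoisRepModuleEnd_apply, Point.galoisRepModuleEnd_apply, ← mul_smul,
      hc, one_smul]
  rw [hLL, hd, neg_smul, one_smul, sub_neg_eq_add] at h
  have h0 : LinearMap.trace (ZMod p) _ L • L x = 0 := left_eq_add.mp (by rw [add_comm]; exact h)
  rcases smul_eq_zero.mp h0 with h1 | h1
  · exact ht h1
  · exact hx (by rw [← hLL, h1, map_zero])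

/-- Inertia at a semistable prime `q ≠ p` has order dividing `p` on the torsion. -/
lemma pow_smul_eq_self_of_inertia (W : WeierstrassCurve ℤ) (hW : W.Δ ≠ 0)
    {A : ValuationSubring ℚbar} {q : ℕ} (h : IsPlace A q) (hss : (q : ℤ) ∣ W.Δ → ¬ (q : ℤ) ∣ W.c₄)
    (hp2 : p ≠ 2) (hqp : q ≠ p)
    {τ : Γℚ} (hτ : τ ∈ A.inertiaSubgroupIn ℚ) (x : TorW (modQ W) p) : τ ^ p • x = x := by
  have hpx : ∀ y : TorW (modQ W) p, p • y.1 = 0 := fun y => by
    rw [← natCast_zsmul]; exact (Submodule.mem_torsionBy_iff _ _).mp y.2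
  set δ := τ • x - x with hδ
  have h1 : τ • δ = δ := Subtype.ext
    (smul_sub_smul_sub W h (isInert_of_mem_inertia hτ) hW hss hp.out hp2 hqp (hpx x))
  have h2 : ∀ n : ℕ, τ ^ n • x = x + n • δ := by
    intro n
    induction n with
    | zero => rw [pow_zero, one_smul, zero_smul, add_zero]
    | succ n ih =>
      have hn : τ • (n • δ) = n • δ := by
        rw [smul_comm τ n δ, h1]
      rw [pow_succ', mul_smul, ih, smul_add, hn, succ_nsmul, hδ]
      abel
  have h3 : p • δ = 0 := Subtype.ext (by simp)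
  rw [h2, h3, add_zero]

/-- An odd power of an involution is the involution. -/
lemma zpow_two_mul_add_one {G : Type*} [Group G] {g : G} (hg : g * g = 1) (m : ℤ) :
    g ^ (2 * m + 1) = g := by
  rw [zpow_add_one, zpow_mul, show g ^ (2 : ℤ) = 1 by rw [zpow_two, hg], one_zpow, one_mul]

/-- The only non-square modulo `3` is `-1`. -/
lemma eq_neg_one_of_not_square : ∀ u : (ZMod 3)ˣ, (∀ s : ZMod 3, (u : ZMod 3) ≠ s ^ 2) →
    u = -1 := by
  decide

/-- In `(ZMod 3)ˣ` one has `-1 * (-1) ^ 5 = 1`. -/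
lemma neg_one_mul_pow_five : (-1 : (ZMod 3)ˣ) * (-1) ^ 5 = 1 := by decide

/-- The cyclotomic character of complex conjugation is `-1`. -/
lemma cycChar_conj_eq_neg_one {c : Γℚ} (hcz : ∀ (z : ℚbar) (n : ℕ), 0 < n → z ^ n = 1 → c z = z⁻¹)
    {n : ℕ} [hn : Fact n.Prime] {z : ℚbar} (hz : IsPrimitiveRoot z n) :
    ((cycChar n c : (ZMod n)ˣ) : ZMod n) = -1 := by
  have h1 : c z = z ^ (n - 1) := by
    rw [hcz z n hn.out.pos hz.pow_eq_one]
    refine inv_eq_of_mul_eq_one_right ?_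
    rw [← pow_succ', Nat.sub_add_cancel hn.out.pos, hz.pow_eq_one]
  rw [cycChar_eq_of_apply hz h1, Nat.cast_sub hn.out.pos, ZMod.natCast_self, Nat.cast_one, zero_sub]

/-- Inertia at an odd prime fixes the fourth roots of unity. -/
private lemma inertia_apply_sqrt_neg_one {q : ℕ} {A : ValuationSubring ℚbar} (h : IsPlace A q)
    (hq2 : q ≠ 2) {τ : Γℚ} (hτ : τ ∈ A.inertiaSubgroupIn ℚ) {i : ℚbar} (hi : i ^ 2 = -1) :
    τ i = i := by
  rcases mul_self_eq_mul_self_iff.mp (show τ i * τ i = i * i by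
    rw [← map_mul, ← pow_two, hi, map_neg, map_one]) with h' | h'
  · exact h'
  exfalso
  have hint : IsIntegral ℤ i :=
    IsIntegral.of_pow (n := 2) (by norm_num) (by rw [hi]; exact isIntegral_one.neg)
  let w : NumberField.RingOfIntegers ℚbar := ⟨i, hint⟩
  have hm := (mem_inertiaSubgroupIn_iff h.1 h.2 τ).mp hτ w
  have e : (τ • w - w) * w = ((2 : ℤ) : NumberField.RingOfIntegers ℚbar) := by
    apply NumberField.RingOfIntegers.ext
    push_cast
    change (τ i - i) * i = 2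
    rw [h']; linear_combination (-2 : ℚbar) * hi
  have h2 : ((2 : ℤ) : NumberField.RingOfIntegers ℚbar) ∈ primeOf A :=
    e ▸ Ideal.mul_mem_right _ _ hm
  exact hq2 ((Nat.prime_dvd_prime_iff_eq h.1 Nat.prime_two).mp
    (by exact_mod_cast dvd_of_intCast_mem_primeOf h.1 h.2 h2))

/-- A Frobenius negating a fourth root of unity lies over a prime congruent to `3` modulo `4`. -/
private lemma mod_four_of_frobenius {ℓ : ℕ} (hℓ : ℓ.Prime) (hne2 : ℓ ≠ 2)
    {A : ValuationSubring ℚbar} (hA : A.LiesOverPrime ℓ) {φ : Γℚ} (hφ : A.IsFrobeniusAt φ ℓ)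
    {i : ℚbar} (hi : i ^ 2 = -1) (hφi : φ i = -i) : ℓ % 4 = 3 := by
  have hodd : ℓ % 2 = 1 := hℓ.eq_two_or_odd.resolve_left hne2
  have hi4 : i ^ 4 = 1 := by rw [show i ^ 4 = (i ^ 2) ^ 2 by ring, hi]; norm_num
  by_contra h4
  have h1 : ℓ % 4 = 1 := by omega
  have hint : IsIntegral ℤ i :=
    IsIntegral.of_pow (n := 4) (by norm_num) (by rw [hi4]; exact isIntegral_one)
  let w : NumberField.RingOfIntegers ℚbar := ⟨i, hint⟩
  have hm := (isFrobeniusAt_iff hℓ hA φ).mp hφ w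
  have e : (φ • w - w ^ ℓ) * w = ((2 : ℤ) : NumberField.RingOfIntegers ℚbar) := by
    apply NumberField.RingOfIntegers.ext
    push_cast
    change (φ i - i ^ ℓ) * i = 2
    rw [hφi, ← Nat.mod_add_div ℓ 4, h1, pow_add, pow_one, pow_mul, hi4, one_pow]
    linear_combination (-2 : ℚbar) * hi
  have h2 : ((2 : ℤ) : NumberField.RingOfIntegers ℚbar) ∈ primeOf A :=
    e ▸ Ideal.mul_mem_right _ _ hm
  exact hne2 ((Nat.prime_dvd_prime_iff_eq hℓ Nat.prime_two).mp
    (by exact_mod_cast dvd_of_intCast_mem_primeOf hℓ hA h2))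

/-- A finite normal extension containing given elements and splitting the torsion. -/
private lemma exists_torsion_field (W : WeierstrassCurve ℤ) (hW : W.Δ ≠ 0) (i z : ℚbar) :
    ∃ L : IntermediateField ℚ ℚbar, FiniteDimensional ℚ L ∧ Normal ℚ L ∧ i ∈ L ∧ z ∈ L ∧
      ∀ a b : Γℚ, (∀ x ∈ L, a x = b x) →
        Point.galoisRepModuleEnd (K := ℚbar) ℚ (modQ W).toAffine p a =
          Point.galoisRepModuleEnd (K := ℚbar) ℚ (modQ W).toAffine p b := by
  classical
  obtain ⟨-, hfin⟩ := FR.finrank_torsion W (p := p) hW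
  have : Finite (TorW (modQ W) p) := Module.finite_of_finite (ZMod p)
  have := Fintype.ofFinite (TorW (modQ W) p)
  let co : ((modQ W).toAffine⁄ℚbar).Point → Finset ℚbar := fun P =>
    match P with
    | .zero => ∅
    | .some x y _ => {x, y}
  let S : Finset ℚbar := {i, z} ∪ Finset.univ.biUnion fun x : TorW (modQ W) p => co x.1
  set F : IntermediateField ℚ ℚbar := IntermediateField.adjoin ℚ (S : Set ℚbar)
  have : FiniteDimensional ℚ F := IntermediateField.finiteDimensional_adjoin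
    fun x _ => (Algebra.IsAlgebraic.isAlgebraic x).isIntegral
  have hmem : ∀ x ∈ S, x ∈ IntermediateField.normalClosure ℚ F ℚbar := fun x hx =>
    IntermediateField.le_normalClosure F (IntermediateField.subset_adjoin ℚ _ hx)
  refine ⟨IntermediateField.normalClosure ℚ F ℚbar,
    normalClosure.is_finiteDimensional ℚ F ℚbar, normalClosure.normal ℚ F ℚbar,
    hmem i (by simp [S]), hmem z (by simp [S]), fun a b hab => LinearMap.ext fun x => ?_⟩
  change a • x = b • x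
  apply Subtype.ext
  change a • x.1 = b • x.1
  rcases hP : x.1 with _ | ⟨u, v, hns⟩
  · rfl
  · simp only [Point.algEquiv_smul_def, Point.map_some, Point.some.injEq]
    have hS : ∀ w ∈ co x.1, w ∈ IntermediateField.normalClosure ℚ F ℚbar := fun w hw =>
      hmem w (Finset.mem_union_right _ (Finset.mem_biUnion.mpr ⟨x, Finset.mem_univ _, hw⟩))
    rw [hP] at hS
    exact ⟨hab u (hS u (by simp [co])), hab v (hS v (by simp [co]))⟩

/-- Automorphisms with equal restrictions agree on the field. -/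
private lemma apply_eq_of_restrict (L : IntermediateField ℚ ℚbar) [Normal ℚ L] {a b : Γℚ}
    (hab : AlgEquiv.restrictNormalHom L a = AlgEquiv.restrictNormalHom L b) {x : ℚbar}
    (hx : x ∈ L) : a x = b x := by
  have := congrArg (fun g : L ≃ₐ[ℚ] L => ((g ⟨x, hx⟩ : L) : ℚbar)) hab
  simp only [AlgEquiv.restrictNormalHom, MonoidHom.mk'_apply] at this
  exact ((AlgEquiv.restrictNormal_commutes a L ⟨x, hx⟩).symm.trans this).trans
    (AlgEquiv.restrictNormal_commutes b L ⟨x, hx⟩)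

/-- A power of an automorphism fixing an element fixes it. -/
private lemma zpow_apply_eq_self {a : Γℚ} {y : ℚbar} (ha : a y = y) (n : ℤ) :
    (a ^ n : Γℚ) y = y := by
  have : a ∈ MulAction.stabilizer Γℚ y := ha
  exact Subgroup.zpow_mem _ this n

/-- A Frobenius restricting to an odd power of an element negating a fourth root of unity. -/
private lemma exists_frobenius_odd_power (L : IntermediateField ℚ ℚbar) [FiniteDimensional ℚ L]
    [Normal ℚ L] {g : Γℚ} {i : ℚbar} (hi : i ^ 2 = -1) (hiL : i ∈ L) (hgi : g i = -i)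
    (T : Finset ℕ) :
    ∃ (ℓ : ℕ) (A : ValuationSubring ℚbar) (φ : Γℚ) (m : ℤ), ℓ.Prime ∧ ℓ ∉ T ∧
      A.LiesOverPrime ℓ ∧ A.IsFrobeniusAt φ ℓ ∧ φ i = -i ∧
      ∀ x ∈ L, φ x = (g ^ (2 * m + 1) : Γℚ) x := by
  have hi0 : i ≠ 0 := fun e => by rw [e] at hi; norm_num at hi
  have hni : -i ≠ i := fun e => hi0 (by linear_combination (-1 / 2 : ℚbar) * e)
  -- a Frobenius generating the same subgroup as `g` on `L`
  obtain ⟨ℓ, hℓ, hℓT, -, A, hA, φ, hφ, hgen⟩ := exists_place_frobenius_generating L g T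
  obtain ⟨k, hk⟩ : AlgEquiv.restrictNormalHom L φ ∈
      Subgroup.zpowers (AlgEquiv.restrictNormalHom L g) := hgen ▸ Subgroup.mem_zpowers _
  obtain ⟨j, hj⟩ : AlgEquiv.restrictNormalHom L g ∈
      Subgroup.zpowers (AlgEquiv.restrictNormalHom L φ) := hgen.symm ▸ Subgroup.mem_zpowers _
  simp only at hk hj
  have hφL : ∀ x ∈ L, φ x = (g ^ k : Γℚ) x := fun x hx =>
    apply_eq_of_restrict L (by rw [map_zpow, hk]) hx
  -- it moves `i`, as `g` is a power of it
  have hφi : φ i = -i := by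
    rcases mul_self_eq_mul_self_iff.mp (show φ i * φ i = i * i by
      rw [← map_mul, ← pow_two, hi, map_neg, map_one]) with h | h
    · exfalso
      have := apply_eq_of_restrict L (a := g) (b := φ ^ j) (by rw [map_zpow, hj]) hiL
      rw [zpow_apply_eq_self h j, hgi] at this
      exact hni this
    · exact h
  -- so it is an odd power of `g`
  have hk2 : ∃ m : ℤ, k = 2 * m + 1 := by
    by_contra hev
    obtain ⟨m, rfl⟩ : ∃ m, k = 2 * m := ⟨k / 2, by
      rcases Int.emod_two_eq_zero_or_one k with h | h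
      · omega
      · exact absurd ⟨k / 2, by omega⟩ hev⟩
    have := hφL i hiL
    rw [hφi, zpow_mul, zpow_apply_eq_self (a := g ^ (2 : ℤ))
      (by rw [zpow_two, AlgEquiv.mul_apply, hgi, map_neg, hgi, neg_neg]) m] at this
    exact hni this
  obtain ⟨m, rfl⟩ := hk2
  exact ⟨ℓ, A, φ, m, hℓ, hℓT, hA, hφ, hφi, hφL⟩

/-- Odd powers of complex conjugation twisted by a `p`-th power of inertia act on the torsion as
complex conjugation. -/
private lemma galoisRep_conj_inertia (W : WeierstrassCurve ℤ) (hW : W.Δ ≠ 0)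
    {A : ValuationSubring ℚbar} {q : ℕ} (h : IsPlace A q)
    (hss : (q : ℤ) ∣ W.Δ → ¬ (q : ℤ) ∣ W.c₄) (hp2 : p ≠ 2) (hqp : q ≠ p) {τ c : Γℚ}
    (hτ : τ ∈ A.inertiaSubgroupIn ℚ) (hcc : c * c = 1) (m : ℤ) :
    Point.galoisRepModuleEnd (K := ℚbar) ℚ (modQ W).toAffine p ((c * τ ^ p) ^ (2 * m + 1)) =
      Point.galoisRepModuleEnd (K := ℚbar) ℚ (modQ W).toAffine p c := by
  set ρ := Point.galoisRepModuleEnd (K := ℚbar) ℚ (modQ W).toAffine p
  have hρτ : ρ (τ ^ p) = 1 := LinearMap.ext fun x =>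
    pow_smul_eq_self_of_inertia W hW h hss hp2 hqp hτ x
  have hρg : ρ (c * τ ^ p) = ρ c := by rw [map_mul, hρτ, mul_one]
  have hgg : ρ (c * τ ^ p) * ρ (c * τ ^ p) = 1 := by rw [hρg, ← map_mul, hcc, map_one]
  have hu := zpow_two_mul_add_one (g := ρ.toHomUnits (c * τ ^ p)) (Units.ext hgg) m
  rw [← hρg]
  calc ρ ((c * τ ^ p) ^ (2 * m + 1)) =
      ((ρ.toHomUnits ((c * τ ^ p) ^ (2 * m + 1)) :) : Module.End (ZMod p) _) := rfl
    _ = _ := by rw [map_zpow, hu]; rfl

/-- `φ` is a Frobenius at a place over a good prime `ℓ ∉ T`, distinct from `p` and `q` and congruent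
to `3` modulo `4`, with trace zero on the `p`-torsion, which acts on `z` as an odd power of `g`. -/
structure AuxFrobenius (p q : ℕ) (W : WeierstrassCurve ℤ) (T : Finset ℕ) (g : Γℚ) (z : ℚbar)
    (ℓ : ℕ) (B : ValuationSubring ℚbar) (φ : Γℚ) : Prop where
  /-- `ℓ` is prime. -/
  prime : ℓ.Prime
  /-- `ℓ` avoids `T`. -/
  notMem : ℓ ∉ T
  /-- `ℓ` is good for `W`. -/
  good : ¬ (ℓ : ℤ) ∣ W.Δ
  /-- `ℓ` is not `p`. -/
  ne_p : ℓ ≠ p
  /-- `ℓ` is not `q`. -/
  ne_q : ℓ ≠ q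
  /-- `ℓ` is congruent to `3` modulo `4`. -/
  mod_four : ℓ % 4 = 3
  /-- `B` lies over `ℓ`. -/
  lies : B.LiesOverPrime ℓ
  /-- `φ` is a Frobenius at `B`. -/
  frobenius : B.IsFrobeniusAt φ ℓ
  /-- `φ` acts on `z` as an odd power of `g`. -/
  apply_eq : ∃ m : ℤ, φ z = (g ^ (2 * m + 1) : Γℚ) z
  /-- The trace at `ℓ` vanishes modulo `p`. -/
  trace_eq_zero : (W.apOfModel ℓ : ZMod p) = 0

/-- Some Frobenius at a good prime congruent to `3` modulo `4` acts on a given number as an odd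
power of a twisted complex conjugation and has trace zero on the torsion. -/
theorem exists_frobenius_trace_zero (W : WeierstrassCurve ℤ) (hW : W.Δ ≠ 0)
    (hss : W.IsSemistableModel) (hp2 : p ≠ 2) {A : ValuationSubring ℚbar} {q : ℕ}
    (h : IsPlace A q) (hq2 : q ≠ 2) (hqp : q ≠ p) {τ c : Γℚ}
    (hτ : τ ∈ A.inertiaSubgroupIn ℚ) (hcc : c * c = 1)
    (hcz : ∀ (z : ℚbar) (n : ℕ), 0 < n → z ^ n = 1 → c z = z⁻¹) (z : ℚbar) (T : Finset ℕ) :
    ∃ (ℓ : ℕ) (B : ValuationSubring ℚbar) (φ : Γℚ),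
      AuxFrobenius p q W T (c * τ ^ p) z ℓ B φ := by
  obtain ⟨i, hi⟩ := IsAlgClosed.exists_pow_nat_eq (-1 : ℚbar) two_pos
  have hi4 : i ^ 4 = 1 := by rw [show i ^ 4 = (i ^ 2) ^ 2 by ring, hi]; norm_num
  have hgi : (c * τ ^ p) i = -i := by
    rw [AlgEquiv.mul_apply, ← zpow_natCast, zpow_apply_eq_self
      (inertia_apply_sqrt_neg_one h hq2 hτ hi) p, hcz i 4 (by norm_num) hi4]
    refine inv_eq_of_mul_eq_one_right ?_
    linear_combination -hi
  obtain ⟨L, _, _, hiL, hzL, hL⟩ := exists_torsion_field (p := p) W hW i z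
  obtain ⟨ℓ, B, φ, m, hℓ, hℓT, hB, hφ, hφi, hφL⟩ := exists_frobenius_odd_power L hi hiL hgi
    (T ∪ ({2, p, q} : Finset ℕ) ∪ W.Δ.natAbs.primeFactors)
  simp only [Finset.mem_union, Finset.mem_insert, Finset.mem_singleton, not_or] at hℓT
  obtain ⟨⟨hT, hne2, hnep, hneq⟩, hbad⟩ := hℓT
  have hgood : ¬ (ℓ : ℤ) ∣ W.Δ := fun hd =>
    hbad (Nat.mem_primeFactors.mpr ⟨hℓ, Int.natCast_dvd.mp hd, Int.natAbs_ne_zero.mpr hW⟩)
  refine ⟨ℓ, B, φ, hℓ, hT, hgood, hnep, hneq, mod_four_of_frobenius hℓ hne2 hB hφ hi hφi, hB,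
    hφ, ⟨m, hφL z hzL⟩, ?_⟩
  obtain ⟨w, hw⟩ := exists_primitiveRoot_qbar (q := p)
  rw [← FR.galoisTrace_frobenius W hℓ hnep hgood hB hφ, Point.galoisTrace_def]
  change LinearMap.trace (ZMod p) _ (Point.galoisRepModuleEnd (K := ℚbar) ℚ
    (modQ W).toAffine p φ) = 0
  rw [hL _ _ hφL, galoisRep_conj_inertia W hW h (hss q h.1) hp2 hqp hτ hcc m]
  exact trace_eq_zero_of_sq_one W hW c hcc (cycChar_conj_eq_neg_one hcz hw)

/-- **The auxiliary prime.** For a semistable model some good prime `ℓ ≡ 3 (mod 4)`, `ℓ ≡ 1 (mod 3)`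
outside `T` has trace divisible by `5`. -/
theorem exists_aux_prime (W : WeierstrassCurve ℤ) (hW : W.Δ ≠ 0) (hss : W.IsSemistableModel)
    [Fact (Nat.Prime 5)] (T : Finset ℕ) :
    ∃ ℓ : ℕ, ℓ.Prime ∧ ℓ ∉ T ∧ ¬ (ℓ : ℤ) ∣ W.Δ ∧ ℓ ≠ 5 ∧ ℓ % 4 = 3 ∧ ℓ % 3 = 1 ∧
      (W.apOfModel ℓ : ZMod 5) = 0 := by
  have : Fact (Nat.Prime 3) := ⟨Nat.prime_three⟩
  obtain ⟨A3, hA3⟩ := exists_place (ℓ := 3) Nat.prime_three
  have h3 : IsPlace A3 3 := ⟨Nat.prime_three, hA3⟩
  obtain ⟨τ, hτ, hτns⟩ := Fermat.FLAT.exists_cycChar_not_square (p := 3) h3 (by norm_num)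
  obtain ⟨c, hcc, hcz⟩ := exists_complexConj
  obtain ⟨z3, hz3⟩ := exists_primitiveRoot_qbar (q := 3)
  obtain ⟨ℓ, B, φ, hℓ, hT, hgood, hne5, hne3, hℓ4, hB, hφ, ⟨m, hφz⟩, htr⟩ :=
    exists_frobenius_trace_zero (p := 5) W hW hss (by norm_num) h3 (by norm_num) (by norm_num)
      hτ hcc hcz z3 T
  refine ⟨ℓ, hℓ, hT, hgood, hne5, hℓ4, ?_, htr⟩
  have hc3 : cycChar 3 c = -1 := Units.ext (by simpa using cycChar_conj_eq_neg_one hcz hz3)
  have hg3 : cycChar 3 (c * τ ^ 5) = 1 := by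
    rw [map_mul, map_pow, hc3, eq_neg_one_of_not_square _ hτns]; exact neg_one_mul_pow_five
  rw [zpow_apply_eq_self ((cycChar_eq_one_iff hz3).mp hg3)] at hφz
  have h1 := cycChar_frobenius (q := 3) hℓ hne3 hB hφ
  rw [(cycChar_eq_one_iff hz3).mpr hφz, Units.val_one, ← Nat.cast_one,
    ZMod.natCast_eq_natCast_iff'] at h1
  omega

end Fermat.SW
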