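import Fermat.Agent.SW.Models
import Fermat.Agent.SW.Approx

/-!
# Integral models with prescribed invariants and congruences

`exists_int_model`: invariants which are integral, minimal outside `T` and near those of given
curves at `T` come from an integral model congruent to them. It is the last step of the global
switch (`ParamGen`).
-/

set_option autoImplicit false

noncomputable section

open WeierstrassCurve

namespace Fermat.SW

/-- `48 a₄` as a polynomial. -/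
def P4 (a₁ a₂ a₃ c₄ : ℤ) : ℤ := (a₁ ^ 2 + 4 * a₂) ^ 2 - c₄ - 24 * a₁ * a₃

/-- `1728 a₆` as a polynomial. -/
def P6 (a₁ a₂ a₃ c₄ c₆ : ℤ) : ℤ :=
  (a₁ ^ 2 + 4 * a₂) ^ 3 - 3 * (a₁ ^ 2 + 4 * a₂) * c₄ - 2 * c₆ - 432 * a₃ ^ 2

/-- For a model itself `P4` is `48 a₄`. -/
lemma P4_self (W : WeierstrassCurve ℤ) : P4 W.a₁ W.a₂ W.a₃ W.c₄ = 48 * W.a₄ := by
  simp only [P4, WeierstrassCurve.c₄, WeierstrassCurve.b₂, WeierstrassCurve.b₄]; ring

/-- For a model itself `P6` is `1728 a₆`. -/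
lemma P6_self (W : WeierstrassCurve ℤ) : P6 W.a₁ W.a₂ W.a₃ W.c₄ W.c₆ = 1728 * W.a₆ := by
  simp only [P6, WeierstrassCurve.c₄, WeierstrassCurve.c₆, WeierstrassCurve.b₂, WeierstrassCurve.b₄,
    WeierstrassCurve.b₆]; ring

/-- Congruent arguments, scaled values. -/
lemma P_congr {m n A1 A2 A3 C4 C6 : ℤ} (V : WeierstrassCurve ℤ) (h1 : m ∣ A1 - n * V.a₁)
    (h2 : m ∣ A2 - n ^ 2 * V.a₂) (h3 : m ∣ A3 - n ^ 3 * V.a₃) (h4 : m ∣ C4 - n ^ 4 * V.c₄)
    (h6 : m ∣ C6 - n ^ 6 * V.c₆) :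
    m ∣ P4 A1 A2 A3 C4 - 48 * (n ^ 4 * V.a₄) ∧ m ∣ P6 A1 A2 A3 C4 C6 - 1728 * (n ^ 6 * V.a₆) := by
  have k : ∀ {x y : ℤ}, m ∣ x - y → ((x : ℤ) : ZMod m.natAbs) = (y : ZMod m.natAbs) :=
      fun {x y} h => by
    have := (ZMod.intCast_eq_intCast_iff_dvd_sub y x m.natAbs).mpr (Int.natAbs_dvd.mpr h)
    exact this.symm
  have back : ∀ {x y : ℤ}, ((x : ℤ) : ZMod m.natAbs) = (y : ZMod m.natAbs) →
      m ∣ x - y := fun {x y} h =>
    Int.natAbs_dvd.mp ((ZMod.intCast_eq_intCast_iff_dvd_sub y x m.natAbs).mp h.symm)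
  constructor <;> apply back
  · rw [show 48 * (n ^ 4 * V.a₄) = P4 (n * V.a₁) (n ^ 2 * V.a₂) (n ^ 3 * V.a₃) (n ^ 4 * V.c₄) by
      rw [mul_left_comm, ← P4_self]; simp only [P4]; ring]
    simp only [P4, Int.cast_sub, Int.cast_add, Int.cast_mul, Int.cast_pow, k h1, k h2, k h3, k h4]
  · rw [show 1728 * (n ^ 6 * V.a₆) =
        P6 (n * V.a₁) (n ^ 2 * V.a₂) (n ^ 3 * V.a₃) (n ^ 4 * V.c₄) (n ^ 6 * V.c₆) by
      rw [mul_left_comm, ← P6_self]; simp only [P6]; ring]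
    simp only [P6, Int.cast_sub, Int.cast_add, Int.cast_mul, Int.cast_pow, k h1, k h2, k h3, k h4,
      k h6]

/-- If `q ^ e ∣ d`, `e ≤ M` and `q ^ M ∣ X - d * y`, then `q ^ e ∣ X`. -/
lemma dvd_of_mul_congr {q : ℕ} {e M : ℕ} {d X y : ℤ} (hd : (q : ℤ) ^ e ∣ d) (he : e ≤ M)
    (h : (q : ℤ) ^ M ∣ X - d * y) : (q : ℤ) ^ e ∣ X := by
  have := dvd_add ((pow_dvd_pow _ he).trans h) (hd.mul_right y)
  simpa using this

/-- Cancelling a bounded power. -/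
lemma dvd_of_dvd_mul_left {q : ℕ} (hq : q.Prime) {M : ℕ} {d x : ℤ} (hd : d ≠ 0)
    (he : padicValInt q d ≤ 6) (h : (q : ℤ) ^ (M + 6) ∣ d * x) : (q : ℤ) ^ M ∣ x := by
  rcases eq_or_ne x 0 with rfl | hx
  · exact dvd_zero _
  have := Fact.mk hq
  rw [padicValInt_dvd_iff] at h ⊢
  refine Or.inr ?_
  rcases h with h | h
  · exact absurd h (mul_ne_zero hd hx)
  · rw [padicValInt.mul hd hx] at h
    omega

/-- **The model.** Given `c₄`, `c₆` close at each prime of `T` to scalings of those of local curves,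
an integral curve has them and the congruences. -/
theorem exists_int_model (T : Finset ℕ) (hT : ∀ q ∈ T, q.Prime) (h2 : 2 ∈ T)
    (h3 : 3 ∈ T) (C4 C6 : ℤ) (V : ℕ → WeierstrassCurve ℤ) (n : ℕ → ℤ) (M : ℕ)
    (h : ∀ q ∈ T, (q : ℤ) ^ (M + 6) ∣ C4 - n q ^ 4 * (V q).c₄ ∧
      (q : ℤ) ^ (M + 6) ∣ C6 - n q ^ 6 * (V q).c₆) :
    ∃ W : WeierstrassCurve ℤ, W.c₄ = C4 ∧ W.c₆ = C6 ∧
      ∀ q ∈ T, ScaledCong W (V q) ((q : ℤ) ^ M) (n q) := by
  -- `a₁, a₂, a₃` by the Chinese remainder theorem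
  obtain ⟨A1, hA1⟩ := exists_int_crt T hT (fun q => n q * (V q).a₁) (fun _ => M + 6)
  obtain ⟨A2, hA2⟩ := exists_int_crt T hT (fun q => n q ^ 2 * (V q).a₂) (fun _ => M + 6)
  obtain ⟨A3, hA3⟩ := exists_int_crt T hT (fun q => n q ^ 3 * (V q).a₃) (fun _ => M + 6)
  have hP : ∀ q ∈ T, _ := fun q hq =>
    P_congr (V q) (hA1 q hq) (hA2 q hq) (hA3 q hq) (h q hq).1 (h q hq).2
  -- `a₄` and `a₆` are then forced, and integral because they are so at `2` and at `3`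
  have d4 : (48 : ℤ) ∣ P4 A1 A2 A3 C4 := by
    have a := dvd_of_mul_congr (q := 2) (e := 4) (d := 48) ⟨3, by norm_num⟩ (by omega) (hP 2 h2).1
    have b := dvd_of_mul_congr (q := 3) (e := 1) (d := 48) ⟨16, by norm_num⟩ (by omega) (hP 3 h3).1
    have := IsCoprime.mul_dvd (x := ((2 : ℕ) : ℤ) ^ 4) (y := ((3 : ℕ) : ℤ) ^ 1)
      (by rw [Int.isCoprime_iff_nat_coprime]; rfl) a b
    simpa using this
  have d6 : (1728 : ℤ) ∣ P6 A1 A2 A3 C4 C6 := by
    have a := dvd_of_mul_congr (q := 2) (e := 6) (d := 1728) ⟨27, by norm_num⟩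
      (by omega) (hP 2 h2).2
    have b := dvd_of_mul_congr (q := 3) (e := 3) (d := 1728) ⟨64, by norm_num⟩
      (by omega) (hP 3 h3).2
    have := IsCoprime.mul_dvd (x := ((2 : ℕ) : ℤ) ^ 6) (y := ((3 : ℕ) : ℤ) ^ 3)
      (by rw [Int.isCoprime_iff_nat_coprime]; rfl) a b
    simpa using this
  obtain ⟨a4, ha4⟩ := d4
  obtain ⟨a6, ha6⟩ := d6
  have e4 : (⟨A1, A2, A3, a4, a6⟩ : WeierstrassCurve ℤ).c₄ = C4 := by
    simp only [P4, WeierstrassCurve.c₄, WeierstrassCurve.b₂, WeierstrassCurve.b₄] at ha4 ⊢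
    linear_combination ha4
  refine ⟨⟨A1, A2, A3, a4, a6⟩, e4, ?_, fun q hq => ?_⟩
  · rw [← e4] at ha6
    simp only [P6, WeierstrassCurve.c₄, WeierstrassCurve.c₆, WeierstrassCurve.b₂,
      WeierstrassCurve.b₄, WeierstrassCurve.b₆] at ha6 ⊢
    refine mul_left_cancel₀ (two_ne_zero (α := ℤ)) ?_
    linear_combination ha6
  -- the congruences lose at most `q ^ 6` on dividing by `48` and `1728`
  · have hle : (q : ℤ) ^ M ∣ (q : ℤ) ^ (M + 6) := pow_dvd_pow _ (by omega)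
    have hv : ∀ d : ℕ, d = 48 ∨ d = 1728 → padicValInt q (d : ℤ) ≤ 6 := by
      intro d hd
      rw [padicValInt.of_nat]
      have := Fact.mk (hT q hq)
      by_contra hc
      have h7 : q ^ 7 ∣ d := (padicValNat_dvd_iff_le (by omega)).mpr (by omega)
      have hle7 : q ^ 7 ≤ d := Nat.le_of_dvd (by omega) h7
      have h2q := (hT q hq).two_le
      have hq3 : q < 3 := by
        by_contra h3q
        have : 3 ^ 7 ≤ q ^ 7 := Nat.pow_le_pow_left (by omega) 7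
        omega
      obtain rfl : q = 2 := by omega
      rcases hd with rfl | rfl <;> norm_num at h7
    refine ⟨hle.trans (hA1 q hq), hle.trans (hA2 q hq), hle.trans (hA3 q hq), ?_, ?_⟩
    · refine dvd_of_dvd_mul_left (hT q hq) (d := 48) (by norm_num) (hv 48 (Or.inl rfl)) ?_
      rw [mul_sub, ← ha4]
      exact (hP q hq).1
    · refine dvd_of_dvd_mul_left (hT q hq) (d := 1728) (by norm_num) (hv 1728 (Or.inr rfl)) ?_
      rw [mul_sub, ← ha6]
      exact (hP q hq).2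

end Fermat.SW
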