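import Fermat.Agent.SW.Targets

/-!
# Reduction of modularity to supersingular reduction at three

`mod_of_irreducible`, the end of the folder `SW`: given modularity for good supersingular reduction
at three (`hA`) and its transfer along irreducible five- and three-torsion (`hRT5`, `hRT3`), a
semistable curve with irreducible three- or five-torsion is modular, each case being switched
(`Switch35`) into an earlier one. `Cusp` provides its hypothesis `MultTarget`; `Top/Modularity`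
applies it.

* `W[5]` irreducible, good reduction at three with `a₃ = ±2`: a curve with the same five-torsion is
  supersingular at three.
* `W[3]` irreducible and split at three (`3 ∤ b₂`, `CubeAt`): a curve with the same three-torsion
  has `a₃ = ±2` and irreducible five-torsion.
* `W[5]` irreducible, any reduction at three: either a case above, or a curve with the same
  five-torsion has its three-torsion split at three.
* `W[3]` irreducible: unless `W` is supersingular at three, a curve with the same three-torsion and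
  congruent to `W` at three has irreducible five-torsion.
-/

set_option autoImplicit false

noncomputable section

open WeierstrassCurve Fermat.EC.Val

namespace Fermat.SW

local notation "ℚbar" => AlgebraicClosure ℚ

/-- The number of affine points of a Weierstrass equation over `ZMod 3`. -/
def affinePointCount (a1 a2 a3 a4 a6 : ZMod 3) : ℕ :=
  (Finset.univ.filter fun v : ZMod 3 × ZMod 3 =>
    v.2 * v.2 + a1 * v.1 * v.2 + a3 * v.2 = v.1 * v.1 * v.1 + a2 * v.1 * v.1 + a4 * v.1 + a6).card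

/-- An ordinary curve over `ZMod 3` has `1`, `2`, `4` or `5` affine points. -/
lemma affinePointCount_ordinary : ∀ a1 a2 a3 a4 a6 : ZMod 3,
    (⟨a1, a2, a3, a4, a6⟩ : WeierstrassCurve (ZMod 3)).Δ ≠ 0 →
    (⟨a1, a2, a3, a4, a6⟩ : WeierstrassCurve (ZMod 3)).b₂ ≠ 0 →
    affinePointCount a1 a2 a3 a4 a6 = 1 ∨ affinePointCount a1 a2 a3 a4 a6 = 2 ∨
      affinePointCount a1 a2 a3 a4 a6 = 4 ∨ affinePointCount a1 a2 a3 a4 a6 = 5 := by
  decide +kernel

/-- Ordinary reduction at three: the trace is `±1` or `±2`. -/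
theorem apOfModel_ordinary (W : WeierstrassCurve ℤ) (hgood : ¬ (3 : ℤ) ∣ W.Δ)
    (hb2 : ¬ (3 : ℤ) ∣ W.b₂) :
    W.apOfModel 3 = 1 ∨ W.apOfModel 3 = -1 ∨ W.apOfModel 3 = 2 ∨ W.apOfModel 3 = -2 := by
  classical
  have : Fact (Nat.Prime 3) := ⟨Nat.prime_three⟩
  set E : Affine (ZMod 3) := (W.reductionMod 3).toAffine with hE
  have hΔ : E.Δ ≠ 0 := by
    change (W.map (Int.castRingHom (ZMod 3))).Δ ≠ 0
    rw [WeierstrassCurve.map_Δ, eq_intCast, Ne, ZMod.intCast_zmod_eq_zero_iff_dvd]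
    exact_mod_cast hgood
  have hb : E.b₂ ≠ 0 := by
    change (W.map (Int.castRingHom (ZMod 3))).b₂ ≠ 0
    rw [WeierstrassCurve.map_b₂, eq_intCast, Ne, ZMod.intCast_zmod_eq_zero_iff_dvd]
    exact_mod_cast hb2
  set S := Finset.univ.filter fun v : ZMod 3 × ZMod 3 =>
    v.2 * v.2 + E.a₁ * v.1 * v.2 + E.a₃ * v.2 = v.1 * v.1 * v.1 + E.a₂ * v.1 * v.1 +
      E.a₄ * v.1 + E.a₆
    with hS
  have hcard : W.apOfModel 3 = 3 - (S.card : ℤ) := apOfModel_three_eq W hgood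
  have := affinePointCount_ordinary E.a₁ E.a₂ E.a₃ E.a₄ E.a₆ hΔ hb
  rw [show affinePointCount E.a₁ E.a₂ E.a₃ E.a₄ E.a₆ = S.card from rfl] at this
  omega

/-- For `a = ±1, ±2` the polynomial `X ^ 2 - a X + 3` has distinct roots modulo five. -/
lemma sep_five : ((2 : ℤ) : ZMod 5) ^ 2 - 4 * ((3 : ℕ) : ZMod 5) ≠ 0 ∧
    ((-2 : ℤ) : ZMod 5) ^ 2 - 4 * ((3 : ℕ) : ZMod 5) ≠ 0 ∧
    ((1 : ℤ) : ZMod 5) ^ 2 - 4 * ((3 : ℕ) : ZMod 5) ≠ 0 ∧
    ((-1 : ℤ) : ZMod 5) ^ 2 - 4 * ((3 : ℕ) : ZMod 5) ≠ 0 := by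
  decide

/-- Every nonzero residue modulo three is that of `2` or of `-2`. -/
lemma sign_three : ∀ s : ZMod 3, s ≠ 0 → ((2 : ℤ) : ZMod 3) = s ∨ ((-2 : ℤ) : ZMod 3) = s := by
  decide

/-- Near every curve multiplicative at three, on the family of its five-torsion, there is an
ordinary target all of whose congruent curves have a cube discriminant at three. -/
def MultTarget (A : ValuationSubring ℚbar) : Prop :=
  ∀ W : WeierstrassCurve ℤ, W.Δ ≠ 0 → (3 : ℤ) ∣ W.Δ → ¬ (3 : ℤ) ∣ W.c₄ →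
    ∃ (V : WeierstrassCurve ℤ) (M : ℕ), 1 ≤ M ∧ V.Δ ≠ 0 ∧ ¬ (3 : ℤ) ∣ V.b₂ ∧ Target5 A W V M ∧
      ∀ (W' : WeierstrassCurve ℤ) (n : ℤ), ¬ (3 : ℤ) ∣ n → ScaledCong W' V ((3 : ℤ) ^ M) n →
        CubeAt A W'

section Steps

variable {Mod : WeierstrassCurve ℤ → Prop}
  (hA : ∀ W : WeierstrassCurve ℤ, W.Δ ≠ 0 → W.IsSemistableModel → ¬ (3 : ℤ) ∣ W.Δ →
    (3 : ℤ) ∣ W.b₂ → Mod W)
  (hRT5 : ∀ W W' : WeierstrassCurve ℤ, W.Δ ≠ 0 → W.IsSemistableModel → W.ModRepIsIrreducible 5 →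
    W'.Δ ≠ 0 → W'.IsSemistableModel → TorEquiv 5 W W' → Mod W' → Mod W)
  (hRT3 : ∀ W W' : WeierstrassCurve ℤ, W.Δ ≠ 0 → W.IsSemistableModel → W.ModRepIsIrreducible 3 →
    W'.Δ ≠ 0 → W'.IsSemistableModel → TorEquiv 3 W W' → ((3 : ℤ) ∣ W'.Δ → (3 : ℤ) ∣ W.Δ) →
      Mod W' → Mod W)

include hA hRT5 hRT3

/-- The first two cases: five-torsion with `a₃ = ±2`, and three-torsion split at three. -/
theorem mod_of_cube
    {A : ValuationSubring ℚbar} (h : IsPlace A 3) :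
    (∀ W : WeierstrassCurve ℤ, W.Δ ≠ 0 → W.IsSemistableModel → W.ModRepIsIrreducible 5 →
      ¬ (3 : ℤ) ∣ W.Δ → (W.apOfModel 3 = 2 ∨ W.apOfModel 3 = -2) → Mod W) ∧
    (∀ W : WeierstrassCurve ℤ, W.Δ ≠ 0 → W.IsSemistableModel → W.ModRepIsIrreducible 3 →
      ¬ (3 : ℤ) ∣ W.b₂ → CubeAt A W → Mod W) := by
  classical
  have : Fact (Nat.Prime 3) := ⟨Nat.prime_three⟩
  have : Fact (Nat.Prime 5) := ⟨Nat.prime_five⟩
  -- case 1: five-torsion with `a₃ = ±2`
  have hTwo : ∀ W : WeierstrassCurve ℤ, W.Δ ≠ 0 → W.IsSemistableModel → W.ModRepIsIrreducible 5 →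
      ¬ (3 : ℤ) ∣ W.Δ → (W.apOfModel 3 = 2 ∨ W.apOfModel 3 = -2) → Mod W := by
    intro W hΔ hss h5 hg ha
    obtain ⟨V, hVΔ, hVg, hVb, hVa⟩ := exists_target_ss ha
    have hsep : (W.apOfModel 3 : ZMod 5) ^ 2 - 4 * ((3 : ℕ) : ZMod 5) ≠ 0 := by
      rcases ha with e | e <;> rw [e]
      exacts [sep_five.1, sep_five.2.1]
    have hD := localDatum_of_good (p := 5) h (by exact_mod_cast hg) (by exact_mod_cast hVg)
      (by norm_num) (by norm_num) (W := W) (V := V) hVa.symm hsep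
    obtain ⟨W', hΔ', hss', -, he, n, hn, hc⟩ := exists_switch5 W hΔ hss h V hVΔ
      (fun hd => absurd hd hVg) 2 (by norm_num) (target5_of_datum hΔ hVΔ 2 hD)
    obtain ⟨hg', hb', -, -⟩ := good_of_scaledCong hn hc hVg
    exact hRT5 W W' hΔ hss h5 hΔ' hss' he (hA W' hΔ' hss' hg' (hb'.mpr hVb))
  refine ⟨hTwo, fun W hΔ hss h3 hb2 hcube => ?_⟩
  -- case 2: Frobenius acts on the quotient line by some `s ≠ 0`; prescribe `a₃ = ±2 ≡ s`
  obtain ⟨P, Q, S⟩ := exists_split h hΔ hb2 hcube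
  obtain ⟨σ₀, hσ₀⟩ := Fermat.CFT.exists_isFrobeniusAt h.1 h.2
  obtain ⟨c, s, -, hs, hcs⟩ := S.decomp σ₀ hσ₀.mem_decompositionSubgroup
  have hs0 : s ≠ 0 := fun e => by
    rw [e, mul_zero] at hcs
    exact (Fermat.CFT.cycChar 3 σ₀).ne_zero hcs.symm
  obtain ⟨a, ha, has⟩ : ∃ a : ℤ, (a = 2 ∨ a = -2) ∧ (a : ZMod 3) = s := by
    rcases sign_three s hs0 with e | e
    exacts [⟨2, Or.inl rfl, e⟩, ⟨-2, Or.inr rfl, e⟩]
  obtain ⟨V, hVΔ, hVg, hVb, hV9, hVa⟩ := exists_target_ord (a := a) (Or.inr (Or.inr ha))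
  obtain ⟨P', Q', S'⟩ := exists_split h hVΔ hVb (cubeAt_of_mod_nine h V hV9)
  have hQ' := S'.frob h hVg hVb hσ₀
  rw [hVa, has] at hQ'
  have hD := localDatum_split h hΔ hVΔ S S' hσ₀ hs hQ'
  obtain ⟨W', hΔ', hss', h5', he, n, hn, hc⟩ := exists_switch3 W hΔ hss h V hVΔ
    (fun hd => absurd hd hVg) 2 (by norm_num) (target3_of_datum hΔ hVΔ 2 hD)
  obtain ⟨hg', -, ha', -⟩ := good_of_scaledCong hn hc hVg
  exact hRT3 W W' hΔ hss h3 hΔ' hss' he (fun h => absurd h hg')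
    (hTwo W' hΔ' hss' h5' hg' (by rw [ha', hVa]; exact ha))

/-- **Modularity from the supersingular case and the two lifting steps**, when the torsion at
three or five is irreducible. -/
theorem mod_of_irreducible
    {A : ValuationSubring ℚbar} (h : IsPlace A 3) (hmult : MultTarget A)
    (W : WeierstrassCurve ℤ) (hΔ : W.Δ ≠ 0) (hss : W.IsSemistableModel)
    (hirr : W.ModRepIsIrreducible 3 ∨ W.ModRepIsIrreducible 5) : Mod W := by
  classical
  have : Fact (Nat.Prime 3) := ⟨Nat.prime_three⟩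
  have : Fact (Nat.Prime 5) := ⟨Nat.prime_five⟩
  obtain ⟨hTwo, hSplit⟩ := mod_of_cube hA hRT5 hRT3 h
  -- case 3: five-torsion, any reduction
  have hFive : ∀ W : WeierstrassCurve ℤ, W.Δ ≠ 0 → W.IsSemistableModel → W.ModRepIsIrreducible 5 →
      Mod W := by
    intro W hΔ hss h5
    by_cases hbad : (3 : ℤ) ∣ W.Δ
    -- multiplicative: switch to split three-torsion
    · obtain ⟨V, M, hM, hVΔ, hVb, htar, hcube⟩ :=
        hmult W hΔ hbad (by exact_mod_cast hss 3 Nat.prime_three (by exact_mod_cast hbad))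
      have hV4 : ¬ (3 : ℤ) ∣ V.c₄ := not_dvd_c4 hVb
      obtain ⟨W', hΔ', hss', h3', he, n, hn, hc⟩ := exists_switch5 W hΔ hss h V hVΔ
        (fun _ => hV4) M hM htar
      have hb' : ¬ (3 : ℤ) ∣ W'.b₂ := by
        intro hd
        have h2 := (invariants_of_scaledCong hc).1
        have := dvd_sub hd ((dvd_pow_self (3 : ℤ) (by omega : M ≠ 0)).trans h2)
        rw [sub_sub_cancel] at this
        exact hVb ((Int.prime_three.dvd_or_dvd this).resolve_left
          fun h => hn (Int.prime_three.dvd_of_dvd_pow h))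
      exact hRT5 W W' hΔ hss h5 hΔ' hss' he (hSplit W' hΔ' hss' h3' hb' (hcube W' n hn hc))
    by_cases hb2 : (3 : ℤ) ∣ W.b₂
    · exact hA W hΔ hss hbad hb2
    rcases apOfModel_ordinary W hbad hb2 with ha | ha | ha | ha
    rotate_left 2
    · exact hTwo W hΔ hss h5 hbad (Or.inl ha)
    · exact hTwo W hΔ hss h5 hbad (Or.inr ha)
    -- `a₃ = ±1`: switch to split three-torsion
    all_goals
      obtain ⟨V, hVΔ, hVg, hVb, hV9, hVa⟩ := exists_target_ord (a := W.apOfModel 3) (by omega)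
      have hsep : (W.apOfModel 3 : ZMod 5) ^ 2 - 4 * ((3 : ℕ) : ZMod 5) ≠ 0 := by
        rw [ha]; exact sep_five.2.2.1
      have hD := localDatum_of_good (p := 5) h (by exact_mod_cast hbad) (by exact_mod_cast hVg)
        (by norm_num) (by norm_num) (W := W) (V := V) (by rw [hVa]) hsep
      obtain ⟨W', hΔ', hss', h3', he, n, hn, hc⟩ := exists_switch5 W hΔ hss h V hVΔ
        (fun hd => absurd hd hVg) 2 (by norm_num) (target5_of_datum hΔ hVΔ 2 hD)
      obtain ⟨-, hb', -, h9⟩ := good_of_scaledCong hn hc hVg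
      exact hRT5 W W' hΔ hss h5 hΔ' hss' he
        (hSplit W' hΔ' hss' h3' (fun hd => hVb (hb'.mp hd)) (cubeAt_of_mod_nine h W' (h9 hV9)))
  -- case 4: three-torsion
  rcases hirr with h3 | h5
  · by_cases hcase : ¬ (3 : ℤ) ∣ W.Δ ∧ (3 : ℤ) ∣ W.b₂
    · exact hA W hΔ hss hcase.1 hcase.2
    obtain ⟨W', hΔ', hss', h5', he, n, hn, hc⟩ := exists_switch3 W hΔ hss h W hΔ
      (fun hd => by exact_mod_cast hss 3 Nat.prime_three (by exact_mod_cast hd)) 2 (by norm_num)
        (target3_self 2)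
    exact hRT3 W W' hΔ hss h3 hΔ' hss' he (fun hd => by_contra fun hg =>
      (good_of_scaledCong hn hc hg).1 hd) (hFive W' hΔ' hss' h5')
  · exact hFive W hΔ hss h5

end Steps

end Fermat.SW
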