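import Mathlib.LinearAlgebra.Trace
import Mathlib.LinearAlgebra.Determinant
import Mathlib.LinearAlgebra.Matrix.Charpoly.Coeff
import Mathlib.FieldTheory.Finite.Basic
import Mathlib.Tactic

/-!
# Endomorphisms of a plane with separable characteristic polynomial

The main results are `exists_intertwine` and `exists_centralizer_det`.
-/

set_option autoImplicit false

noncomputable section

open Module

namespace Fermat.SW.Conj2

variable {k : Type} [Field k] {V V' : Type*} [AddCommGroup V] [Module k V] [AddCommGroup V']
  [Module k V'] [FiniteDimensional k V] [FiniteDimensional k V']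

/-- Cayley–Hamilton for an endomorphism of a plane, applied to a vector. -/
lemma cayley (h : finrank k V = 2) (L : V →ₗ[k] V) (x : V) :
    L (L x) = LinearMap.trace k V L • L x - LinearMap.det L • x := by
  let B : Basis (Fin 2) k V := Module.finBasisOfFinrankEq k V h
  set M := LinearMap.toMatrix B B L with hM
  have hc : M * M = M.trace • M - M.det • 1 := by
    ext i j
    fin_cases i <;> fin_cases j <;>
      simp [Matrix.mul_apply, Fin.sum_univ_two, Matrix.trace_fin_two, Matrix.det_fin_two] <;> ring
  have e : L ∘ₗ L = LinearMap.trace k V L • L - LinearMap.det L • LinearMap.id := by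
    apply (LinearMap.toMatrix B B).injective
    rw [LinearMap.toMatrix_comp B B B, map_sub, map_smul, map_smul, LinearMap.toMatrix_id,
      LinearMap.trace_eq_matrix_trace k B, ← LinearMap.det_toMatrix B]
    exact hc
  exact LinearMap.congr_fun e x

/-- An endomorphism of a plane with distinct eigenvalues has a cyclic vector. -/
lemma exists_cyclic (h : finrank k V = 2) (L : V →ₗ[k] V)
    (hd : LinearMap.trace k V L ^ 2 - 4 * LinearMap.det L ≠ 0) :
    ∃ x, LinearIndependent k ![x, L x] := by
  by_contra hno
  push Not at hno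
  let B : Basis (Fin 2) k V := Module.finBasisOfFinrankEq k V h
  -- otherwise every vector is an eigenvector
  have key : ∀ x : V, x ≠ 0 → ∃ c : k, L x = c • x := by
    intro x hx
    have h1 := hno x
    rw [LinearIndependent.pair_iff] at h1
    push Not at h1
    obtain ⟨s, t, hst, hne⟩ := h1
    by_cases ht : t = 0
    · subst ht
      rw [zero_smul, add_zero, smul_eq_zero] at hst
      exact absurd rfl (hne (hst.resolve_right hx))
    · refine ⟨-s / t, ?_⟩
      have h1 : t • L x = -s • x := by rw [neg_smul]; exact eq_neg_of_add_eq_zero_right hst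
      rw [div_eq_inv_mul, mul_smul, ← h1, smul_smul, inv_mul_cancel₀ ht, one_smul]
  have hne : ∀ i, B i ≠ 0 := fun i => B.ne_zero i
  obtain ⟨c0, h0⟩ := key _ (hne 0)
  obtain ⟨c1, h1⟩ := key _ (hne 1)
  have hsum : B 0 + B 1 ≠ 0 := by
    intro h
    have := congrArg (fun v => B.repr v 0) h
    simp at this
  obtain ⟨c2, h2⟩ := key _ hsum
  -- so `L` is scalar
  rw [map_add, h0, h1, smul_add] at h2
  have e0 : c0 = c2 := by
    have := congrArg (fun v => B.repr v 0) h2
    simpa [Finsupp.single_apply] using this
  have e1 : c1 = c2 := by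
    have := congrArg (fun v => B.repr v 1) h2
    simpa [Finsupp.single_apply] using this
  -- and its discriminant vanishes
  apply hd
  rw [LinearMap.trace_eq_matrix_trace k B, ← LinearMap.det_toMatrix B, Matrix.trace_fin_two,
    Matrix.det_fin_two]
  simp [LinearMap.toMatrix_apply, h0, h1, e0, e1]
  ring

/-- Two such endomorphisms with the same trace and determinant are conjugate. -/
theorem exists_intertwine (h : finrank k V = 2) (h' : finrank k V' = 2) (L : V →ₗ[k] V)
    (L' : V' →ₗ[k] V') (htr : LinearMap.trace k V' L' = LinearMap.trace k V L)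
    (hdet : LinearMap.det L' = LinearMap.det L)
    (hd : LinearMap.trace k V L ^ 2 - 4 * LinearMap.det L ≠ 0) :
    ∃ e : V ≃ₗ[k] V', ∀ x, e (L x) = L' (e x) := by
  obtain ⟨x, hx⟩ := exists_cyclic h L hd
  obtain ⟨y, hy⟩ := exists_cyclic h' L' (by rwa [htr, hdet])
  let B : Basis (Fin 2) k V :=
    basisOfLinearIndependentOfCardEqFinrank hx (by rw [Fintype.card_fin, h])
  let B' : Basis (Fin 2) k V' :=
    basisOfLinearIndependentOfCardEqFinrank hy (by rw [Fintype.card_fin, h'])
  have hB : B 0 = x ∧ B 1 = L x := by simp [B]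
  have hB' : B' 0 = y ∧ B' 1 = L' y := by simp [B']
  let e := B.equiv B' (Equiv.refl _)
  have he : ∀ i, e (B i) = B' i := fun i => by simp [e]
  have ex : e x = y := by rw [← hB.1, he, hB'.1]
  have eLx : e (L x) = L' y := by rw [← hB.2, he, hB'.2]
  have hall : e.toLinearMap ∘ₗ L = L' ∘ₗ e.toLinearMap := by
    refine B.ext fun i => ?_
    fin_cases i <;> simp only [LinearMap.comp_apply, LinearEquiv.coe_coe, Fin.zero_eta, Fin.mk_one,
      hB.1, hB.2]
    · rw [eLx, ex]
    · rw [cayley h, map_sub, map_smul, map_smul, eLx, ex, cayley h' L' y, htr, hdet]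
  exact ⟨e, fun v => LinearMap.congr_fun hall v⟩

variable [Fintype k]

/-- The centraliser has every determinant. -/
theorem exists_centralizer_det (hk : ringChar k ≠ 2) (h : finrank k V = 2) (L : V →ₗ[k] V)
    (hd : LinearMap.trace k V L ^ 2 - 4 * LinearMap.det L ≠ 0) (c : k) :
    ∃ r s : k, LinearMap.det (r • (LinearMap.id : V →ₗ[k] V) + s • L) = c := by
  classical
  have h2 : (2 : k) ≠ 0 := Ring.two_ne_zero hk
  set a := LinearMap.trace k V L
  set d := LinearMap.det L
  set q := d - a ^ 2 / 4 with hq
  have h4 : (4 : k) ≠ 0 := by rw [show (4 : k) = 2 * 2 by norm_num]; exact mul_ne_zero h2 h2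
  have hq0 : q ≠ 0 := fun e => hd (by rw [hq] at e; field_simp at e; linear_combination -e)
  obtain ⟨X, Y, hXY⟩ := FiniteField.exists_root_sum_quadratic (R := k)
    (f := Polynomial.X ^ 2 - Polynomial.C c) (g := Polynomial.C q * Polynomial.X ^ 2)
    (Polynomial.degree_X_pow_sub_C (by norm_num) c)
    (by rw [Polynomial.degree_C_mul_X_pow 2 hq0]; rfl)
    (FiniteField.odd_card_of_char_ne_two hk)
  simp only [Polynomial.eval_sub, Polynomial.eval_mul, Polynomial.eval_pow, Polynomial.eval_X,
    Polynomial.eval_C] at hXY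
  refine ⟨X - a * Y / 2, Y, ?_⟩
  let B : Basis (Fin 2) k V := Module.finBasisOfFinrankEq k V h
  set M := LinearMap.toMatrix B B L with hM
  have hMa : M.trace = a := (LinearMap.trace_eq_matrix_trace k B L).symm
  have hMd : M.det = d := LinearMap.det_toMatrix B L
  rw [← LinearMap.det_toMatrix B, map_add, map_smul, map_smul, LinearMap.toMatrix_id, ← hM]
  rw [Matrix.trace_fin_two] at hMa
  rw [Matrix.det_fin_two] at hMd ⊢
  simp only [Matrix.add_apply, Matrix.smul_apply, Matrix.one_apply, smul_eq_mul]
  simp
  have key : (X - a * Y / 2) ^ 2 + a * (X - a * Y / 2) * Y + d * Y ^ 2 = c := by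
    rw [hq] at hXY
    field_simp at hXY ⊢
    linear_combination hXY
  generalize X - a * Y / 2 = r at key ⊢
  linear_combination key + r * Y * hMa + Y ^ 2 * hMd

end Fermat.SW.Conj2
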