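import Fermat.Agent.SW.Matrices5

/-!
# The family with level five structure

The forms are `formC4`, `formC6` and `formX`; `ND_matW_pow` rotates `(N5, D5)` by `matW`.
-/

set_option autoImplicit false

open Matrix

namespace Fermat.SW.Five

variable {K : Type} [Field K] [CharZero K] {ζ : K}

/-- `C4` as a form. -/
def formC4 : Form := ⟨fun {R} [CommRing R] w => C4 w, fun {R S} _ _ f w => by
  simp [C4, map_add, map_sub, map_mul, map_pow, map_ofNat]⟩

/-- `C6` as a form. -/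
def formC6 : Form := ⟨fun {R} [CommRing R] w => C6 w, fun {R S} _ _ f w => by
  simp [C6, map_add, map_sub, map_neg, map_mul, map_pow, map_ofNat]⟩

/-- `X` as a form. -/
def formX : Form := ⟨fun {R} [CommRing R] w => X5 w, fun {R S} _ _ f w => by
  simp [X5, N5, D5, map_add, map_sub, map_mul, map_pow, map_ofNat]⟩

/-- `Y` as a form. -/
def formY : Form := ⟨fun {R} [CommRing R] w => Y5 w, fun {R S} _ _ f w => by
  simp [Y5, N5, D5, map_add, map_sub, map_neg, map_mul, map_pow, map_ofNat]⟩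

section Matrices

variable (hζ : IsPrimitiveRoot ζ 5)
variable {R : Type} [CommRing R] [Algebra K R]

omit [CharZero K] in
/-- A scalar multiple of a matrix acts by scaling both entries. -/
lemma act_smul (c : K) (g : Matrix (Fin 2) (Fin 2) K) (w : R × R) :
    act (c • g) w = (algebraMap K R c * (act g w).1, algebraMap K R c * (act g w).2) := by
  simp [act, map_mul]; constructor <;> ring

/-- The stabiliser of the point. -/
def rMat5 (ζ : K) (i : Fin 5 × Fin 5) : Matrix (Fin 2) (Fin 2) K :=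
  ζ ^ (i.1 : ℕ) • (-(matS ζ * matD ζ ^ (i.2 : ℕ) * matS ζ))

/-- Representatives of the torsion points. -/
def tMat5 (ζ : K) : Fin 4 × Option (Fin 5) → Matrix (Fin 2) (Fin 2) K
  | (e, some i) => matW ^ (e : ℕ) * matD ζ ^ (i : ℕ)
  | (e, none) => matW ^ (e : ℕ) * matS ζ

omit [CharZero K] in
/-- The powers of `matW` preserve `C4` and `C6`. -/
lemma act_matW_pow_pres (n : ℕ) (w : R × R) :
    C4 (act ((matW : Matrix (Fin 2) (Fin 2) K) ^ n) w) = C4 w ∧
      C6 (act ((matW : Matrix (Fin 2) (Fin 2) K) ^ n) w) = C6 w := by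
  induction n generalizing w with
  | zero => simp [act_one]
  | succ n ih =>
    rw [pow_succ, act_mul]
    exact ⟨(ih _).1.trans (pres_matW w).1, (ih _).2.trans (pres_matW w).2⟩

include hζ

omit [CharZero K] in
/-- The powers of `matD ζ` preserve `C4` and `C6`. -/
lemma matD_pow_pres (n : ℕ) (w : R × R) :
    C4 (act (matD ζ ^ n) w) = C4 w ∧ C6 (act (matD ζ ^ n) w) = C6 w := by
  induction n generalizing w with
  | zero => simp [act_one]
  | succ n ih =>
    rw [pow_succ, act_mul]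
    exact ⟨(ih _).1.trans (pres_matD hζ w).1, (ih _).2.trans (pres_matD hζ w).2⟩

omit [CharZero K] in
/-- The powers of `matD ζ` keep the fifth powers of both parameters. -/
lemma matD_pow_five (n : ℕ) (w : R × R) :
    ((act (matD ζ ^ n) w).1) ^ 5 = w.1 ^ 5 ∧ ((act (matD ζ ^ n) w).2) ^ 5 = w.2 ^ 5 := by
  induction n generalizing w with
  | zero => simp [act_one]
  | succ n ih =>
    rw [pow_succ (matD ζ), act_mul]
    exact ⟨(ih _).1.trans (pow_x5 hζ w).1, (ih _).2.trans (pow_x5 hζ w).2⟩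

/-- Numerator and denominator of the marked point are invariant under the conjugated diagonal
matrices. -/
lemma ND_conj (n : ℕ) (w : R × R) :
    N5 (act (-(matS ζ * matD ζ ^ n * matS ζ)) w) = N5 w ∧
      D5 (act (-(matS ζ * matD ζ ^ n * matS ζ)) w) = D5 w := by
  have hneg : act (-(matS ζ * matD ζ ^ n * matS ζ)) w =
      act (-1 : Matrix (Fin 2) (Fin 2) K) (act (matS ζ) (act (matD ζ ^ n) (act (matS ζ) w))) := by
    rw [← act_mul, ← act_mul, ← act_mul]; congr 1; simp [mul_assoc]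
  have h := matD_pow_five hζ n (act (matS ζ) w)
  have hback : act (matS ζ) (act (matS ζ) w) = (-w.1, -w.2) := by
    rw [← act_mul, matS_sq hζ, act_neg_one]
  have hN : N5 (act (matS ζ) (act (matD ζ ^ n) (act (matS ζ) w))) = N5 (-w.1, -w.2) := by
    rw [← hback, N5_matS hζ, N5_matS hζ (act (matS ζ) w), h.1, h.2]
  have hD : D5 (act (matS ζ) (act (matD ζ ^ n) (act (matS ζ) w))) = D5 (-w.1, -w.2) := by
    rw [← hback, D5_matS hζ, D5_matS hζ (act (matS ζ) w), h.1, h.2]
  rw [hneg, act_neg_one]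
  generalize act (matS ζ) (act (matD ζ ^ n) (act (matS ζ) w)) = z at hN hD
  simp only [N5, D5] at hN hD ⊢
  exact ⟨by linear_combination -hN, by linear_combination -hD⟩

/-- The stabiliser matrices preserve the curve and the marked point. -/
lemma r_pres5 (i : Fin 5 × Fin 5) (w : R × R) :
    C4 (act (rMat5 ζ i) w) = C4 w ∧ C6 (act (rMat5 ζ i) w) = C6 w ∧
      X5 (act (rMat5 ζ i) w) = X5 w ∧ Y5 (act (rMat5 ζ i) w) = Y5 w := by
  have h5 : algebraMap K R (ζ ^ (i.1 : ℕ)) ^ 5 = 1 := by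
    rw [← map_pow, ← pow_mul, mul_comm, pow_mul, hζ.pow_eq_one, one_pow, map_one]
  obtain ⟨hN, hD⟩ := ND_conj hζ (i.2 : ℕ) w
  have key : N5 (act (rMat5 ζ i) w) = N5 w ∧ D5 (act (rMat5 ζ i) w) = D5 w := by
    rw [rMat5, act_smul]
    generalize algebraMap K R (ζ ^ (i.1 : ℕ)) = c at h5
    generalize act (-(matS ζ * matD ζ ^ (i.2 : ℕ) * matS ζ)) w = z at hN hD
    simp only [N5, D5] at hN hD ⊢
    exact ⟨by linear_combination hN + (z.1 ^ 5 + 3 * z.1 ^ 4 * z.2 + 4 * z.1 ^ 3 * z.2 ^ 2 +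
        2 * z.1 ^ 2 * z.2 ^ 3 + z.1 * z.2 ^ 4) * h5,
      by linear_combination hD + (z.1 ^ 4 * z.2 - 2 * z.1 ^ 3 * z.2 ^ 2 +
        4 * z.1 ^ 2 * z.2 ^ 3 - 3 * z.1 * z.2 ^ 4 + z.2 ^ 5) * h5⟩
  obtain ⟨k1, k2⟩ := key
  refine ⟨?_, ?_, ?_, ?_⟩
  · rw [C4_eq, C4_eq w, k1, k2]
  · rw [C6_eq, C6_eq w, k1, k2]
  · rw [X5, X5, k1, k2]
  · rw [Y5, Y5, k1, k2]

/-- The representatives of the torsion points preserve `C4` and `C6`. -/
lemma t_pres5 (j : Fin 4 × Option (Fin 5)) (w : R × R) :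
    C4 (act (tMat5 ζ j) w) = C4 w ∧ C6 (act (tMat5 ζ j) w) = C6 w := by
  obtain ⟨e, _ | i⟩ := j
  · rw [tMat5, act_mul]
    exact ⟨(act_matW_pow_pres _ _).1.trans (pres_matS hζ w).1,
      (act_matW_pow_pres _ _).2.trans (pres_matS hζ w).2⟩
  · rw [tMat5, act_mul]
    exact ⟨(act_matW_pow_pres _ _).1.trans (matD_pow_pres hζ _ w).1,
      (act_matW_pow_pres _ _).2.trans (matD_pow_pres hζ _ w).2⟩

omit hζ in
omit [CharZero K] in
/-- The powers of `matD ζ` are diagonal. -/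
lemma matD_pow_eq (n : ℕ) : matD ζ ^ n = !![ζ ^ (3 * n), 0; 0, ζ ^ (2 * n)] := by
  induction n with
  | zero => ext i j; fin_cases i <;> fin_cases j <;> simp
  | succ n ih =>
    rw [pow_succ, ih, matD]
    ext i j
    fin_cases i <;> fin_cases j <;> simp [Matrix.mul_apply, Fin.sum_univ_two] <;> ring

omit [CharZero K] in
/-- Exponents of a primitive fifth root of unity are determined modulo `5`. -/
private lemma emod_five_eq_of_pow_eq {a b : ℕ} (hab : ζ ^ a = ζ ^ b) : a % 5 = b % 5 := by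
  rw [← pow_mod_orderOf, ← pow_mod_orderOf (n := b), ← hζ.eq_orderOf] at hab
  exact hζ.pow_inj (Nat.mod_lt _ (by norm_num)) (Nat.mod_lt _ (by norm_num)) hab

/-- The stabiliser matrices are distinct. -/
lemma r_inj5 : Function.Injective (rMat5 ζ) := by
  intro i i' h
  have hS : matS ζ * matS ζ = -1 := matS_sq hζ
  have key : ∀ j : Fin 5 × Fin 5,
      matS ζ * rMat5 ζ j * matS ζ = ζ ^ (j.1 : ℕ) • (-(matD ζ ^ (j.2 : ℕ))) := by
    intro j
    rw [rMat5, Matrix.mul_smul, Matrix.smul_mul]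
    congr 1
    calc matS ζ * -(matS ζ * matD ζ ^ (j.2 : ℕ) * matS ζ) * matS ζ
        = -((matS ζ * matS ζ) * matD ζ ^ (j.2 : ℕ) * (matS ζ * matS ζ)) := by
          simp only [mul_neg, neg_mul, mul_assoc]
      _ = -(matD ζ ^ (j.2 : ℕ)) := by rw [hS]; simp
  have hk := congrArg (fun g => matS ζ * g * matS ζ) h
  simp only [key, matD_pow_eq] at hk
  have h00 := congrFun (congrFun hk 0) 0
  have h11 := congrFun (congrFun hk 1) 1
  simp [← pow_add] at h00 h11
  have m0 := emod_five_eq_of_pow_eq hζ h00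
  have m1 := emod_five_eq_of_pow_eq hζ h11
  obtain ⟨⟨a, ha⟩, ⟨b, hb⟩⟩ := i
  obtain ⟨⟨a', ha'⟩, ⟨b', hb'⟩⟩ := i'
  simp only [Prod.mk.injEq, Fin.mk.injEq] at m0 m1 ⊢
  omega

omit hζ in
/-- At a regular parameter the marked point and `C4` determine `(N, D)`. -/
lemma ND_of_XY {v w : K × K} (hv : C4 v ^ 3 ≠ C6 v ^ 2) (h4 : C4 w = C4 v)
    (hX : X5 w = X5 v) (hY : Y5 w = Y5 v) : N5 w = N5 v ∧ D5 w = D5 v := by
  have hND : N5 v * D5 v ≠ 0 := fun h => hv (sub_eq_zero.mp (by rw [disc_eq', h]; ring))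
  have hY0 : Y5 v ≠ 0 := by
    rw [Y5]
    exact mul_ne_zero (mul_ne_zero (by norm_num) (left_ne_zero_of_mul hND))
      (pow_ne_zero _ (right_ne_zero_of_mul hND))
  have h1 : D5 w - N5 w = D5 v - N5 v := by
    have a := slope_eq w
    have b := slope_eq v
    rw [h4, hX, hY] at a
    have : 2 * Y5 v * 3 * ((D5 w - N5 w) - (D5 v - N5 v)) = 0 := by linear_combination a - b
    simp [hY0] at this
    linear_combination this
  have h2 : N5 w * D5 w = N5 v * D5 v := by
    simp only [X5] at hX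
    linear_combination (-1 / 12 : K) * hX +
      (1 / 4 : K) * (D5 w - N5 w + D5 v - N5 v) * h1
  have h3 : D5 w = D5 v := by
    simp only [Y5] at hY
    have e : (N5 v * D5 v) * (D5 w - D5 v) = 0 := by
      linear_combination (-1 / 108 : K) * hY - D5 w * h2
    exact sub_eq_zero.mp ((mul_eq_zero.mp e).resolve_left hND)
  exact ⟨by linear_combination h3 - h1, h3⟩

omit hζ [CharZero K] in
/-- `matW` rotates `(N5, D5)` with order four. -/
lemma ND_matW_pow (e : Fin 4) (z : K × K) :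
    (N5 (act ((matW : Matrix (Fin 2) (Fin 2) K) ^ (e : ℕ)) z),
      D5 (act ((matW : Matrix (Fin 2) (Fin 2) K) ^ (e : ℕ)) z)) =
    ![(N5 z, D5 z), (D5 z, -N5 z), (-N5 z, -D5 z), (-D5 z, N5 z)] e := by
  fin_cases e <;> simp [pow_succ, act_mul, act_one, N5_matW, D5_matW]

omit hζ [CharZero K] in
/-- Evaluation of `N5` and `D5` at a polynomial point. -/
private lemma eval_N5_D5 (g : Matrix (Fin 2) (Fin 2) K) (w : Polynomial K × Polynomial K) (y : K) :
    (N5 (act g w)).eval y = N5 (act g (w.1.eval y, w.2.eval y)) ∧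
      (D5 (act g w)).eval y = D5 (act g (w.1.eval y, w.2.eval y)) := by
  simp [N5, D5, act]

/-- Two labels with the same point have the same `(N, D)`, as polynomials. -/
private lemma ND_poly_eq {j j' : Fin 4 × Option (Fin 5)}
    (h : ∀ w : K × K, X5 (act (tMat5 ζ j) w) = X5 (act (tMat5 ζ j') w) ∧
      Y5 (act (tMat5 ζ j) w) = Y5 (act (tMat5 ζ j') w))
    {w : Polynomial K × Polynomial K} (hw : C4 w ^ 3 - C6 w ^ 2 ≠ 0) :
    N5 (act (tMat5 ζ j) w) = N5 (act (tMat5 ζ j') w) ∧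
      D5 (act (tMat5 ζ j) w) = D5 (act (tMat5 ζ j') w) := by
  have hP : ∀ z : K × K, C4 z ^ 3 ≠ C6 z ^ 2 →
      N5 (act (tMat5 ζ j) z) = N5 (act (tMat5 ζ j') z) ∧
        D5 (act (tMat5 ζ j) z) = D5 (act (tMat5 ζ j') z) := by
    intro z hz
    have hreg : C4 (act (tMat5 ζ j') z) ^ 3 ≠ C6 (act (tMat5 ζ j') z) ^ 2 := by
      rw [(t_pres5 hζ j' z).1, (t_pres5 hζ j' z).2]; exact hz
    exact ND_of_XY hreg ((t_pres5 hζ j z).1.trans (t_pres5 hζ j' z).1.symm) (h z).1 (h z).2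
  have hinf : Set.Infinite {y : K | C4 (w.1.eval y, w.2.eval y) ^ 3 ≠
      C6 (w.1.eval y, w.2.eval y) ^ 2} := by
    apply Set.Infinite.mono (s := ({y : K | (C4 w ^ 3 - C6 w ^ 2).IsRoot y})ᶜ)
    · intro y hy hh
      apply hy
      simp [Polynomial.IsRoot, C4, C6] at hh ⊢
      linear_combination hh
    · exact (Polynomial.finite_setOfPred_isRoot hw).infinite_compl
  constructor <;> refine Polynomial.eq_of_infinite_eval_eq _ _ (hinf.mono fun y hy => ?_)
  · simp only [Set.mem_ofPred_eq, (eval_N5_D5 _ w y).1]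
    exact (hP _ hy).1
  · simp only [Set.mem_ofPred_eq, (eval_N5_D5 _ w y).2]
    exact (hP _ hy).2

omit [CharZero K] in
/-- The values of `(N, D)` at `(0, 1)`. -/
private lemma ND_zero_one (k : Fin 4 × Option (Fin 5)) :
    (N5 (act (tMat5 ζ k) ((0 : K), (1 : K))), D5 (act (tMat5 ζ k) ((0 : K), (1 : K)))) =
      match k with
      | (e, some _) => ![((0 : K), (1 : K)), (1, 0), (0, -1), (-1, 0)] e
      | (e, none) => ![(aS ζ ^ 5 * (25 * tau ζ - 15), -(aS ζ ^ 5 * 5)),
          (-(aS ζ ^ 5 * 5), -(aS ζ ^ 5 * (25 * tau ζ - 15))),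
          (-(aS ζ ^ 5 * (25 * tau ζ - 15)), aS ζ ^ 5 * 5),
          (aS ζ ^ 5 * 5, aS ζ ^ 5 * (25 * tau ζ - 15))] e := by
  obtain ⟨e, _ | i⟩ := k
  · simp only [tMat5, act_mul, ND_matW_pow]
    rw [N5_matS hζ, D5_matS hζ]
    fin_cases e <;> simp
  · have hD01 : act (matD ζ ^ (i : ℕ)) ((0 : K), (1 : K)) = (0, ζ ^ (2 * (i : ℕ))) := by
      rw [matD_pow_eq]; simp [act]
    simp only [tMat5, act_mul, ND_matW_pow, hD01]
    have hz : (ζ ^ (2 * (i : ℕ))) ^ 5 = 1 := by
      rw [← pow_mul, mul_comm, pow_mul, hζ.pow_eq_one, one_pow]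
    fin_cases e <;> simp [N5, D5, hz]

/-- The value of `(N, D)` at `(0, 1)` determines the power of `matW` and the kind of label. -/
private lemma label_eq_of_ND_zero_one {e e' : Fin 4} {o o' : Option (Fin 5)}
    (h : (N5 (act (tMat5 ζ (e, o)) ((0 : K), (1 : K))),
        D5 (act (tMat5 ζ (e, o)) ((0 : K), (1 : K)))) =
      (N5 (act (tMat5 ζ (e', o')) ((0 : K), (1 : K))),
        D5 (act (tMat5 ζ (e', o')) ((0 : K), (1 : K))))) :
    e = e' ∧ (o = none ↔ o' = none) := by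
  rw [ND_zero_one hζ, ND_zero_one hζ] at h
  -- the two values `A` and `B` are nonzero and distinct up to sign
  have hk : (25 * tau ζ - 15 : K) ≠ 0 ∧ (25 * tau ζ - 15 : K) ≠ 5 ∧
      (25 * tau ζ - 15 : K) ≠ -5 := by
    refine ⟨fun h0 => ?_, fun h0 => ?_, fun h0 => ?_⟩
    · have ht : tau ζ = 3 / 5 := by linear_combination h0 / 25
      have := tau_sq hζ
      rw [ht] at this; norm_num at this
    · have ht : tau ζ = 4 / 5 := by linear_combination h0 / 25
      have := tau_sq hζ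
      rw [ht] at this; norm_num at this
    · have ht : tau ζ = 2 / 5 := by linear_combination h0 / 25
      have := tau_sq hζ
      rw [ht] at this; norm_num at this
  have ha5 : aS ζ ^ 5 ≠ 0 := pow_ne_zero _ fun h0 => by
    have := aS_sq hζ
    rw [h0] at this; norm_num at this
  have h5 : aS ζ ^ 5 * 5 ≠ 0 := mul_ne_zero ha5 (by norm_num)
  have hc : aS ζ ^ 5 * (25 * tau ζ - 15) ≠ 0 := mul_ne_zero ha5 hk.1
  have hd1 : aS ζ ^ 5 * (25 * tau ζ - 15) ≠ aS ζ ^ 5 * 5 := fun h0 =>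
    hk.2.1 (mul_left_cancel₀ ha5 h0)
  have hd2 : aS ζ ^ 5 * (25 * tau ζ - 15) ≠ -(aS ζ ^ 5 * 5) := fun h0 =>
    hk.2.2 (mul_left_cancel₀ ha5 (h0.trans (by ring)))
  generalize aS ζ ^ 5 * (25 * tau ζ - 15) = A at h hc hd1 hd2
  generalize aS ζ ^ 5 * 5 = B at h h5 hd1 hd2
  -- compare the values case by case
  rcases o with _ | i <;> rcases o' with _ | i'
  · refine ⟨?_, Iff.rfl⟩
    fin_cases e <;> fin_cases e' <;> first
      | rfl
      | (exfalso; simp at h; grind)
  · exfalso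
    fin_cases e <;> fin_cases e' <;> simp at h <;> grind
  · exfalso
    fin_cases e <;> fin_cases e' <;> simp at h <;> grind
  · refine ⟨?_, by simp⟩
    have k2 : (2 : K) ≠ 0 := two_ne_zero
    fin_cases e <;> fin_cases e' <;> first
      | rfl
      | (exfalso; simp at h; apply k2; linear_combination h)
      | (exfalso; simp at h; apply k2; linear_combination -h)
      | (exfalso; simp at h)

omit [CharZero K] in
/-- Along `(x, 1)` the derivative of `N` at `(0, 1)` determines the power of `matD`. -/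
private lemma index_eq_of_ND {e : Fin 4} {i i' : Fin 5}
    (h : N5 (act (tMat5 ζ (e, some i)) ((Polynomial.X, 1) : Polynomial K × Polynomial K)) =
        N5 (act (tMat5 ζ (e, some i')) (Polynomial.X, 1)) ∧
      D5 (act (tMat5 ζ (e, some i)) ((Polynomial.X, 1) : Polynomial K × Polynomial K)) =
        D5 (act (tMat5 ζ (e, some i')) (Polynomial.X, 1))) : i = i' := by
  obtain ⟨q1, q2⟩ := h
  have hD : ∀ k : Fin 5,
      act (matD ζ ^ (k : ℕ)) ((Polynomial.X, 1) : Polynomial K × Polynomial K) =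
      (Polynomial.C (ζ ^ (3 * (k : ℕ))) * Polynomial.X, Polynomial.C (ζ ^ (2 * (k : ℕ)))) := by
    intro k; rw [matD_pow_eq]; simp [act, Polynomial.C_eq_algebraMap]
  have hWN : ∀ (z : Polynomial K × Polynomial K),
      ![(N5 z, D5 z), (D5 z, -N5 z), (-N5 z, -D5 z), (-D5 z, N5 z)] e =
      (N5 (act ((matW : Matrix (Fin 2) (Fin 2) K) ^ (e : ℕ)) z),
        D5 (act ((matW : Matrix (Fin 2) (Fin 2) K) ^ (e : ℕ)) z)) := by
    intro z
    fin_cases e <;> simp [pow_succ, act_mul, act_one, N5_matW, D5_matW]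
  have e1 := hWN (act (matD ζ ^ (i : ℕ)) (Polynomial.X, 1))
  have e2 := hWN (act (matD ζ ^ (i' : ℕ)) (Polynomial.X, 1))
  simp only [tMat5, act_mul] at q1 q2
  rw [q1, q2, ← e2] at e1
  have eN' : N5 (act (matD ζ ^ (i : ℕ)) ((Polynomial.X, 1) : Polynomial K × Polynomial K)) =
      N5 (act (matD ζ ^ (i' : ℕ)) (Polynomial.X, 1)) := by
    fin_cases e <;> simp at e1 <;> grind
  rw [hD, hD] at eN'
  have hd := congrArg (fun f => (Polynomial.derivative f).eval 0) eN'
  simp [N5, Polynomial.derivative_pow, ← pow_mul, ← pow_add] at hd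
  have := emod_five_eq_of_pow_eq hζ hd
  exact Fin.ext (by omega)

/-- The representatives are separated by the marked point. -/
lemma t_sep5 (j j' : Fin 4 × Option (Fin 5))
    (h : ∀ w : K × K, X5 (act (tMat5 ζ j) w) = X5 (act (tMat5 ζ j') w) ∧
      Y5 (act (tMat5 ζ j) w) = Y5 (act (tMat5 ζ j') w)) : j = j' := by
  have hne : C4 ((Polynomial.X, 1) : Polynomial K × Polynomial K) ^ 3 -
      C6 ((Polynomial.X, 1) : Polynomial K × Polynomial K) ^ 2 ≠ 0 := by
    rw [disc_eq]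
    intro h0
    have := congrArg (Polynomial.eval (1 : K)) h0
    simp [F12] at this
  obtain ⟨q1, q2⟩ := ND_poly_eq hζ h hne
  have v0 : (N5 (act (tMat5 ζ j) ((0 : K), (1 : K))), D5 (act (tMat5 ζ j) ((0 : K), (1 : K)))) =
      (N5 (act (tMat5 ζ j') ((0 : K), (1 : K))), D5 (act (tMat5 ζ j') ((0 : K), (1 : K)))) := by
    have a := congrArg (Polynomial.eval (0 : K)) q1
    have b := congrArg (Polynomial.eval (0 : K)) q2
    rw [(eval_N5_D5 _ _ _).1, (eval_N5_D5 _ _ _).1] at a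
    rw [(eval_N5_D5 _ _ _).2, (eval_N5_D5 _ _ _).2] at b
    simp at a b
    exact Prod.ext a b
  obtain ⟨e, o⟩ := j
  obtain ⟨e', o'⟩ := j'
  obtain ⟨rfl, ho⟩ := label_eq_of_ND_zero_one hζ v0
  rcases o with _ | i <;> rcases o' with _ | i'
  · rfl
  · simp at ho
  · simp at ho
  · rw [index_eq_of_ND hζ ⟨q1, q2⟩]

end Matrices

end Fermat.SW.Five
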