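import Fermat.Agent.SW.Approx
import Fermat.Agent.SW.Fam5

/-!
# Continuity at a place

The notion is `ContAt`, checked on the scaled invariants by `contAt_c4` and `contAt_c6`.
-/

set_option autoImplicit false

noncomputable section

open Fermat.EC.Val

namespace Fermat.SW

local notation "ℚbar" => AlgebraicClosure ℚ

variable (A : ValuationSubring (AlgebraicClosure ℚ)) (q : ℕ)

/-- `F` is continuous at `x` for the place. -/
def ContAt (x : ℚbar × ℚbar × ℚbar) (F : ℚbar × ℚbar × ℚbar → ℚbar) : Prop :=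
  ∀ N : ℕ, ∃ M : ℕ, ∀ y : ℚbar × ℚbar × ℚbar, Ge A q (y.1 - x.1) M → Ge A q (y.2.1 - x.2.1) M →
    Ge A q (y.2.2 - x.2.2) M → Ge A q (F y - F x) N

variable {A q} {x : ℚbar × ℚbar × ℚbar} {F G : ℚbar × ℚbar × ℚbar → ℚbar}

/-- Every element has order at least some `-B` with `B` natural. -/
lemma exists_ge_neg_nat (z : ℚbar) : ∃ B : ℕ, Ge A q z (-(B : ℚ)) := by
  obtain ⟨B, hB⟩ := exists_nat_ge (-ord A q z)
  exact ⟨B, Or.inr (by linarith)⟩

/-- Constants are continuous. -/
lemma contAt_const (c : ℚbar) : ContAt A q x fun _ => c :=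
  fun _ => ⟨0, fun _ _ _ _ => Or.inl (sub_self c)⟩

/-- The first coordinate is continuous. -/
lemma contAt_fst : ContAt A q x fun y => y.1 := fun N => ⟨N, fun _ h _ _ => h⟩

/-- The second coordinate is continuous. -/
lemma contAt_snd : ContAt A q x fun y => y.2.1 := fun N => ⟨N, fun _ _ h _ => h⟩

/-- The third coordinate is continuous. -/
lemma contAt_thd : ContAt A q x fun y => y.2.2 := fun N => ⟨N, fun _ _ _ h => h⟩

/-- Sums of continuous functions are continuous. -/
lemma ContAt.add (h : IsPlace A q) (hF : ContAt A q x F) (hG : ContAt A q x G) :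
    ContAt A q x fun y => F y + G y := by
  intro N
  obtain ⟨M1, h1⟩ := hF N
  obtain ⟨M2, h2⟩ := hG N
  refine ⟨max M1 M2, fun y a b c => ?_⟩
  have hm1 : ((M1 : ℚ)) ≤ ((max M1 M2 : ℕ) : ℚ) := by exact_mod_cast le_max_left _ _
  have hm2 : ((M2 : ℚ)) ≤ ((max M1 M2 : ℕ) : ℚ) := by exact_mod_cast le_max_right _ _
  have := (h1 y (a.mono hm1) (b.mono hm1) (c.mono hm1)).add h
    (h2 y (a.mono hm2) (b.mono hm2) (c.mono hm2))
  rwa [show F y + G y - (F x + G x) = (F y - F x) + (G y - G x) by ring]

/-- Negatives of continuous functions are continuous. -/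
lemma ContAt.neg (h : IsPlace A q) (hF : ContAt A q x F) : ContAt A q x fun y => -F y := by
  intro N
  obtain ⟨M, h1⟩ := hF N
  refine ⟨M, fun y a b c => ?_⟩
  rw [show -F y - -F x = -(F y - F x) by ring]
  exact (h1 y a b c).neg h

/-- Differences of continuous functions are continuous. -/
lemma ContAt.sub (h : IsPlace A q) (hF : ContAt A q x F) (hG : ContAt A q x G) :
    ContAt A q x fun y => F y - G y := by
  simpa [sub_eq_add_neg] using hF.add h (hG.neg h)

/-- Products preserve continuity at a place. -/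
lemma ContAt.mul (h : IsPlace A q) (hF : ContAt A q x F) (hG : ContAt A q x G) :
    ContAt A q x fun y => F y * G y := by
  intro N
  obtain ⟨B, hB⟩ := exists_ge_neg_nat (A := A) (q := q) (F x)
  obtain ⟨C, hC⟩ := exists_ge_neg_nat (A := A) (q := q) (G x)
  obtain ⟨M1, h1⟩ := hF (N + C)
  obtain ⟨M2, h2⟩ := hG (N + B)
  refine ⟨max M1 M2, fun y a b c => ?_⟩
  have hm1 : ((M1 : ℚ)) ≤ ((max M1 M2 : ℕ) : ℚ) := by exact_mod_cast le_max_left _ _
  have hm2 : ((M2 : ℚ)) ≤ ((max M1 M2 : ℕ) : ℚ) := by exact_mod_cast le_max_right _ _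
  have e1 := h1 y (a.mono hm1) (b.mono hm1) (c.mono hm1)
  have e2 := h2 y (a.mono hm2) (b.mono hm2) (c.mono hm2)
  push_cast at e1 e2
  have p1 : Ge A q ((F y - F x) * (G y - G x)) (N : ℚ) :=
    ((e1.mono (s := (N : ℚ)) (by linarith [Nat.cast_nonneg (α := ℚ) C])).mul h
      (e2.mono (s := 0) (by positivity))).mono (by simp)
  have p2 : Ge A q ((F y - F x) * G x) (N : ℚ) := (e1.mul h hC).mono (by simp)
  have p3 : Ge A q (F x * (G y - G x)) (N : ℚ) := (hB.mul h e2).mono (by simp)
  have := (p1.add h p2).add h p3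
  rwa [show F y * G y - F x * G x =
    (F y - F x) * (G y - G x) + (F y - F x) * G x + F x * (G y - G x) by ring]

/-- Powers of continuous functions are continuous. -/
lemma ContAt.pow (h : IsPlace A q) (hF : ContAt A q x F) (n : ℕ) :
    ContAt A q x fun y => F y ^ n := by
  induction n with
  | zero => simpa using contAt_const (A := A) (q := q) (x := x) 1
  | succ n ih => simpa [pow_succ] using ih.mul h hF

/-- The combination of the parameters. -/
def comb (v w : ℚbar × ℚbar) (y : ℚbar × ℚbar × ℚbar) : ℚbar × ℚbar :=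
  (y.1 * v.1 + y.2.1 * w.1, y.1 * v.2 + y.2.1 * w.2)

/-- The scaled invariant `t⁴ C4` of a combination of two parameters is continuous. -/
lemma contAt_c4 (h : IsPlace A q) (v w : ℚbar × ℚbar) :
    ContAt A q x fun y => y.2.2 ^ 4 * Five.C4 (comb v w y) := by
  have hu : ContAt A q x fun y => (comb v w y).1 :=
    (contAt_fst.mul h (contAt_const v.1)).add h (contAt_snd.mul h (contAt_const w.1))
  have hw : ContAt A q x fun y => (comb v w y).2 :=
    (contAt_fst.mul h (contAt_const v.2)).add h (contAt_snd.mul h (contAt_const w.2))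
  exact (contAt_thd.pow h 4).mul h
    ((((((hu.pow h 20).add h (((contAt_const 228).mul h (hu.pow h 15)).mul h (hw.pow h 5)))).add h
      (((contAt_const 494).mul h (hu.pow h 10)).mul h (hw.pow h 10))).sub h
      (((contAt_const 228).mul h (hu.pow h 5)).mul h (hw.pow h 15))).add h (hw.pow h 20))

/-- The scaled invariant `t⁶ C6` of a combination of two parameters is continuous. -/
lemma contAt_c6 (h : IsPlace A q) (v w : ℚbar × ℚbar) :
    ContAt A q x fun y => y.2.2 ^ 6 * Five.C6 (comb v w y) := by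
  have hu : ContAt A q x fun y => (comb v w y).1 :=
    (contAt_fst.mul h (contAt_const v.1)).add h (contAt_snd.mul h (contAt_const w.1))
  have hw : ContAt A q x fun y => (comb v w y).2 :=
    (contAt_fst.mul h (contAt_const v.2)).add h (contAt_snd.mul h (contAt_const w.2))
  exact (contAt_thd.pow h 6).mul h
    (((((((hu.pow h 30).neg h).add h (((contAt_const 522).mul h (hu.pow h 25)).mul h
      (hw.pow h 5))).add h (((contAt_const 10005).mul h (hu.pow h 20)).mul h (hw.pow h 10))).add h
      (((contAt_const 10005).mul h (hu.pow h 10)).mul h (hw.pow h 20))).sub h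
      (((contAt_const 522).mul h (hu.pow h 5)).mul h (hw.pow h 25))).sub h (hw.pow h 30))

end Fermat.SW
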