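import Fermat.Agent.SW.DecompFrob
import Fermat.Agent.SW.Conj2
import Fermat.Agent.FR.Trace
import Fermat.Agent.EC.Semistable

/-!
# Targets at good primes

`LocalDatum p D W V`: the torsions of `W` and `V` agree over `D`, with enough determinants to
adjust the Weil pairing; it comes from equal traces at a good prime with separated eigenvalues,
and is the input of `Shear.exists_fixed_param` (`Align`).
-/

set_option autoImplicit false

noncomputable section

open WeierstrassCurve.Affine Fermat.EC Fermat.EC.Val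

namespace Fermat.SW

local notation "ℚbar" => AlgebraicClosure ℚ
local notation "Γℚ" => (AlgebraicClosure ℚ ≃ₐ[ℚ] AlgebraicClosure ℚ)

/-- The rational curve of an integral model. -/
abbrev modQ (W : WeierstrassCurve ℤ) : WeierstrassCurve ℚ := W.map (Int.castRingHom ℚ)

/-- The curve over `ℚ` of an integral model with `Δ ≠ 0` is non-singular. -/
lemma modQ_Δ_ne {W : WeierstrassCurve ℤ} (hW : W.Δ ≠ 0) : (modQ W).Δ ≠ 0 := by
  rw [WeierstrassCurve.map_Δ]; simpa using hW

/-- `D`-equivariant identification together with a centraliser having all determinants. -/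
def LocalDatum (p : ℕ) (D : Set Γℚ) (W V : WeierstrassCurve ℚ) : Prop :=
  ∃ e : TorW W p ≃+ TorW V p, (∀ σ ∈ D, ∀ x, e (σ • x) = σ • e x) ∧
    ∀ c : ZMod p, c ≠ 0 → ∃ z : TorW W p →ₗ[ZMod p] TorW W p,
      LinearMap.det z = c ∧ ∀ σ ∈ D, ∀ x, z (σ • x) = σ • z x

/-- Inertia at a prime of good reduction fixes the `p`-torsion, `p` odd and prime to it. -/
lemma smul_tor_eq_self_of_good {W : WeierstrassCurve ℤ} {A : ValuationSubring ℚbar} {q p : ℕ}
    (h : IsPlace A q) (hgood : ¬ (q : ℤ) ∣ W.Δ) (hp : p.Prime) (hp2 : p ≠ 2) (hqp : q ≠ p)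
    {ι : Γℚ} (hι : ι ∈ A.inertiaSubgroupIn ℚ) (x : TorW (modQ W) p) : ι • x = x := by
  have hW : W.Δ ≠ 0 := fun e => hgood (by rw [e]; exact dvd_zero _)
  apply Subtype.ext
  refine smul_eq_self W h (isInert_of_mem_inertia hι) hW (fun hd => absurd hd hgood)
    hp hp2 hqp ?_ ?_
  · rw [padicValInt.eq_zero_of_not_dvd hgood]; exact dvd_zero p
  · rw [← natCast_zsmul]; exact (Submodule.mem_torsionBy_iff _ _).mp x.2

variable {p : ℕ} [hp : Fact p.Prime]

/-- At a good prime congruent traces with distinct eigenvalues give a local datum. -/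
theorem localDatum_of_good {W V : WeierstrassCurve ℤ} {A : ValuationSubring ℚbar} {q : ℕ}
    (h : IsPlace A q) (hW : ¬ (q : ℤ) ∣ W.Δ) (hV : ¬ (q : ℤ) ∣ V.Δ) (hp2 : p ≠ 2) (hqp : q ≠ p)
    (hcong : (W.apOfModel q : ZMod p) = V.apOfModel q)
    (hsep : (W.apOfModel q : ZMod p) ^ 2 - 4 * (q : ZMod p) ≠ 0) :
    LocalDatum p (A.decompositionSubgroup ℚ : Set Γℚ) (modQ W) (modQ V) := by
  classical
  have hW0 : W.Δ ≠ 0 := fun e => hW (by rw [e]; exact dvd_zero _)
  have hV0 : V.Δ ≠ 0 := fun e => hV (by rw [e]; exact dvd_zero _)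
  obtain ⟨σ, hσ⟩ := Fermat.CFT.exists_isFrobeniusAt h.1 h.2
  obtain ⟨h2, hfW⟩ := FR.finrank_torsion W (p := p) hW0
  obtain ⟨h2', hfV⟩ := FR.finrank_torsion V (p := p) hV0
  have : Finite (TorW (modQ W) p) := Module.finite_of_finite (ZMod p)
  have : Finite (TorW (modQ V) p) := Module.finite_of_finite (ZMod p)
  -- Frobenius has the same characteristic polynomial, with distinct roots, on both
  set L := Point.galoisRepModuleEnd (K := ℚbar) ℚ (modQ W).toAffine p σ with hL
  set L' := Point.galoisRepModuleEnd (K := ℚbar) ℚ (modQ V).toAffine p σ with hL'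
  have tW : LinearMap.trace (ZMod p) _ L = (W.apOfModel q : ZMod p) :=
    FR.galoisTrace_frobenius W h.1 hqp hW h.2 hσ
  have tV : LinearMap.trace (ZMod p) _ L' = (V.apOfModel q : ZMod p) :=
    FR.galoisTrace_frobenius V h.1 hqp hV h.2 hσ
  have dW : LinearMap.det L = (q : ZMod p) := FR.det_frobenius W hW0 h.1 hqp h.2 hσ
  have dV : LinearMap.det L' = (q : ZMod p) := FR.det_frobenius V hV0 h.1 hqp h.2 hσ
  have hd : LinearMap.trace (ZMod p) _ L ^ 2 - 4 * LinearMap.det L ≠ 0 := by rw [tW, dW]; exact hsep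
  obtain ⟨e, he⟩ := Conj2.exists_intertwine h2 h2' L L' (by rw [tV, tW, hcong]) (by rw [dV, dW]) hd
  have hpow : ∀ (k : ℕ) (x : TorW (modQ W) p), e (σ ^ k • x) = σ ^ k • e x := by
    intro k
    induction k with
    | zero => intro x; rw [pow_zero, one_smul, one_smul]
    | succ k ih =>
      intro x
      rw [pow_succ, mul_smul, mul_smul, ih]
      exact congrArg _ (he x)
  -- inertia acts trivially, so the decomposition group acts through its powers
  have hD : ∀ τ ∈ A.decompositionSubgroup ℚ, ∃ k : ℕ, (∀ x : TorW (modQ W) p, τ • x = σ ^ k • x) ∧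
      (∀ x : TorW (modQ V) p, τ • x = σ ^ k • x) := fun τ hτ =>
    exists_pow_smul_eq h hσ hτ (modQ W) (modQ V)
      (fun ι hι x => smul_tor_eq_self_of_good h hW hp.out hp2 hqp hι x)
      (fun ι hι x => smul_tor_eq_self_of_good h hV hp.out hp2 hqp hι x)
  refine ⟨e.toAddEquiv, fun τ hτ x => ?_, fun c hc => ?_⟩
  · obtain ⟨k, k1, k2⟩ := hD τ hτ
    rw [k1, k2]
    exact hpow k x
  -- the centraliser has every determinant
  · have hk : ringChar (ZMod p) ≠ 2 := by rwa [ZMod.ringChar_zmod_n]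
    obtain ⟨r, s, hrs⟩ := Conj2.exists_centralizer_det hk h2 L hd c
    refine ⟨r • LinearMap.id + s • L, hrs, fun τ hτ x => ?_⟩
    obtain ⟨k, k1, -⟩ := hD τ hτ
    have hsm : ∀ (g : Γℚ) (t : ZMod p) (y : TorW (modQ W) p), g • (t • y) = t • (g • y) :=
      fun g t y => map_smul (Point.galoisRepModuleEnd (K := ℚbar) ℚ (modQ W).toAffine p g) t y
    simp only [LinearMap.add_apply, LinearMap.smul_apply, LinearMap.id_apply, hL,
      Point.galoisRepModuleEnd_apply, k1, smul_add, hsm, ← mul_smul, ← pow_succ, ← pow_succ']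

/-- Transport along equivariant identifications. -/
theorem LocalDatum.transport {D : Set Γℚ} {W W' V V' : WeierstrassCurve ℚ}
    (h : LocalDatum p D W V) (f : TorW W p ≃+ TorW W' p)
    (hf : ∀ (σ : Γℚ) (x : TorW W p), f (σ • x) = σ • f x) (g : TorW V p ≃+ TorW V' p)
    (hg : ∀ (σ : Γℚ) (x : TorW V p), g (σ • x) = σ • g x) : LocalDatum p D W' V' := by
  obtain ⟨e, he, hz⟩ := h
  have hfs : ∀ (σ : Γℚ) (x : TorW W' p), f.symm (σ • x) = σ • f.symm x := fun σ x => by
    apply f.injective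
    rw [hf, f.apply_symm_apply, f.apply_symm_apply]
  refine ⟨(f.symm.trans e).trans g, fun σ hσ x => ?_, fun c hc => ?_⟩
  · simp only [AddEquiv.trans_apply, hfs, he σ hσ, hg]
  · obtain ⟨z, hzd, hzD⟩ := hz c hc
    let fl : TorW W p ≃ₗ[ZMod p] TorW W' p :=
      LinearEquiv.ofBijective (f.toAddMonoidHom.toZModLinearMap p) f.bijective
    refine ⟨(fl.toLinearMap.comp z).comp fl.symm.toLinearMap, ?_, fun σ hσ x => ?_⟩
    · rw [LinearMap.comp_assoc, LinearMap.det_conj, hzd]
    · have hsy : ∀ y, fl.symm y = f.symm y := fun y => by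
        apply fl.injective
        rw [LinearEquiv.apply_symm_apply]
        exact (f.apply_symm_apply y).symm
      simp only [LinearMap.comp_apply, LinearEquiv.coe_coe, hsy]
      change f (z (f.symm (σ • x))) = σ • f (z (f.symm x))
      rw [hfs, hzD σ hσ, hf]

end Fermat.SW
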