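import Fermat.Agent.SW.Shear3
import Fermat.Agent.SW.Target
import Fermat.Agent.EC.Cyclo

/-!
# A cube root of the discriminant and the action on three-torsion

The condition is `CubeAt`, given by `cubeAt_of_mod_nine` for a discriminant `±1` modulo `9`.
-/

set_option autoImplicit false

noncomputable section

open WeierstrassCurve WeierstrassCurve.Affine Fermat.EC.Val
open scoped WeierstrassCurve.Affine Pointwise

namespace Fermat.SW.Three

local notation "ℚbar" => AlgebraicClosure ℚ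
local notation "Γℚ" => (AlgebraicClosure ℚ ≃ₐ[ℚ] AlgebraicClosure ℚ)

variable {ω : ℚbar} (hω : IsPrimitiveRoot ω 3)

include hω in
/-- An automorphism fixing `ω`, a cube root of `a³ - b²` and a point of order three
fixes the whole three-torsion. -/
theorem smul_eq_self_of_cube {a b : ℚ} (hab : a ^ 3 ≠ b ^ 2) (g : Γℚ) (hgω : g ω = ω) {δ : ℚbar}
    (hδ : δ ^ 3 = algebraMap ℚ ℚbar (a ^ 3 - b ^ 2)) (hgδ : g δ = δ) {P : TorQ a b 3} (hP : P ≠ 0)
    (hgP : g • P = P) (x : TorQ a b 3) : g • x = x := by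
  classical
  obtain ⟨v0, h4, h6⟩ := (fam3 hω).exists_value (algebraMap ℚ ℚbar a) (algebraMap ℚ ℚbar b)
    (Fam.pow_ne hab)
  have hv0 : (fam3 hω).Over a b v0 := Prod.ext h4 h6
  obtain ⟨_ | j, hj⟩ := ((fam3 hω).markQ hab hv0).surjective P
  · exact absurd (hj.symm.trans ((fam3 hω).markQ_none hab hv0)) hP
  set v := act ((fam3 hω).tMat j) v0 with hvdef
  have hv : (fam3 hω).Over a b v := hv0.act ((fam3 hω).pres_t j)
  have hreg : (fam3 hω).Reg v := (fam3 hω).reg_of_cval (Fam.pow_ne hab) hv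
  obtain ⟨hns, e⟩ := (fam3 hω).markQ_some_coe hab hv0 j
  have hgP' : g • (Point.some _ _ hns : ((shortCurve a b)⁄ℚbar).Point) = Point.some _ _ hns := by
    rw [← e, hj]; exact congrArg Subtype.val hgP
  rw [Point.algEquiv_smul_def, Point.map_some, Point.some.injEq] at hgP'
  have hnat : ∀ (G : Form), g (G.toFun v) = G.toFun (Prod.map g g v) := fun G =>
    G.natural g.toRingEquiv.toRingHom v
  have hX : X3 (Prod.map g g v) = X3 v := by
    rw [show X3 (Prod.map g g v) = g (X3 v) from (hnat formX).symm]; exact hgP'.1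
  have hY : Y3 (Prod.map g g v) = Y3 v := by
    rw [show Y3 (Prod.map g g v) = g (Y3 v) from (hnat formY).symm]; exact hgP'.2
  have h4v : C4 v = algebraMap ℚ ℚbar a := congrArg Prod.fst hv
  have h6v : C6 v = algebraMap ℚ ℚbar b := congrArg Prod.snd hv
  have hC4 : C4 (Prod.map g g v) = C4 v := by
    rw [show C4 (Prod.map g g v) = g (C4 v) from (hnat formC4).symm, h4v, AlgEquiv.commutes]
  obtain ⟨e1, e3⟩ := fst_eq_of_XY (v := v) hreg hC4 hX hY
  obtain ⟨h2, hb⟩ := ne_of_reg (v := v) hreg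
  change g v.1 = v.1 at e1
  change (g v.2) ^ 3 = v.2 ^ 3 at e3
  -- the cube root is `36 v₂ (v₁³ - v₂³)` up to a root of unity
  have hne : v.2 * (v.1 ^ 3 - v.2 ^ 3) ≠ 0 := mul_ne_zero h2 hb
  have h3 : δ ^ 3 = (36 * (v.2 * (v.1 ^ 3 - v.2 ^ 3))) ^ 3 := by
    rw [hδ, map_sub, map_pow, map_pow, ← h4v, ← h6v, disc_eq]; ring
  have : NeZero 3 := ⟨by norm_num⟩
  obtain ⟨i, -, hi⟩ := hω.eq_pow_of_pow_eq_one (ξ := 36 * (v.2 * (v.1 ^ 3 - v.2 ^ 3)) / δ) (by
    rw [div_pow, ← h3, div_self]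
    rw [h3]; exact pow_ne_zero _ (mul_ne_zero (by norm_num) hne))
  have hδ0 : δ ≠ 0 := fun h0 => pow_ne_zero 3 (mul_ne_zero (by norm_num) hne)
    (h3.symm.trans (by rw [h0]; norm_num))
  rw [eq_div_iff hδ0] at hi
  have hm : g (36 * (v.2 * (v.1 ^ 3 - v.2 ^ 3))) = 36 * (v.2 * (v.1 ^ 3 - v.2 ^ 3)) := by
    rw [← hi, map_mul, map_pow, hgω, hgδ]
  have e2 : g v.2 = v.2 := by
    simp only [map_mul, map_sub, map_pow, map_ofNat, e1, e3] at hm
    have := mul_left_cancel₀ (by norm_num : (36 : ℚbar) ≠ 0) hm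
    exact mul_right_cancel₀ hb this
  obtain ⟨o, rfl⟩ := ((fam3 hω).markQ hab hv).surjective x
  rcases o with _ | ⟨s, o⟩
  · rw [Fam.markQ_none, smul_zero]
  obtain ⟨hns', e'⟩ := (fam3 hω).markQ_some_coe hab hv (s, o)
  apply Subtype.ext
  change g • ((fam3 hω).markQ hab hv (some (s, o)) : ((shortCurve a b)⁄ℚbar).Point) = _
  rw [e', Point.algEquiv_smul_def, Point.map_some, Point.some.injEq]
  fin_cases s <;> rcases o with _ | i <;>
    simp [Fam.px, Fam.py, fam3, formX, formY, tMat3, sgn, act, cS, X3, Y3, map_mul, map_add,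
      map_sub, map_pow, map_ofNat, map_neg, e1, e2, hgω]

end Fermat.SW.Three

namespace Fermat.SW

local notation "ℚbar" => AlgebraicClosure ℚ
local notation "Γℚ" => (AlgebraicClosure ℚ ≃ₐ[ℚ] AlgebraicClosure ℚ)

/-- The same for an integral model. -/
theorem smul_eq_self_of_cube_root (W : WeierstrassCurve ℤ) (hΔ : W.Δ ≠ 0) {ω : ℚbar}
    (hω : IsPrimitiveRoot ω 3) (g : Γℚ) (hgω : g ω = ω) {δ : ℚbar} (hδ : δ ^ 3 = (W.Δ : ℚbar))
    (hgδ : g δ = δ) {P : TorW (modQ W) 3} (hP : P ≠ 0) (hgP : g • P = P)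
    (x : TorW (modQ W) 3) : g • x = x := by
  obtain ⟨e, he⟩ := exists_equiv_short (modQ W) (modQ_Δ_ne hΔ) (p := 3) (by norm_num)
  have hcrel := (modQ W).c_relation
  have h := Three.smul_eq_self_of_cube hω (c_ne_of_delta (modQ_Δ_ne hΔ)) g hgω (δ := 12 * δ) (by
      rw [← hcrel, WeierstrassCurve.map_Δ, mul_pow, hδ]
      simp; norm_num) (by rw [map_mul, map_ofNat, hgδ]) (P := e P)
    (fun h0 => hP (e.injective (h0.trans (map_zero e).symm))) (by rw [← he, hgP]) (e x)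
  rw [← he] at h
  exact e.injective h

/-- `A` contains a cube root of `Δ` fixed by the decomposition group. -/
def CubeAt (A : ValuationSubring ℚbar) (W : WeierstrassCurve ℤ) : Prop :=
  ∃ δ : ℚbar, δ ^ 3 = (W.Δ : ℚbar) ∧ ∀ σ ∈ A.decompositionSubgroup ℚ, σ δ = δ

/-- If `x` is congruent to `z ^ 3` modulo `27`, some cube root of `x` is congruent to `z` modulo
`3`. -/
theorem exists_cbrt_near {A : ValuationSubring ℚbar} (h : IsPlace A 3) {x z : ℚbar}
    (hx : Ge A 3 (x - z ^ 3) 3) : ∃ y : ℚbar, y ^ 3 = x ∧ Ge A 3 (y - z) 1 := by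
  obtain ⟨ω, hω⟩ := Fermat.EC.Cyclo.exists_zeta Nat.prime_three
  obtain ⟨y, hy⟩ := IsAlgClosed.exists_pow_nat_eq x (n := 3) (by norm_num)
  have hω2 : ω ^ 2 + ω + 1 = 0 := Three.omega_sq hω
  have hω3 := hω.pow_eq_one
  have hfac : x - z ^ 3 = (y - z) * (ω * y - z) * (ω ^ 2 * y - z) := by
    linear_combination (-1 : ℚbar) * hy + (-y ^ 3) * hω3 + (z * y ^ 2 * ω - z ^ 2 * y) * hω2
  by_contra hno
  push Not at hno
  have hlt : ∀ y' : ℚbar, y' ^ 3 = x → y' - z ≠ 0 ∧ ord A 3 (y' - z) < 1 :=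
    fun y' hy' => ⟨fun e => hno y' hy' (Or.inl e), not_le.mp fun e => hno y' hy' (Or.inr e)⟩
  obtain ⟨n1, o1⟩ := hlt y hy
  obtain ⟨n2, o2⟩ := hlt (ω * y) (by rw [mul_pow, hω3, one_mul, hy])
  obtain ⟨n3, o3⟩ := hlt (ω ^ 2 * y)
    (by rw [mul_pow, ← pow_mul, mul_comm 2 3, pow_mul, hω3, one_pow, one_mul, hy])
  rw [hfac] at hx
  rcases hx with h3 | h3
  · simp [n1, n2, n3] at h3
  · rw [ord_mul h (mul_ne_zero n1 n2) n3, ord_mul h n1 n2] at h3
    linarith

/-- Two cube roots of a unit congruent modulo `3` are equal. -/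
theorem eq_of_cube_eq {A : ValuationSubring ℚbar} (h : IsPlace A 3) {y y' : ℚbar}
    (hy : Is A 3 y 0) (he : y' ^ 3 = y ^ 3) (hd : Ge A 3 (y' - y) 1) : y' = y := by
  by_contra hne
  have hcube : (y' / y) ^ 3 = 1 := by rw [div_pow, he, div_self (pow_ne_zero _ hy.1)]
  have hne' : y' / y ≠ 1 := fun e => hne ((div_eq_one_iff_eq hy.1).mp e)
  have hz := Fermat.EC.Cyclo.is_zeta_sub_one h
    (IsPrimitiveRoot.iff_orderOf.mpr (orderOf_eq_prime (p := 3) hcube hne'))
  have := hz.mul h hy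
  rw [sub_mul, div_mul_cancel₀ _ hy.1, one_mul] at this
  have := this.le_of_ge hd
  norm_num at this

/-- A discriminant congruent to `±1` modulo `9` is a cube at three. -/
theorem cubeAt_of_mod_nine {A : ValuationSubring ℚbar} (h : IsPlace A 3) (W : WeierstrassCurve ℤ)
    (hmod : (W.Δ : ZMod 9) = 1 ∨ (W.Δ : ZMod 9) = -1) : CubeAt A W := by
  classical
  have hdec : ∀ r : ZMod 27, ((ZMod.castHom (by norm_num : 9 ∣ 27) (ZMod 9)) r = 1 ∨
      (ZMod.castHom (by norm_num : 9 ∣ 27) (ZMod 9)) r = -1) → ∃ z : ZMod 27, z ^ 3 = r := by decide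
  -- `Δ` is a cube `z³` mod `27`
  obtain ⟨z27, hz27⟩ := hdec (W.Δ : ZMod 27) (by simpa using hmod)
  obtain ⟨z, rfl⟩ := ZMod.intCast_surjective z27
  have hdvd : (27 : ℤ) ∣ W.Δ - z ^ 3 := (ZMod.intCast_eq_intCast_iff_dvd_sub (z ^ 3) W.Δ 27).mp
    (by push_cast; exact hz27)
  have h3 : Ge A 3 ((W.Δ : ℚbar) - (z : ℚbar) ^ 3) 3 := by
    have := ge_intCast_of_dvd (A := A) h (k := 3) (a := W.Δ - z ^ 3) (by norm_num; exact hdvd)
    simpa using this
  -- one of the three cube roots of `Δ` is congruent to `z` mod `3`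
  obtain ⟨y', hy', hnear⟩ := exists_cbrt_near h h3
  refine ⟨y', hy', fun σ hσ => ?_⟩
  have h1 : Ge A 3 (σ y' - z) 1 := by
    have h0 : Ge A 3 ((y' - z) / (3 : ℕ)) 0 := by
      simpa using hnear.div h ⟨Nat.cast_ne_zero.mpr (by norm_num), ord_q h⟩
    have h00 := FLAT.ge_apply_decomp h hσ h0
    rw [map_div₀, map_sub, map_intCast, map_natCast] at h00
    have := h00.mul h (Is.ge (⟨Nat.cast_ne_zero.mpr (by norm_num), ord_q h⟩ : Is A 3
      ((3 : ℕ) : ℚbar) 1))
    rwa [div_mul_cancel₀ _ (Nat.cast_ne_zero.mpr (by norm_num : (3 : ℕ) ≠ 0)), zero_add] at this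
  -- a conjugate of it differs from it by a multiple of `3`
  have hdiff : Ge A 3 (σ y' - y') 1 := by simpa using h1.sub h hnear
  have hunit : Is A 3 y' 0 := by
    have hnd : ¬ (3 : ℤ) ∣ W.Δ := by
      intro hd
      obtain ⟨t, ht⟩ := hd
      rw [ht] at hmod
      have : ∀ r : ZMod 9, 3 * r ≠ 1 ∧ 3 * r ≠ -1 := by decide
      push_cast at hmod
      exact hmod.elim (this _).1 (this _).2
    have hi := is_intCast (A := A) h (a := W.Δ) (by exact_mod_cast hnd)
    have hne : y' ≠ 0 := fun e => hi.1 (by rw [← hy', e]; norm_num)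
    refine ⟨hne, ?_⟩
    have := ord_pow h y' 3
    rw [hy', hi.2] at this
    push_cast at this
    linarith
  exact eq_of_cube_eq h hunit (by rw [← map_pow, hy', map_intCast]) hdiff

end Fermat.SW
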