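import Fermat.Agent.SW.Local3

/-!
# The sign of a split curve at three, and local data

The main results are `SplitData.frob` and `localDatum_split`.
-/

set_option autoImplicit false

noncomputable section

open WeierstrassCurve WeierstrassCurve.Affine Fermat.EC Fermat.EC.Val Fermat.EC.Red Fermat.CFT
open scoped WeierstrassCurve.Affine Pointwise

namespace Fermat.SW

local notation "ℚbar" => AlgebraicClosure ℚ
local notation "Γℚ" => (AlgebraicClosure ℚ ≃ₐ[ℚ] AlgebraicClosure ℚ)

variable {A : ValuationSubring ℚbar} {W V : WeierstrassCurve ℤ}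
  {P Q : TorW (modQ W) 3} {P' Q' : TorW (modQ V) 3}

/-- The second vector of a split basis does not reduce to zero. -/
lemma SplitData.not_inE1 (S : SplitData A W P Q) (h : IsPlace A 3) (hΔ : W.Δ ≠ 0)
    (hb2 : ¬ (3 : ℤ) ∣ W.b₂) : ¬ InE1 A 3 (Q : (overQbar W).Point) := fun hQ => by
  obtain ⟨P0, -, -, hline⟩ := exists_line h hΔ hb2
  obtain ⟨a, rfl⟩ := hline P S.kernel
  obtain ⟨b, rfl⟩ := hline Q hQ
  rcases eq_or_ne a 0 with rfl | ha
  · exact S.ne (zero_smul _ _)
  · exact S.indep (b * a⁻¹) (by rw [smul_smul, mul_assoc, inv_mul_cancel₀ ha, mul_one])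

/-- At a good prime the sign of Frobenius is `a₃`. -/
theorem SplitData.frob (S : SplitData A W P Q) (h : IsPlace A 3) (hgood : ¬ (3 : ℤ) ∣ W.Δ)
    (hb2 : ¬ (3 : ℤ) ∣ W.b₂) {σ : Γℚ} (hσ : A.IsFrobeniusAt σ 3) :
    σ • Q = (W.apOfModel 3 : ZMod 3) • Q := by
  classical
  have : Fact (Nat.Prime 3) := ⟨Nat.prime_three⟩
  have hΔ : W.Δ ≠ 0 := fun e => hgood (by rw [e]; exact dvd_zero _)
  have := Fermat.CFT.charP_residueField h.1 h.2
  let : Algebra (ZMod 3) (IsLocalRing.ResidueField A) := ZMod.algebra _ 3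
  have hg' : ¬ ((3 : ℕ) : ℤ) ∣ W.Δ := by exact_mod_cast hgood
  obtain ⟨c, s, -, hs, -⟩ := S.decomp σ hσ.mem_decompositionSubgroup
  have hΔ' : (W.reductionMod 3).toAffine.Δ ≠ 0 := by
    change (W.map (Int.castRingHom (ZMod 3))).Δ ≠ 0
    rw [WeierstrassCurve.map_Δ, eq_intCast, Ne, ZMod.intCast_zmod_eq_zero_iff_dvd]
    exact hg'
  have ha : W.apOfModel 3 = Fermat.FR.trFrob hΔ' := by
    rw [Fermat.FR.trFrob_eq, apOfModel, traceOfFrobenius, WeierstrassCurve.card, Nat.card_zmod,
      ZMod.card]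
  -- `Q` reduces to a point of order `3`, on which Frobenius is the scalar `s`.
  set red := Fermat.FR.redMod W h hg' with hred
  set R := red (Q : (overQbar W).Point) with hR
  have hR0 : R ≠ 0 := fun e => S.not_inE1 h hΔ hb2 ((Fermat.FR.redP_eq_zero_iff h hg').mp
    (Fermat.EC.castHom_injective (Fermat.FR.curveResMod_eq W) (by
      simpa [Fermat.FR.redMod, Fermat.FR.redHom, hR, hred] using e)))
  have h3R : 3 • R = 0 := by rw [hR, ← map_nsmul, three_smul_coe, map_zero]
  have hfrob : ∀ n : ℕ, Fermat.FR.frobPt (k := ZMod 3) (W.reductionMod 3).toAffine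
      (IsLocalRing.ResidueField A) (n • R) = (n * s.val) • R := by
    intro n
    rw [map_nsmul, hR, hred, ← Fermat.FR.redMod_smul h hg' hσ]
    change n • (Fermat.FR.redMod W h hg') ((σ • Q : TorW (modQ W) 3) : (overQbar W).Point) = _
    rw [hs, coe_smul_val, map_nsmul, mul_smul]
  have hf1 : Fermat.FR.frobPt (k := ZMod 3) (W.reductionMod 3).toAffine
      (IsLocalRing.ResidueField A) R = s.val • R := by simpa using hfrob 1
  -- The relation `F ^ 2 - a F + 3 = 0` on it gives `s ^ 2 = a s` modulo `3`.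
  have hrel := Fermat.FR.frob_relation (k := ZMod 3) (M := IsLocalRing.ResidueField A) hΔ' R
  rw [hf1, hfrob, ← ha, ZMod.card] at hrel
  have hz : ((s.val * s.val : ℕ) - W.apOfModel 3 * s.val + 3 : ℤ) • R = 0 := by
    rw [add_zsmul, sub_zsmul, natCast_zsmul, mul_zsmul, natCast_zsmul]
    simpa [sub_eq_add_neg] using hrel
  have hdvd : (3 : ℤ) ∣ (s.val * s.val : ℕ) - W.apOfModel 3 * s.val + 3 := by
    have hord : addOrderOf R = 3 := addOrderOf_eq_prime h3R hR0
    have := addOrderOf_dvd_iff_zsmul_eq_zero.mpr hz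
    rw [hord] at this
    exact_mod_cast this
  have hmod : (s * s - (W.apOfModel 3 : ZMod 3) * s : ZMod 3) = 0 := by
    have e := (ZMod.intCast_zmod_eq_zero_iff_dvd _ 3).mpr (by exact_mod_cast hdvd)
    push_cast at e
    simpa [show (3 : ZMod 3) = 0 from rfl] using e
  -- And `s ≠ 0`, so `s = a`.
  have hs0 : s ≠ 0 := fun e => by
    rw [e, zero_smul, smul_eq_zero_iff_eq] at hs
    exact S.indep 0 (by rw [hs, zero_smul])
  rw [← sub_mul, mul_eq_zero, sub_eq_zero] at hmod
  rw [hs, hmod.resolve_right hs0]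

/-- **Local data between split curves with the same sign.** -/
theorem localDatum_split (h : IsPlace A 3) (hW : W.Δ ≠ 0) (hV : V.Δ ≠ 0) (S : SplitData A W P Q)
    (S' : SplitData A V P' Q') {σ₀ : Γℚ} (hσ₀ : A.IsFrobeniusAt σ₀ 3) {s₀ : ZMod 3}
    (hQ : σ₀ • Q = s₀ • Q) (hQ' : σ₀ • Q' = s₀ • Q') :
    LocalDatum 3 (A.decompositionSubgroup ℚ : Set Γℚ) (modQ W) (modQ V) := by
  classical
  have h2 := (FR.finrank_torsion W (p := 3) hW).1
  have h2' := (FR.finrank_torsion V (p := 3) hV).1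
  have hli : LinearIndependent (ZMod 3) ![P, Q] :=
    (LinearIndependent.pair_iff' S.ne).mpr fun t e => S.indep t e.symm
  have hli' : LinearIndependent (ZMod 3) ![P', Q'] :=
    (LinearIndependent.pair_iff' S'.ne).mpr fun t e => S'.indep t e.symm
  let B : Module.Basis (Fin 2) (ZMod 3) (TorW (modQ W) 3) :=
    basisOfLinearIndependentOfCardEqFinrank hli (by rw [Fintype.card_fin]; exact h2.symm)
  let B' : Module.Basis (Fin 2) (ZMod 3) (TorW (modQ V) 3) :=
    basisOfLinearIndependentOfCardEqFinrank hli' (by rw [Fintype.card_fin]; exact h2'.symm)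
  have b0 : B 0 = P := by simp [B]
  have b1 : B 1 = Q := by simp [B]
  have c0 : B' 0 = P' := by simp [B']
  have c1 : B' 1 = Q' := by simp [B']
  let e := B.equiv B' (Equiv.refl (Fin 2))
  have eP : e P = P' := by rw [← b0, Module.Basis.equiv_apply, Equiv.refl_apply, c0]
  have eQ : e Q = Q' := by rw [← b1, Module.Basis.equiv_apply, Equiv.refl_apply, c1]
  -- the characters agree
  have hchar : ∀ σ ∈ A.decompositionSubgroup ℚ, ∃ c s : ZMod 3,
      σ • P = c • P ∧ σ • Q = s • Q ∧ σ • P' = c • P' ∧ σ • Q' = s • Q' := by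
    intro σ hσ
    obtain ⟨x, y, hns, eQ1⟩ : ∃ x y hns, (Q : (overQbar W).Point) = .some x y hns := by
      rcases hh : (Q : (overQbar W).Point) with _ | ⟨x, y, hns⟩
      · exact absurd (Subtype.ext (hh.trans rfl) : Q = 0) fun e => S.indep 0 (by rw [e, zero_smul])
      · exact ⟨x, y, hns, rfl⟩
    obtain ⟨x', y', hns', eQ2⟩ : ∃ x y hns, (Q' : (overQbar V).Point) = .some x y hns := by
      rcases hh : (Q' : (overQbar V).Point) with _ | ⟨x, y, hns⟩
      · exact absurd (Subtype.ext (hh.trans rfl) : Q' = 0) fun e =>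
          S'.indep 0 (by rw [e, zero_smul])
      · exact ⟨x, y, hns, rfl⟩
    obtain ⟨k, hk⟩ := exists_pow_eq_of_decomp h hσ₀ hσ {x, y, x', y'} (by
      intro z hz ι hι
      have i1 : ι • (Q : (overQbar W).Point) = Q := congrArg Subtype.val (S.inertia ι hι)
      have i2 : ι • (Q' : (overQbar V).Point) = Q' := congrArg Subtype.val (S'.inertia ι hι)
      rw [eQ1, Point.algEquiv_smul_def, Point.map_some, Point.some.injEq] at i1
      rw [eQ2, Point.algEquiv_smul_def, Point.map_some, Point.some.injEq] at i2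
      simp only [Finset.mem_insert, Finset.mem_singleton] at hz
      rcases hz with rfl | rfl | rfl | rfl
      exacts [i1.1, i1.2, i2.1, i2.2])
    have k1 : σ • Q = σ₀ ^ k • Q := Subtype.ext (by
      change σ • (Q : (overQbar W).Point) = σ₀ ^ k • (Q : (overQbar W).Point)
      rw [eQ1]
      simp only [Point.algEquiv_smul_def, Point.map_some, Point.some.injEq]
      exact ⟨hk x (by simp), hk y (by simp)⟩)
    have k2 : σ • Q' = σ₀ ^ k • Q' := Subtype.ext (by
      change σ • (Q' : (overQbar V).Point) = σ₀ ^ k • (Q' : (overQbar V).Point)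
      rw [eQ2]
      simp only [Point.algEquiv_smul_def, Point.map_some, Point.some.injEq]
      exact ⟨hk x' (by simp), hk y' (by simp)⟩)
    have hpw : ∀ n : ℕ, σ₀ ^ n • Q = s₀ ^ n • Q ∧ σ₀ ^ n • Q' = s₀ ^ n • Q' := by
      intro n
      induction n with
      | zero => simp
      | succ n ih =>
        rw [pow_succ', mul_smul, mul_smul, ih.1, ih.2, tor_smul_zsmul, tor_smul_zsmul, hQ, hQ',
          smul_smul, smul_smul, pow_succ]
        exact ⟨rfl, rfl⟩
    obtain ⟨c, s, hc, hs, hcs⟩ := S.decomp σ hσ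
    obtain ⟨c', s', hc', hs', hcs'⟩ := S'.decomp σ hσ
    have e1 : s = s₀ ^ k := by
      have : (s - s₀ ^ k) • Q = 0 := by rw [sub_smul, ← hs, k1, (hpw k).1, sub_self]
      exact sub_eq_zero.mp ((smul_eq_zero.mp this).resolve_right
        fun e => S.indep 0 (by rw [e, zero_smul]))
    have e2 : s' = s₀ ^ k := by
      have : (s' - s₀ ^ k) • Q' = 0 := by rw [sub_smul, ← hs', k2, (hpw k).2, sub_self]
      exact sub_eq_zero.mp ((smul_eq_zero.mp this).resolve_right
        fun e => S'.indep 0 (by rw [e, zero_smul]))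
    have hs0 : s ≠ 0 := fun e => by
      rw [e, mul_zero] at hcs
      exact (cycChar 3 σ).ne_zero hcs.symm
    have ec : c' = c := mul_right_cancel₀ hs0 (by
      rw [show c' * s = c' * s' by rw [e1, e2], hcs', hcs])
    exact ⟨c, s, hc, hs, by rw [hc', ec], by rw [hs', e2, e1]⟩
  refine ⟨e.toAddEquiv, fun σ hσ x => ?_, fun c hc => ?_⟩
  · obtain ⟨c, s, h1, h2, h3, h4⟩ := hchar σ hσ
    obtain ⟨a, b, rfl⟩ := exists_coords (FR.finrank_torsion W (p := 3) hW).1 S.ne S.indep x
    change e (σ • (a • P + b • Q)) = σ • e (a • P + b • Q)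
    simp only [smul_add, tor_smul_zsmul, h1, h2, smul_smul, map_add, map_smul, eP, eQ, h3, h4]
  · let z : TorW (modQ W) 3 →ₗ[ZMod 3] TorW (modQ W) 3 := B.constr (ZMod 3) ![P, c • Q]
    have zP : z P = P := by rw [← b0, B.constr_basis]; simp [b0]
    have zQ : z Q = c • Q := by rw [← b1, B.constr_basis]; simp [b1]
    refine ⟨z, ?_, fun σ hσ x => ?_⟩
    · rw [det_of_triangular h2 S.ne S.indep z (c := 1) (s := c) (a := 0)
        (by rw [zP, one_smul]) (by rw [zQ, zero_smul, add_zero]), one_mul]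
    · obtain ⟨d, s, h1, h2, -, -⟩ := hchar σ hσ
      obtain ⟨a, b, rfl⟩ := exists_coords (FR.finrank_torsion W (p := 3) hW).1 S.ne S.indep x
      simp only [smul_add, tor_smul_zsmul, h1, h2, smul_smul, map_add, map_smul, zP, zQ]
      congr 2
      ring

end Fermat.SW
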