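import Fermat.Agent.SW.Switch35
import Fermat.Agent.SW.Sign3

/-!
# Curves with given reduction at three

Explicit cubics `y² = x³ + a₂ x² + a₄ x + a₆` with prescribed trace at three: supersingular
(`exists_target_ss`) and ordinary with discriminant congruent to a cube (`exists_target_ord`).
`Chain` switches towards them.
-/

set_option autoImplicit false

noncomputable section

open WeierstrassCurve

namespace Fermat.SW

/-- The curve `y² = x³ + a₂ x² + a₄ x + a₆`. -/
abbrev cub (a2 a4 a6 : ℤ) : WeierstrassCurve ℤ := ⟨0, a2, 0, a4, a6⟩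

/-- For good reduction at three, `a₃` is `3` minus the number of affine points. -/
theorem apOfModel_three_eq (W : WeierstrassCurve ℤ) (h : ¬ (3 : ℤ) ∣ W.Δ) :
    W.apOfModel 3 = 3 - ((Finset.univ.filter fun v : ZMod 3 × ZMod 3 =>
      v.2 * v.2 + (W.reductionMod 3).a₁ * v.1 * v.2 + (W.reductionMod 3).a₃ * v.2 =
        v.1 * v.1 * v.1 + (W.reductionMod 3).a₂ * v.1 * v.1 + (W.reductionMod 3).a₄ * v.1 +
          (W.reductionMod 3).a₆).card : ℤ) := by
  classical
  have : Fact (Nat.Prime 3) := ⟨Nat.prime_three⟩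
  set E : Affine (ZMod 3) := (W.reductionMod 3).toAffine with hE
  have hΔ : E.Δ ≠ 0 := by
    change (W.map (Int.castRingHom (ZMod 3))).Δ ≠ 0
    rw [WeierstrassCurve.map_Δ, eq_intCast, Ne, ZMod.intCast_zmod_eq_zero_iff_dvd]
    exact_mod_cast h
  set S := Finset.univ.filter fun v : ZMod 3 × ZMod 3 =>
    v.2 * v.2 + E.a₁ * v.1 * v.2 + E.a₃ * v.2 = v.1 * v.1 * v.1 + E.a₂ * v.1 * v.1 +
      E.a₄ * v.1 + E.a₆
    with hS
  -- affine points are the solutions of the equation
  have heq : ∀ x y : ZMod 3, E.Nonsingular x y ↔ (x, y) ∈ S := by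
    intro x y
    rw [← Affine.equation_iff_nonsingular_of_Δ_ne_zero hΔ, Affine.equation_iff, hS,
      Finset.mem_filter]
    simp only [Finset.mem_univ, true_and]
    constructor <;> intro e <;> linear_combination e
  -- add the point at infinity
  let f : E.Point → Option S := fun P =>
    match P with
    | .zero => none
    | .some x y hns => some ⟨(x, y), (heq x y).mp hns⟩
  have hbij : Function.Bijective f := by
    constructor
    · intro P Q hPQ
      rcases P with _ | ⟨x, y, hxy⟩ <;> rcases Q with _ | ⟨x', y', hxy'⟩ <;> simp [f] at hPQ ⊢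
      exact hPQ
    · rintro (_ | ⟨⟨x, y⟩, hz⟩)
      · exact ⟨.zero, rfl⟩
      · exact ⟨.some x y ((heq x y).mpr hz), rfl⟩
  rw [WeierstrassCurve.apOfModel, WeierstrassCurve.traceOfFrobenius, WeierstrassCurve.card,
    show Nat.card (W.reductionMod 3).toAffine.Point = Nat.card (Option S) from
      Nat.card_congr (Equiv.ofBijective f hbij), Nat.card_zmod, Nat.card_eq_fintype_card,
    Fintype.card_option, Fintype.card_coe]
  push_cast
  ring

/-- `a₃` of such a curve is `3` minus the number of its affine points over `𝔽₃`. -/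
theorem apOfModel_cub (a2 a4 a6 : ℤ) (h : ¬ (3 : ℤ) ∣ (cub a2 a4 a6).Δ) :
    (cub a2 a4 a6).apOfModel 3 = 3 - ((Finset.univ.filter fun v : ZMod 3 × ZMod 3 =>
      v.2 * v.2 = v.1 * v.1 * v.1 + (a2 : ZMod 3) * v.1 * v.1 + (a4 : ZMod 3) * v.1 +
        (a6 : ZMod 3)).card : ℤ) := by
  rw [apOfModel_three_eq _ h]
  simp [cub, WeierstrassCurve.reductionMod]

/-- A supersingular target with `a₃ ≡ a` modulo `5`, for `a = ±2`. -/
theorem exists_target_ss {a : ℤ} (ha : a = 2 ∨ a = -2) :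
    ∃ V : WeierstrassCurve ℤ, V.Δ ≠ 0 ∧ ¬ (3 : ℤ) ∣ V.Δ ∧ (3 : ℤ) ∣ V.b₂ ∧
      (V.apOfModel 3 : ZMod 5) = (a : ZMod 5) := by
  rcases ha with rfl | rfl
  · have h : ¬ (3 : ℤ) ∣ (cub 0 (-1) 1).Δ := by decide +kernel
    exact ⟨cub 0 (-1) 1, fun e => h (by rw [e]; exact dvd_zero 3), h, by decide +kernel, by
      rw [apOfModel_cub 0 (-1) 1 h]; decide +kernel⟩
  · have h : ¬ (3 : ℤ) ∣ (cub 0 (-1) (-1)).Δ := by decide +kernel
    exact ⟨cub 0 (-1) (-1), fun e => h (by rw [e]; exact dvd_zero 3), h, by decide +kernel, by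
      rw [apOfModel_cub 0 (-1) (-1) h]; decide +kernel⟩

/-- An ordinary target with `a₃ = a` and discriminant `±1` modulo `9`, for `a = ±1, ±2`. -/
theorem exists_target_ord {a : ℤ} (ha : a = 1 ∨ a = -1 ∨ a = 2 ∨ a = -2) :
    ∃ V : WeierstrassCurve ℤ, V.Δ ≠ 0 ∧ ¬ (3 : ℤ) ∣ V.Δ ∧ ¬ (3 : ℤ) ∣ V.b₂ ∧
      ((V.Δ : ZMod 9) = 1 ∨ (V.Δ : ZMod 9) = -1) ∧ V.apOfModel 3 = a := by
  rcases ha with rfl | rfl | rfl | rfl
  · have h : ¬ (3 : ℤ) ∣ (cub 1 0 (-1)).Δ := by decide +kernel
    exact ⟨cub 1 0 (-1), fun e => h (by rw [e]; exact dvd_zero 3),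
        h, by decide +kernel, by decide +kernel, by
      rw [apOfModel_cub 1 0 (-1) h]; decide +kernel⟩
  · have h : ¬ (3 : ℤ) ∣ (cub (-1) 0 1).Δ := by decide +kernel
    exact ⟨cub (-1) 0 1, fun e => h (by rw [e]; exact dvd_zero 3),
        h, by decide +kernel, by decide +kernel, by
      rw [apOfModel_cub (-1) 0 1 h]; decide +kernel⟩
  · have h : ¬ (3 : ℤ) ∣ (cub (-1) (-1) 0).Δ := by decide +kernel
    exact ⟨cub (-1) (-1) 0, fun e => h (by rw [e]; exact dvd_zero 3),
        h, by decide +kernel, by decide +kernel, by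
      rw [apOfModel_cub (-1) (-1) 0 h]; decide +kernel⟩
  · have h : ¬ (3 : ℤ) ∣ (cub 1 (-1) 0).Δ := by decide +kernel
    exact ⟨cub 1 (-1) 0, fun e => h (by rw [e]; exact dvd_zero 3),
        h, by decide +kernel, by decide +kernel, by
      rw [apOfModel_cub 1 (-1) 0 h]; decide +kernel⟩

end Fermat.SW
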