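import Fermat.Agent.SW.CuspFixed
import Fermat.Agent.SW.Chain

/-!
# The target at a multiplicative place

`multTarget`: near every curve multiplicative at three, on the family of its five-torsion, there is
an ordinary curve all of whose congruent curves have a cube discriminant at three (`MultTarget` of
`SW/Chain`). The parameter of the curve is moved along the line through the nearest cusp, which is
fixed by the decomposition group (`CuspFixed`), to a point whose discriminant is a cube times a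
number near one (`exists_line_point`).
-/

set_option autoImplicit false

noncomputable section

open WeierstrassCurve WeierstrassCurve.Affine Fermat.EC.Val
open scoped WeierstrassCurve.Affine

namespace Fermat.SW

local notation "ℚbar" => AlgebraicClosure ℚ
local notation "Γℚ" => (AlgebraicClosure ℚ ≃ₐ[ℚ] AlgebraicClosure ℚ)

variable {A : ValuationSubring ℚbar}

/-- A fixed number close to one has a fixed cube root. -/
theorem exists_fixed_cbrt (h : IsPlace A 3) {x : ℚbar}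
    (hfix : ∀ σ ∈ A.decompositionSubgroup ℚ, σ x = x) (hx : Ge A 3 (x - 1) 3) :
    ∃ z : ℚbar, z ^ 3 = x ∧ ∀ σ ∈ A.decompositionSubgroup ℚ, σ z = z := by
  classical
  obtain ⟨y', hy', hnear⟩ := exists_cbrt_near h (x := x) (z := 1) (by rwa [one_pow])
  have hone : Is A 3 (1 : ℚbar) 0 := ⟨one_ne_zero, ord_one h⟩
  have hunit : Is A 3 y' 0 := by
    have := hone.add h (hnear.gt (by norm_num))
    simpa using this
  refine ⟨y', hy', fun σ hσ => ?_⟩
  have h1 : Ge A 3 (σ y' - 1) 1 := by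
    rw [show σ y' - 1 = σ (y' - 1) by rw [map_sub, map_one]]
    rcases hnear with e | e
    · exact Or.inl (by rw [e, map_zero])
    · exact Or.inr (by rw [FLAT.ord_apply_decomp h hσ]; exact e)
  exact eq_of_cube_eq h hunit (by rw [← map_pow, hy', hfix σ hσ]) (by simpa using h1.sub h hnear)

/-- An integral number fixed by the decomposition group is `3`-adically approximated by integers. -/
theorem exists_int_near (h : IsPlace A 3) {x : ℚbar}
    (hfix : ∀ σ ∈ A.decompositionSubgroup ℚ, σ x = x) (hx : Ge A 3 x 0) (N : ℕ) :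
    ∃ z : ℤ, Ge A 3 (x - (z : ℚbar)) N := by
  obtain ⟨r, hr⟩ := exists_rat_approx h hfix N
  have hr0 : Ge A 3 (algebraMap ℚ ℚbar r) 0 := by
    have := hx.sub h (hr.mono (by positivity))
    simpa using this
  obtain ⟨z, hz⟩ := exists_intCast_near h hr0 N
  refine ⟨z, ?_⟩
  have := hr.add h hz
  rwa [sub_add_sub_cancel] at this

/-- Square roots modulo powers of three. -/
theorem exists_sqrt_mod (C : ℤ) (hC : (C : ZMod 3) = 1) :
    ∀ N : ℕ, ∃ a : ℤ, (3 : ℤ) ^ N ∣ a ^ 2 - C ∧ (a : ZMod 3) ≠ 0 := by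
  intro N
  induction N with
  | zero => exact ⟨1, by simp, by decide⟩
  | succ N ih =>
    obtain ⟨a, ⟨q, hq⟩, ha⟩ := ih
    obtain ⟨t, ht⟩ : ∃ t : ℤ, ((2 * a * t + q : ℤ) : ZMod 3) = 0 := by
      have key : ∀ a q : ZMod 3, a ≠ 0 → 2 * a * (a * q) + q = 0 := by decide
      exact ⟨a * q, by push_cast; exact key _ _ ha⟩
    obtain ⟨k, hk⟩ := (ZMod.intCast_zmod_eq_zero_iff_dvd _ 3).mp ht
    rcases Nat.eq_zero_or_pos N with hN | hN
    · subst hN
      refine ⟨a, ?_, ha⟩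
      rw [zero_add, pow_one,
        show (3 : ℤ) = ((3 : ℕ) : ℤ) from rfl, ← ZMod.intCast_zmod_eq_zero_iff_dvd]
      push_cast
      have key : ∀ a : ZMod 3, a ≠ 0 → a ^ 2 - 1 = 0 := by decide
      rw [hC]; exact key _ ha
    refine ⟨a + (3 : ℤ) ^ N * t, ⟨k + (3 : ℤ) ^ (N - 1) * t ^ 2, ?_⟩, ?_⟩
    · obtain ⟨M, rfl⟩ : ∃ M, N = M + 1 := ⟨N - 1, by omega⟩
      push_cast at hk
      simp only [Nat.add_sub_cancel]
      linear_combination hq + (3 : ℤ) ^ (M + 1) * hk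
    · have : ((3 : ℤ) ^ N : ℤ) = 3 * (3 : ℤ) ^ (N - 1) := by
        rw [← pow_succ']; congr 1; omega
      rw [this]; push_cast
      rw [show (3 : ZMod 3) = 0 from rfl]
      simpa using ha

/-- A product of factors `1 + x` is within order `N` of `1` if every `x` has order `≥ N ≥ 0`. -/
lemma ge_prod_sub_one (h : IsPlace A 3) {ι : Type*} (s : Finset ι) (x : ι → ℚbar) {N : ℚ}
    (hN : 0 ≤ N) (hx : ∀ i ∈ s, Ge A 3 (x i) N) :
    Ge A 3 ((∏ i ∈ s, (1 + x i)) - 1) N := by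
  classical
  induction s using Finset.induction_on with
  | empty => exact Or.inl (by simp)
  | @insert j s hj ih =>
    have h1 := ih fun i hi => hx i (Finset.mem_insert_of_mem hi)
    have h2 := hx j (Finset.mem_insert_self _ _)
    rw [Finset.prod_insert hj]
    have h3 : Ge A 3 (∏ i ∈ s, (1 + x i)) 0 := by
      have := (h1.mono hN).add h (show Ge A 3 (1 : ℚbar) 0 from Or.inr (by rw [ord_one h]))
      simpa using this
    rw [show (1 + x j) * ∏ i ∈ s, (1 + x i) - 1 = ((∏ i ∈ s, (1 + x i)) - 1) + x j *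
      ∏ i ∈ s, (1 + x i) by ring]
    exact h1.add h (by simpa using h2.mul h h3)

/-- Finitely many elements have orders bounded below by a common `-B`. -/
lemma exists_bound {ι : Type*} (s : Finset ι) (x : ι → ℚbar) :
    ∃ B : ℕ, ∀ i ∈ s, Ge A 3 (x i) (-(B : ℚ)) := by
  classical
  choose f hf using fun i => exists_ge_neg_nat (A := A) (q := 3) (x i)
  exact ⟨s.sup f, fun i hi => (hf i).mono (by
    rw [neg_le_neg_iff]; exact_mod_cast Finset.le_sup hi)⟩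

/-- Modulo `3`, if `c³ = b²` with `b ≠ 0` then `c = 1`. -/
lemma eq_one_of_cube_sub_sq : ∀ c b : ZMod 3, c ^ 3 - b ^ 2 = 0 → b ≠ 0 → c = 1 := by decide

/-! ### The line through the closest cusp -/

variable {ζ : ℚbar} {hζ : IsPrimitiveRoot ζ 5} {v w c₀ : ℚbar × ℚbar} {t lam : ℚbar} {L : ℤ}

open scoped Classical in
/-- The leading factor of `F12 ^ 5` on the line through the cusp `c₀`. -/
def cuspLead (v c₀ : ℚbar × ℚbar) (lam : ℚbar) : ℚbar :=
  (Five.crs v c₀ * ∏ c ∈ Five.cusps.erase c₀, lam * Five.crs c₀ c) ^ 5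

open scoped Classical in
/-- The remaining factor of `F12 ^ 5` on the line, which tends to `1` at the cusp. -/
def cuspRest (v c₀ : ℚbar × ℚbar) (lam ε : ℚbar) : ℚbar :=
  (∏ c ∈ Five.cusps.erase c₀, (1 + ε * (Five.crs v c / (lam * Five.crs c₀ c) - 1))) ^ 5

/-- The factors at the other cusps do not vanish. -/
lemma cusp_factor_ne (h : IsPlace A 3) (hD : Five.CuspData A ζ hζ v w t c₀ lam L) {c : ℚbar × ℚbar}
    (hc : c ∈ Five.cusps) (hne : c ≠ c₀) : lam * Five.crs c₀ c ≠ 0 :=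
  mul_ne_zero hD.ord_lam.1 (Five.crs_ne_gt h hD.mem hc hne.symm).1

/-- The leading factor does not vanish. -/
lemma cuspLead_ne_zero (h : IsPlace A 3) (hD : Five.CuspData A ζ hζ v w t c₀ lam L) :
    cuspLead v c₀ lam ≠ 0 := by
  classical
  exact pow_ne_zero _ (mul_ne_zero hD.ne (Finset.prod_ne_zero_iff.mpr fun c hc =>
    cusp_factor_ne h hD (Finset.mem_of_mem_erase hc) (Finset.ne_of_mem_erase hc)))

/-- **The cusp form on the line through the cusp.** -/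
theorem F12_pow_line (h : IsPlace A 3) (hD : Five.CuspData A ζ hζ v w t c₀ lam L) (ε : ℚbar) :
    Five.F12 (comb v w (1, (1 - ε) * t, 1)) ^ 5 =
      ε ^ 5 * cuspLead v c₀ lam * cuspRest v c₀ lam ε := by
  classical
  rw [Five.F12_eq_prod, ← Finset.mul_prod_erase _ _ hD.mem, cuspLead, cuspRest, ← mul_pow,
    ← mul_pow]
  congr 1
  rw [show ε * (Five.crs v c₀ * ∏ c ∈ Five.cusps.erase c₀, lam * Five.crs c₀ c) *
        ∏ c ∈ Five.cusps.erase c₀, (1 + ε * (Five.crs v c / (lam * Five.crs c₀ c) - 1)) =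
      ε * Five.crs v c₀ * ∏ c ∈ Five.cusps.erase c₀,
        (lam * Five.crs c₀ c) * (1 + ε * (Five.crs v c / (lam * Five.crs c₀ c) - 1)) by
    rw [Finset.prod_mul_distrib (f := fun c => lam * Five.crs c₀ c)
      (g := fun c => 1 + ε * (Five.crs v c / (lam * Five.crs c₀ c) - 1))]
    ring]
  congr 1
  · simp only [comb, Five.crs]
    linear_combination (1 - ε) * c₀.2 * hD.eq1 - (1 - ε) * c₀.1 * hD.eq2
  · refine Finset.prod_congr rfl fun c hc => ?_
    have := cusp_factor_ne h hD (Finset.mem_of_mem_erase hc) (Finset.ne_of_mem_erase hc)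
    rw [show lam * Five.crs c₀ c * (1 + ε * (Five.crs v c / (lam * Five.crs c₀ c) - 1)) =
        (1 - ε) * (lam * Five.crs c₀ c) +
          ε * (lam * Five.crs c₀ c * (Five.crs v c / (lam * Five.crs c₀ c))) by ring,
      mul_div_cancel₀ _ this]
    simp only [comb, Five.crs]
    linear_combination (1 - ε) * c.2 * hD.eq1 - (1 - ε) * c.1 * hD.eq2

/-- Near the cusp the remaining factor is close to `1`. -/
theorem exists_cuspRest_bound (h : IsPlace A 3) (v c₀ : ℚbar × ℚbar) (lam : ℚbar) :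
    ∃ B : ℕ, ∀ (ε : ℚbar) (N : ℕ), Ge A 3 ε ((N + B : ℕ) : ℚ) →
      Ge A 3 (cuspRest v c₀ lam ε - 1) N := by
  classical
  set δ : ℚbar × ℚbar → ℚbar := fun c => Five.crs v c / (lam * Five.crs c₀ c) - 1
  obtain ⟨B, hB⟩ := exists_bound (A := A) (Five.cusps.erase c₀) δ
  refine ⟨B, fun ε N hε => ?_⟩
  have h1 := ge_prod_sub_one h (Five.cusps.erase c₀) (fun c => ε * δ c) (N := (N : ℚ))
    (by positivity) fun c hc => (hε.mul h (hB c hc)).mono (by push_cast; linarith)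
  have := ge_prod_sub_one h (Finset.univ : Finset (Fin 5))
    (fun _ => (∏ c ∈ Five.cusps.erase c₀, (1 + ε * δ c)) - 1) (N := (N : ℚ)) (by positivity)
    fun _ _ => h1
  simpa [cuspRest, δ] using this

/-- An automorphism fixing the parameter fixes the invariants on the line. -/
theorem invariants_line_fixed {a b : ℚ} (hab : a ^ 3 ≠ b ^ 2) (hv : (Five.fam5 hζ).Over a b v)
    (hw : (Five.fam5 hζ).Twisted v w) {σ : Γℚ} {x : ℚbar} (hx : σ x = x) :
    σ (Five.C4 (comb v w (1, x, 1))) = Five.C4 (comb v w (1, x, 1)) ∧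
      σ (Five.C6 (comb v w (1, x, 1))) = Five.C6 (comb v w (1, x, 1)) := by
  obtain ⟨hc, hcv⟩ := (Five.fam5 hζ).coc_spec hab hv σ
  have hcw := hw σ _ hc hcv
  set g := (Five.fam5 hζ).coc hab hv σ
  set u := comb v w (1, x, 1) with hu
  have hmap : Prod.map σ σ u = act g u := by
    simp only [Prod.map, act, Prod.mk.injEq, Algebra.algebraMap_self, RingHom.id_apply] at hcv hcw ⊢
    simp only [hu, comb, map_add, map_mul, map_one, hx, hcv.1, hcv.2, hcw.1, hcw.2]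
    constructor <;> ring
  constructor
  · rw [show σ (Five.C4 u) = Five.C4 (Prod.map σ σ u) from
      Five.formC4.natural σ.toRingEquiv.toRingHom u, hmap]
    exact (hc u).1
  · rw [show σ (Five.C6 u) = Five.C6 (Prod.map σ σ u) from
      Five.formC6.natural σ.toRingEquiv.toRingHom u, hmap]
    exact (hc u).2

/-- **The leading factor is fixed by the decomposition group.** -/
theorem cuspLead_fixed (h : IsPlace A 3) {a b : ℚ} (hab : a ^ 3 ≠ b ^ 2)
    (hv : (Five.fam5 hζ).Over a b v) (hw : (Five.fam5 hζ).Twisted v w)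
    (hD : Five.CuspData A ζ hζ v w t c₀ lam L) :
    ∀ σ ∈ A.decompositionSubgroup ℚ, σ (cuspLead v c₀ lam) = cuspLead v c₀ lam := by
  intro σ hσ
  set R5 := cuspLead v c₀ lam
  set hh := cuspRest v c₀ lam
  by_contra hne
  -- otherwise `σ R5 - R5` has some finite order
  have hI := is_ord (A := A) (q := 3) (sub_ne_zero.mpr hne)
  obtain ⟨B, hB⟩ := exists_ge_neg_nat (A := A) (q := 3) R5
  obtain ⟨Bd, hclose⟩ := exists_cuspRest_bound h v c₀ lam
  obtain ⟨N, hN⟩ := exists_nat_gt (ord A 3 (σ R5 - R5) + B)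
  -- evaluate the discriminant along the line at a deep fixed parameter `ε`
  set ε : ℚbar := ((3 : ℕ) : ℚbar) ^ (N + Bd) with hε
  have hεI : Is A 3 ε ((N + Bd : ℕ) : ℚ) := by
    have h3 : Is A 3 ((3 : ℕ) : ℚbar) 1 := ⟨Nat.cast_ne_zero.mpr (by norm_num), ord_q h⟩
    rw [hε]; simpa using h3.pow h (N + Bd)
  have hεfix : σ ε = ε := by rw [hε, map_pow, map_natCast]
  obtain ⟨f4, f6⟩ := invariants_line_fixed hab hv hw (x := (1 - ε) * t)
    (by rw [map_mul, map_sub, map_one, hεfix, hD.fixed σ hσ])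
  have hd : σ (ε ^ 5 * R5 * hh ε) = ε ^ 5 * R5 * hh ε := by
    have e := Five.disc_eq (comb v w (1, (1 - ε) * t, 1))
    have e' := congrArg σ e
    simp only [map_sub, map_pow, map_mul, map_neg, map_ofNat, f4, f6] at e'
    rw [e] at e'
    have := mul_left_cancel₀ (by norm_num : (-1728 : ℚbar) ≠ 0) e'
    rw [← F12_pow_line h hD, map_pow]
    exact this.symm
  rw [map_mul, map_mul, map_pow, hεfix, mul_assoc, mul_assoc] at hd
  have hd' := mul_left_cancel₀ (pow_ne_zero _ hεI.1) hd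
  have hg := (hB.mul h (hclose ε N hεI.ge)).mono (s := (N : ℚ) - B) (by linarith)
  have hg' : Ge A 3 (σ (R5 * (hh ε - 1))) ((N : ℚ) - B) := by
    rcases hg with e | e
    · exact Or.inl (by rw [e, map_zero])
    · exact Or.inr (by rw [FLAT.ord_apply_decomp h hσ]; exact e)
  -- then that order is arbitrarily large
  have := hI.le_of_ge (s := (N : ℚ) - B) (by
    rw [show σ R5 - R5 = R5 * (hh ε - 1) - σ (R5 * (hh ε - 1)) by
      simp only [map_mul, map_sub, map_one]; linear_combination hd']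
    exact hg.sub h hg')
  linarith

/-- `C6` is a unit at the cusps. -/
lemma is_C6_cusp (h : IsPlace A 3) {c : ℚbar × ℚbar} (hc : c ∈ Five.cusps) :
    Is A 3 (Five.C6 c) 0 := by
  classical
  have hF : Five.F12 c = 0 := by
    rw [Five.F12_eq_prod]; exact Finset.prod_eq_zero hc (by simp [Five.crs]; ring)
  have e := Five.disc_eq c
  rw [hF] at e
  have e' : Five.C4 c ^ 3 = Five.C6 c ^ 2 := sub_eq_zero.mp (by rw [e]; ring)
  have i := (Five.is_C4_cusp h hc).pow h 3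
  rw [e'] at i
  have hne : Five.C6 c ≠ 0 := fun e0 => i.1 (by rw [e0]; ring)
  refine ⟨hne, ?_⟩
  have := i.2
  rw [ord_pow h] at this
  push_cast at this
  linarith

/-- The scaled invariants at the cusp are units. -/
lemma is_unit_cusp_invariants (h : IsPlace A 3) (hD : Five.CuspData A ζ hζ v w t c₀ lam L)
    {μ : ℚbar} (hμ : Is A 3 μ ((-5 * L : ℤ) : ℚ)) :
    Is A 3 (μ ^ 4 * Five.C4 (comb v w (1, t, μ))) 0 ∧
      Is A 3 (μ ^ 6 * Five.C6 (comb v w (1, t, μ))) 0 := by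
  have hu₀ : comb v w (1, t, μ) = (lam * c₀.1, lam * c₀.2) := by
    simp only [comb, one_mul]; exact Prod.ext hD.eq1 hD.eq2
  rw [hu₀, show Five.C4 (lam * c₀.1, lam * c₀.2) = lam ^ 20 * Five.C4 c₀ by
      simp only [Five.C4]; ring,
    show Five.C6 (lam * c₀.1, lam * c₀.2) = lam ^ 30 * Five.C6 c₀ by simp only [Five.C6]; ring]
  constructor
  · convert (hμ.pow h 4).mul h ((hD.ord_lam.pow h 20).mul h (Five.is_C4_cusp h hD.mem)) using 1
    push_cast; ring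
  · convert (hμ.pow h 6).mul h ((hD.ord_lam.pow h 30).mul h (is_C6_cusp h hD.mem)) using 1
    push_cast; ring

/-- `y` is a point of the line through `v` and `w` with unit invariants, fixed by the decomposition
group with `γ`, and discriminant `γ ^ 3 ρ`, `γ` of valuation `G` and `ρ` near `1`. -/
structure LinePoint (A : ValuationSubring ℚbar) (v w : ℚbar × ℚbar) (y : ℚbar × ℚbar × ℚbar)
    (γ ρ : ℚbar) (G : ℕ) : Prop where
  /-- `G` is positive. -/
  G_pos : 1 ≤ G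
  /-- `γ` has valuation `G`. -/
  γ_val : Is A 3 γ (G : ℚ)
  /-- `ρ` is close to `1`. -/
  ρ_near : Ge A 3 (ρ - 1) 3
  /-- The first invariant is a unit. -/
  c4_unit : Is A 3 (y.2.2 ^ 4 * Five.C4 (comb v w y)) 0
  /-- The second invariant is a unit. -/
  c6_unit : Is A 3 (y.2.2 ^ 6 * Five.C6 (comb v w y)) 0
  /-- The discriminant is `γ ^ 3 ρ`. -/
  disc : (y.2.2 ^ 4 * Five.C4 (comb v w y)) ^ 3 - (y.2.2 ^ 6 * Five.C6 (comb v w y)) ^ 2 =
    1728 * (γ ^ 3 * ρ)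
  /-- `γ`, the parameters and both invariants are fixed by the decomposition group. -/
  fixed : ∀ σ ∈ A.decompositionSubgroup ℚ, σ γ = γ ∧
    (σ y.1 = y.1 ∧ σ y.2.1 = y.2.1 ∧ σ y.2.2 = y.2.2) ∧
    σ (y.2.2 ^ 4 * Five.C4 (comb v w y)) = y.2.2 ^ 4 * Five.C4 (comb v w y) ∧
    σ (y.2.2 ^ 6 * Five.C6 (comb v w y)) = y.2.2 ^ 6 * Five.C6 (comb v w y)

/-- **A point of the line with unit invariants and a cube discriminant up to a factor near `1`.** -/
theorem exists_line_point (h : IsPlace A 3) {a b : ℚ} (hab : a ^ 3 ≠ b ^ 2)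
    (hv : (Five.fam5 hζ).Over a b v) (hw : (Five.fam5 hζ).Twisted v w)
    (hD : Five.CuspData A ζ hζ v w t c₀ lam L) :
    ∃ (y : ℚbar × ℚbar × ℚbar) (γ ρ : ℚbar) (G : ℕ), LinePoint A v w y γ ρ G := by
  set R5 := cuspLead v c₀ lam
  have hfixR := cuspLead_fixed h hab hv hw hD
  obtain ⟨Bd, hclose⟩ := exists_cuspRest_bound h v c₀ lam
  obtain ⟨r5, hr5⟩ := int_ord_of_fixed h (cuspLead_ne_zero h hD) hfixR
  -- the scale
  set μ : ℚbar := ((3 : ℕ) : ℚbar) ^ (-5 * L) with hμ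
  have h3I : Is A 3 ((3 : ℕ) : ℚbar) 1 := ⟨Nat.cast_ne_zero.mpr (by norm_num), ord_q h⟩
  have hμI : Is A 3 μ ((-5 * L : ℤ) : ℚ) :=
    ⟨zpow_ne_zero _ h3I.1, by rw [hμ, ord_zpow h, ord_q h, mul_one]⟩
  obtain ⟨M4, hM4⟩ := contAt_c4 (x := (1, t, μ)) h v w 1
  obtain ⟨M6, hM6⟩ := contAt_c6 (x := (1, t, μ)) h v w 1
  obtain ⟨Bt, hBt⟩ := exists_ge_neg_nat (A := A) (q := 3) t
  set k : ℕ := M4 + M6 + Bt + Bd + 3 + 2 * r5.natAbs + 20 * L.natAbs with hk
  set ε : ℚbar := ((3 : ℕ) : ℚbar) ^ (3 * k) * R5 with hε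
  have hεI : Is A 3 ε (((3 * k : ℕ) : ℤ) + r5 : ℤ) := by
    have := (h3I.pow h (3 * k)).mul h hr5
    rw [hε]; simpa using this
  set γ : ℚbar := -(μ ^ 4 * ((3 : ℕ) : ℚbar) ^ (5 * k) * R5 ^ 2) with hγ
  obtain ⟨G, hG⟩ : ∃ G : ℕ, -20 * L + 5 * (k : ℤ) + 2 * r5 = (G : ℤ) :=
    Int.eq_ofNat_of_zero_le (by omega)
  have hydist : Ge A 3 ((1 - ε) * t - t) ((M4 + M6 : ℕ) : ℚ) := by
    rw [show (1 - ε) * t - t = -(ε * t) by ring]
    refine ((hεI.ge.mul h hBt).mono ?_).neg h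
    have : ((M4 + M6 : ℕ) : ℤ) ≤ ((3 * k : ℕ) : ℤ) + r5 - Bt := by omega
    have h' : (((M4 + M6 : ℕ) : ℤ) : ℚ) ≤
      (((3 * k : ℕ) : ℤ) + r5 - Bt : ℤ) := by exact_mod_cast this
    push_cast at h' ⊢
    linarith
  obtain ⟨i4, i6⟩ := is_unit_cusp_invariants h hD hμI
  have hd4 := hM4 (1, (1 - ε) * t, μ) (Or.inl (sub_self _))
    (hydist.mono (by exact_mod_cast Nat.le_add_right M4 M6)) (Or.inl (sub_self _))
  have hd6 := hM6 (1, (1 - ε) * t, μ) (Or.inl (sub_self _))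
    (hydist.mono (by exact_mod_cast Nat.le_add_left M6 M4)) (Or.inl (sub_self _))
  refine ⟨(1, (1 - ε) * t, μ), γ, cuspRest v c₀ lam ε, G, by omega, ?_,
    hclose ε 3 (hεI.ge.mono ?_),
    by simpa using i4.add h (hd4.gt (show (0 : ℚ) < ((1 : ℕ) : ℚ) by norm_num)),
    by simpa using i6.add h (hd6.gt (show (0 : ℚ) < ((1 : ℕ) : ℚ) by norm_num)), ?_, fun σ hσ => ?_⟩
  · rw [hγ]
    convert (((hμI.pow h 4).mul h (h3I.pow h (5 * k))).mul h (hr5.pow h 2)).neg h using 1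
    rw [show (G : ℚ) = ((G : ℤ) : ℚ) by norm_num, ← hG]
    push_cast; ring
  · have : ((3 + Bd : ℕ) : ℤ) ≤ ((3 * k : ℕ) : ℤ) + r5 := by omega
    exact_mod_cast this
  · change (μ ^ 4 * Five.C4 (comb v w (1, (1 - ε) * t, 1))) ^ 3 -
      (μ ^ 6 * Five.C6 (comb v w (1, (1 - ε) * t, 1))) ^ 2 = _
    have := Five.disc_eq (comb v w (1, (1 - ε) * t, 1))
    rw [F12_pow_line h hD] at this
    simp only [hγ]
    rw [hε] at this ⊢
    ring_nf at this ⊢
    linear_combination μ ^ 12 * this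
  · have hμfix : σ μ = μ := by rw [hμ, map_zpow₀, map_natCast]
    have hxfix : σ ((1 - ε) * t) = (1 - ε) * t := by
      rw [map_mul, map_sub, map_one, hε, map_mul, map_pow, map_natCast, hfixR σ hσ, hD.fixed σ hσ]
    obtain ⟨f4, f6⟩ := invariants_line_fixed hab hv hw hxfix
    refine ⟨?_, ⟨map_one σ, hxfix, hμfix⟩, ?_, ?_⟩
    · rw [hγ, map_neg, map_mul, map_mul, map_pow, map_pow, map_pow, map_natCast, hμfix, hfixR σ hσ]
    · change σ (μ ^ 4 * Five.C4 (comb v w (1, (1 - ε) * t, 1))) = _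
      rw [map_mul, map_pow, hμfix, f4]
      rfl
    · change σ (μ ^ 6 * Five.C6 (comb v w (1, (1 - ε) * t, 1))) = _
      rw [map_mul, map_pow, hμfix, f6]
      rfl

/-! ### The integral model -/

/-- A square root of `C` modulo `3 ^ K` whose cube is opposite to `B` modulo `27`. -/
theorem exists_cube_sign {B C : ℤ} {K : ℕ} (hK : 3 ≤ K) (hB : ¬ (3 : ℤ) ∣ B)
    (hC : (C : ZMod 3) = 1) (hdvd : (27 : ℤ) ∣ C ^ 3 - B ^ 2) :
    ∃ a : ℤ, (3 : ℤ) ^ K ∣ a ^ 2 - C ∧ (27 : ℤ) ∣ B + a ^ 3 := by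
  obtain ⟨a₀, ha₀, -⟩ := exists_sqrt_mod C hC K
  have hpow27 : (27 : ℤ) ∣ (3 : ℤ) ^ K :=
    (show (27 : ℤ) = 3 ^ 3 by norm_num) ▸ pow_dvd_pow (3 : ℤ) hK
  have hprod : (27 : ℤ) ∣ (B + a₀ ^ 3) * (B + (-a₀) ^ 3) := by
    have h1 : (27 : ℤ) ∣ (C - a₀ ^ 2) * (C ^ 2 + C * a₀ ^ 2 + a₀ ^ 4) :=
      ((hpow27.trans ha₀).neg_right.trans (by rw [neg_sub])).mul_right _
    rw [show (B + a₀ ^ 3) * (B + (-a₀) ^ 3) =
      (C - a₀ ^ 2) * (C ^ 2 + C * a₀ ^ 2 + a₀ ^ 4) - (C ^ 3 - B ^ 2) by ring]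
    exact dvd_sub h1 hdvd
  by_cases h3 : (3 : ℤ) ∣ B + a₀ ^ 3
  · refine ⟨a₀, ha₀, ?_⟩
    have hco : IsCoprime (27 : ℤ) (B + (-a₀) ^ 3) := by
      rw [show (27 : ℤ) = 3 ^ 3 by norm_num]
      refine (Int.prime_three.coprime_iff_not_dvd.mpr fun hd => hB ?_).pow_left
      have h2 : (3 : ℤ) ∣ 2 * B := by
        have := dvd_add h3 hd
        rwa [show B + a₀ ^ 3 + (B + (-a₀) ^ 3) = 2 * B by ring] at this
      exact (Int.prime_three.dvd_or_dvd h2).resolve_left (by decide)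
    exact hco.dvd_of_dvd_mul_right hprod
  · refine ⟨-a₀, by rwa [neg_sq], ?_⟩
    have hco : IsCoprime (27 : ℤ) (B + a₀ ^ 3) := by
      rw [show (27 : ℤ) = 3 ^ 3 by norm_num]
      exact (Int.prime_three.coprime_iff_not_dvd.mpr h3).pow_left
    exact hco.dvd_of_dvd_mul_left hprod

/-- A model with ordinary `b₂` and prescribed invariants modulo a power of three. -/
theorem exists_model_three {B C : ℤ} {K : ℕ} (hK : 3 ≤ K) (hB : ¬ (3 : ℤ) ∣ B)
    (hC : (C : ZMod 3) = 1) (hdvd : (27 : ℤ) ∣ C ^ 3 - B ^ 2) :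
    ∃ V : WeierstrassCurve ℤ, ¬ (3 : ℤ) ∣ V.b₂ ∧ (3 : ℤ) ^ K ∣ C - V.c₄ ∧
      (3 : ℤ) ^ K ∣ B - V.c₆ := by
  -- a square root `a₁` of `C` with `B ≡ -a₁ ^ 3`
  obtain ⟨a₁, ha₁, ha₁'⟩ := exists_cube_sign hK hB hC hdvd
  have hpow27 : (27 : ℤ) ∣ (3 : ℤ) ^ K :=
    (show (27 : ℤ) = 3 ^ 3 by norm_num) ▸ pow_dvd_pow (3 : ℤ) hK
  obtain ⟨x4, y4, e4⟩ : IsCoprime (4 : ℤ) ((3 : ℤ) ^ K) :=
    IsCoprime.pow_right (by rw [show (4 : ℤ) = ((4 : ℕ) : ℤ) from rfl,
      show (3 : ℤ) = ((3 : ℕ) : ℤ) from rfl, Int.isCoprime_iff_nat_coprime]; rfl)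
  -- `a₂ ≡ a₁ / 4` gives the `c₄`, and the constant term then adjusts `c₆`
  set a₂ := a₁ * x4 with ha₂
  have h4a : (3 : ℤ) ^ K ∣ 4 * a₂ - a₁ := ⟨-a₁ * y4, by rw [ha₂]; linear_combination a₁ * e4⟩
  have h16 : (3 : ℤ) ^ K ∣ 16 * a₂ ^ 2 - C := by
    rw [show 16 * a₂ ^ 2 - C = (4 * a₂ - a₁) * (4 * a₂ + a₁) + (a₁ ^ 2 - C) by ring]
    exact dvd_add (h4a.mul_right _) ha₁
  obtain ⟨qq, hqq⟩ : (27 : ℤ) ∣ B + 64 * a₂ ^ 3 := by
    rw [show B + 64 * a₂ ^ 3 =
      (4 * a₂ - a₁) * (16 * a₂ ^ 2 + 4 * a₂ * a₁ + a₁ ^ 2) + (B + a₁ ^ 3) by ring]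
    exact dvd_add ((hpow27.trans h4a).mul_right _) ha₁'
  obtain ⟨x32, y32, e32⟩ : IsCoprime (32 : ℤ) ((3 : ℤ) ^ K) :=
    IsCoprime.pow_right (by rw [show (32 : ℤ) = ((32 : ℕ) : ℤ) from rfl,
      show (3 : ℤ) = ((3 : ℕ) : ℤ) from rfl, Int.isCoprime_iff_nat_coprime]; rfl)
  -- the model `y² = x³ + a₂ x² + a₆`
  refine ⟨⟨0, a₂, 0, 0, -qq * x32⟩, ?_, ?_, ⟨27 * qq * y32, ?_⟩⟩
  · simp only [WeierstrassCurve.b₂]
    intro hd
    have h2 : (3 : ℤ) ∣ a₂ := (Int.prime_three.dvd_or_dvd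
      (show (3 : ℤ) ∣ 4 * a₂ by simpa using hd)).resolve_left (by decide)
    have := dvd_sub ((dvd_pow h2 (two_ne_zero (α := ℕ))).mul_left 16)
      ((dvd_pow_self (3 : ℤ) (show K ≠ 0 by omega)).trans h16)
    rw [sub_sub_cancel, show (3 : ℤ) = ((3 : ℕ) : ℤ) from rfl,
      ← ZMod.intCast_zmod_eq_zero_iff_dvd, hC] at this
    exact one_ne_zero this
  · refine h16.neg_right.trans (dvd_of_eq ?_)
    simp [WeierstrassCurve.c₄, WeierstrassCurve.b₂, WeierstrassCurve.b₄]; ring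
  · simp [WeierstrassCurve.c₆, WeierstrassCurve.b₂, WeierstrassCurve.b₄, WeierstrassCurve.b₆]
    linear_combination hqq - 27 * qq * e32

/-- **An integral model near fixed unit invariants** of discriminant `D`. -/
theorem exists_curve_near (h : IsPlace A 3) {c4 c6 D : ℚbar} (h4 : Is A 3 c4 0) (h6 : Is A 3 c6 0)
    (hfix : ∀ σ ∈ A.decompositionSubgroup ℚ, σ c4 = c4 ∧ σ c6 = c6) {G K : ℕ} (hK : G + 3 < K)
    (hD : Is A 3 D (G : ℚ)) (hdisc : c4 ^ 3 - c6 ^ 2 = 1728 * D) :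
    ∃ V : WeierstrassCurve ℤ, V.Δ ≠ 0 ∧ ¬ (3 : ℤ) ∣ V.b₂ ∧ Ge A 3 (c4 - (V.c₄ : ℚbar)) K ∧
      Ge A 3 (c6 - (V.c₆ : ℚbar)) K ∧ Ge A 3 ((V.Δ : ℚbar) - D) ((K : ℚ) - 3) := by
  -- Take integers `C`, `B` near `c4`, `c6`.
  obtain ⟨C, hC⟩ := exists_int_near h (fun σ hσ => (hfix σ hσ).1) h4.ge K
  obtain ⟨B, hB⟩ := exists_int_near h (fun σ hσ => (hfix σ hσ).2) h6.ge K
  have hCB : ∀ (C' B' : ℤ), Ge A 3 (c4 - (C' : ℚbar)) K → Ge A 3 (c6 - (B' : ℚbar)) K →
      Ge A 3 (((C' ^ 3 - B' ^ 2 : ℤ) : ℚbar) - 1728 * D) K := by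
    intro C' B' hC' hB'
    rw [← hdisc, Int.cast_sub, Int.cast_pow, Int.cast_pow]
    have := (ge_pow_sub_pow h 2 h6.ge (ge_intCast h B') hB').sub h
      (ge_pow_sub_pow h 3 h4.ge (ge_intCast h C') hC')
    rwa [show c6 ^ 2 - (B' : ℚbar) ^ 2 - (c4 ^ 3 - (C' : ℚbar) ^ 3) =
      (C' : ℚbar) ^ 3 - (B' : ℚbar) ^ 2 - (c4 ^ 3 - c6 ^ 2) by ring] at this
  have h1728 : Is A 3 (1728 : ℚbar) 3 := by
    have e : (1728 : ℚbar) = ((3 : ℕ) : ℚbar) ^ 3 * ((64 : ℕ) : ℚbar) := by norm_num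
    rw [e]
    simpa using (Is.pow h ⟨Nat.cast_ne_zero.mpr (by norm_num), ord_q h⟩ 3).mul h
      (is_natCast (L := ℚbar) h (a := 64) (by norm_num))
  -- Then `27` divides `C ^ 3 - B ^ 2` and `3` not `B`: they come from a model.
  have hdvd : (27 : ℤ) ∣ C ^ 3 - B ^ 2 := by
    have h0 := ((hCB C B hC hB).mono (s := (3 : ℕ)) (by exact_mod_cast (show 3 ≤ K by omega))).add h
      ((h1728.mul h hD).ge.mono (s := ((3 : ℕ) : ℚ))
        (by push_cast; linarith [Nat.cast_nonneg (α := ℚ) G]))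
    rw [sub_add_cancel] at h0
    simpa using dvd_of_ge_intCast h h0
  have hK0 : 0 < K := by omega
  have hB0 : ¬ (3 : ℤ) ∣ B := by exact_mod_cast not_dvd_of_ge_sub h hK0 h6 hB
  have hC1 : (C : ZMod 3) = 1 := by
    refine eq_one_of_cube_sub_sq _ (B : ZMod 3) ?_ ?_
    · have := (ZMod.intCast_zmod_eq_zero_iff_dvd (C ^ 3 - B ^ 2) 3).mpr
        ((show ((3 : ℕ) : ℤ) ∣ 27 by norm_num).trans hdvd)
      push_cast at this; exact this
    · rw [Ne, ZMod.intCast_zmod_eq_zero_iff_dvd]; exact_mod_cast hB0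
  obtain ⟨V, hb, d4, d6⟩ := exists_model_three (K := K) (by omega) hB0 hC1 hdvd
  have near : ∀ {x : ℚbar} {z z' : ℤ}, Ge A 3 (x - (z : ℚbar)) K → (3 : ℤ) ^ K ∣ z - z' →
      Ge A 3 (x - (z' : ℚbar)) K := fun {x z z'} hx hd => by
    have := hx.add h (ge_intCast_of_dvd (L := ℚbar) h (a := z - z') (k := K) (by exact_mod_cast hd))
    rwa [Int.cast_sub, sub_add_sub_cancel] at this
  -- Its discriminant is near `D`, so nonzero.
  have hVd : Ge A 3 ((V.Δ : ℚbar) - D) ((K : ℚ) - 3) := by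
    have h0 := hCB V.c₄ V.c₆ (near hC d4) (near hB d6)
    rw [← V.c_relation] at h0
    push_cast at h0
    have := h0.div h h1728
    rwa [show (1728 * (V.Δ : ℚbar) - 1728 * D) / 1728 = (V.Δ : ℚbar) - D by field_simp] at this
  refine ⟨V, fun e => ?_, hb, near hC d4, near hB d6, hVd⟩
  rw [e, Int.cast_zero, zero_sub] at hVd
  have := (hD.neg h).le_of_ge hVd
  have : ((G + 3 : ℕ) : ℚ) < (K : ℚ) := by exact_mod_cast hK
  push_cast at this
  linarith

/-- A discriminant congruent to `γ ^ 3 ρ`, with `γ` fixed and `ρ` near `1`, is a cube at the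
place. -/
theorem cubeAt_of_near (h : IsPlace A 3) {γ ρ : ℚbar} {G : ℕ} (hγ : Is A 3 γ (G : ℚ))
    (hγfix : ∀ σ ∈ A.decompositionSubgroup ℚ, σ γ = γ) (hρ : Ge A 3 (ρ - 1) 3)
    {V W' : WeierstrassCurve ℤ} {M : ℕ} (hM : 3 * G + 3 ≤ M)
    (hV : Ge A 3 ((V.Δ : ℚbar) - γ ^ 3 * ρ) M) {n : ℤ} (hn : ¬ (3 : ℤ) ∣ n)
    (hc : ScaledCong W' V ((3 : ℤ) ^ M) n) : CubeAt A W' := by
  set den : ℚbar := ((n : ℚbar) ^ 4 * γ) ^ 3 with hden'
  have hnI : Is A 3 (n : ℚbar) 0 := is_intCast h hn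
  have hdI : Is A 3 den ((3 * G : ℕ) : ℚ) := by
    simpa [hden'] using (((hnI.pow h 4).mul h hγ).pow h 3)
  obtain ⟨z, hz, hzfix⟩ := exists_fixed_cbrt h (x := (W'.Δ : ℚbar) / den) (fun σ hσ => by
    rw [map_div₀, hden', map_pow, map_mul, map_pow, map_intCast, map_intCast, hγfix σ hσ]) (by
    have d1 : Ge A 3 ((W'.Δ : ℚbar) - (n : ℚbar) ^ 12 * (V.Δ : ℚbar)) ((M : ℕ) : ℚ) := by
      have := ge_intCast_of_dvd (L := ℚbar) h (k := M)
        (by exact_mod_cast (invariants_of_scaledCong hc).2)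
      push_cast at this; exact this
    have d2 : Ge A 3 ((n : ℚbar) ^ 12 * ((V.Δ : ℚbar) - γ ^ 3 * ρ)) ((M : ℕ) : ℚ) := by
      simpa using (hnI.pow h 12).ge.mul h hV
    have d3 := ((d1.add h d2).div h hdI).mono (s := (3 : ℚ)) (by
      have : ((3 * G + 3 : ℕ) : ℚ) ≤ (M : ℚ) := by exact_mod_cast hM
      push_cast at this ⊢; linarith)
    have := d3.add h hρ
    rw [show (W'.Δ : ℚbar) / den - 1 = ((W'.Δ : ℚbar) - (n : ℚbar) ^ 12 * (V.Δ : ℚbar) +
        (n : ℚbar) ^ 12 * ((V.Δ : ℚbar) - γ ^ 3 * ρ)) / den + (ρ - 1) by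
      have := hdI.1
      field_simp
      rw [hden']; ring]
    exact this)
  refine ⟨(n : ℚbar) ^ 4 * γ * z, ?_, fun σ hσ => by
    rw [map_mul, map_mul, map_pow, map_intCast, hγfix σ hσ, hzfix σ hσ]⟩
  rw [mul_pow, hz, ← hden', mul_div_cancel₀ _ hdI.1]

/-- **The multiplicative target.** Near a curve multiplicative at three its five-torsion family has
an ordinary target forcing a cube discriminant. -/
theorem multTarget (h : IsPlace A 3) : MultTarget A := by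
  intro W hΔ hbad h4
  have hab : (modQ W).c₄ ^ 3 ≠ (modQ W).c₆ ^ 2 := c_ne_of_delta (modQ_Δ_ne hΔ)
  have hd : algebraMap ℚ ℚbar (((modQ W).c₄ ^ 3 - (modQ W).c₆ ^ 2) / 1728) = (W.Δ : ℚbar) := by
    rw [← (modQ W).c_relation, WeierstrassCurve.map_Δ]
    simp
  obtain ⟨ζ, hζ⟩ := Fermat.CFT.exists_primitiveRoot_qbar (q := 5)
  obtain ⟨v, hv4, hv6⟩ := (Five.fam5 hζ).exists_value _ _ (Fam.pow_ne hab)
  have hv : (Five.fam5 hζ).Over (modQ W).c₄ (modQ W).c₆ v := Prod.ext hv4 hv6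
  obtain ⟨w₀, hw₀, hind₀⟩ := (Five.fam5 hζ).exists_twisted_indep hab hv
  obtain ⟨w, hw, hind, t, c₀, lam, L, hD⟩ := Five.exists_cuspData h hζ hab
    (by rw [(algebraMap_modQ_c W).1]; exact is_intCast h h4)
    (by rw [hd]
        exact (ge_intCast_of_dvd (L := ℚbar) h (k := 1) (by simpa using hbad)).gt (by norm_num))
    hv hw₀ hind₀
  obtain ⟨y, γ, ρ, G, hG, hγI, hρ, h4u, h6u, hdisc, hfix⟩ := exists_line_point h hab hv hw hD
  have hDI : Is A 3 (γ ^ 3 * ρ) ((3 * G : ℕ) : ℚ) := by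
    have hρI : Is A 3 ρ 0 := by
      simpa using (show Is A 3 (1 : ℚbar) 0 from ⟨one_ne_zero, ord_one h⟩).add h
        (hρ.gt (by norm_num))
    simpa using (hγI.pow h 3).mul h hρI
  obtain ⟨V, hVΔ, hVb, hnC, hnB, hVd⟩ := exists_curve_near h h4u h6u
    (fun σ hσ => (hfix σ hσ).2.2) (K := 3 * G + 3 + 6) (by omega) hDI hdisc
  refine ⟨V, 3 * G + 3, by omega, hVΔ, hVb,
    ⟨ζ, hζ, v, w, hv, hw, hind, y.1, y.2.1, y.2.2, fun σ hσ => (hfix σ hσ).2.1, hnC, hnB⟩,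
    fun W' n hn hc => cubeAt_of_near h hγI (fun σ hσ => (hfix σ hσ).1) hρ le_rfl
      (hVd.mono (by push_cast; linarith)) hn hc⟩

end Fermat.SW
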