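import Fermat.Agent.SW.Near5

/-!
# The cusp closest to a multiplicative parameter is rational over the decomposition field

The main result is `exists_cuspData`, with the data `CuspData`.
-/

set_option autoImplicit false

noncomputable section

open WeierstrassCurve.Affine Fermat.EC.Val
open scoped WeierstrassCurve.Affine

namespace Fermat.SW

local notation "ℚbar" => AlgebraicClosure ℚ
local notation "Γℚ" => (AlgebraicClosure ℚ ≃ₐ[ℚ] AlgebraicClosure ℚ)

variable {A : ValuationSubring ℚbar} {q : ℕ}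

/-- An element fixed by the decomposition group has integral order. -/
lemma int_ord_of_fixed (h : IsPlace A q) {x : ℚbar} (hx : x ≠ 0)
    (hfix : ∀ σ ∈ A.decompositionSubgroup ℚ, σ x = x) : ∃ k : ℤ, Is A q x (k : ℚ) := by
  have := Fact.mk h.1
  obtain ⟨k, hk⟩ := Fermat.FLAT.exists_int_ord h hx
    fun ι hι => hfix ι (Fermat.FLAT.inertia_le_decomposition A hι)
  exact ⟨k, hx, hk⟩

namespace Five

/-- The data of the closest cusp. -/
structure CuspData (A : ValuationSubring ℚbar) (ζ : ℚbar) (hζ : IsPrimitiveRoot ζ 5)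
    (v w : ℚbar × ℚbar) (t : ℚbar) (c₀ : ℚbar × ℚbar) (lam : ℚbar) (L : ℤ) : Prop where
  /-- `c₀` is a cusp. -/
  mem : c₀ ∈ cusps
  /-- The decomposition group fixes `t`. -/
  fixed : ∀ σ ∈ A.decompositionSubgroup ℚ, σ t = t
  /-- The first coordinate of `v + t w = lam c₀`. -/
  eq1 : v.1 + t * w.1 = lam * c₀.1
  /-- The second coordinate of `v + t w = lam c₀`. -/
  eq2 : v.2 + t * w.2 = lam * c₀.2
  /-- `lam` has order `L`. -/
  ord_lam : Is A 3 lam (L : ℚ)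
  /-- `crs v c₀` is nonzero. -/
  ne : crs v c₀ ≠ 0

/-- The form `F12` is nonzero and small at a parameter of multiplicative reduction. -/
private lemma F12_ne_and_gt (h : IsPlace A 3) {ζ : ℚbar} {hζ : IsPrimitiveRoot ζ 5} {a b : ℚ}
    (hab : a ^ 3 ≠ b ^ 2) (hF : Gt A 3 (algebraMap ℚ ℚbar ((a ^ 3 - b ^ 2) / 1728)) 0)
    {v : ℚbar × ℚbar} (hv : (fam5 hζ).Over a b v) : F12 v ≠ 0 ∧ Gt A 3 (F12 v) 0 := by
  have e4 : C4 v = algebraMap ℚ ℚbar a := congrArg Prod.fst hv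
  have e6 : C6 v = algebraMap ℚ ℚbar b := congrArg Prod.snd hv
  have hF5 : F12 v ^ 5 = -algebraMap ℚ ℚbar ((a ^ 3 - b ^ 2) / 1728) := by
    have := disc_eq v
    rw [e4, e6, ← map_pow, ← map_pow, ← map_sub] at this
    rw [map_div₀, map_ofNat, this]; ring
  have hFne : F12 v ≠ 0 := fun e => by
    rw [e] at hF5
    have : ((a ^ 3 - b ^ 2) / 1728 : ℚ) = 0 :=
      (_root_.map_eq_zero (algebraMap ℚ ℚbar)).mp (neg_eq_zero.mp (hF5.symm.trans (by norm_num)))
    exact hab (sub_eq_zero.mp ((div_eq_zero_iff.mp this).resolve_right (by norm_num)))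
  refine ⟨hFne, ?_⟩
  by_contra hne
  have hI := is_ord (A := A) (q := 3) hFne
  rw [Gt, not_or, not_lt] at hne
  have := hI.pow h 5
  rw [hF5] at this
  rcases hF.neg h with e | e
  · exact this.1 e
  · rw [this.2] at e; push_cast at e; linarith [hne.2]

/-- Some translate of `w₀` by a multiple of `v` avoids all cusps. -/
private lemma exists_translate_off_cusps {v w₀ : ℚbar × ℚbar} (hne : ∀ c ∈ cusps, crs v c ≠ 0) :
    ∃ k : ℕ, ∀ c ∈ cusps, crs (w₀.1 + k * v.1, w₀.2 + k * v.2) c ≠ 0 := by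
  classical
  obtain ⟨k, hk⟩ := Infinite.exists_notMem_finset
    ((cusps.image fun c => -crs w₀ c / crs v c).preimage (fun k : ℕ => (k : ℚbar))
      Nat.cast_injective.injOn)
  refine ⟨k, fun c hc e => hk ?_⟩
  rw [Finset.mem_preimage, Finset.mem_image]
  refine ⟨c, hc, ?_⟩
  rw [eq_comm, eq_div_iff (hne c hc)]
  simp only [crs] at e ⊢
  linear_combination e

/-- The parameter at which the line through `v` in the direction `w` meets the cusp `c`. -/
private lemma line_meets_cusp (v : ℚbar × ℚbar) {w c : ℚbar × ℚbar} (hk : crs w c ≠ 0) :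
    v.1 + -crs v c / crs w c * w.1 = -(v.1 * w.2 - v.2 * w.1) / crs w c * c.1 ∧
      v.2 + -crs v c / crs w c * w.2 = -(v.1 * w.2 - v.2 * w.1) / crs w c * c.2 := by
  constructor <;>
  · field_simp
    simp only [crs]
    ring

/-- The order of the invariant `t ^ 20 / C4 (v + t * w)` of the parameter of a cusp. -/
private lemma is_cusp_invariant (h : IsPlace A 3) {v w c : ℚbar × ℚbar} (hc : c ∈ cusps)
    (hk : crs w c ≠ 0) (hvc : crs v c ≠ 0) (hD0 : v.1 * w.2 - v.2 * w.1 ≠ 0) :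
    Is A 3 ((-crs v c / crs w c) ^ 20 /
        C4 (v.1 + -crs v c / crs w c * w.1, v.2 + -crs v c / crs w c * w.2))
      (20 * (ord A 3 (crs v c) - ord A 3 (v.1 * w.2 - v.2 * w.1))) := by
  obtain ⟨l1, l2⟩ := line_meets_cusp v hk
  set D := v.1 * w.2 - v.2 * w.1
  have e : (-crs v c / crs w c) ^ 20 /
      C4 (v.1 + -crs v c / crs w c * w.1, v.2 + -crs v c / crs w c * w.2) =
      crs v c ^ 20 / (D ^ 20 * C4 c) := by
    rw [l1, l2, show C4 (-D / crs w c * c.1, -D / crs w c * c.2) = (-D / crs w c) ^ 20 * C4 c by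
      simp only [C4]; ring]
    field_simp
  rw [e]
  have := ((is_ord (A := A) (q := 3) hvc).pow h 20).div h
    (((is_ord (A := A) (q := 3) hD0).pow h 20).mul h (is_C4_cusp h hc))
  convert this using 1
  push_cast; ring

/-- Galois moves a point of the line through `v` in a twisted direction as it moves `v`. -/
private lemma map_line_point {σ : Γℚ} {g : Matrix (Fin 2) (Fin 2) ℚbar} {v w : ℚbar × ℚbar}
    (hcv : Prod.map σ σ v = act g v) (hcw : Prod.map σ σ w = act g w) (t : ℚbar) :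
    Prod.map σ σ (v.1 + t * w.1, v.2 + t * w.2) = act g (v.1 + σ t * w.1, v.2 + σ t * w.2) := by
  simp only [Prod.map, act, Prod.mk.injEq, Algebra.algebraMap_self, RingHom.id_apply] at hcv hcw ⊢
  simp only [map_add, map_mul, hcv.1, hcv.2, hcw.1, hcw.2]
  constructor <;> ring

/-- Galois permutes the parameters of the cusps. -/
private lemma exists_cusp_parameter_image {ζ : ℚbar} {hζ : IsPrimitiveRoot ζ 5} {σ : Γℚ}
    {g : Matrix (Fin 2) (Fin 2) ℚbar} (hg : (fam5 hζ).Pres g) {v w c : ℚbar × ℚbar}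
    (hcv : Prod.map σ σ v = act g v) (hcw : Prod.map σ σ w = act g w) (hc : c ∈ cusps)
    (hk : ∀ c ∈ cusps, crs w c ≠ 0) :
    ∃ c' ∈ cusps, σ (-crs v c / crs w c) = -crs v c' / crs w c' ∧
      C4 (v.1 + σ (-crs v c / crs w c) * w.1, v.2 + σ (-crs v c / crs w c) * w.2) =
        σ (C4 (v.1 + -crs v c / crs w c * w.1, v.2 + -crs v c / crs w c * w.2)) := by
  obtain ⟨l1, l2⟩ := line_meets_cusp v (hk c hc)
  set t := -crs v c / crs w c with ht
  set u := (v.1 + t * w.1, v.2 + t * w.2) with hu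
  set u' := (v.1 + σ t * w.1, v.2 + σ t * w.2) with hu'
  have hmap : Prod.map σ σ u = act g u' := map_line_point hcv hcw t
  have hC4 : C4 u' = σ (C4 u) := by
    rw [show σ (C4 u) = C4 (Prod.map σ σ u) from formC4.natural σ.toRingEquiv.toRingHom u, hmap]
    exact ((hg u').1).symm
  have hC6 : C6 u' = σ (C6 u) := by
    rw [show σ (C6 u) = C6 (Prod.map σ σ u) from formC6.natural σ.toRingEquiv.toRingHom u, hmap]
    exact ((hg u').2).symm
  have hu0 : F12 u = 0 := by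
    rw [F12_eq_prod]
    refine Finset.prod_eq_zero hc ?_
    simp only [hu, crs, l1, l2]; ring
  have hu'0 : F12 u' = 0 := by
    have h5 := disc_eq u'
    rw [hC4, hC6, ← map_pow, ← map_pow, ← map_sub, disc_eq u, hu0] at h5
    simpa using h5.symm
  rw [F12_eq_prod, Finset.prod_eq_zero_iff] at hu'0
  obtain ⟨c', hc', he⟩ := hu'0
  refine ⟨c', hc', ?_, hC4⟩
  rw [eq_div_iff (hk c' hc')]
  simp only [hu', crs] at he ⊢
  linear_combination he

/-- The parameter of the closest cusp is fixed by the decomposition group. -/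
private lemma cusp_parameter_fixed (h : IsPlace A 3) {ζ : ℚbar} {hζ : IsPrimitiveRoot ζ 5}
    {a b : ℚ} (hab : a ^ 3 ≠ b ^ 2) {v w c₀ : ℚbar × ℚbar} (hv : (fam5 hζ).Over a b v)
    (hw : (fam5 hζ).Twisted v w) (hD0 : v.1 * w.2 - v.2 * w.1 ≠ 0)
    (hk : ∀ c ∈ cusps, crs w c ≠ 0) (hne : ∀ c ∈ cusps, crs v c ≠ 0) (hc₀ : c₀ ∈ cusps)
    (hnear : Gt A 3 (crs v c₀) 0) (hfar : ∀ c ∈ cusps, c ≠ c₀ → Is A 3 (crs v c) 0)
    {σ : Γℚ} (hσ : σ ∈ A.decompositionSubgroup ℚ) :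
    σ (-crs v c₀ / crs w c₀) = -crs v c₀ / crs w c₀ := by
  obtain ⟨hg, hcv⟩ := (fam5 hζ).coc_spec hab hv σ
  obtain ⟨c', hc', hT', hC4⟩ := exists_cusp_parameter_image hg hcv (hw σ _ hg hcv) hc₀ hk
  rw [hT']
  by_cases e : c' = c₀
  · rw [e]
  exfalso
  have o := (is_cusp_invariant h hc' (hk c' hc') (hne c' hc') hD0).2
  rw [← hT', hC4, ← map_pow, ← map_div₀, FLAT.ord_apply_decomp h hσ,
    (is_cusp_invariant h hc₀ (hk c₀ hc₀) (hne c₀ hc₀) hD0).2] at o
  rcases hnear with g0 | g0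
  · exact hne c₀ hc₀ g0
  · rw [(hfar c' hc' e).2] at o
    linarith

/-- The scalar of the closest cusp has integral order. -/
private lemma exists_int_ord_scalar (h : IsPlace A 3) {ζ : ℚbar} {hζ : IsPrimitiveRoot ζ 5}
    {a b : ℚ} (hab : a ^ 3 ≠ b ^ 2) {v w c₀ : ℚbar × ℚbar} (hv : (fam5 hζ).Over a b v)
    (hw : (fam5 hζ).Twisted v w) {t lam α : ℚbar} (hc₀ : c₀ ∈ cusps)
    (hfix : ∀ σ ∈ A.decompositionSubgroup ℚ, σ t = t) (l1 : v.1 + t * w.1 = lam * c₀.1)
    (l2 : v.2 + t * w.2 = lam * c₀.2) (hlam0 : lam ≠ 0) (hα : Is A 3 α 0)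
    (ea : Gt A 3 (v.1 - α * c₀.1) 0) (eb : Gt A 3 (v.2 - α * c₀.2) 0) :
    ∃ L : ℤ, Is A 3 lam (L : ℚ) := by
  set u₀ := (v.1 + t * w.1, v.2 + t * w.2) with hu₀
  have hu₀e : u₀ = (lam * c₀.1, lam * c₀.2) := Prod.ext l1 l2
  have hs : ∀ σ ∈ A.decompositionSubgroup ℚ, σ (C4 u₀) = C4 u₀ ∧ σ (pol u₀ v) = pol u₀ v := by
    intro σ hσ
    obtain ⟨hg, hcv⟩ := (fam5 hζ).coc_spec hab hv σ
    have hmap := map_line_point hcv (hw σ _ hg hcv) t
    rw [hfix σ hσ, ← hu₀] at hmap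
    constructor
    · rw [show σ (C4 u₀) = C4 (Prod.map σ σ u₀) from formC4.natural σ.toRingEquiv.toRingHom u₀,
        hmap]
      exact (hg u₀).1
    · rw [pol_natural, hmap, hcv, pol_invariant hζ hg]
  have hlI := is_ord (A := A) (q := 3) hlam0
  set o := ord A 3 lam
  have i4 : Is A 3 (C4 u₀) (20 * o) := by
    rw [hu₀e, show C4 (lam * c₀.1, lam * c₀.2) = lam ^ 20 * C4 c₀ by simp only [C4]; ring]
    simpa using (hlI.pow h 20).mul h (is_C4_cusp h hc₀)
  have ip : Is A 3 (pol u₀ v) (19 * o) := by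
    rw [hu₀e, pol_smul]
    simpa using (hlI.pow h 19).mul h (is_pol h hc₀ hα ea eb)
  obtain ⟨k1, hk1⟩ := int_ord_of_fixed h i4.1 (fun σ hσ => (hs σ hσ).1)
  obtain ⟨k2, hk2⟩ := int_ord_of_fixed h ip.1 (fun σ hσ => (hs σ hσ).2)
  have u1 := i4.unique hk1
  have u2 := ip.unique hk2
  refine ⟨k1 - k2, hlam0, ?_⟩
  push_cast; linarith

/-- **The closest cusp is fixed.** Near the multiplicative point some twisted parameter has data
(`CuspData`) at its closest cusp. -/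
theorem exists_cuspData (h : IsPlace A 3) {ζ : ℚbar} (hζ : IsPrimitiveRoot ζ 5) {a b : ℚ}
    (hab : a ^ 3 ≠ b ^ 2) (h4 : Is A 3 (algebraMap ℚ ℚbar a) 0)
    (hF : Gt A 3 (algebraMap ℚ ℚbar ((a ^ 3 - b ^ 2) / 1728)) 0) {v w₀ : ℚbar × ℚbar}
    (hv : (fam5 hζ).Over a b v) (hw₀ : (fam5 hζ).Twisted v w₀)
    (hind₀ : w₀.1 * v.2 - w₀.2 * v.1 ≠ 0) :
    ∃ (w : ℚbar × ℚbar), (fam5 hζ).Twisted v w ∧ w.1 * v.2 - w.2 * v.1 ≠ 0 ∧
      ∃ t c₀ lam L, CuspData A ζ hζ v w t c₀ lam L := by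
  obtain ⟨hFne, hFg⟩ := F12_ne_and_gt h hab hF hv
  obtain ⟨m1, m2, c₀, hc₀, hnear, hfar, α, hα, ea, eb⟩ :=
    exists_near h (by rw [show C4 v = algebraMap ℚ ℚbar a from congrArg Prod.fst hv]; exact h4) hFg
  have hne : ∀ c ∈ cusps, crs v c ≠ 0 := fun c hc e =>
    hFne (by rw [F12_eq_prod]; exact Finset.prod_eq_zero hc e)
  obtain ⟨k, hk⟩ := exists_translate_off_cusps (w₀ := w₀) hne
  set w : ℚbar × ℚbar := (w₀.1 + k * v.1, w₀.2 + k * v.2) with hwdef
  have hw : (fam5 hζ).Twisted v w := by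
    have := (fam5 hζ).twisted_lin hw₀ ((fam5 hζ).twisted_self v) 1 (k : ℚ)
    simpa [hwdef] using this
  have hind : w.1 * v.2 - w.2 * v.1 ≠ 0 := by
    simp only [hwdef]; intro e; exact hind₀ (by linear_combination e)
  have hD0 : v.1 * w.2 - v.2 * w.1 ≠ 0 := fun e => hind (by linear_combination -e)
  have hfix := fun σ (hσ : σ ∈ A.decompositionSubgroup ℚ) =>
    cusp_parameter_fixed h hab hv hw hD0 hk hne hc₀ hnear hfar hσ
  obtain ⟨l1, l2⟩ := line_meets_cusp v (hk c₀ hc₀)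
  obtain ⟨L, hL⟩ := exists_int_ord_scalar h hab hv hw hc₀ hfix l1 l2
    (div_ne_zero (neg_ne_zero.mpr hD0) (hk c₀ hc₀)) hα ea eb
  exact ⟨w, hw, hind, _, c₀, _, L, hc₀, hfix, l1, l2, hL, hne c₀ hc₀⟩

end Five

end Fermat.SW
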