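import Fermat.Agent.SW.Targets

/-!
# The cusps of the family of level five

The cusps are `cusps`, and `F12_eq_prod` writes the form as the product over them.
-/

set_option autoImplicit false

noncomputable section

open Fermat.EC.Val Polynomial

namespace Fermat.SW.Five

local notation "ℚbar" => AlgebraicClosure ℚ

/-- The cross product. -/
def crs (u c : ℚbar × ℚbar) : ℚbar := u.1 * c.2 - u.2 * c.1

/-- The polynomial `F12 (X, 1)`, monic up to sign. -/
def cuspPoly : Polynomial ℚbar := X ^ 11 - C 11 * X ^ 6 - X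

/-- The cusp polynomial is monic. -/
lemma cuspPoly_monic : cuspPoly.Monic := by
  unfold cuspPoly
  monicity!

/-- The cusp polynomial has degree `11`. -/
lemma cuspPoly_natDegree : cuspPoly.natDegree = 11 := by
  unfold cuspPoly
  compute_degree!

open Classical in
/-- The twelve cusps. -/
def cusps : Finset (ℚbar × ℚbar) :=
  insert ((1 : ℚbar), (0 : ℚbar)) (cuspPoly.roots.toFinset.image fun r => (r, (1 : ℚbar)))

/-- A cusp is `(1, 0)` or `(r, 1)` for a root `r` of the cusp polynomial. -/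
lemma mem_cusps {c : ℚbar × ℚbar} : c ∈ cusps ↔
    c = (1, 0) ∨ ∃ r, r ^ 11 - 11 * r ^ 6 - r = 0 ∧ c = (r, 1) := by
  classical
  simp only [cusps, Finset.mem_insert, Finset.mem_image, Multiset.mem_toFinset,
    mem_roots cuspPoly_monic.ne_zero]
  refine or_congr Iff.rfl ⟨fun ⟨r, hr, e⟩ => ⟨r, ?_, e.symm⟩, fun ⟨r, hr, e⟩ => ⟨r, ?_, e.symm⟩⟩
  · simpa [cuspPoly] using hr
  · simpa [cuspPoly] using hr

/-- The cusp polynomial has simple roots. -/
lemma cuspPoly_squarefree (r : ℚbar) : cuspPoly.eval r = 0 → (derivative cuspPoly).eval r ≠ 0 := by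
  intro h h'
  simp [cuspPoly] at h h'
  by_cases hr : r = 0
  · rw [hr] at h'; norm_num at h'
  have h1 : r ^ 10 - 11 * r ^ 5 - 1 = 0 :=
    (mul_eq_zero.mp
      (show r * (r ^ 10 - 11 * r ^ 5 - 1) = 0 by linear_combination h)).resolve_left hr
  have h2 : r ^ 5 = -2 / 11 := by linear_combination (h' - 11 * h1) / 55
  have : r ^ 10 = (-2 / 11) ^ 2 := by rw [← h2]; ring
  rw [this, h2] at h1
  norm_num at h1

/-- The roots of the cusp polynomial are distinct. -/
lemma roots_nodup : cuspPoly.roots.Nodup := by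
  classical
  rw [Multiset.nodup_iff_count_le_one]
  intro r
  rw [count_roots]
  by_contra hc
  push Not at hc
  have := (one_lt_rootMultiplicity_iff_isRoot cuspPoly_monic.ne_zero).mp hc
  exact cuspPoly_squarefree r this.1 this.2

/-- **The product over the cusps.** The form `F12` is the product of the linear forms of the
cusps. -/
theorem F12_eq_prod (u : ℚbar × ℚbar) : F12 u = ∏ c ∈ cusps, crs u c := by
  classical
  have hnot : ((1 : ℚbar), (0 : ℚbar)) ∉ cuspPoly.roots.toFinset.image (fun r =>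
      (r, (1 : ℚbar))) := by
    simp
  have hinj : Set.InjOn (fun r : ℚbar => (r, (1 : ℚbar))) cuspPoly.roots.toFinset :=
      fun a _ b _ e =>
    congrArg Prod.fst e
  rw [cusps, Finset.prod_insert hnot, Finset.prod_image hinj]
  simp only [crs, mul_one, mul_zero, zero_sub]
  rw [show (cuspPoly.roots.toFinset).prod (fun r => u.1 - u.2 * r) =
    (cuspPoly.roots.map fun r => u.1 - u.2 * r).prod by
      rw [Finset.prod, Multiset.toFinset_val, Multiset.dedup_eq_self.mpr roots_nodup]]
  have hs : cuspPoly.Splits := IsAlgClosed.splits _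
  have hev := hs.eval_eq_prod_roots_of_monic cuspPoly_monic
  by_cases h2 : u.2 = 0
  · simp [F12, h2]
  have hcard : cuspPoly.roots.card = 11 := by rw [← hs.natDegree_eq_card_roots, cuspPoly_natDegree]
  have : (cuspPoly.roots.map fun r => u.1 - u.2 * r).prod =
      u.2 ^ 11 * (cuspPoly.roots.map fun r => u.1 / u.2 - r).prod := by
    rw [show (cuspPoly.roots.map fun r => u.1 - u.2 * r) =
      cuspPoly.roots.map fun r => u.2 * (u.1 / u.2 - r) from
        Multiset.map_congr rfl fun r _ => by field_simp,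
      Multiset.prod_map_mul, Multiset.map_const', Multiset.prod_replicate, hcard]
  rw [this, ← hev (u.1 / u.2)]
  simp [cuspPoly, F12, div_pow]
  field_simp
  ring

variable {A : ValuationSubring ℚbar} (h : IsPlace A 3)

include h

/-- A nonzero root `r` of the cusp polynomial has `r¹⁰ = 11 r⁵ + 1` and is a unit at `3`. -/
lemma root_facts {r : ℚbar} (hr : r ^ 11 - 11 * r ^ 6 - r = 0) (hr0 : r ≠ 0) :
    (r ^ 5) ^ 2 = 11 * r ^ 5 + 1 ∧ Is A 3 r 0 := by
  have h1 : r ^ 10 - 11 * r ^ 5 - 1 = 0 :=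
    (mul_eq_zero.mp
      (show r * (r ^ 10 - 11 * r ^ 5 - 1) = 0 by linear_combination hr)).resolve_left hr0
  refine ⟨by linear_combination h1, hr0, ?_⟩
  have hy0 : r ^ 5 ≠ 0 := pow_ne_zero _ hr0
  have hyI : Is A 3 (r ^ 5) (ord A 3 (r ^ 5)) := is_ord hy0
  set o := ord A 3 (r ^ 5) with ho
  have h11 : Is A 3 (11 : ℚbar) 0 := by simpa using is_natCast h (a := 11) (by norm_num)
  have hle : 0 ≤ o := by
    by_contra hneg
    push Not at hneg
    have hd : Is A 3 (r ^ 5 * r ^ 5) (o + o) := hyI.mul h hyI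
    have hlt : Gt A 3 (-(11 * r ^ 5 + 1)) (o + o) := by
      refine Gt.neg h (Gt.add h ?_ ?_)
      · simpa using (h11.ge.mul h hyI.ge).gt (show o + o < 0 + o by linarith)
      · exact (show Ge A 3 (1 : ℚbar) 0 from Or.inr (by rw [ord_one h])).gt (by linarith)
    have := hd.add h hlt
    rw [show r ^ 5 * r ^ 5 + -(11 * r ^ 5 + 1) = 0 by linear_combination h1] at this
    exact this.1 rfl
  have hle' : o ≤ 0 := by
    by_contra hpos
    push Not at hpos
    have hg : Gt A 3 (r ^ 5 * r ^ 5 - 11 * r ^ 5) 0 := by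
      refine Gt.sub h ((hyI.mul h hyI).gt (by linarith)) ((h11.mul h hyI).gt (by linarith))
    rw [show r ^ 5 * r ^ 5 - 11 * r ^ 5 = 1 by linear_combination h1] at hg
    exact (show Is A 3 (1 : ℚbar) 0 from ⟨one_ne_zero, ord_one h⟩).not_gt hg
  have hp := ord_pow h r 5
  rw [← ho, le_antisymm hle' hle] at hp
  push_cast at hp
  linarith

/-- The coordinates of the cusps are integral at the place. -/
lemma cusp_mem {c : ℚbar × ℚbar} (hc : c ∈ cusps) : c.1 ∈ A ∧ c.2 ∈ A := by
  rcases mem_cusps.mp hc with rfl | ⟨r, hr, rfl⟩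
  · exact ⟨one_mem _, zero_mem _⟩
  · refine ⟨?_, one_mem _⟩
    rcases eq_or_ne r 0 with rfl | hr0
    · exact zero_mem _
    · exact (mem_iff_ge h _).mpr (root_facts h hr hr0).2.ge

/-- `C4` is a unit at every cusp. -/
lemma is_C4_cusp {c : ℚbar × ℚbar} (hc : c ∈ cusps) : Is A 3 (C4 c) 0 := by
  rcases mem_cusps.mp hc with rfl | ⟨r, hr, rfl⟩
  · simp [C4]; exact ⟨one_ne_zero, ord_one h⟩
  · rcases eq_or_ne r 0 with rfl | hr0
    · simp [C4]; exact ⟨one_ne_zero, ord_one h⟩
    · obtain ⟨hy, hI⟩ := root_facts h hr hr0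
      have e : C4 (r, (1 : ℚbar)) = (3125 : ℕ) * (r ^ 5) ^ 2 := by
        simp only [C4]
        linear_combination ((r ^ 5) ^ 2 + 239 * r ^ 5 + 3124) * hy - 3125 * hy + 0 * hr
      rw [e]
      have := (is_natCast h (a := 3125) (by norm_num)).mul h ((hI.pow h 5).pow h 2)
      simpa using this

/-- The cross products of distinct cusps are units at three. -/
lemma crs_ne_gt {c c' : ℚbar × ℚbar} (hc : c ∈ cusps) (hc' : c' ∈ cusps) (hne : c ≠ c') :
    Is A 3 (crs c c') 0 := by
  have h1 : Is A 3 (1 : ℚbar) 0 := ⟨one_ne_zero, ord_one h⟩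
  rcases mem_cusps.mp hc with rfl | ⟨r, hr, rfl⟩ <;>
    rcases mem_cusps.mp hc' with rfl | ⟨r', hr', rfl⟩
  · exact absurd rfl hne
  · simpa [crs] using h1
  · simpa [crs] using h1.neg h
  · have hrr : r ≠ r' := fun e => hne (by rw [e])
    simp only [crs, mul_one, one_mul]
    rcases eq_or_ne r 0 with rfl | hr0
    · simpa using (root_facts h hr' hrr.symm).2.neg h
    rcases eq_or_ne r' 0 with rfl | hr0'
    · simpa using (root_facts h hr hr0).2
    obtain ⟨hy, hI⟩ := root_facts h hr hr0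
    obtain ⟨hy', hI'⟩ := root_facts h hr' hr0'
    -- Two nonzero roots congruent at three would give a contradiction:
    refine (hI.ge.sub h hI'.ge).is_of_not_gt fun hg => ?_
    by_cases hyy : r ^ 5 = r' ^ 5
    -- if their fifth powers agree, their ratio is a root of unity `≡ 1`, so `5 ≡ 0`;
    · set z := r / r' with hz
      have hz1 : z ^ 5 = 1 := by rw [hz, div_pow, hyy, div_self (pow_ne_zero _ hr0')]
      have hzne : z ≠ 1 := fun e => hrr ((div_eq_one_iff_eq hr0').mp e)
      have hzI : Is A 3 z 0 := by simpa using hI.div h hI'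
      have hzg : Gt A 3 (z - 1) 0 := by
        rw [hz, div_sub_one hr0']; simpa using hg.div h hI'
      have hs : z ^ 4 + z ^ 3 + z ^ 2 + z + 1 = 0 :=
        (mul_eq_zero.mp (show (z - 1) * (z ^ 4 + z ^ 3 + z ^ 2 + z + 1) = 0 by
          linear_combination hz1)).resolve_left (sub_ne_zero.mpr hzne)
      have hp := Fermat.EC.Cyclo.gt_pow_sub_one h hzI.ge hzg
      have : Gt A 3 (((5 : ℕ) : ℚbar)) 0 := by
        rw [show ((5 : ℕ) : ℚbar) = -((z ^ 4 - 1) + (z ^ 3 - 1) + (z ^ 2 - 1) + (z ^ 1 - 1)) by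
          push_cast; linear_combination hs]
        exact ((((hp 4).add h (hp 3)).add h (hp 2)).add h (hp 1)).neg h
      exact (is_natCast h (a := 5) (by norm_num)).not_gt this
    -- otherwise `125`, the discriminant of the quadratic in `r ^ 5`, would not be a unit.
    · have hs : r ^ 5 + r' ^ 5 = 11 :=
        mul_left_cancel₀ (sub_ne_zero.mpr hyy) (by linear_combination hy - hy')
      have e : (r ^ 5 - r' ^ 5) ^ 2 = ((125 : ℕ) : ℚbar) := by
        push_cast
        linear_combination 2 * hy + 2 * hy' - (r ^ 5 + r' ^ 5 - 11) * hs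
      have hd : Gt A 3 (r ^ 5 - r' ^ 5) 0 := by
        rw [show r ^ 5 - r' ^ 5 = (r - r') * (r ^ 4 + r ^ 3 * r' + r ^ 2 * r' ^ 2 + r * r' ^ 3 +
          r' ^ 4) by ring]
        have a := (mem_iff_ge h r).mpr hI.ge
        have b := (mem_iff_ge h r').mpr hI'.ge
        simpa using hg.mul_ge h ((mem_iff_ge h _).mp
          (add_mem (add_mem (add_mem (add_mem (pow_mem a 4)
          (mul_mem (pow_mem a 3) b)) (mul_mem (pow_mem a 2) (pow_mem b 2)))
          (mul_mem a (pow_mem b 3))) (pow_mem b 4)))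
      refine (is_natCast h (a := 125) (by norm_num)).not_gt ?_
      rw [← e, pow_two]
      simpa using hd.mul_ge h hd.ge

/-- A form with integral coefficients at congruent points. -/
lemma form_congr (G : Form) {u u' : ℚbar × ℚbar} (h1 : u.1 ∈ A) (h2 : u.2 ∈ A) (h1' : u'.1 ∈ A)
    (h2' : u'.2 ∈ A) (d1 : Gt A 3 (u.1 - u'.1) 0) (d2 : Gt A 3 (u.2 - u'.2) 0) :
    G.toFun u ∈ A ∧ Gt A 3 (G.toFun u - G.toFun u') 0 := by
  set a : A × A := (⟨u.1, h1⟩, ⟨u.2, h2⟩) with ha
  set a' : A × A := (⟨u'.1, h1'⟩, ⟨u'.2, h2'⟩) with ha'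
  have e : ∀ b : A × A, G.toFun (Prod.map A.subtype A.subtype b) = ((G.toFun b : A) : ℚbar) :=
    fun b => (G.natural A.subtype b).symm
  have eu : G.toFun u = ((G.toFun a : A) : ℚbar) := e a
  have eu' : G.toFun u' = ((G.toFun a' : A) : ℚbar) := e a'
  refine ⟨eu ▸ (G.toFun a).2, ?_⟩
  rw [eu, eu', ← nonunit_iff_gt h, ← AddSubgroupClass.coe_sub,
    ValuationSubring.coe_mem_nonunits_iff]
  rw [← IsLocalRing.residue_eq_zero_iff, map_sub, sub_eq_zero, G.natural, G.natural]
  congr 1
  have k : ∀ x y : A, Gt A 3 ((x : ℚbar) - y) 0 →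
      IsLocalRing.residue A x = IsLocalRing.residue A y := fun x y hxy => by
    rw [← sub_eq_zero, ← map_sub, IsLocalRing.residue_eq_zero_iff,
      ← ValuationSubring.coe_mem_nonunits_iff, nonunit_iff_gt h]
    simpa using hxy
  exact Prod.ext (k _ _ d1) (k _ _ d2)

end Fermat.SW.Five
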