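import Fermat.Agent.SW.Models
import Fermat.Agent.FLAT.LocalGroup
import Fermat.Agent.CFT.Density.InertiaLift

/-!
# The decomposition group acts through Frobenius on unramified torsion

The main results are `exists_pow_eq_of_decomp` and `exists_pow_smul_eq`.
-/

set_option autoImplicit false

noncomputable section

open WeierstrassCurve WeierstrassCurve.Affine Fermat.EC.Val Fermat.CFT
open scoped WeierstrassCurve.Affine Pointwise

namespace Fermat.SW

local notation "ℚbar" => AlgebraicClosure ℚ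
local notation "Γℚ" => (AlgebraicClosure ℚ ≃ₐ[ℚ] AlgebraicClosure ℚ)

variable {A : ValuationSubring ℚbar} {q : ℕ}

/-- On numbers fixed by inertia the decomposition group acts by powers of Frobenius. -/
theorem exists_pow_eq_of_decomp (h : IsPlace A q) {σ τ : Γℚ} (hσ : A.IsFrobeniusAt σ q)
    (hτ : τ ∈ A.decompositionSubgroup ℚ) (S : Finset ℚbar)
    (hS : ∀ x ∈ S, ∀ ι ∈ A.inertiaSubgroupIn ℚ, ι x = x) :
    ∃ k : ℕ, ∀ x ∈ S, τ x = (σ ^ k) x := by
  classical
  set F : IntermediateField ℚ ℚbar := IntermediateField.adjoin ℚ (S : Set ℚbar)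
  have : FiniteDimensional ℚ F := IntermediateField.finiteDimensional_adjoin
    fun x _ => (Algebra.IsAlgebraic.isAlgebraic x).isIntegral
  set L : IntermediateField ℚ ℚbar := IntermediateField.normalClosure ℚ F ℚbar
  have : FiniteDimensional ℚ L := normalClosure.is_finiteDimensional ℚ F ℚbar
  have : Normal ℚ L := normalClosure.normal ℚ F ℚbar
  have hmem : ∀ x ∈ S, x ∈ L := fun x hx =>
    IntermediateField.le_normalClosure F (IntermediateField.subset_adjoin ℚ _ hx)
  have hfix : τ • primeOf A = primeOf A := (mem_decompositionSubgroup_iff h.1 h.2 τ).mp hτ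
  have hg : AlgEquiv.restrictNormalHom L τ • primeBelow L A = primeBelow L A := by
    ext x
    rw [Ideal.mem_pointwise_smul_iff_inv_smul_mem, ← map_inv]
    simp only [primeBelow, Ideal.mem_comap, algebraMap_restrict_smul]
    rw [← Ideal.mem_pointwise_smul_iff_inv_smul_mem, hfix]
  -- on `L`, `τ` is a Frobenius power times inertia
  obtain ⟨k, hk⟩ := (isFrobeniusMod_restrict L h.1 h.2 hσ).exists_pow_mul_inertia h.1
    (primeBelow_isPrime L A) (natCast_mem_primeBelow L h.2) hg
  obtain ⟨ι, hι, hιr⟩ := exists_mem_inertia_restrict h.1 h.2 hk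
  refine ⟨k, fun x hx => ?_⟩
  have e : AlgEquiv.restrictNormalHom L (ι * σ ^ k) = AlgEquiv.restrictNormalHom L τ := by
    rw [map_mul, hιr, map_pow, inv_mul_cancel_right]
  have h1 : τ x = ι ((σ ^ k) x) := by
    have := congrArg (fun g : L ≃ₐ[ℚ] L => ((g ⟨x, hmem x hx⟩ : L) : ℚbar)) e
    simp only [AlgEquiv.restrictNormalHom, MonoidHom.mk'_apply] at this
    have r1 := AlgEquiv.restrictNormal_commutes τ L ⟨x, hmem x hx⟩
    have r2 := AlgEquiv.restrictNormal_commutes (ι * σ ^ k) L ⟨x, hmem x hx⟩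
    exact (r1.symm.trans this.symm).trans r2
  have hD : (σ ^ k : Γℚ) ∈ A.decompositionSubgroup ℚ := pow_mem hσ.1 k
  -- and inertia, also after conjugation, fixes `S`
  have hc : ((σ ^ k)⁻¹ * ι * σ ^ k : Γℚ) ∈ A.inertiaSubgroupIn ℚ := by
    have := Fermat.FLAT.conj_mem_inertia h (inv_mem hD) hι
    rwa [inv_inv] at this
  have h2 := hS x hx _ hc
  rw [AlgEquiv.mul_apply, AlgEquiv.mul_apply, AlgEquiv.aut_inv, AlgEquiv.symm_apply_eq] at h2
  rw [h1, h2]

/-- On unramified torsion the decomposition group acts by powers of Frobenius. -/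
theorem exists_pow_smul_eq (h : IsPlace A q) {σ τ : Γℚ} (hσ : A.IsFrobeniusAt σ q)
    (hτ : τ ∈ A.decompositionSubgroup ℚ) (W V : WeierstrassCurve ℚ) {p : ℕ}
    [Finite (TorW W p)] [Finite (TorW V p)]
    (hW : ∀ ι ∈ A.inertiaSubgroupIn ℚ, ∀ x : TorW W p, ι • x = x)
    (hV : ∀ ι ∈ A.inertiaSubgroupIn ℚ, ∀ x : TorW V p, ι • x = x) :
    ∃ k : ℕ, (∀ x : TorW W p, τ • x = σ ^ k • x) ∧ (∀ x : TorW V p, τ • x = σ ^ k • x) := by
  classical
  have := Fintype.ofFinite (TorW W p)
  have := Fintype.ofFinite (TorW V p)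
  let co : ∀ U : WeierstrassCurve ℚ, ((U.toAffine)⁄ℚbar).Point → Finset ℚbar := fun U P =>
    match P with
    | .zero => ∅
    | .some x y _ => {x, y}
  -- the coordinates of the torsion points
  let S : Finset ℚbar := (Finset.univ.biUnion fun x : TorW W p => co W x.1) ∪
    (Finset.univ.biUnion fun x : TorW V p => co V x.1)
  have hfix : ∀ (U : WeierstrassCurve ℚ) (ι : Γℚ) (P : ((U.toAffine)⁄ℚbar).Point),
      ι • P = P → ∀ z ∈ co U P, ι z = z := by
    intro U ι P hP z hz
    rcases P with _ | ⟨x, y, hns⟩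
    · simp [co] at hz
    · rw [Point.algEquiv_smul_def, Point.map_some, Point.some.injEq] at hP
      simp [co] at hz
      rcases hz with rfl | rfl
      · exact hP.1
      · exact hP.2
  -- on this finite set fixed by inertia `τ` is a power of Frobenius
  obtain ⟨k, hk⟩ := exists_pow_eq_of_decomp h hσ hτ S (by
    intro z hz ι hι
    simp only [S, Finset.mem_union, Finset.mem_biUnion, Finset.mem_univ, true_and] at hz
    rcases hz with ⟨x, hx⟩ | ⟨x, hx⟩
    · exact hfix W ι x.1 (congrArg Subtype.val (hW ι hι x)) z hx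
    · exact hfix V ι x.1 (congrArg Subtype.val (hV ι hι x)) z hx)
  have hap : ∀ (U : WeierstrassCurve ℚ) (P : ((U.toAffine)⁄ℚbar).Point), co U P ⊆ S →
      τ • P = (σ ^ k) • P := by
    intro U P hP
    rcases P with _ | ⟨x, y, hns⟩
    · rfl
    · simp only [Point.algEquiv_smul_def, Point.map_some, Point.some.injEq]
      exact ⟨hk x (hP (by simp [co])), hk y (hP (by simp [co]))⟩
  -- hence also on both torsion groups
  refine ⟨k, fun x => Subtype.ext (hap W x.1 ?_), fun x => Subtype.ext (hap V x.1 ?_)⟩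
  · intro z hz
    exact Finset.mem_union_left _ (Finset.mem_biUnion.mpr ⟨x, Finset.mem_univ _, hz⟩)
  · intro z hz
    exact Finset.mem_union_right _ (Finset.mem_biUnion.mpr ⟨x, Finset.mem_univ _, hz⟩)

end Fermat.SW
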