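import Fermat.Agent.SW.Twist

/-!
# Descent: the twisted plane of parameters

`exists_twisted_indep`: there are two independent parameters moved by Galois as `v` is; the members
of the family over the plane they span have the `p`-torsion of the curve
(`exists_equiv_of_twisted`). `Align`, with `Adapt`, finds local points on it, `ParamGen` global
ones.
-/

set_option autoImplicit false
set_option linter.unusedSectionVars false

open Matrix

namespace Fermat.SW.Fam

local notation "ℚbar" => AlgebraicClosure ℚ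
local notation "Γℚ" => (AlgebraicClosure ℚ ≃ₐ[ℚ] AlgebraicClosure ℚ)

variable {p : ℕ} [hp : Fact p.Prime] (F : Fam ℚbar p)

/-- `w` is moved by Galois exactly as `v` is. -/
def Twisted (v w : ℚbar × ℚbar) : Prop :=
  ∀ (σ : Γℚ) (c : Matrix (Fin 2) (Fin 2) ℚbar), F.Pres c → Prod.map σ σ v = act c v →
    Prod.map σ σ w = act c w

/-- The parameter is twisted by itself. -/
lemma twisted_self (v : ℚbar × ℚbar) : F.Twisted v v := fun _ _ _ h => h

/-- Rational combinations of twisted vectors are twisted. -/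
lemma twisted_lin {v w w' : ℚbar × ℚbar} (h : F.Twisted v w) (h' : F.Twisted v w') (s t : ℚ) :
    F.Twisted v (algebraMap ℚ ℚbar s * w.1 + algebraMap ℚ ℚbar t * w'.1,
      algebraMap ℚ ℚbar s * w.2 + algebraMap ℚ ℚbar t * w'.2) := by
  intro σ c hc hv
  have e := h σ c hc hv
  have e' := h' σ c hc hv
  simp only [Prod.map, act, Prod.mk.injEq, Algebra.algebraMap_self, RingHom.id_apply] at e e' ⊢
  simp only [map_add, map_mul, AlgEquiv.commutes]
  exact ⟨by rw [e.1, e'.1]; ring, by rw [e.2, e'.2]; ring⟩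

section

variable {a b : ℚ} (hab : a ^ 3 ≠ b ^ 2) {v : ℚbar × ℚbar} (hv : F.Over a b v)

/-- The matrix by which `σ` moves `v`. -/
noncomputable def coc (σ : Γℚ) : Matrix (Fin 2) (Fin 2) ℚbar :=
  (F.exists_cocycle hab hv σ).choose

/-- `coc σ` preserves the forms and moves `v` to `σ v`. -/
lemma coc_spec (σ : Γℚ) :
    F.Pres (F.coc hab hv σ) ∧ Prod.map σ σ v = act (F.coc hab hv σ) v :=
  (F.exists_cocycle hab hv σ).choose_spec

/-- A preserving matrix moving `v` to `σ v` is `coc σ`. -/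
lemma coc_eq (σ : Γℚ) {c : Matrix (Fin 2) (Fin 2) ℚbar} (hc : F.Pres c)
    (h : Prod.map σ σ v = act c v) : F.coc hab hv σ = c :=
  pres_eq (F.coc_spec hab hv σ).1 hc (F.reg_of_cval (pow_ne hab) hv)
    ((F.coc_spec hab hv σ).2.symm.trans h)

/-- The cocycle relation for `coc`. -/
lemma coc_mul (σ τ : Γℚ) :
    F.coc hab hv (σ * τ) = matσ σ (F.coc hab hv τ) * F.coc hab hv σ :=
  F.cocycle_mul hab hv (F.coc_spec hab hv σ).1 (F.coc_spec hab hv τ).1
    (F.coc_spec hab hv (σ * τ)).1 (F.coc_spec hab hv σ).2 (F.coc_spec hab hv τ).2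
    (F.coc_spec hab hv (σ * τ)).2

/-- `coc 1 = 1`. -/
lemma coc_one : F.coc hab hv 1 = 1 :=
  F.coc_eq hab hv 1 F.pres_one (by rw [act_one]; rfl)

/-- The inverse of the cocycle matrix at `σ`, as the translate of the one at `σ⁻¹`. -/
noncomputable def icoc (σ : Γℚ) : Matrix (Fin 2) (Fin 2) ℚbar := matσ σ (F.coc hab hv σ⁻¹)

/-- `icoc 1 = 1`. -/
lemma icoc_one : F.icoc hab hv 1 = 1 := by
  rw [icoc, inv_one, coc_one, matσ_one]

/-- Conjugation of matrices is an action. -/
lemma matσ_matσ (σ τ : Γℚ) (g : Matrix (Fin 2) (Fin 2) ℚbar) :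
    matσ σ (matσ τ g) = matσ (σ * τ) g := by
  ext i j; rfl

/-- Conjugation of matrices respects products. -/
lemma matσ_mul (σ : Γℚ) (g h : Matrix (Fin 2) (Fin 2) ℚbar) :
    matσ σ (g * h) = matσ σ g * matσ σ h :=
  Matrix.map_mul

/-- The cocycle relation for `icoc`. -/
lemma matσ_icoc (τ s : Γℚ) :
    matσ τ (F.icoc hab hv s) = F.coc hab hv τ * F.icoc hab hv (τ * s) := by
  have h : F.coc hab hv s⁻¹ = F.coc hab hv ((τ * s)⁻¹ * τ) := by congr 1; group
  rw [icoc, icoc, h, coc_mul, matσ_matσ, matσ_mul, matσ_matσ, mul_inv_cancel]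
  congr 1

/-- `icoc` does not change on composing with an automorphism fixing `v`. -/
lemma icoc_mul_of_fix (σ k : Γℚ) (hk : Prod.map k k v = v) :
    F.icoc hab hv (σ * k) = F.icoc hab hv σ := by
  have hk' : Prod.map (k⁻¹ : Γℚ) (k⁻¹ : Γℚ) v = v := by
    conv_lhs => rw [← hk]
    simp [Prod.map, ← AlgEquiv.mul_apply]
  have h1 : F.coc hab hv k⁻¹ = 1 := F.coc_eq hab hv _ F.pres_one (by rw [hk', act_one])
  rw [icoc, icoc, show (σ * k)⁻¹ = k⁻¹ * σ⁻¹ by group, coc_mul, h1, mul_one, matσ_matσ,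
    mul_inv_cancel_right]

include hab hv in
/-- A parameter over regular invariants is not zero. -/
lemma ne_zero_of_over : v ≠ 0 := by
  intro h0
  have hreg : F.Reg v := F.reg_of_cval (pow_ne hab) hv
  have hι : 0 < Fintype.card F.ι := by
    have h := F.fibre v hreg {v} (by simp)
    simp at h
    omega
  obtain ⟨i⟩ := Fintype.card_pos_iff.mp hι
  have hsub : Subsingleton F.κ := ⟨fun j j' =>
    (F.rt_inj hreg (i := i) (i' := i) (j := j) (j' := j') (by simp [h0, act])).2⟩
  have h1 := Fintype.card_le_one_iff_subsingleton.mpr hsub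
  have h2 := F.card_κ
  have h3 := hp.out.two_le
  nlinarith

include hab hv in
/-- **The twisted plane is two dimensional.** -/
theorem exists_twisted_indep :
    ∃ w : ℚbar × ℚbar, F.Twisted v w ∧ w.1 * v.2 - w.2 * v.1 ≠ 0 := by
  classical
  let L₀ := IntermediateField.adjoin ℚ ({v.1, v.2} : Set ℚbar)
  have : FiniteDimensional ℚ L₀ := IntermediateField.finiteDimensional_adjoin
    fun x _ => (Algebra.IsAlgebraic.isAlgebraic x).isIntegral
  have : Normal ℚ ℚbar := IsGalois.to_normal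
  let L := IntermediateField.normalClosure ℚ L₀ ℚbar
  have : Normal ℚ L := normalClosure.normal ℚ L₀ ℚbar
  have hL₀ : L₀ ≤ L := IntermediateField.le_normalClosure L₀
  have hv1 : v.1 ∈ L := hL₀ (IntermediateField.subset_adjoin ℚ _ (by simp))
  have hv2 : v.2 ∈ L := hL₀ (IntermediateField.subset_adjoin ℚ _ (by simp))
  -- the cocycle factors through the Galois group of a finite normal `L`
  let res : Γℚ →* (L ≃ₐ[ℚ] L) := AlgEquiv.restrictNormalHom L
  have hres : ∀ (σ : Γℚ) (x : L), ((res σ x : L) : ℚbar) = σ x := fun σ x =>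
    AlgEquiv.restrictNormal_commutes σ L x
  have hfix : ∀ σ σ' : Γℚ, res σ = res σ' → F.icoc hab hv σ = F.icoc hab hv σ' := by
    intro σ σ' h
    have hk : ∀ x : L, (σ'⁻¹ * σ : Γℚ) x = (x : ℚbar) := fun x => by
      rw [← hres, map_mul, map_inv, h, inv_mul_cancel]; rfl
    have := F.icoc_mul_of_fix hab hv σ' (σ'⁻¹ * σ) (Prod.ext (hk ⟨v.1, hv1⟩) (hk ⟨v.2, hv2⟩))
    rwa [mul_inv_cancel_left] at this
  let s : (L ≃ₐ[ℚ] L) → Γℚ := Function.surjInv (AlgEquiv.restrictNormalHom_surjective ℚbar)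
  have hs : ∀ g, res (s g) = g := Function.surjInv_eq (AlgEquiv.restrictNormalHom_surjective ℚbar)
  have : Fintype (L ≃ₐ[ℚ] L) := Fintype.ofFinite _
  -- averaging a rational vector over it gives twisted vectors
  let W : L → ℚbar × ℚbar → ℚbar × ℚbar := fun x e =>
    ∑ g, act (F.icoc hab hv (s g)) ((g x : ℚbar) * e.1, (g x : ℚbar) * e.2)
  have hW : ∀ (x : L) (e : ℚbar × ℚbar), (∀ τ : Γℚ, Prod.map τ τ e = e) →
      F.Twisted v (W x e) := by
    intro x e he τ c hc hcv
    have hcc := (F.coc_eq hab hv τ hc hcv).symm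
    subst hcc
    have e1 : Prod.map τ τ (W x e) = ∑ g : L ≃ₐ[ℚ] L, act (F.coc hab hv τ)
        (act (F.icoc hab hv (s (res τ * g)))
          (((res τ * g) x : ℚbar) * e.1, ((res τ * g) x : ℚbar) * e.2)) := by
      change ((AddMonoidHom.prodMap (τ : ℚbar →+ ℚbar) (τ : ℚbar →+ ℚbar))) (W x e) = _
      rw [map_sum]
      refine Finset.sum_congr rfl fun g _ => ?_
      change Prod.map τ τ _ = _
      have hτ : τ (g x : ℚbar) = ((res τ * g) x : ℚbar) := (hres τ (g x)).symm
      have he1 : τ e.1 = e.1 := congrArg Prod.fst (he τ)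
      have he2 : τ e.2 = e.2 := congrArg Prod.snd (he τ)
      have hr : F.icoc hab hv (τ * s g) = F.icoc hab hv (s (res τ * g)) :=
        hfix _ _ (by rw [map_mul, hs, hs])
      rw [act_matσ, F.matσ_icoc hab hv τ (s g), act_mul, hr]
      simp only [Prod.map, map_mul, hτ, he1, he2]
    rw [e1]
    have hsum : ∀ (f : (L ≃ₐ[ℚ] L) → ℚbar × ℚbar) (c : Matrix (Fin 2) (Fin 2) ℚbar),
        act c (∑ g, f g) = ∑ g, act c (f g) := by
      intro f c
      refine map_sum (AddMonoidHom.mk' (act (R := ℚbar) c) (fun u w => ?_)) f _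
      simp only [act, Prod.fst_add, Prod.snd_add, Prod.mk_add_mk, Prod.mk.injEq]
      constructor <;> ring
    rw [hsum]
    exact Fintype.sum_equiv (Equiv.mulLeft (res τ)) _ _ fun g => rfl
  -- by independence of characters they are not all proportional to `v`
  by_contra hno
  push Not at hno
  have key : ∀ e : ℚbar × ℚbar, (∀ τ : Γℚ, Prod.map τ τ e = e) →
      e.1 * v.2 - e.2 * v.1 = 0 := by
    intro e he
    let coef : (L ≃ₐ[ℚ] L) → ℚbar := fun g =>
      (act (F.icoc hab hv (s g)) e).1 * v.2 - (act (F.icoc hab hv (s g)) e).2 * v.1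
    let emb : (L ≃ₐ[ℚ] L) → (L →* ℚbar) := fun g =>
      ((L.val : L →ₐ[ℚ] ℚbar).comp g.toAlgHom).toRingHom.toMonoidHom
    have hemb : Function.Injective emb := by
      intro g g' h
      ext x
      exact congrFun (congrArg DFunLike.coe h) x
    have li := (linearIndependent_monoidHom L ℚbar).comp emb hemb
    have hz : ∑ g, coef g • (fun x : L => emb g x) = 0 := by
      funext x
      have := hno _ (hW x e he)
      simp only [W, Prod.fst_sum, Prod.snd_sum, Finset.sum_mul, ← Finset.sum_sub_distrib] at this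
      simp only [Finset.sum_apply, Pi.smul_apply, smul_eq_mul, Pi.zero_apply]
      rw [← this]
      refine Finset.sum_congr rfl fun g _ => ?_
      simp only [coef, act, emb, Algebra.algebraMap_self, RingHom.id_apply]
      change _ * (g x : ℚbar) = _
      ring
    have hc := Fintype.linearIndependent_iff.mp li coef hz (res 1)
    have h1 : F.icoc hab hv (s (res 1)) = 1 := by
      rw [hfix (s (res 1)) 1 (hs _), icoc_one]
    simp only [coef, h1, act_one] at hc
    exact hc
  have k1 := key (1, 0) (fun τ => by simp)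
  have k2 := key (0, 1) (fun τ => by simp)
  simp at k1 k2
  exact F.ne_zero_of_over hab hv (Prod.ext k2 k1)

include hab hv in
/-- Values of the forms at twisted parameters are rational. -/
theorem exists_rat_cval {w : ℚbar × ℚbar} (hw : F.Twisted v w) : ∃ a' b' : ℚ, F.Over a' b' w := by
  have h : ∀ G : Form, (∀ c : Matrix (Fin 2) (Fin 2) ℚbar, F.Pres c →
    G.toFun (act c w) = G.toFun w) →
      ∃ r : ℚ, algebraMap ℚ ℚbar r = G.toFun w := by
    intro G hG
    have : G.toFun w ∈ (⊥ : IntermediateField ℚ ℚbar) := by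
      rw [InfiniteGalois.mem_bot_iff_fixed]
      intro σ
      rw [natural_σ, hw σ _ (F.coc_spec hab hv σ).1 (F.coc_spec hab hv σ).2,
        hG _ (F.coc_spec hab hv σ).1]
    exact IntermediateField.mem_bot.mp this
  obtain ⟨a', ha⟩ := h F.c4 (fun c hc => (hc w).1)
  obtain ⟨b', hb⟩ := h F.c6 (fun c hc => (hc w).2)
  exact ⟨a', b', by simp [Over, cval, ha, hb]⟩

end

/-- Twisted parameters give Galois-isomorphic torsion. -/
theorem exists_equiv_of_twisted (hp2 : p ≠ 2) {a b a' b' : ℚ} (hab : a ^ 3 ≠ b ^ 2)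
    (hab' : a' ^ 3 ≠ b' ^ 2) {v w : ℚbar × ℚbar} (hv : F.Over a b v) (hw : F.Over a' b' w)
    (ht : F.Twisted v w) :
    ∃ e : TorQ a b p ≃+ TorQ a' b' p, ∀ (σ : Γℚ) (x : TorQ a b p), e (σ • x) = σ • e x :=
  ⟨F.psi hp2 hab hab' hv hw, fun σ x => F.psi_smul hp2 hab hab' hv hw σ (F.coc_spec hab hv σ).1
    (F.coc_spec hab hv σ).2 (ht σ _ (F.coc_spec hab hv σ).1 (F.coc_spec hab hv σ).2) x⟩

end Fermat.SW.Fam
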