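import Fermat.Agent.SW.Align

/-!
# The family of level three (Hesse pencil)

The covariants are `C4` and `C6`, and `exists_value3` attains every non-singular pair.
-/

set_option autoImplicit false
set_option linter.unusedSectionVars false

open WeierstrassCurve WeierstrassCurve.Affine

namespace Fermat.SW.Three

section Forms

variable {R : Type} [CommRing R]

/-- The covariant `c₄` of the family of level three, a quartic form. -/
def C4 (w : R × R) : R := 9 * w.1 * (w.1 ^ 3 + 8 * w.2 ^ 3)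

/-- The covariant `c₆` of the family of level three, a sextic form. -/
def C6 (w : R × R) : R := 27 * (w.1 ^ 6 - 20 * w.1 ^ 3 * w.2 ^ 3 - 8 * w.2 ^ 6)

/-- Abscissa of the point of order three. -/
def X3 (w : R × R) : R := 27 * w.1 ^ 2

/-- Ordinate of the point of order three. -/
def Y3 (w : R × R) : R := 108 * (w.1 ^ 3 - w.2 ^ 3)

/-- `C4³ - C6²` in the parameters. -/
lemma disc_eq (w : R × R) :
    C4 w ^ 3 - C6 w ^ 2 = 46656 * (w.2 * (w.1 ^ 3 - w.2 ^ 3)) ^ 3 := by
  simp only [C4, C6]; ring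

/-- The point of order three lies on the curve. -/
lemma curve_eq (w : R × R) : Y3 w ^ 2 = X3 w ^ 3 - 27 * C4 w * X3 w - 54 * C6 w := by
  simp only [C4, C6, X3, Y3]; ring

end Forms

variable {K : Type} [Field K] [CharZero K]

/-- Regular parameters have no vanishing discriminant factor. -/
lemma ne_of_reg {v : K × K} (hv : C4 v ^ 3 ≠ C6 v ^ 2) :
    v.2 ≠ 0 ∧ v.1 ^ 3 - v.2 ^ 3 ≠ 0 := by
  have h : v.2 * (v.1 ^ 3 - v.2 ^ 3) ≠ 0 := fun h => hv (sub_eq_zero.mp (by rw [disc_eq, h]; ring))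
  exact ⟨left_ne_zero_of_mul h, right_ne_zero_of_mul h⟩

/-- `C4` as a form. -/
def formC4 : Form := ⟨fun {R} [CommRing R] w => C4 w, fun {R S} _ _ f w => by
  simp [C4, map_add, map_mul, map_pow, map_ofNat]⟩

/-- `C6` as a form. -/
def formC6 : Form := ⟨fun {R} [CommRing R] w => C6 w, fun {R S} _ _ f w => by
  simp [C6, map_sub, map_mul, map_pow, map_ofNat]⟩

/-- `X` as a form. -/
def formX : Form := ⟨fun {R} [CommRing R] w => X3 w, fun {R S} _ _ f w => by
  simp [X3, map_mul, map_pow, map_ofNat]⟩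

/-- `Y` as a form. -/
def formY : Form := ⟨fun {R} [CommRing R] w => Y3 w, fun {R S} _ _ f w => by
  simp [Y3, map_sub, map_mul, map_pow, map_ofNat]⟩

/-- `1/√-3`. -/
def cS (ω : K) : K := 1 / (1 + 2 * ω)

/-- The diagonal matrix `diag (1, ω ^ i)`. -/
def matD (ω : K) (i : ℕ) : Matrix (Fin 2) (Fin 2) K := !![1, 0; 0, ω ^ i]

/-- The sign `(-1) ^ e`. -/
def sgn (e : Fin 2) : K := if e = 0 then 1 else -1

/-- The matrices fixing the point: powers of `diag (1, ω)`. -/
def rMat3 (ω : K) (i : Fin 3) : Matrix (Fin 2) (Fin 2) K := matD ω i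

/-- Representatives of the torsion points. -/
def tMat3 (ω : K) : Fin 2 × Option (Fin 3) → Matrix (Fin 2) (Fin 2) K
  | (e, none) => !![sgn e, 0; 0, sgn e]
  | (e, some i) => !![sgn e * cS ω, sgn e * (2 * cS ω * ω ^ (i : ℕ));
      sgn e * cS ω, sgn e * (-cS ω * ω ^ (i : ℕ))]

variable {ω : K} (hω : IsPrimitiveRoot ω 3)

include hω

/-- `ω² + ω + 1 = 0`. -/
lemma omega_sq : ω ^ 2 + ω + 1 = 0 := by
  have h := hω.geom_sum_eq_zero (by norm_num)
  simp [Finset.sum_range_succ] at h
  linear_combination h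

/-- `cS` is a square root of `-1/3`. -/
lemma cS_sq : 3 * cS ω ^ 2 = -1 ∧ cS ω ≠ 0 := by
  have h3 : (1 + 2 * ω) ^ 2 = -3 := by linear_combination 4 * omega_sq hω
  have hne : (1 + 2 * ω) ≠ 0 := fun h => by rw [h] at h3; norm_num at h3
  refine ⟨?_, div_ne_zero one_ne_zero hne⟩
  rw [cS, div_pow, h3]; norm_num

variable {R : Type} [CommRing R] [Algebra K R]

/-- The powers of `ω` cube to one. -/
lemma pow_three_eq (i : ℕ) : (algebraMap K R (ω ^ i)) ^ 3 = 1 := by
  rw [← map_pow, ← pow_mul, mul_comm, pow_mul, hω.pow_eq_one, one_pow, map_one]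

/-- The matrices fixing the point preserve the forms and the point. -/
lemma r_pres3 (i : Fin 3) (w : R × R) :
    C4 (act (rMat3 ω i) w) = C4 w ∧ C6 (act (rMat3 ω i) w) = C6 w ∧
      X3 (act (rMat3 ω i) w) = X3 w ∧ Y3 (act (rMat3 ω i) w) = Y3 w := by
  have e : act (rMat3 ω i) w = (w.1, algebraMap K R (ω ^ (i : ℕ)) * w.2) := by
    simp [act, rMat3, matD]
  have h3 := pow_three_eq hω (R := R) i
  rw [e]
  refine ⟨?_, ?_, rfl, ?_⟩ <;> simp only [C4, C6, Y3, mul_pow, h3, one_mul]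
  rw [show (algebraMap K R (ω ^ (i : ℕ))) ^ 6 =
    ((algebraMap K R (ω ^ (i : ℕ))) ^ 3) ^ 2 by ring, h3,
    one_pow, one_mul]

/-- The representatives of the torsion points preserve `C4` and `C6`. -/
lemma t_pres3 (j : Fin 2 × Option (Fin 3)) (w : R × R) :
    C4 (act (tMat3 ω j) w) = C4 w ∧ C6 (act (tMat3 ω j) w) = C6 w := by
  obtain ⟨e, _ | i⟩ := j
  -- without the shear only a sign remains
  · fin_cases e <;> simp [act, tMat3, sgn, C4, C6]; constructor <;> ring
  · have h3 := pow_three_eq hω (R := R) (i : ℕ)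
    have hc : 3 * algebraMap K R (cS ω) ^ 2 = -1 := by
      simpa only [map_mul, map_pow, map_ofNat, map_neg, map_one] using
        congrArg (algebraMap K R) (cS_sq hω).1
    generalize hz : algebraMap K R (ω ^ (i : ℕ)) = z at h3
    generalize hk : algebraMap K R (cS ω) = c at hc
    -- the shear scaled by `s * c` preserves both invariants
    have key : ∀ (u v : R) (s : R), s = 1 ∨ s = -1 →
        C4 (s * c * (u + 2 * v), s * c * (u - v)) = C4 (u, v) ∧
          C6 (s * c * (u + 2 * v), s * c * (u - v)) = C6 (u, v) := by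
      intro u v s hs
      have hs2 : s ^ 2 = 1 := by rcases hs with rfl | rfl <;> ring
      have h4 : 9 * (s * c) ^ 4 = 1 := by
        linear_combination (3 * c ^ 2 - 1) * hc + 9 * c ^ 4 * (s ^ 2 + 1) * hs2
      have h6 : 27 * (s * c) ^ 6 = -1 := by
        linear_combination (9 * c ^ 4 - 3 * c ^ 2 + 1) * hc +
          27 * c ^ 6 * (s ^ 4 + s ^ 2 + 1) * hs2
      simp only [C4, C6]
      constructor
      · linear_combination (9 * u * (u ^ 3 + 8 * v ^ 3)) * h4
      · linear_combination (-(27 * (u ^ 6 - 20 * u ^ 3 * v ^ 3 - 8 * v ^ 6))) * h6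
    -- so does scaling by a cube root of unity
    have hzv : C4 (w.1, z * w.2) = C4 w ∧ C6 (w.1, z * w.2) = C6 w := by
      simp only [C4, C6]
      constructor
      · linear_combination 72 * w.1 * w.2 ^ 3 * h3
      · linear_combination (-540 * w.1 ^ 3 * w.2 ^ 3 - 216 * w.2 ^ 6 * (z ^ 3 + 1)) * h3
    have hs : algebraMap K R (sgn e) = 1 ∨ algebraMap K R (sgn e) = -1 := by
      fin_cases e <;> simp [sgn]
    have ha : act (tMat3 ω (e, some i)) w = (algebraMap K R (sgn e) * c * (w.1 + 2 * (z * w.2)),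
        algebraMap K R (sgn e) * c * (w.1 - z * w.2)) := by
      simp [act, tMat3, map_mul, map_neg, map_ofNat, hz, hk]
      constructor <;> ring
    rw [ha, (key _ _ _ hs).1, (key _ _ _ hs).2]
    exact hzv

omit [Algebra K R] in
/-- The matrices fixing the point are distinct. -/
lemma r_inj3 : Function.Injective (rMat3 ω) := by
  intro i i' h
  have h11 := congrFun (congrFun h 1) 1
  simp [rMat3, matD] at h11
  exact Fin.ext (hω.pow_inj i.2 i'.2 h11)

/-- The representatives are separated by the marked point. -/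
lemma t_sep3 (j j' : Fin 2 × Option (Fin 3))
    (h : ∀ w : K × K, X3 (act (tMat3 ω j) w) = X3 (act (tMat3 ω j') w) ∧
      Y3 (act (tMat3 ω j) w) = Y3 (act (tMat3 ω j') w)) : j = j' := by
  obtain ⟨hc, hc0⟩ := cS_sq hω
  obtain ⟨hX, hY⟩ := h (0, 1)
  have hpair : ∀ i : Fin 3, (ω ^ (i : ℕ)) ^ 3 = 1 := fun i => by
    rw [← pow_mul, mul_comm, pow_mul, hω.pow_eq_one, one_pow]
  have hω0 : ω ≠ 0 := hω.ne_zero (by norm_num)
  have hsq : ∀ e : Fin 2, (sgn e : K) ^ 2 = 1 := fun e => by fin_cases e <;> simp [sgn]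
  have hsg : ∀ e : Fin 2, (sgn e : K) ^ 3 = sgn e := fun e => by fin_cases e <;> norm_num [sgn]
  have hse : ∀ e e' : Fin 2, (sgn e : K) = sgn e' → e = e' := by
    intro e e'
    fin_cases e <;> fin_cases e' <;> norm_num [sgn]
  obtain ⟨e, o⟩ := j
  obtain ⟨e', o'⟩ := j'
  -- compare the coordinates at `(0, 1)`: both indices are of the same kind
  rcases o with _ | i <;> rcases o' with _ | i' <;> simp [act, tMat3, X3, Y3] at hX hY
  · rw [hse e e' (by linear_combination hY - hsg e + hsg e')]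
  · exfalso
    rcases hX with h1 | h1
    · exact absurd h1 (by fin_cases e' <;> norm_num [sgn])
    · simp [hc0, hω0] at h1
  · exfalso
    rcases hX with h1 | h1
    · exact absurd h1 (by fin_cases e <;> norm_num [sgn])
    · simp [hc0, hω0] at h1
  -- in the second kind the powers of `ω` agree
  · have hp : (ω ^ (i : ℕ)) ^ 2 = (ω ^ (i' : ℕ)) ^ 2 := by
      simp only [mul_pow, hsq, one_mul] at hX
      simpa [hc0] using hX
    have hii : ω ^ (i : ℕ) = ω ^ (i' : ℕ) := by
      have a := hpair i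
      have b := hpair i'
      have : (ω ^ (i : ℕ)) ^ 4 =
        (ω ^ (i' : ℕ)) ^ 4 := by linear_combination ((ω ^ (i : ℕ)) ^ 2 + (ω ^ (i' : ℕ)) ^ 2) * hp
      linear_combination this - ω ^ (i : ℕ) * a + ω ^ (i' : ℕ) * b
    have hi : i = i' := Fin.ext (hω.pow_inj i.2 i'.2 hii)
    subst hi
    -- and then the signs agree
    refine Prod.ext (hse e e' ?_) rfl
    have hz := hpair i
    have : (cS ω) ^ 3 * ((sgn e : K) - sgn e') = 0 := by
      have key : 9 * cS ω ^ 3 * ((sgn e : K) - sgn e') = 0 := by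
        linear_combination hY - 9 * cS ω ^ 3 * ((sgn e : K) ^ 3 - (sgn e' : K) ^ 3) * hz -
          9 * cS ω ^ 3 * hsg e + 9 * cS ω ^ 3 * hsg e'
      simpa using key
    exact sub_eq_zero.mp ((mul_eq_zero.mp this).resolve_left (pow_ne_zero _ hc0))

omit hω [Algebra K R] in
/-- The point of order three lies on the short curve. -/
lemma equation3 (v : K × K) : (shortCurve (C4 v) (C6 v)).Equation (X3 v) (Y3 v) := by
  rw [Affine.equation_iff]
  simp only [shortCurve]
  linear_combination curve_eq v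

omit hω [Algebra K R] in
/-- The marked point has order three. -/
lemma torsion3 [DecidableEq K] (v : K × K)
    (h : (shortCurve (C4 v) (C6 v)).Nonsingular (X3 v) (Y3 v)) (hv : C4 v ^ 3 ≠ C6 v ^ 2) :
    ((3 : ℕ) : ℤ) • Affine.Point.some _ _ h = 0 := by
  obtain ⟨-, hb⟩ := ne_of_reg hv
  have hY : Y3 v ≠ (shortCurve (C4 v) (C6 v)).negY (X3 v) (Y3 v) := by
    simp only [Affine.negY, shortCurve]
    intro e
    have : (2 : K) * Y3 v = 0 := by linear_combination e
    simp [Y3, hb] at this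
  have hs : (shortCurve (C4 v) (C6 v)).slope (X3 v) (X3 v) (Y3 v) (Y3 v) = 9 * v.1 := by
    rw [Affine.slope_of_Y_ne rfl hY, div_eq_iff (sub_ne_zero.mpr hY)]
    simp only [Affine.negY, shortCurve, C4, X3, Y3]
    ring
  have e2 : Affine.Point.some _ _ h + Affine.Point.some _ _ h = -Affine.Point.some _ _ h := by
    rw [Affine.Point.add_self_of_Y_ne hY, Affine.Point.neg_some, Affine.Point.some.injEq, hs]
    simp only [Affine.addX, Affine.addY, Affine.negY, Affine.negAddY, shortCurve, X3, Y3]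
    constructor <;> ring
  rw [natCast_zsmul, succ_nsmul, two_nsmul, e2, neg_add_cancel]

omit hω [Algebra K R] in
/-- The marked point determines the first coordinate, and the cube of the second. -/
lemma fst_eq_of_XY {v w : K × K} (hv : C4 v ^ 3 ≠ C6 v ^ 2) (h4 : C4 w = C4 v) (hX : X3 w = X3 v)
    (hY : Y3 w = Y3 v) : w.1 = v.1 ∧ w.2 ^ 3 = v.2 ^ 3 := by
  obtain ⟨h2, -⟩ := ne_of_reg hv
  have hu : w.1 = v.1 ∨ w.1 = -v.1 := by
    refine sq_eq_sq_iff_eq_or_eq_neg.mp ?_
    simp only [X3] at hX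
    exact mul_left_cancel₀ (by norm_num : (27 : K) ≠ 0) hX
  simp only [Y3] at hY
  have hb : w.1 ^ 3 - w.2 ^ 3 = v.1 ^ 3 - v.2 ^ 3 :=
    mul_left_cancel₀ (by norm_num : (108 : K) ≠ 0) hY
  rcases hu with h | h
  · exact ⟨h, by rw [h] at hb; linear_combination -hb⟩
  · by_cases h1 : v.1 = 0
    · rw [h1, neg_zero] at h
      exact ⟨h.trans h1.symm, by rw [h, h1] at hb; linear_combination -hb⟩
    · exfalso
      rw [h] at hb
      simp only [C4, h] at h4
      have : (144 * v.1) * v.2 ^ 3 = 144 * v.1 * v.1 ^ 3 := by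
        linear_combination -h4 + 72 * v.1 * hb
      exact (ne_of_reg hv).2 (sub_eq_zero.mpr
        (mul_left_cancel₀ (mul_ne_zero (by norm_num) h1) this).symm)

omit [Algebra K R] in
/-- A fibre of the marked point has at most three members. -/
lemma fibre3 (v : K × K) (hv : C4 v ^ 3 ≠ C6 v ^ 2) (s : Finset (K × K))
    (hs : ∀ w ∈ s, C4 w = C4 v ∧ C6 w = C6 v ∧ X3 w = X3 v ∧ Y3 w = Y3 v) : s.card ≤ 3 := by
  classical
  let T : Finset (K × K) := (Finset.univ : Finset (Fin 3)).image fun (i : Fin 3) =>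
    (v.1, ω ^ i.val * v.2)
  have hsub : s ⊆ T := by
    intro w hw
    obtain ⟨h4, -, hX, hY⟩ := hs w hw
    obtain ⟨e1, e3⟩ := fst_eq_of_XY hv h4 hX hY
    obtain ⟨h2, -⟩ := ne_of_reg hv
    have : NeZero 3 := ⟨by norm_num⟩
    obtain ⟨i, hi, hie⟩ := hω.eq_pow_of_pow_eq_one (ξ := w.2 / v.2) (by
      rw [div_pow, e3, div_self (pow_ne_zero _ h2)])
    refine Finset.mem_image.mpr ⟨⟨i, hi⟩, Finset.mem_univ _, Prod.ext e1.symm ?_⟩
    change ω ^ i * v.2 = w.2
    rw [hie, div_mul_cancel₀ _ h2]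
  exact (Finset.card_le_card hsub).trans (Finset.card_image_le.trans (by simp))

omit hω [Algebra K R] in
/-- The differentials of `C4` and `C6` at a point. -/
lemma snd_eqs (v a : K × K) :
    TrivSqZeroExt.snd (C4
      ((TrivSqZeroExt.inl v.1 + TrivSqZeroExt.inr a.1 : DualNumber K),
       (TrivSqZeroExt.inl v.2 + TrivSqZeroExt.inr a.2 : DualNumber K))) =
      9 * ((4 * v.1 ^ 3 + 8 * v.2 ^ 3) * a.1 + 24 * v.1 * v.2 ^ 2 * a.2) ∧
    TrivSqZeroExt.snd (C6
      ((TrivSqZeroExt.inl v.1 + TrivSqZeroExt.inr a.1 : DualNumber K),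
       (TrivSqZeroExt.inl v.2 + TrivSqZeroExt.inr a.2 : DualNumber K))) =
      27 * ((6 * v.1 ^ 5 - 60 * v.1 ^ 2 * v.2 ^ 3) * a.1 +
        (-60 * v.1 ^ 3 * v.2 ^ 2 - 48 * v.2 ^ 5) * a.2) := by
  have hn : ∀ (n : ℕ) [n.AtLeastTwo],
      (OfNat.ofNat n : DualNumber K) = TrivSqZeroExt.inl (OfNat.ofNat n : K) :=
    fun n _ => (map_ofNat (TrivSqZeroExt.inlHom K K) n).symm
  simp only [C4, C6, hn]
  constructor <;> simp [TrivSqZeroExt.snd_pow] <;> ring

omit hω [Algebra K R] in
/-- The Jacobian of the family is injective off the singular fibres. -/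
lemma jac3 (v a : K × K) (hv : C4 v ^ 3 ≠ C6 v ^ 2)
    (h4 : 9 * ((4 * v.1 ^ 3 + 8 * v.2 ^ 3) * a.1 + 24 * v.1 * v.2 ^ 2 * a.2) = 0)
    (h6 : 27 * ((6 * v.1 ^ 5 - 60 * v.1 ^ 2 * v.2 ^ 3) * a.1 +
        (-60 * v.1 ^ 3 * v.2 ^ 2 - 48 * v.2 ^ 5) * a.2) = 0) : a = 0 := by
  obtain ⟨h2, hb⟩ := ne_of_reg hv
  have hJ : -384 * v.2 ^ 2 * (v.1 ^ 3 - v.2 ^ 3) ^ 2 ≠ 0 :=
    mul_ne_zero (mul_ne_zero (by norm_num) (pow_ne_zero _ h2)) (pow_ne_zero _ hb)
  have e4 := (mul_eq_zero.mp h4).resolve_left (by norm_num)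
  have e6 := (mul_eq_zero.mp h6).resolve_left (by norm_num)
  refine Prod.ext ?_ ?_
  · exact (mul_eq_zero.mp (show (-384 * v.2 ^ 2 * (v.1 ^ 3 - v.2 ^ 3) ^ 2) * a.1 = 0 by
      linear_combination (-60 * v.1 ^ 3 * v.2 ^ 2 - 48 * v.2 ^ 5) * e4 -
        (24 * v.1 * v.2 ^ 2) * e6)).resolve_left hJ
  · exact (mul_eq_zero.mp (show (-384 * v.2 ^ 2 * (v.1 ^ 3 - v.2 ^ 3) ^ 2) * a.2 = 0 by
      linear_combination (4 * v.1 ^ 3 + 8 * v.2 ^ 3) * e6 -
        (6 * v.1 ^ 5 - 60 * v.1 ^ 2 * v.2 ^ 3) * e4)).resolve_left hJ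

omit hω [Algebra K R] in
/-- Every non-singular pair `(C4, C6)` is attained. -/
lemma exists_value3 [IsAlgClosed K] (a b : K) (hab : a ^ 3 ≠ b ^ 2) :
    ∃ v : K × K, C4 v = a ∧ C6 v = b := by
  let P4 : Polynomial K := C4 (Polynomial.X, 1)
  let P6 : Polynomial K := C6 (Polynomial.X, 1)
  let Q : Polynomial K := Polynomial.C (b ^ 2) * P4 ^ 3 - Polynomial.C (a ^ 3) * P6 ^ 2
  -- the ratio `C6² / C4³` takes the value `b² / a³`: the equation has degree `12`
  have hQ : Q.degree ≠ 0 := by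
    intro h0
    have hc : Q.coeff 12 = 729 * (b ^ 2 - a ^ 3) := by
      have h4 : (P4 ^ 3).coeff 12 = 729 := by
        have hd : P4.natDegree ≤ 4 := by
          simp only [P4, C4, one_pow, mul_one]; compute_degree
        rw [show 12 = 3 * 4 from rfl, Polynomial.coeff_pow_of_natDegree_le hd]
        have : P4.coeff 4 = 9 := by
          rw [show P4 = Polynomial.C 9 * Polynomial.X ^ 4 + Polynomial.C 72 * Polynomial.X by
            simp only [P4, C4, map_ofNat]; ring]
          simp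
        rw [this]; norm_num
      have h6 : (P6 ^ 2).coeff 12 = 729 := by
        have hd : P6.natDegree ≤ 6 := by
          simp only [P6, C6, one_pow, mul_one]; compute_degree
        rw [show 12 = 2 * 6 from rfl, Polynomial.coeff_pow_of_natDegree_le hd]
        have : P6.coeff 6 = 27 := by
          rw [show P6 = Polynomial.C 27 * Polynomial.X ^ 6 - Polynomial.C 540 * Polynomial.X ^ 3 -
              Polynomial.C 216 by simp only [P6, C6, map_ofNat]; ring]
          simp [Polynomial.coeff_X_pow]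
        rw [this]; norm_num
      simp only [Q, Polynomial.coeff_sub, Polynomial.coeff_C_mul, h4, h6]
      ring
    rw [Polynomial.eq_C_of_degree_eq_zero h0, Polynomial.coeff_C] at hc
    simp at hc
    exact hab (by linear_combination -hc)
  obtain ⟨x, hx⟩ := IsAlgClosed.exists_root Q hQ
  have hxe : b ^ 2 * C4 (x, 1) ^ 3 = a ^ 3 * C6 ((x, 1) : K × K) ^ 2 := by
    have := hx
    simp [Q, P4, P6, Polynomial.IsRoot, C4, C6] at this ⊢
    linear_combination this
  -- a solution is a regular parameter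
  have hreg : C4 ((x, 1) : K × K) ^ 3 ≠ C6 (x, 1) ^ 2 := by
    intro e
    have hd := disc_eq ((x, 1) : K × K)
    rw [e, sub_self] at hd
    have h0 : x ^ 3 - 1 = 0 := by simpa using hd.symm
    have h4 : C4 ((x, 1) : K × K) = 81 * x := by simp only [C4]; linear_combination 9 * x * h0
    have hp : (b ^ 2 - a ^ 3) * C4 ((x, 1) : K × K) ^ 3 = 0 := by linear_combination hxe - a ^ 3 * e
    have hx0 : x ≠ 0 := fun hh => by rw [hh] at h0; norm_num at h0
    rw [h4] at hp
    simp [sub_ne_zero.mpr (Ne.symm hab), hx0] at hp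
  have homog : ∀ c : K, C4 ((c * x, c) : K × K) = c ^ 4 * C4 (x, 1) ∧
      C6 ((c * x, c) : K × K) = c ^ 6 * C6 (x, 1) := by
    intro c; simp only [C4, C6]; constructor <;> ring
  -- scale it, as `C4` and `C6` are homogeneous of degrees `4` and `6`
  obtain ⟨c, h4, h6⟩ := exists_scale (m := 2) two_pos hab hreg hxe
  exact ⟨(c * x, c), by rw [(homog c).1]; exact h4, by rw [(homog c).2]; exact h6⟩

omit [Algebra K R] in
/-- **The family of level three.** Its covariants, points and symmetries, as a `Fam`. -/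
noncomputable def fam3 [IsAlgClosed K] : Fam K 3 where
  c4 := formC4
  c6 := formC6
  X := formX
  Y := formY
  ι := Fin 3
  κ := Fin 2 × Option (Fin 3)
  rMat := rMat3 ω
  tMat := tMat3 ω
  r_pres := fun i {R} _ _ w => r_pres3 hω i w
  t_pres := fun j {R} _ _ w => t_pres3 hω j w
  r_inj := r_inj3 hω
  t_sep := t_sep3 hω
  card_κ := by simp
  jac := fun v a hv h4 h6 =>
    jac3 v a hv ((snd_eqs v a).1.symm.trans h4) ((snd_eqs v a).2.symm.trans h6)
  onCurve := equation3
  torsion := fun v h hv => torsion3 v h hv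
  fibre := fun v hv s hs => by simpa using fibre3 hω v hv s hs
  exists_value := fun a b h => exists_value3 a b h

end Fermat.SW.Three
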