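import Fermat.Agent.SW.Fam5

/-!
# The level five family: torsion, fibres, surjectivity

The family is `fam5`, with every non-singular pair attained by `exists_value5`.
-/

set_option autoImplicit false

open WeierstrassCurve WeierstrassCurve.Affine

namespace Fermat.SW.Five

variable {K : Type} [Field K] [CharZero K]

omit [CharZero K] in
/-- At regular parameters `N5` and `D5` do not vanish. -/
lemma N_ne_of_reg {v : K × K} (hv : C4 v ^ 3 ≠ C6 v ^ 2) :
    N5 v ≠ 0 ∧ D5 v ≠ 0 := by
  have h : N5 v * D5 v ≠ 0 := fun h => hv (sub_eq_zero.mp (by rw [disc_eq', h]; ring))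
  exact ⟨left_ne_zero_of_mul h, right_ne_zero_of_mul h⟩

omit [CharZero K] in
/-- The point of order five lies on the short curve. -/
lemma equation5 (v : K × K) : (shortCurve (C4 v) (C6 v)).Equation (X5 v) (Y5 v) := by
  rw [Affine.equation_iff]
  simp only [shortCurve]
  linear_combination curve_eq v

/-- The marked point is killed by five: its triple is the opposite of its double. -/
lemma torsion5 [DecidableEq K] (v : K × K)
    (h : (shortCurve (C4 v) (C6 v)).Nonsingular (X5 v) (Y5 v)) (hv : C4 v ^ 3 ≠ C6 v ^ 2) :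
    ((5 : ℕ) : ℤ) • Affine.Point.some _ _ h = 0 := by
  obtain ⟨hN, hD⟩ := N_ne_of_reg hv
  have hΔ : (shortCurve (C4 v) (C6 v)).Δ ≠ 0 := by
    rw [shortCurve_Δ]
    exact mul_ne_zero (mul_ne_zero (pow_ne_zero _ (by norm_num)) (pow_ne_zero _ (by norm_num)))
      (sub_ne_zero.mpr hv)
  generalize hE : shortCurve (C4 v) (C6 v) = E at h hΔ ⊢
  have hY : Y5 v ≠ E.negY (X5 v) (Y5 v) := by
    simp only [← hE, Affine.negY, shortCurve]
    intro e
    have : (2 : K) * Y5 v = 0 := by linear_combination e
    simp [Y5, hN, hD] at this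
  have hs : E.slope (X5 v) (X5 v) (Y5 v) (Y5 v) = 3 * (D5 v - N5 v) := by
    rw [Affine.slope_of_Y_ne rfl hY, div_eq_iff (sub_ne_zero.mpr hY)]
    simp only [← hE, Affine.negY, shortCurve]
    linear_combination -(slope_eq v)
  -- 2 P
  have h2ns : E.Nonsingular (X5 v + 36 * N5 v * D5 v) (108 * N5 v ^ 2 * D5 v) := by
    refine (Affine.equation_iff_nonsingular_of_Δ_ne_zero hΔ).mp ?_
    rw [Affine.equation_iff]
    simp only [← hE, shortCurve]
    rw [C4_eq, C6_eq]; simp only [X5]; ring
  have e2 : Affine.Point.some _ _ h + Affine.Point.some _ _ h = Affine.Point.some _ _ h2ns := by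
    rw [Affine.Point.add_self_of_Y_ne hY, Affine.Point.some.injEq, hs]
    simp only [← hE, Affine.addX, Affine.addY, Affine.negY, Affine.negAddY, shortCurve, X5, Y5]
    constructor <;> ring
  -- 3 P = -2 P
  have hx : X5 v ≠ X5 v + 36 * N5 v * D5 v := by
    intro e
    have : (36 : K) * N5 v * D5 v = 0 := by linear_combination -e
    simp [hN, hD] at this
  have hs3 : E.slope (X5 v) (X5 v + 36 * N5 v * D5 v) (Y5 v) (108 * N5 v ^ 2 * D5 v) =
      3 * (N5 v + D5 v) := by
    rw [Affine.slope_of_X_ne hx, div_eq_iff (sub_ne_zero.mpr hx)]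
    simp only [Y5]; ring
  have e3 : Affine.Point.some _ _ h + Affine.Point.some _ _ h2ns =
      -Affine.Point.some _ _ h2ns := by
    rw [Affine.Point.add_of_X_ne hx, Affine.Point.neg_some, Affine.Point.some.injEq, hs3]
    simp only [← hE, Affine.addX, Affine.addY, Affine.negY, Affine.negAddY, shortCurve, X5, Y5]
    constructor <;> ring
  have : ((5 : ℕ) : ℤ) • Affine.Point.some _ _ h =
      (Affine.Point.some _ _ h + Affine.Point.some _ _ h2ns) +
        (Affine.Point.some _ _ h + Affine.Point.some _ _ h) := by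
    rw [← e2, natCast_zsmul]; abel
  rw [this, e3, e2, neg_add_cancel]

/-- A fibre of the marked point has at most twenty-five members. -/
lemma fibre5 (v : K × K) (hv : C4 v ^ 3 ≠ C6 v ^ 2) (s : Finset (K × K))
    (hs : ∀ w ∈ s, C4 w = C4 v ∧ C6 w = C6 v ∧ X5 w = X5 v ∧ Y5 w = Y5 v) : s.card ≤ 25 := by
  classical
  obtain ⟨hn, hd⟩ := N_ne_of_reg hv
  set n := N5 v
  set d := D5 v
  -- In a fibre `N5` and `D5` are fixed, so `x = w₁ / w₂` is a root of a quintic.
  let P : Polynomial K := Polynomial.C d * N5 (Polynomial.X, 1) - Polynomial.C n *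
    D5 (Polynomial.X, 1)
  have hdeg : P.natDegree ≤ 5 := by
    simp only [P, N5, D5, one_pow, mul_one]
    compute_degree
  have hP0 : P ≠ 0 := by
    intro h0
    have := congrArg (fun f => Polynomial.coeff f 5) h0
    simp [P, N5, D5, Polynomial.coeff_X_pow, Polynomial.coeff_X, Polynomial.coeff_one] at this
    exact hd this
  -- Each `x` allows at most five `w₂`, the fifth roots of `d / D5 (x, 1)`.
  let T : Finset (K × K) := P.roots.toFinset.biUnion fun x =>
    ((Polynomial.nthRoots 5 (d / D5 (x, 1))).toFinset).image fun y => (x * y, y)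
  have hsub : s ⊆ T := by
    intro w hw
    obtain ⟨h4, -, hX, hY⟩ := hs w hw
    obtain ⟨eN', eD'⟩ := ND_of_XY hv h4 hX hY
    have eN : N5 w = n := eN'
    have eD : D5 w = d := eD'
    have hw2 : w.2 ≠ 0 := by
      intro h0
      apply hd
      rw [← eD]; simp [D5, h0]
    set x := w.1 / w.2 with hx
    have hw1 : w.1 = x * w.2 := by rw [hx, div_mul_cancel₀ _ hw2]
    have kN : N5 w = w.2 ^ 5 * N5 (x, 1) := by simp only [N5, hw1]; ring
    have kD : D5 w = w.2 ^ 5 * D5 (x, 1) := by simp only [D5, hw1]; ring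
    have hD1 : D5 (x, 1) ≠ 0 := fun h0 => hd (by rw [← eD, kD, h0, mul_zero])
    simp only [T, Finset.mem_biUnion, Multiset.mem_toFinset, Finset.mem_image]
    refine ⟨x, ?_, w.2, ?_, ?_⟩
    · rw [Polynomial.mem_roots hP0]
      have : P.eval x = d * N5 (x, 1) - n * D5 (x, 1) := by simp [P, N5, D5]
      rw [Polynomial.IsRoot, this, ← eN, ← eD, kN, kD]; ring
    · rw [Polynomial.mem_nthRoots (by norm_num), eq_div_iff hD1, ← eD, kD]
    · rw [← hw1]
  calc s.card ≤ T.card := Finset.card_le_card hsub
    _ ≤ P.roots.toFinset.card * 5 := by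
      refine Finset.card_biUnion_le_card_mul _ _ _ fun x _ => ?_
      refine (Finset.card_image_le).trans ((Multiset.toFinset_card_le _).trans ?_)
      exact Polynomial.card_nthRoots 5 _
    _ ≤ 25 := by
      have := (Multiset.toFinset_card_le P.roots).trans ((Polynomial.card_roots' P).trans hdeg)
      omega

/-- Every non-singular pair `(C4, C6)` is attained. -/
lemma exists_value5 [IsAlgClosed K] (a b : K) (hab : a ^ 3 ≠ b ^ 2) :
    ∃ v : K × K, C4 v = a ∧ C6 v = b := by
  let Q : Polynomial K :=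
    Polynomial.C (b ^ 2) * C4 (Polynomial.X, 1) ^ 3 - Polynomial.C (a ^ 3) *
      C6 (Polynomial.X, 1) ^ 2
  have hQ : Q.degree ≠ 0 := by
    intro h0
    have hc : Q.coeff 60 = b ^ 2 - a ^ 3 := by
      have h4 : (C4 ((Polynomial.X, 1) : Polynomial K × Polynomial K) ^ 3).coeff 60 = 1 := by
        have hd : (C4 ((Polynomial.X, 1) : Polynomial K × Polynomial K)).natDegree ≤ 20 := by
          simp only [C4, one_pow, mul_one]; compute_degree
        rw [show 60 = 3 * 20 from rfl, Polynomial.coeff_pow_of_natDegree_le hd]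
        simp [C4, Polynomial.coeff_X_pow, Polynomial.coeff_one]
      have h6 : (C6 ((Polynomial.X, 1) : Polynomial K × Polynomial K) ^ 2).coeff 60 = 1 := by
        have hd : (C6 ((Polynomial.X, 1) : Polynomial K × Polynomial K)).natDegree ≤ 30 := by
          simp only [C6, one_pow, mul_one]; compute_degree
        rw [show 60 = 2 * 30 from rfl, Polynomial.coeff_pow_of_natDegree_le hd]
        simp [C6, Polynomial.coeff_X_pow, Polynomial.coeff_one]
      simp only [Q, Polynomial.coeff_sub, Polynomial.coeff_C_mul, h4, h6, mul_one]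
    rw [Polynomial.eq_C_of_degree_eq_zero h0, Polynomial.coeff_C] at hc
    simp at hc
    exact hab (by linear_combination -hc.symm)
  obtain ⟨x, hx⟩ := IsAlgClosed.exists_root Q hQ
  have hxe : b ^ 2 * C4 (x, 1) ^ 3 = a ^ 3 * C6 ((x, 1) : K × K) ^ 2 := by
    have := hx
    simp [Q, Polynomial.IsRoot, C4, C6] at this ⊢
    linear_combination this
  -- `(x, 1)` is regular
  have hreg : C4 ((x, 1) : K × K) ^ 3 ≠ C6 (x, 1) ^ 2 := by
    intro e
    have h4 : C4 ((x, 1) : K × K) = 0 := by
      have : (b ^ 2 - a ^ 3) * C4 ((x, 1) : K × K) ^ 3 = 0 := by linear_combination hxe - a ^ 3 * e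
      exact pow_eq_zero_iff (n := 3) (by norm_num) |>.mp
        ((mul_eq_zero.mp this).resolve_left (sub_ne_zero.mpr (Ne.symm hab)))
    have hF : F12 ((x, 1) : K × K) = 0 := by
      have := disc_eq ((x, 1) : K × K)
      rw [e, sub_self] at this
      simpa using this.symm
    simp only [F12, C4, one_pow, mul_one] at hF h4
    by_cases h0 : x = 0
    · simp [h0] at h4
    · have hq : x ^ 10 - 11 * x ^ 5 - 1 = 0 :=
        (mul_eq_zero.mp (show x * (x ^ 10 - 11 * x ^ 5 - 1) =
          0 by linear_combination -hF)).resolve_left h0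
      have hl : 3125 * (1 + 11 * x ^ 5) = 0 := by
        linear_combination h4 - (x ^ 10 + 239 * x ^ 5 + 3124) * hq
      have h11 : x ^ 5 = -1 / 11 := by linear_combination hl / 34375
      have : x ^ 10 = (-1 / 11) ^ 2 := by rw [← h11]; ring
      rw [this, h11] at hq
      norm_num at hq
  -- scaling
  have homog : ∀ c : K, C4 ((c * x, c) : K × K) = c ^ 20 * C4 (x, 1) ∧
      C6 ((c * x, c) : K × K) = c ^ 30 * C6 (x, 1) := by
    intro c; simp only [C4, C6]; constructor <;> ring
  obtain ⟨c, h4, h6⟩ := exists_scale (m := 10) (by norm_num) hab hreg hxe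
  exact ⟨(c * x, c), by rw [(homog c).1]; exact h4, by rw [(homog c).2]; exact h6⟩

/-- **The family of level five.** Its covariants, points and symmetries, as a `Fam`. -/
noncomputable def fam5 [IsAlgClosed K] {ζ : K} (hζ : IsPrimitiveRoot ζ 5) : Fam K 5 where
  c4 := formC4
  c6 := formC6
  X := formX
  Y := formY
  ι := Fin 5 × Fin 5
  κ := Fin 4 × Option (Fin 5)
  rMat := rMat5 ζ
  tMat := tMat5 ζ
  r_pres := fun i {R} _ _ w => r_pres5 hζ i w
  t_pres := fun j {R} _ _ w => t_pres5 hζ j w
  r_inj := r_inj5 hζ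
  t_sep := t_sep5 hζ
  card_κ := by simp
  jac := fun v a hv h4 h6 => jac_zero v a hv ((snd_C4 v a).symm.trans h4)
    ((snd_C6 v a).symm.trans h6)
  onCurve := equation5
  torsion := fun v h hv => torsion5 v h hv
  fibre := fun v hv s hs => by simpa using fibre5 v hv s hs
  exists_value := fun a b h => exists_value5 a b h

end Fermat.SW.Five
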