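import Mathlib
import Fermat.Agent.EC.Torsion

/-!
# Families of curves with a fixed level structure, given by a finite matrix group

A pair of binary forms `(C4, C6)`, a finite set of matrices `r * t` preserving them, and a point
`P = (X, Y)` of order `p` on `y² = x³ - 27 C4 x - 54 C6`: the structure `Fam`, of which `fam5`
(`Fam5Def`) and `fam3` (`Fam3`) are the two instances.
A preserving matrix is determined by its value at one regular parameter (`Fam.pres_eq`); that the
curves of the family share their `p`-torsion is derived from this in `SW/Pattern`, and `Twist`,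
`Descent` twist the family by the curve to be switched.
-/

set_option autoImplicit false
set_option linter.unusedSectionVars false

open WeierstrassCurve Matrix

namespace Fermat.SW

/-- The short curve with invariants proportional to `(a, b)`. -/
def shortCurve {R : Type*} [CommRing R] (a b : R) : Affine R :=
  ⟨0, 0, 0, -27 * a, -54 * b⟩

/-- The discriminant of the short curve. -/
lemma shortCurve_Δ {R : Type*} [CommRing R] (a b : R) :
    (shortCurve a b).Δ = 2 ^ 6 * 3 ^ 9 * (a ^ 3 - b ^ 2) := by
  simp only [shortCurve, WeierstrassCurve.Δ, WeierstrassCurve.b₂, WeierstrassCurve.b₄,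
    WeierstrassCurve.b₆, WeierstrassCurve.b₈]
  ring

/-- The short curve commutes with change of ring. -/
lemma shortCurve_map {R S : Type*} [CommRing R] [CommRing S] (f : R →+* S) (a b : R) :
    (shortCurve a b).map f = shortCurve (f a) (f b) := by
  ext <;> simp [shortCurve, map_mul, map_ofNat]

/-- Scaling by a suitable number carries a regular pair of weights `2 m`, `3 m` to any regular pair
with the same invariant `A ^ 3 / B ^ 2`. -/
lemma exists_scale {K : Type*} [Field K] [IsAlgClosed K] {m : ℕ} (hm : 0 < m) {A B a b : K}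
    (hab : a ^ 3 ≠ b ^ 2) (hreg : A ^ 3 ≠ B ^ 2) (h : b ^ 2 * A ^ 3 = a ^ 3 * B ^ 2) :
    ∃ c : K, c ^ (2 * m) * A = a ∧ c ^ (3 * m) * B = b := by
  by_cases hA : A = 0
  · have hB : B ≠ 0 := fun hB => hreg (by rw [hA, hB]; ring)
    have ha : a = 0 := by rw [hA] at h; simpa [hB] using h.symm
    obtain ⟨c, hc⟩ := IsAlgClosed.exists_pow_nat_eq (b / B) (n := 3 * m) (by omega)
    exact ⟨c, by rw [hA, mul_zero, ha], by rw [hc, div_mul_cancel₀ _ hB]⟩
  by_cases hB : B = 0
  · have hb : b = 0 := by rw [hB] at h; simpa [hA] using h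
    obtain ⟨c, hc⟩ := IsAlgClosed.exists_pow_nat_eq (a / A) (n := 2 * m) (by omega)
    exact ⟨c, by rw [hc, div_mul_cancel₀ _ hA], by rw [hB, mul_zero, hb]⟩
  have ha : a ≠ 0 := by
    rintro rfl
    have hb : b = 0 := by simpa [hA] using h
    exact hab (by rw [hb]; ring)
  obtain ⟨c, hc⟩ := IsAlgClosed.exists_pow_nat_eq ((b / B) / (a / A)) hm
  refine ⟨c, ?_, ?_⟩
  · rw [mul_comm 2 m, pow_mul, hc]
    field_simp
    linear_combination h
  · rw [mul_comm 3 m, pow_mul, hc]
    field_simp
    linear_combination b * h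

variable {K : Type} [Field K]

/-- The action of a matrix on a vector, read in any commutative `K`-algebra. -/
def act {R : Type} [CommRing R] [Algebra K R] (g : Matrix (Fin 2) (Fin 2) K) (w : R × R) :
    R × R :=
  (algebraMap K R (g 0 0) * w.1 + algebraMap K R (g 0 1) * w.2,
    algebraMap K R (g 1 0) * w.1 + algebraMap K R (g 1 1) * w.2)

/-- The action commutes with algebra maps. -/
lemma act_map {R S : Type} [CommRing R] [Algebra K R] [CommRing S] [Algebra K S] (f : R →ₐ[K] S)
    (g : Matrix (Fin 2) (Fin 2) K) (w : R × R) :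
    act g (Prod.map f f w) = Prod.map f f (act g w) := by
  simp [act, map_add, map_mul]

/-- The action is multiplicative. -/
lemma act_mul {R : Type} [CommRing R] [Algebra K R] (g h : Matrix (Fin 2) (Fin 2) K)
    (w : R × R) : act (g * h) w = act g (act h w) := by
  simp only [act, Matrix.mul_apply, Fin.sum_univ_two, map_add, map_mul, Prod.mk.injEq]
  constructor <;> ring

/-- The identity acts trivially. -/
lemma act_one {R : Type} [CommRing R] [Algebra K R] (w : R × R) :
    act (1 : Matrix (Fin 2) (Fin 2) K) w = w := by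
  simp [act]

/-- A two-variable polynomial function, natural in the ring. -/
structure Form where
  /-- The function on every commutative ring. -/
  toFun : ∀ {R : Type} [CommRing R], R × R → R
  /-- It commutes with ring homomorphisms. -/
  natural : ∀ {R S : Type} [CommRing R] [CommRing S] (f : R →+* S) (w : R × R),
    f (toFun w) = toFun (Prod.map f f w)

/-- A form commutes with algebra maps. -/
lemma Form.natural' (F : Form) {R S : Type} [CommRing R] [Algebra K R] [CommRing S] [Algebra K S]
    (f : R →ₐ[K] S) (w : R × R) : f (F.toFun w) = F.toFun (Prod.map f f w) :=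
  F.natural f.toRingHom w

/-- First order expansions of a form are linear. -/
lemma Form.snd_linear (G : Form) (v a : K × K) :
    TrivSqZeroExt.snd (G.toFun
      ((TrivSqZeroExt.inl v.1 + TrivSqZeroExt.inr a.1 : DualNumber K),
       (TrivSqZeroExt.inl v.2 + TrivSqZeroExt.inr a.2 : DualNumber K))) =
    a.1 * (TrivSqZeroExt.snd (G.toFun
      ((TrivSqZeroExt.inl v.1 + TrivSqZeroExt.inr (1, 0) : TrivSqZeroExt K (K × K)),
       (TrivSqZeroExt.inl v.2 + TrivSqZeroExt.inr (0, 1) : TrivSqZeroExt K (K × K))))).1 +
    a.2 * (TrivSqZeroExt.snd (G.toFun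
      ((TrivSqZeroExt.inl v.1 + TrivSqZeroExt.inr (1, 0) : TrivSqZeroExt K (K × K)),
       (TrivSqZeroExt.inl v.2 + TrivSqZeroExt.inr (0, 1) : TrivSqZeroExt K (K × K))))).2 := by
  set ℓ : (K × K) →ₗ[K] K := a.1 • LinearMap.fst K K K + a.2 • LinearMap.snd K K K with hℓ
  have e := G.natural' (TrivSqZeroExt.map ℓ)
    ((TrivSqZeroExt.inl v.1 + TrivSqZeroExt.inr (1, 0) : TrivSqZeroExt K (K × K)),
     (TrivSqZeroExt.inl v.2 + TrivSqZeroExt.inr (0, 1) : TrivSqZeroExt K (K × K)))
  simp only [Prod.map, map_add, TrivSqZeroExt.map_inl, TrivSqZeroExt.map_inr] at e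
  have e1 : ℓ (1, 0) = a.1 := by simp [hℓ]
  have e2 : ℓ (0, 1) = a.2 := by simp [hℓ]
  rw [e1, e2] at e
  rw [show TrivSqZeroExt.snd (G.toFun
      ((TrivSqZeroExt.inl v.1 + TrivSqZeroExt.inr a.1 : DualNumber K),
       (TrivSqZeroExt.inl v.2 + TrivSqZeroExt.inr a.2 : DualNumber K))) = _ from
    congrArg TrivSqZeroExt.snd e.symm, TrivSqZeroExt.snd_map]
  simp [hℓ]

/-- If two first order displacements change a form equally, their difference does not change it. -/
lemma Form.snd_sub (G : Form) (w b b' : K × K)
    (h : TrivSqZeroExt.snd (G.toFun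
          ((TrivSqZeroExt.inl w.1 + TrivSqZeroExt.inr b.1 : DualNumber K),
           (TrivSqZeroExt.inl w.2 + TrivSqZeroExt.inr b.2 : DualNumber K))) =
        TrivSqZeroExt.snd (G.toFun
          ((TrivSqZeroExt.inl w.1 + TrivSqZeroExt.inr b'.1 : DualNumber K),
           (TrivSqZeroExt.inl w.2 + TrivSqZeroExt.inr b'.2 : DualNumber K)))) :
    TrivSqZeroExt.snd (G.toFun
          ((TrivSqZeroExt.inl w.1 + TrivSqZeroExt.inr (b - b').1 : DualNumber K),
           (TrivSqZeroExt.inl w.2 + TrivSqZeroExt.inr (b - b').2 : DualNumber K))) = 0 := by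
  rw [G.snd_linear w b, G.snd_linear w b'] at h
  rw [G.snd_linear w (b - b'), Prod.fst_sub, Prod.snd_sub]
  linear_combination h

/-- A family of curves `shortCurve (c4 v) (c6 v)` with a point `(X v, Y v)` killed by `p`:
matrices `rMat` fixing the point, `tMat` moving it to `p ^ 2 - 1` labelled points, with bounded
fibres, injective Jacobian and all regular values attained. -/
structure Fam (K : Type) [Field K] (p : ℕ) where
  /-- The invariant `c₄` of the member. -/
  c4 : Form
  /-- The invariant `c₆` of the member. -/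
  c6 : Form
  /-- The abscissa of the marked point. -/
  X : Form
  /-- The ordinate of the marked point. -/
  Y : Form
  /-- The index type of the matrices fixing the point. -/
  ι : Type
  /-- The index type of the labels, the nonzero torsion points. -/
  κ : Type
  /-- There are finitely many matrices fixing the point. -/
  [fintypeι : Fintype ι]
  /-- There are finitely many labels. -/
  [fintypeκ : Fintype κ]
  /-- The matrices fixing the point. -/
  rMat : ι → Matrix (Fin 2) (Fin 2) K
  /-- The matrices moving it to the labelled points. -/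
  tMat : κ → Matrix (Fin 2) (Fin 2) K
  /-- The `rMat` preserve the invariants and the point. -/
  r_pres : ∀ (i : ι) {R : Type} [CommRing R] [Algebra K R] (w : R × R),
    c4.toFun (act (rMat i) w) = c4.toFun w ∧ c6.toFun (act (rMat i) w) = c6.toFun w ∧
      X.toFun (act (rMat i) w) = X.toFun w ∧ Y.toFun (act (rMat i) w) = Y.toFun w
  /-- The `tMat` preserve the invariants. -/
  t_pres : ∀ (j : κ) {R : Type} [CommRing R] [Algebra K R] (w : R × R),
    c4.toFun (act (tMat j) w) = c4.toFun w ∧ c6.toFun (act (tMat j) w) = c6.toFun w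
  /-- The `rMat` are distinct. -/
  r_inj : Function.Injective rMat
  /-- Distinct labels give distinct points. -/
  t_sep : ∀ j j' : κ, (∀ w : K × K, X.toFun (act (tMat j) w) = X.toFun (act (tMat j') w) ∧
      Y.toFun (act (tMat j) w) = Y.toFun (act (tMat j') w)) → j = j'
  /-- There are `p ^ 2 - 1` labels. -/
  card_κ : Fintype.card κ + 1 = p ^ 2
  /-- The differential of `(c4, c6)` is injective at regular values. -/
  jac : ∀ v a : K × K, c4.toFun v ^ 3 ≠ c6.toFun v ^ 2 →
    (TrivSqZeroExt.snd (c4.toFun
      ((TrivSqZeroExt.inl v.1 + TrivSqZeroExt.inr a.1 : DualNumber K),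
       (TrivSqZeroExt.inl v.2 + TrivSqZeroExt.inr a.2 : DualNumber K))) = 0) →
    (TrivSqZeroExt.snd (c6.toFun
      ((TrivSqZeroExt.inl v.1 + TrivSqZeroExt.inr a.1 : DualNumber K),
       (TrivSqZeroExt.inl v.2 + TrivSqZeroExt.inr a.2 : DualNumber K))) = 0) → a = 0
  /-- The point lies on the curve. -/
  onCurve : ∀ v : K × K, (shortCurve (c4.toFun v) (c6.toFun v)).Equation (X.toFun v) (Y.toFun v)
  /-- The point is killed by `p` at regular values. -/
  torsion : ∀ [DecidableEq K] (v : K × K)
    (h : (shortCurve (c4.toFun v) (c6.toFun v)).Nonsingular (X.toFun v) (Y.toFun v)),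
    c4.toFun v ^ 3 ≠ c6.toFun v ^ 2 → (p : ℤ) • Affine.Point.some _ _ h = 0
  /-- A regular fibre of the invariants and the point has at most `#ι` elements. -/
  fibre : ∀ v : K × K, c4.toFun v ^ 3 ≠ c6.toFun v ^ 2 →
    ∀ s : Finset (K × K), (∀ w ∈ s, c4.toFun w = c4.toFun v ∧ c6.toFun w = c6.toFun v ∧
      X.toFun w = X.toFun v ∧ Y.toFun w = Y.toFun v) → s.card ≤ Fintype.card ι
  /-- Every regular pair is a value of the invariants. -/
  exists_value : ∀ a b : K, a ^ 3 ≠ b ^ 2 → ∃ v : K × K, c4.toFun v = a ∧ c6.toFun v = b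

attribute [instance] Fam.fintypeι Fam.fintypeκ

namespace Fam

variable [CharZero K] {p : ℕ} (F : Fam K p)

/-- Regular parameters. -/
def Reg (v : K × K) : Prop := F.c4.toFun v ^ 3 ≠ F.c6.toFun v ^ 2

/-- The value of the invariants. -/
def cval (v : K × K) : K × K := (F.c4.toFun v, F.c6.toFun v)

/-- Matrices preserving both forms. -/
def Pres (g : Matrix (Fin 2) (Fin 2) K) : Prop :=
  ∀ {R : Type} [CommRing R] [Algebra K R] (w : R × R),
    F.c4.toFun (act g w) = F.c4.toFun w ∧ F.c6.toFun (act g w) = F.c6.toFun w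

/-- The matrices fixing the point preserve both forms. -/
lemma pres_r (i : F.ι) : F.Pres (F.rMat i) := fun w =>
  ⟨(F.r_pres i w).1, (F.r_pres i w).2.1⟩

/-- The representatives of the torsion points preserve both forms. -/
lemma pres_t (j : F.κ) : F.Pres (F.tMat j) := fun w => F.t_pres j w

/-- The identity preserves both forms. -/
lemma pres_one : F.Pres 1 := fun w => by simp [act_one]

variable {F}

/-- The matrices preserving both forms are closed under products. -/
lemma Pres.mul {g h : Matrix (Fin 2) (Fin 2) K} (hg : F.Pres g) (hh : F.Pres h) :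
    F.Pres (g * h) := fun w => by
  rw [act_mul]
  exact ⟨(hg _).1.trans (hh w).1, (hg _).2.trans (hh w).2⟩

/-- Such a matrix keeps parameters regular. -/
lemma Pres.reg {g : Matrix (Fin 2) (Fin 2) K} (hg : F.Pres g) {v : K × K} (hv : F.Reg v) :
    F.Reg (act g v) := by
  unfold Reg
  rw [(hg v).1, (hg v).2]
  exact hv

/-- Such a matrix keeps the value of the invariants. -/
lemma Pres.cval_eq {g : Matrix (Fin 2) (Fin 2) K} (hg : F.Pres g) (v : K × K) :
    F.cval (act g v) = F.cval v := by
  unfold cval
  rw [(hg v).1, (hg v).2]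

/-- Two preserving matrices agreeing at a regular vector are equal. -/
lemma pres_eq {g h : Matrix (Fin 2) (Fin 2) K} (hg : F.Pres g) (hh : F.Pres h) {v : K × K}
    (hv : F.Reg v) (e : act g v = act h v) : g = h := by
  have key : ∀ a : K × K, act g a = act h a := by
    intro a
    -- compare first derivatives at `v`, over the dual numbers
    obtain ⟨hg11, hg12⟩ : act g (TrivSqZeroExt.inl v.1 + TrivSqZeroExt.inr a.1,
        TrivSqZeroExt.inl v.2 + TrivSqZeroExt.inr a.2) =
        ((TrivSqZeroExt.inl (act g v).1 + TrivSqZeroExt.inr (act g a).1 : DualNumber K),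
          (TrivSqZeroExt.inl (act g v).2 + TrivSqZeroExt.inr (act g a).2 : DualNumber K)) ∧
        act h (TrivSqZeroExt.inl v.1 + TrivSqZeroExt.inr a.1,
          TrivSqZeroExt.inl v.2 + TrivSqZeroExt.inr a.2) =
        ((TrivSqZeroExt.inl (act h v).1 + TrivSqZeroExt.inr (act h a).1 : DualNumber K),
          (TrivSqZeroExt.inl (act h v).2 + TrivSqZeroExt.inr (act h a).2 : DualNumber K)) := by
      constructor <;>
        · ext <;> simp [act, TrivSqZeroExt.algebraMap_eq_inl]
    have h1 := hg (R := DualNumber K) (TrivSqZeroExt.inl v.1 + TrivSqZeroExt.inr a.1,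
      TrivSqZeroExt.inl v.2 + TrivSqZeroExt.inr a.2)
    have h2 := hh (R := DualNumber K) (TrivSqZeroExt.inl v.1 + TrivSqZeroExt.inr a.1,
      TrivSqZeroExt.inl v.2 + TrivSqZeroExt.inr a.2)
    rw [hg11] at h1
    rw [hg12, ← e] at h2
    have lin : ∀ (G : Form) (w b b' : K × K),
        TrivSqZeroExt.snd (G.toFun
          ((TrivSqZeroExt.inl w.1 + TrivSqZeroExt.inr b.1 : DualNumber K),
           (TrivSqZeroExt.inl w.2 + TrivSqZeroExt.inr b.2 : DualNumber K))) =
        TrivSqZeroExt.snd (G.toFun
          ((TrivSqZeroExt.inl w.1 + TrivSqZeroExt.inr b'.1 : DualNumber K),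
           (TrivSqZeroExt.inl w.2 + TrivSqZeroExt.inr b'.2 : DualNumber K))) →
        TrivSqZeroExt.snd (G.toFun
          ((TrivSqZeroExt.inl w.1 + TrivSqZeroExt.inr (b - b').1 : DualNumber K),
           (TrivSqZeroExt.inl w.2 + TrivSqZeroExt.inr (b - b').2 : DualNumber K))) = 0 := by
      intro G w b b' hh
      exact G.snd_sub w b b' hh
    -- they vanish on the difference, so the linear maps agree
    refine sub_eq_zero.mp (F.jac (act g v) _ (hg.reg hv) (lin _ _ _ _ ?_) (lin _ _ _ _ ?_))
    · rw [h1.1, h2.1]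
    · rw [h1.2, h2.2]
  ext i j
  fin_cases j
  · have := key (1, 0)
    fin_cases i
    · simpa [act] using congrArg Prod.fst this
    · simpa [act] using congrArg Prod.snd this
  · have := key (0, 1)
    fin_cases i
    · simpa [act] using congrArg Prod.fst this
    · simpa [act] using congrArg Prod.snd this

end Fam

end Fermat.SW
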