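import Mathlib

/-!
# The forms of the icosahedral family (level 5)

They are Klein's forms `C4`, `C6` and `F12`.
-/

set_option autoImplicit false

namespace Fermat.SW.Five

variable {R : Type} [CommRing R]

/-- Numerator of the Tate parameter. -/
def N5 (w : R × R) : R :=
  w.1 ^ 5 + 3 * w.1 ^ 4 * w.2 + 4 * w.1 ^ 3 * w.2 ^ 2 + 2 * w.1 ^ 2 * w.2 ^ 3 + w.1 * w.2 ^ 4

/-- Denominator of the Tate parameter. -/
def D5 (w : R × R) : R :=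
  w.1 ^ 4 * w.2 - 2 * w.1 ^ 3 * w.2 ^ 2 + 4 * w.1 ^ 2 * w.2 ^ 3 - 3 * w.1 * w.2 ^ 4 + w.2 ^ 5

/-- Klein's form of degree 20. -/
def C4 (w : R × R) : R :=
  w.1 ^ 20 + 228 * w.1 ^ 15 * w.2 ^ 5 + 494 * w.1 ^ 10 * w.2 ^ 10 - 228 * w.1 ^ 5 * w.2 ^ 15 +
    w.2 ^ 20

/-- Klein's form of degree 30. -/
def C6 (w : R × R) : R :=
  -w.1 ^ 30 + 522 * w.1 ^ 25 * w.2 ^ 5 + 10005 * w.1 ^ 20 * w.2 ^ 10 +
    10005 * w.1 ^ 10 * w.2 ^ 20 - 522 * w.1 ^ 5 * w.2 ^ 25 - w.2 ^ 30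

/-- Klein's form of degree 12. -/
def F12 (w : R × R) : R :=
  w.1 * w.2 ^ 11 + 11 * w.1 ^ 6 * w.2 ^ 6 - w.1 ^ 11 * w.2

/-- Abscissa of the point of order five. -/
def X5 (w : R × R) : R := 3 * (N5 w ^ 2 - 6 * N5 w * D5 w + D5 w ^ 2)

/-- Ordinate of the point of order five. -/
def Y5 (w : R × R) : R := -108 * N5 w * D5 w ^ 2

/-- `C4` as a form in `N5` and `D5`. -/
lemma C4_eq (w : R × R) : C4 w = D5 w ^ 4 + 12 * N5 w * D5 w ^ 3 + 14 * N5 w ^ 2 * D5 w ^ 2 -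
    12 * N5 w ^ 3 * D5 w + N5 w ^ 4 := by
  simp only [C4, N5, D5]; ring

/-- `C6` as a form in `N5` and `D5`. -/
lemma C6_eq (w : R × R) : C6 w = -(D5 w ^ 6 + 18 * N5 w * D5 w ^ 5 + 75 * N5 w ^ 2 * D5 w ^ 4 +
    75 * N5 w ^ 4 * D5 w ^ 2 - 18 * N5 w ^ 5 * D5 w + N5 w ^ 6) := by
  simp only [C6, N5, D5]; ring

/-- `C4³ - C6² = -1728 F12⁵`. -/
lemma disc_eq (w : R × R) : C4 w ^ 3 - C6 w ^ 2 = -1728 * F12 w ^ 5 := by
  simp only [C4, C6, F12]; ring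

/-- The discriminant `C4³ - C6²` in `N5` and `D5`. -/
lemma disc_eq' (w : R × R) : C4 w ^ 3 - C6 w ^ 2 =
    1728 * (N5 w * D5 w) ^ 5 * (N5 w ^ 2 - 11 * N5 w * D5 w - D5 w ^ 2) := by
  rw [C4_eq, C6_eq]; ring

/-- `(X5, Y5)` lies on the short curve of `(C4, C6)`. -/
lemma curve_eq (w : R × R) : Y5 w ^ 2 = X5 w ^ 3 - 27 * C4 w * X5 w - 54 * C6 w := by
  rw [C4_eq, C6_eq]; simp only [X5, Y5]; ring

/-- The slope identity which recovers the Tate parameters from the point. -/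
lemma slope_eq (w : R × R) :
    2 * Y5 w * (3 * (D5 w - N5 w)) = 3 * X5 w ^ 2 - 27 * C4 w := by
  rw [C4_eq]; simp only [X5, Y5]; ring

section Partial

variable {K : Type} [Field K]

/-- `∂C4/∂u`. -/
def C4u (w : K × K) : K :=
  20 * w.1 ^ 19 + 3420 * w.1 ^ 14 * w.2 ^ 5 + 4940 * w.1 ^ 9 * w.2 ^ 10 -
    1140 * w.1 ^ 4 * w.2 ^ 15

/-- `∂C4/∂v`. -/
def C4v (w : K × K) : K :=
  1140 * w.1 ^ 15 * w.2 ^ 4 + 4940 * w.1 ^ 10 * w.2 ^ 9 - 3420 * w.1 ^ 5 * w.2 ^ 14 +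
    20 * w.2 ^ 19

/-- `∂C6/∂u`. -/
def C6u (w : K × K) : K :=
  -30 * w.1 ^ 29 + 13050 * w.1 ^ 24 * w.2 ^ 5 + 200100 * w.1 ^ 19 * w.2 ^ 10 +
    100050 * w.1 ^ 9 * w.2 ^ 20 - 2610 * w.1 ^ 4 * w.2 ^ 25

/-- `∂C6/∂v`. -/
def C6v (w : K × K) : K :=
  2610 * w.1 ^ 25 * w.2 ^ 4 + 100050 * w.1 ^ 20 * w.2 ^ 9 +
    200100 * w.1 ^ 10 * w.2 ^ 19 - 13050 * w.1 ^ 5 * w.2 ^ 24 - 30 * w.2 ^ 29

/-- The Jacobian of `(C4, C6)` is `86400 F12⁴`. -/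
lemma jac_eq (w : K × K) : C4u w * C6v w - C4v w * C6u w = 86400 * F12 w ^ 4 := by
  simp only [C4u, C4v, C6u, C6v, F12]; ring

/-- Numerals in the dual numbers have no infinitesimal part. -/
lemma cast_num (n : ℕ) [n.AtLeastTwo] :
    (OfNat.ofNat n : DualNumber K) = TrivSqZeroExt.inl (OfNat.ofNat n : K) :=
  (map_ofNat (TrivSqZeroExt.inlHom K K) n).symm

/-- The first order term of `C4` is given by `C4u` and `C4v`. -/
lemma snd_C4 (v a : K × K) :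
    TrivSqZeroExt.snd (C4
      ((TrivSqZeroExt.inl v.1 + TrivSqZeroExt.inr a.1 : DualNumber K),
       (TrivSqZeroExt.inl v.2 + TrivSqZeroExt.inr a.2 : DualNumber K))) =
      C4u v * a.1 + C4v v * a.2 := by
  simp only [C4, C4u, C4v, cast_num]
  simp [TrivSqZeroExt.snd_pow]
  ring

/-- The first order term of `C6` is given by `C6u` and `C6v`. -/
lemma snd_C6 (v a : K × K) :
    TrivSqZeroExt.snd (C6
      ((TrivSqZeroExt.inl v.1 + TrivSqZeroExt.inr a.1 : DualNumber K),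
       (TrivSqZeroExt.inl v.2 + TrivSqZeroExt.inr a.2 : DualNumber K))) =
      C6u v * a.1 + C6v v * a.2 := by
  simp only [C6, C6u, C6v, cast_num]
  simp [TrivSqZeroExt.snd_pow]
  ring

/-- At a regular parameter a displacement killing both first order terms is zero. -/
lemma jac_zero [CharZero K] (v a : K × K) (hv : C4 v ^ 3 ≠ C6 v ^ 2)
    (h4 : C4u v * a.1 + C4v v * a.2 = 0) (h6 : C6u v * a.1 + C6v v * a.2 = 0) : a = 0 := by
  have hF : F12 v ≠ 0 := fun h => hv (sub_eq_zero.mp (by rw [disc_eq, h]; ring))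
  have hJ : C4u v * C6v v - C4v v * C6u v ≠ 0 := by
    rw [jac_eq]; exact mul_ne_zero (by norm_num) (pow_ne_zero _ hF)
  refine Prod.ext ?_ ?_
  · exact (mul_eq_zero.mp (show (C4u v * C6v v - C4v v * C6u v) * a.1 = 0 by
      linear_combination C6v v * h4 - C4v v * h6)).resolve_left hJ
  · exact (mul_eq_zero.mp (show (C4u v * C6v v - C4v v * C6u v) * a.2 = 0 by
      linear_combination C4u v * h6 - C6u v * h4)).resolve_left hJ

end Partial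

end Fermat.SW.Five
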