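import Fermat.Agent.SW.Target
import Fermat.Agent.SW.Fam5Def
import Fermat.Agent.FLAT.Tame

/-!
# Scaling at the primes where the torsion is unramified

The main result is `exists_scale_of_unramified`.
-/

set_option autoImplicit false

noncomputable section

open WeierstrassCurve WeierstrassCurve.Affine Fermat.EC.Val
open scoped WeierstrassCurve.Affine

namespace Fermat.SW

local notation "ℚbar" => AlgebraicClosure ℚ

variable {A : ValuationSubring ℚbar} {q : ℕ}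

/-- A pair of inertia invariants scales to a primitive pair. -/
lemma exists_primitive_scale {B : ValuationSubring ℚbar} (h : IsPlace B q)
    {x y : ℚbar} (hy0 : y ≠ 0) (hx : ∀ ι ∈ B.inertiaSubgroupIn ℚ, ι x = x)
    (hy : ∀ ι ∈ B.inertiaSubgroupIn ℚ, ι y = y) :
    ∃ m : ℤ, Ge B q ((q : ℚbar) ^ (-m) * x) 0 ∧ Ge B q ((q : ℚbar) ^ (-m) * y) 0 ∧
      ¬ (Gt B q ((q : ℚbar) ^ (-m) * x) 0 ∧ Gt B q ((q : ℚbar) ^ (-m) * y) 0) := by
  have hint : ∀ z : ℚbar, (∀ ι ∈ B.inertiaSubgroupIn ℚ, ι z = z) → z = 0 ∨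
      ∃ k : ℤ, Is B q z (k : ℚ) := fun z hz => by
    rcases eq_or_ne z 0 with e | e
    · exact Or.inl e
    · have := Fact.mk h.1
      obtain ⟨k, hk⟩ := Fermat.FLAT.exists_int_ord h e hz
      exact Or.inr ⟨k, e, hk⟩
  obtain ⟨m, hm1, hm2, hm⟩ : ∃ m : ℤ, Ge B q x (m : ℚ) ∧ Ge B q y (m : ℚ) ∧
      ¬ (Gt B q x (m : ℚ) ∧ Gt B q y (m : ℚ)) := by
    obtain ⟨kd, hkd⟩ := (hint y hy).resolve_left hy0
    rcases hint x hx with e | ⟨kn, hkn⟩
    · exact ⟨kd, Or.inl e, hkd.ge, fun g => hkd.not_gt g.2⟩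
    · refine ⟨min kn kd, hkn.ge.mono (by exact_mod_cast min_le_left _ _),
        hkd.ge.mono (by exact_mod_cast min_le_right _ _), fun g => ?_⟩
      rcases min_choice kn kd with e | e <;> rw [e] at g
      exacts [hkn.not_gt g.1, hkd.not_gt g.2]
  set t : ℚbar := (q : ℚbar) ^ (-m) with ht
  have htI : Is B q t ((-m : ℤ) : ℚ) :=
    ⟨zpow_ne_zero _ (Nat.cast_ne_zero.mpr h.1.ne_zero), by rw [ht, ord_zpow h, ord_q h, mul_one]⟩
  have hback : ∀ {z : ℚbar}, Gt B q (t * z) 0 → Gt B q z (m : ℚ) := fun {z} hz => by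
    have := hz.div h htI
    rw [mul_div_cancel_left₀ _ htI.1] at this
    simpa using this
  exact ⟨m, (htI.ge.mul h hm1).mono (by simp), (htI.ge.mul h hm2).mono (by simp),
    fun g => hm ⟨hback g.1, hback g.2⟩⟩

/-- Unit test: either the quartic or the discriminant form is a unit. -/
lemma not_both_gt (h : IsPlace A q) (hq : 5 < q) {n d : ℚbar} (hn : Ge A q n 0) (hd : Ge A q d 0)
    (hunit : ¬ (Gt A q n 0 ∧ Gt A q d 0))
    (h4 : Gt A q (d ^ 4 + 12 * n * d ^ 3 + 14 * n ^ 2 * d ^ 2 - 12 * n ^ 3 * d + n ^ 4) 0) :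
    ¬ Gt A q (1728 * (n * d) ^ 5 * (n ^ 2 - 11 * n * d - d ^ 2)) 0 := by
  set C := d ^ 4 + 12 * n * d ^ 3 + 14 * n ^ 2 * d ^ 2 - 12 * n ^ 3 * d + n ^ 4
  -- `C = d⁴ + n (…) = n⁴ + d (…)`, so `n` and `d` are units
  have hne : ¬ Gt A q n 0 := by
    intro hg
    have hdI : Is A q d 0 := hd.is_of_not_gt fun hd' => hunit ⟨hg, hd'⟩
    have h4' : Is A q (d ^ 4) 0 := by simpa using hdI.pow h 4
    have r : Gt A q (n * (12 * d ^ 3 + 14 * n * d ^ 2 - 12 * n ^ 2 * d + n ^ 3)) 0 := by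
      have : Ge A q (12 * d ^ 3 + 14 * n * d ^ 2 - 12 * n ^ 2 * d + n ^ 3) 0 := by
        rw [← mem_iff_ge h]
        have a := (mem_iff_ge h n).mpr hn
        have b := (mem_iff_ge h d).mpr hd
        exact add_mem (sub_mem (add_mem (mul_mem (natCast_mem A 12) (pow_mem b 3))
          (mul_mem (mul_mem (natCast_mem A 14) a) (pow_mem b 2)))
          (mul_mem (mul_mem (natCast_mem A 12) (pow_mem a 2)) b)) (pow_mem a 3)
      simpa using hg.mul_ge h this
    have := h4'.add h r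
    rw [show d ^ 4 + n * (12 * d ^ 3 + 14 * n * d ^ 2 - 12 * n ^ 2 * d + n ^ 3) = C by
      simp only [C]; ring] at this
    exact this.not_gt h4
  have hde : ¬ Gt A q d 0 := by
    intro hg
    have hnI : Is A q n 0 := hn.is_of_not_gt hne
    have h4' : Is A q (n ^ 4) 0 := by simpa using hnI.pow h 4
    have r : Gt A q (d * (d ^ 3 + 12 * n * d ^ 2 + 14 * n ^ 2 * d - 12 * n ^ 3)) 0 := by
      have : Ge A q (d ^ 3 + 12 * n * d ^ 2 + 14 * n ^ 2 * d - 12 * n ^ 3) 0 := by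
        rw [← mem_iff_ge h]
        have a := (mem_iff_ge h n).mpr hn
        have b := (mem_iff_ge h d).mpr hd
        exact sub_mem (add_mem (add_mem (pow_mem b 3)
          (mul_mem (mul_mem (natCast_mem A 12) a) (pow_mem b 2)))
          (mul_mem (mul_mem (natCast_mem A 14) (pow_mem a 2)) b))
          (mul_mem (natCast_mem A 12) (pow_mem a 3))
      simpa using hg.mul_ge h this
    have := h4'.add h r
    rw [show n ^ 4 + d * (d ^ 3 + 12 * n * d ^ 2 + 14 * n ^ 2 * d - 12 * n ^ 3) = C by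
      simp only [C]; ring] at this
    exact this.not_gt h4
  have hndI : Is A q (n * d) 0 := by simpa using (hn.is_of_not_gt hne).mul h (hd.is_of_not_gt hde)
  -- and `C = 5 (n d)² + (n² - 11 n d - d²)(n² - n d - d²)`, so the discriminant is one
  intro hΔ
  have h5 : Is A q ((5 : ℕ) * (n * d) ^ 2) 0 := by
    have := (is_natCast (L := ℚbar) h (a := 5) fun hdv =>
      hq.ne' ((Nat.prime_dvd_prime_iff_eq h.1 Nat.prime_five).mp hdv)).mul h (hndI.pow h 2)
    simpa using this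
  by_cases hf : Gt A q (n ^ 2 - 11 * n * d - d ^ 2) 0
  · have hg : Ge A q (n ^ 2 - n * d - d ^ 2) 0 := by
      rw [← mem_iff_ge h]
      have a := (mem_iff_ge h n).mpr hn
      have b := (mem_iff_ge h d).mpr hd
      exact sub_mem (sub_mem (pow_mem a 2) (mul_mem a b)) (pow_mem b 2)
    have r : Gt A q ((n ^ 2 - 11 * n * d - d ^ 2) * (n ^ 2 - n * d - d ^ 2)) 0 := by
      simpa using hf.mul_ge h hg
    have := h5.add h r
    rw [show ((5 : ℕ) : ℚbar) * (n * d) ^ 2 + (n ^ 2 - 11 * n * d - d ^ 2) *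
      (n ^ 2 - n * d - d ^ 2) =
      C by simp only [C]; push_cast; ring] at this
    exact this.not_gt h4
  · have hfI : Is A q (n ^ 2 - 11 * n * d - d ^ 2) 0 := by
      refine Ge.is_of_not_gt ?_ hf
      rw [← mem_iff_ge h]
      have a := (mem_iff_ge h n).mpr hn
      have b := (mem_iff_ge h d).mpr hd
      exact sub_mem (sub_mem (pow_mem a 2) (mul_mem (mul_mem (natCast_mem A 11) a) b)) (pow_mem b 2)
    have hc : Is A q ((1728 : ℕ) : ℚbar) 0 := is_natCast h fun hdv => by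
      have h23 : q ∣ 2 ^ 6 * 3 ^ 3 := hdv
      rcases h.1.dvd_mul.mp h23 with h2 | h3
      · have := (Nat.prime_dvd_prime_iff_eq h.1 Nat.prime_two).mp (h.1.dvd_of_dvd_pow h2); omega
      · have := (Nat.prime_dvd_prime_iff_eq h.1 Nat.prime_three).mp (h.1.dvd_of_dvd_pow h3); omega
    have := ((hc.mul h (hndI.pow h 5)).mul h hfI)
    simp only [Nat.cast_ofNat, mul_zero, add_zero] at this
    exact this.not_gt hΔ

/-- An automorphism fixing `C₄` and the coordinates of the `5`-torsion point at `u` fixes `N` and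
`D`. -/
theorem fixes_N_D {u : ℚbar × ℚbar} {ι : ℚbar ≃ₐ[ℚ] ℚbar} (hY : Five.Y5 u ≠ 0) (hN0 : Five.N5 u ≠ 0)
    (hD0 : Five.D5 u ≠ 0) (hc : ι (Five.C4 u) = Five.C4 u) (hX : ι (Five.X5 u) = Five.X5 u)
    (hY' : ι (Five.Y5 u) = Five.Y5 u) : ι (Five.N5 u) = Five.N5 u ∧ ι (Five.D5 u) = Five.D5 u := by
  have hs := Five.slope_eq u
  have hsι := congrArg ι hs
  simp only [map_mul, map_sub, map_ofNat, map_pow, hY', hX, hc] at hsι
  have e1 : ι (Five.D5 u) - ι (Five.N5 u) = Five.D5 u - Five.N5 u := by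
    refine mul_left_cancel₀ (mul_ne_zero (mul_ne_zero two_ne_zero hY) (three_ne_zero' ℚbar)) ?_
    linear_combination hsι - hs
  have e2 : ι (Five.N5 u) * ι (Five.D5 u) = Five.N5 u * Five.D5 u := by
    simp only [Five.X5, map_mul, map_ofNat, map_add, map_sub, map_pow] at hX
    linear_combination (-1 / 12 : ℚbar) * hX +
      (1 / 4 : ℚbar) * (ι (Five.D5 u) - ι (Five.N5 u) + Five.D5 u - Five.N5 u) * e1
  have e3 : ι (Five.D5 u) = Five.D5 u := by
    simp only [Five.Y5, map_mul, map_neg, map_ofNat, map_pow] at hY'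
    have e : (Five.N5 u * Five.D5 u) * (ι (Five.D5 u) - Five.D5 u) = 0 := by
      linear_combination (-1 / 108 : ℚbar) * hY' - ι (Five.D5 u) * e2
    exact sub_eq_zero.mp ((mul_eq_zero.mp e).resolve_left (mul_ne_zero hN0 hD0))
  exact ⟨by linear_combination e3 - e1, e3⟩

/-- **Semistable scaling** of a short curve with unramified `5`-torsion. -/
theorem exists_scale_of_unramified (h : IsPlace A q) (hq : 5 < q) {ζ : ℚbar}
    (hζ : IsPrimitiveRoot ζ 5) {a b : ℚ} (hab : a ^ 3 ≠ b ^ 2)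
    (hunr : ∀ ι ∈ A.inertiaSubgroupIn ℚ, ∀ x : TorQ a b 5, ι • x = x) :
    ∃ k : ℤ, Ge A q (algebraMap ℚ ℚbar (a * (q : ℚ) ^ (4 * k))) 0 ∧
      Ge A q (algebraMap ℚ ℚbar (b * (q : ℚ) ^ (6 * k))) 0 ∧
      ¬ (Gt A q (algebraMap ℚ ℚbar (a * (q : ℚ) ^ (4 * k))) 0 ∧
        Gt A q (algebraMap ℚ ℚbar ((a ^ 3 - b ^ 2) * (q : ℚ) ^ (12 * k))) 0) := by
  classical
  have : Fact (Nat.Prime 5) := ⟨Nat.prime_five⟩
  -- a parameter of the curve; the marked point is unramified, hence so are `N` and `D`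
  obtain ⟨u, hu4, hu6⟩ := (Five.fam5 hζ).exists_value (algebraMap ℚ ℚbar a) (algebraMap ℚ ℚbar b)
    (Fam.pow_ne hab)
  change Five.C4 u = _ at hu4
  change Five.C6 u = _ at hu6
  have hreg : Five.C4 u ^ 3 ≠ Five.C6 u ^ 2 := by rw [hu4, hu6]; exact Fam.pow_ne hab
  obtain ⟨hN0, hD0⟩ := Five.N_ne_of_reg hreg
  have hY : Five.Y5 u ≠ 0 := by
    simp [Five.Y5, hN0, hD0]
  have heq : ((shortCurve a b)⁄ℚbar).Equation (Five.X5 u) (Five.Y5 u) := by
    have := Five.equation5 u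
    rw [hu4, hu6, curveQ_eq] at this
    exact this
  have hns : ((shortCurve a b)⁄ℚbar).Nonsingular (Five.X5 u) (Five.Y5 u) := by
    rw [← curveQ_eq] at heq ⊢
    exact (Affine.equation_iff_nonsingular_of_Δ_ne_zero (Fam.delta_ne_zero (Fam.pow_ne hab))).mp heq
  have hmem : (Affine.Point.some _ _ hns) ∈ TorQ a b 5 := by
    rw [Submodule.mem_torsionBy_iff]
    have key : ∀ (V : Affine ℚbar) (e : shortCurve (Five.C4 u) (Five.C6 u) = V)
        (hn : V.Nonsingular (Five.X5 u) (Five.Y5 u)),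
        ((5 : ℕ) : ℤ) • Affine.Point.some _ _ hn = 0 := by
      intro V e hn
      subst e
      exact Five.torsion5 u hn hreg
    exact key _ (by rw [hu4, hu6, curveQ_eq]) hns
  have hfix : ∀ ι ∈ A.inertiaSubgroupIn ℚ,
      ι (Five.N5 u) = Five.N5 u ∧ ι (Five.D5 u) = Five.D5 u := by
    intro ι hι
    have h1 := congrArg Subtype.val (hunr ι hι ⟨_, hmem⟩)
    change ι • (Affine.Point.some _ _ hns : ((shortCurve a b)⁄ℚbar).Point) = _ at h1
    rw [Affine.Point.algEquiv_smul_def, Affine.Point.map_some, Affine.Point.some.injEq] at h1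
    obtain ⟨hX, hY'⟩ := h1
    change ι (Five.X5 u) = Five.X5 u at hX
    change ι (Five.Y5 u) = Five.Y5 u at hY'
    have hc : ι (Five.C4 u) = Five.C4 u := by rw [hu4, AlgEquiv.commutes]
    exact fixes_N_D hY hN0 hD0 hc hX hY'
  -- scale so that `N` and `D` are integral and not both small
  obtain ⟨m, hn0, hd0, hunit⟩ := exists_primitive_scale h hD0
    (fun ι hι => (hfix ι hι).1) fun ι hι => (hfix ι hι).2
  set t : ℚbar := (q : ℚbar) ^ (-m) with ht
  set n := t * Five.N5 u with hn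
  set d := t * Five.D5 u with hd
  have hz : ∀ (e : ℕ), algebraMap ℚ ℚbar ((q : ℚ) ^ ((e : ℤ) * -m)) = t ^ e := fun e => by
    rw [map_zpow₀, map_natCast, ht, ← zpow_natCast, ← zpow_mul, mul_comm]
  have e4 : algebraMap ℚ ℚbar (a * (q : ℚ) ^ (4 * -m)) =
      d ^ 4 + 12 * n * d ^ 3 + 14 * n ^ 2 * d ^ 2 - 12 * n ^ 3 * d + n ^ 4 := by
    rw [map_mul, show (4 : ℤ) = ((4 : ℕ) : ℤ) from rfl, hz, ← hu4, Five.C4_eq, hn, hd]; ring
  have e6 : algebraMap ℚ ℚbar (b * (q : ℚ) ^ (6 * -m)) =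
      -(d ^ 6 + 18 * n * d ^ 5 + 75 * n ^ 2 * d ^ 4 + 75 * n ^ 4 * d ^ 2 - 18 * n ^ 5 *
        d + n ^ 6) := by
    rw [map_mul, show (6 : ℤ) = ((6 : ℕ) : ℤ) from rfl, hz, ← hu6, Five.C6_eq, hn, hd]; ring
  have e12 : algebraMap ℚ ℚbar ((a ^ 3 - b ^ 2) * (q : ℚ) ^ (12 * -m)) =
      1728 * (n * d) ^ 5 * (n ^ 2 - 11 * n * d - d ^ 2) := by
    rw [map_mul, show (12 : ℤ) = ((12 : ℕ) : ℤ) from rfl, hz, map_sub, map_pow,
      map_pow, ← hu4, ← hu6, Five.disc_eq', hn, hd]; ring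
  have an := (mem_iff_ge h n).mpr hn0
  have bd := (mem_iff_ge h d).mpr hd0
  have cst : ∀ c : ℕ, ((c : ℕ) : ℚbar) ∈ A := natCast_mem A
  -- then `c₄`, `c₆` are integral, and `c₄`, `Δ` are not both small
  refine ⟨-m, ?_, ?_, ?_⟩
  · rw [e4, ← mem_iff_ge h]
    exact add_mem (sub_mem (add_mem (add_mem (pow_mem bd 4)
      (mul_mem (mul_mem (cst 12) an) (pow_mem bd 3)))
      (mul_mem (mul_mem (cst 14) (pow_mem an 2)) (pow_mem bd 2)))
      (mul_mem (mul_mem (cst 12) (pow_mem an 3)) bd)) (pow_mem an 4)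
  · rw [e6, ← mem_iff_ge h]
    exact neg_mem (add_mem (sub_mem (add_mem (add_mem (add_mem (pow_mem bd 6)
      (mul_mem (mul_mem (cst 18) an) (pow_mem bd 5)))
      (mul_mem (mul_mem (cst 75) (pow_mem an 2)) (pow_mem bd 4)))
      (mul_mem (mul_mem (cst 75) (pow_mem an 4)) (pow_mem bd 2)))
      (mul_mem (mul_mem (cst 18) (pow_mem an 5)) bd)) (pow_mem an 6))
  · rw [e4, e12]
    exact fun hh => not_both_gt h hq hn0 hd0 hunit hh.1 hh.2

end Fermat.SW
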