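import Fermat.Agent.SW.Cube
import Fermat.Agent.SW.AuxPrime
import Fermat.Agent.HT.Mazur.Basic

/-!
# Split three-torsion at three

The main result is `exists_split`, a basis with `SplitData`.
-/

set_option autoImplicit false

noncomputable section

open WeierstrassCurve WeierstrassCurve.Affine Fermat.EC Fermat.EC.Val Fermat.EC.Red Fermat.CFT
open scoped Pointwise

namespace Fermat.SW

local notation "ℚbar" => AlgebraicClosure ℚ
local notation "Γℚ" => (AlgebraicClosure ℚ ≃ₐ[ℚ] AlgebraicClosure ℚ)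

/-! ### Linear algebra in dimension two -/

/-- The determinant of a triangular endomorphism. -/
lemma det_of_triangular {k V : Type*} [Field k] [AddCommGroup V] [Module k V]
    (h2 : Module.finrank k V = 2) {P x : V} (hP : P ≠ 0) (hx : ∀ c : k, x ≠ c • P) (L : V →ₗ[k] V)
    {c s a : k} (hLP : L P = c • P) (hLx : L x = s • x + a • P) : LinearMap.det L = c * s := by
  classical
  have hli : LinearIndependent k ![P, x] :=
    (LinearIndependent.pair_iff' hP).mpr fun t e => hx t e.symm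
  let B : Module.Basis (Fin 2) k V :=
    basisOfLinearIndependentOfCardEqFinrank hli (by rw [Fintype.card_fin, h2])
  have hB : (B : Fin 2 → V) = ![P, x] := coe_basisOfLinearIndependentOfCardEqFinrank hli _
  have r0 : B.repr P = Finsupp.single 0 1 := by
    rw [← B.repr_self 0]; simp [hB]
  have r1 : B.repr x = Finsupp.single 1 1 := by
    rw [← B.repr_self 1]; simp [hB]
  rw [← LinearMap.det_toMatrix B L, Matrix.det_fin_two]
  simp [LinearMap.toMatrix_apply, hB, hLP, hLx, r0, r1]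

/-- Coordinates along two independent vectors of a plane. -/
lemma exists_coords {k V : Type*} [Field k] [AddCommGroup V] [Module k V]
    (h2 : Module.finrank k V = 2) {P x : V} (hP : P ≠ 0) (hx : ∀ c : k, x ≠ c • P) (y : V) :
    ∃ a b : k, y = a • P + b • x := by
  classical
  have hli : LinearIndependent k ![P, x] :=
    (LinearIndependent.pair_iff' hP).mpr fun t e => hx t e.symm
  let B : Module.Basis (Fin 2) k V :=
    basisOfLinearIndependentOfCardEqFinrank hli (by rw [Fintype.card_fin, h2])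
  have hB : (B : Fin 2 → V) = ![P, x] := coe_basisOfLinearIndependentOfCardEqFinrank hli _
  refine ⟨B.repr y 0, B.repr y 1, ?_⟩
  conv_lhs => rw [← B.sum_repr y]
  simp [Fin.sum_univ_two, hB]

variable {A : ValuationSubring ℚbar} {W : WeierstrassCurve ℤ}

/-- The Galois representation on torsion is the action. -/
lemma rep_apply (p : ℕ) (σ : Γℚ) (x : TorW (modQ W) p) :
    Point.galoisRepModuleEnd (K := ℚbar) ℚ (modQ W).toAffine p σ x = σ • x :=
  Point.galoisRepModuleEnd_apply _ _ _ _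

/-- Galois commutes with scalars on the torsion. -/
lemma tor_smul_zsmul (p : ℕ) (σ : Γℚ) (c : ZMod p) (x : TorW (modQ W) p) :
    σ • (c • x) = c • (σ • x) :=
  map_smul (Point.galoisRepModuleEnd (K := ℚbar) ℚ (modQ W).toAffine p σ) c x

/-- A scalar multiple is the multiple by a representative. -/
lemma coe_smul_val (p : ℕ) [NeZero p] (c : ZMod p) (x : TorW (modQ W) p) :
    ((c • x : TorW (modQ W) p) : (overQbar W).Point) = c.val • (x : (overQbar W).Point) := by
  conv_lhs => rw [← ZMod.natCast_zmod_val c]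
  rw [Nat.cast_smul_eq_nsmul, Submodule.coe_smul_of_tower]

/-- Three-torsion points are killed by `3`. -/
lemma three_smul_coe (x : TorW (modQ W) 3) : 3 • (x : (overQbar W).Point) = 0 := by
  rw [← natCast_zsmul]; exact (Submodule.mem_torsionBy_iff _ _).mp x.2

/-- Multiples of points in the kernel of reduction stay there. -/
lemma inE1_smul_val (h : IsPlace A 3) {x : TorW (modQ W) 3} (hx : InE1 A 3 (x : (overQbar W).Point))
    (c : ZMod 3) : InE1 A 3 ((c • x : TorW (modQ W) 3) : (overQbar W).Point) := by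
  rw [coe_smul_val]
  exact Fermat.EC.Dichotomy.inE1_nsmul h (integralAt_overQbar W h) hx _

/-- A root of the third division polynomial gives a point of order three. -/
lemma exists_point_of_root (hΔ : W.Δ ≠ 0) {x : ℚbar}
    (hx : (overQbar W : WeierstrassCurve ℚbar).Ψ₃.eval x = 0) :
    ∃ P : TorW (modQ W) 3, P ≠ 0 ∧
      ∃ y hns, (P : (overQbar W).Point) = .some x y hns := by
  obtain ⟨y, hy⟩ := exists_equation (overQbar W) x
  have hΔ' := Fermat.EC.Line.Δ_overQbar_ne hΔ
  have hns := (equation_iff_nonsingular_of_Δ_ne_zero hΔ').mp hy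
  have hg : GoodUpTo (overQbar W) x y (3 - 1) := by
    intro k h1 h2
    interval_cases k
    · rw [Nat.cast_one, wv_one]; exact one_ne_zero
    · rw [show ((2 : ℕ) : ℤ) = 2 from rfl, wv_two]
      intro h0
      refine Ψ₃_ne_zero_of_Ψ₂Sq_eq_zero hΔ' (x := x) ?_ hx
      have hsq : psiY (overQbar W) x y ^ 2 = quadF (overQbar W) x := psiY_sq _ hy
      rw [← quadF_eq_eval, ← hsq, h0]
      ring
  have h3 : 3 • Point.some x y hns = 0 :=
    smul_eq_zero_of_first_zero hns (by norm_num) hg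
      (by rw [show ((3 : ℕ) : ℤ) = 3 from rfl, wv_three]; exact hx)
  refine ⟨⟨Point.some x y hns, ?_⟩, ?_, ⟨y, hns, rfl⟩⟩
  · rw [Submodule.mem_torsionBy_iff, natCast_zsmul]; exact h3
  · exact fun e => Point.some_ne_zero hns (congrArg Subtype.val e)

/-- Sums of negative orders are negative. -/
lemma ord_prod_neg (h : IsPlace A 3) : ∀ s : List ℚbar, (∀ y ∈ s, ¬ Ge A 3 y 0) →
    s.prod ≠ 0 ∧ ord A 3 s.prod ≤ 0 ∧ (s ≠ [] → ord A 3 s.prod < 0)
  | [], _ => by simp [ord_one h]
  | y :: s, hs => by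
    obtain ⟨n, hle, -⟩ := ord_prod_neg h s fun z hz => hs z (List.mem_cons_of_mem _ hz)
    have hy := hs y List.mem_cons_self
    rw [Ge, not_or, not_le] at hy
    rw [List.prod_cons]
    refine ⟨mul_ne_zero hy.1 n, ?_, fun _ => ?_⟩ <;> rw [ord_mul h hy.1 n] <;> linarith [hy.2]

/-! ### The split basis -/

/-- At an ordinary or multiplicative place over three, the `3`-division polynomial has both a
non-integral and an integral root. -/
theorem exists_roots (h : IsPlace A 3) (hb2 : ¬ (3 : ℤ) ∣ W.b₂) :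
    (∃ x, (overQbar W : WeierstrassCurve ℚbar).Ψ₃.eval x = 0 ∧ ¬ Ge A 3 x 0) ∧
    ∃ x, (overQbar W : WeierstrassCurve ℚbar).Ψ₃.eval x = 0 ∧ Ge A 3 x 0 := by
  classical
  set V : WeierstrassCurve ℚbar := overQbar W
  have h30 : (3 : ℚbar) ≠ 0 := by norm_num
  have h3i : Is A 3 (3 : ℚbar) 1 := ⟨h30, by exact_mod_cast ord_q (L := ℚbar) h⟩
  have hs : V.Ψ₃.Splits := IsAlgClosed.splits _
  have hd : V.Ψ₃.natDegree = 4 := V.natDegree_Ψ₃ h30
  have hlc : V.Ψ₃.leadingCoeff = 3 := V.leadingCoeff_Ψ₃ h30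
  set R := V.Ψ₃.roots with hR
  have hcard : R.card = 4 := by rw [hR, ← hs.natDegree_eq_card_roots, hd]
  have hroot : ∀ x ∈ R, V.Ψ₃.eval x = 0 := fun x hx => Polynomial.isRoot_of_mem_roots hx
  -- sum and product
  have hb2c : V.b₂ = (W.b₂ : ℚbar) := by
    change ((W.map (Int.castRingHom ℚ)).map (algebraMap ℚ ℚbar)).b₂ = _
    rw [map_b₂, map_b₂]; simp
  have hb8c : V.b₈ = (W.b₈ : ℚbar) := by
    change ((W.map (Int.castRingHom ℚ)).map (algebraMap ℚ ℚbar)).b₈ = _
    rw [map_b₈, map_b₈]; simp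
  have hsum : (3 : ℚbar) * R.sum = -(W.b₂ : ℚbar) := by
    have e := hs.nextCoeff_eq_neg_sum_roots_mul_leadingCoeff
    rw [Polynomial.nextCoeff, hd, if_neg (by norm_num), hlc] at e
    have e3 : V.Ψ₃.coeff 3 = V.b₂ := by simp [WeierstrassCurve.Ψ₃, Polynomial.coeff_X_pow,
        ← Polynomial.C_ofNat, ← map_mul]
    rw [e3, hb2c] at e
    rw [hR]; linear_combination e
  have hprod : (3 : ℚbar) * R.prod = (W.b₈ : ℚbar) := by
    have e := hs.coeff_zero_eq_leadingCoeff_mul_prod_roots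
    have e0 : V.Ψ₃.coeff 0 = V.b₈ := by simp [WeierstrassCurve.Ψ₃]
    rw [hd, hlc, e0, hb8c] at e
    rw [hR]; linear_combination (-1 : ℚbar) * e
  obtain ⟨x0, hx0, hlow⟩ : ∃ x ∈ R, ¬ Gt A 3 x (-1) := by
    by_contra hall
    push Not at hall
    have hgt : ∀ s : List ℚbar, (∀ y ∈ s, Gt A 3 y (-1)) → Gt A 3 s.sum (-1) := by
      intro s hs'
      induction s with
      | nil => exact Or.inl rfl
      | cons y s ih =>
        rw [List.sum_cons]
        exact (hs' y List.mem_cons_self).add h (ih fun z hz => hs' z (List.mem_cons_of_mem _ hz))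
    have hg := hgt R.toList fun y hy => hall y (Multiset.mem_toList.mp hy)
    rw [Multiset.sum_toList] at hg
    have := h3i.ge.mul_gt h hg
    rw [hsum, show (1 : ℚ) + -1 = 0 by norm_num] at this
    exact ((is_intCast (A := A) h hb2).neg h).not_gt this
  have hx0' : ¬ Ge A 3 x0 0 := fun e => hlow (e.gt (by norm_num))
  refine ⟨⟨x0, hroot x0 hx0, hx0'⟩, ?_⟩
  by_contra hall
  push Not at hall
  obtain ⟨S, hS⟩ := Multiset.exists_cons_of_mem hx0
  obtain ⟨n, -, hlt⟩ := ord_prod_neg h S.toList fun y hy =>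
    hall y (hroot y (hS ▸ Multiset.mem_cons_of_mem (Multiset.mem_toList.mp hy)))
  have hS3 : S.toList ≠ [] := fun e => by
    have := congrArg Multiset.card hS
    rw [hcard, Multiset.card_cons, ← Multiset.length_toList, e] at this
    simp at this
  have hlt' := hlt hS3
  rw [Gt, not_or, not_lt] at hlow
  rw [hS, Multiset.prod_cons, ← Multiset.prod_toList] at hprod
  rcases ge_intCast (A := A) h W.b₈ with e | e <;> rw [← hprod] at e
  · exact mul_ne_zero h30 (mul_ne_zero hlow.1 n) e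
  · rw [ord_mul h h30 (mul_ne_zero hlow.1 n), ord_mul h hlow.1 n, h3i.2] at e
    linarith [hlow.2]

/-- If `3 ∤ b₂`, the kernel of reduction at three meets the three-torsion in a line. -/
theorem exists_line (h : IsPlace A 3) (hΔ : W.Δ ≠ 0) (hb2 : ¬ (3 : ℤ) ∣ W.b₂) :
    ∃ P : TorW (modQ W) 3, P ≠ 0 ∧ InE1 A 3 (P : (overQbar W).Point) ∧
      ∀ x : TorW (modQ W) 3, InE1 A 3 (x : (overQbar W).Point) → ∃ c : ZMod 3, x = c • P := by
  obtain ⟨⟨x0, hx0, hn0⟩, x1, hx1, hg1⟩ := exists_roots h hb2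
  obtain ⟨P, hP0, y0, hns0, eP⟩ := exists_point_of_root hΔ hx0
  obtain ⟨Q, -, y1, hns1, eQ⟩ := exists_point_of_root hΔ hx1
  have hPE : InE1 A 3 (P : (overQbar W).Point) := by rw [eP]; exact hn0
  refine ⟨P, hP0, hPE, fun x hx => ?_⟩
  by_contra hno
  push Not at hno
  obtain ⟨a, b, e⟩ := exists_coords (FR.finrank_torsion W (p := 3) hΔ).1 hP0 hno Q
  have : InE1 A 3 (Q : (overQbar W).Point) := by
    rw [e, Submodule.coe_add]
    exact InE1.add h (integralAt_overQbar W h) (inE1_smul_val h hPE a) (inE1_smul_val h hx b)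
  rw [eQ] at this
  exact this hg1

/-- If `3 ∤ b₂` then `3 ∤ c₄`. -/
lemma not_dvd_c4 (hb2 : ¬ (3 : ℤ) ∣ W.b₂) : ¬ (3 : ℤ) ∣ W.c₄ := by
  intro hd
  rw [WeierstrassCurve.c₄] at hd
  have : (3 : ℤ) ∣ W.b₂ ^ 2 := by
    have h24 : (3 : ℤ) ∣ 24 * W.b₄ := ⟨8 * W.b₄, by ring⟩
    have := dvd_add hd h24
    rwa [sub_add_cancel] at this
  exact hb2 (Int.prime_three.dvd_of_dvd_pow this)

/-- Inertia at three acts trivially on the quotient by the line. -/
theorem smul_sub_mem_line (h : IsPlace A 3) (hΔ : W.Δ ≠ 0) (hb2 : ¬ (3 : ℤ) ∣ W.b₂)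
    {σ : Γℚ} (hσ : σ ∈ A.inertiaSubgroupIn ℚ) (x : TorW (modQ W) 3) :
    InE1 A 3 ((σ • x - x : TorW (modQ W) 3) : (overQbar W).Point) := by
  have hi := isInert_of_mem_inertia hσ
  change InE1 A 3 (σ • (x : (overQbar W).Point) - (x : (overQbar W).Point))
  by_cases hx0 : InE0 A 3 (x : (overQbar W).Point)
  · exact smul_sub_inE1 W h hi hx0
  by_cases hR1 : InE1 A 3 (σ • (x : (overQbar W).Point) - (x : (overQbar W).Point))
  · exact hR1
  · exfalso
    have hR := smul_sub_inE0 W h hi hΔ (fun _ => not_dvd_c4 hb2) Nat.prime_three (by norm_num)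
      (three_smul_coe x)
    obtain ⟨P, hP0, hPE, hline⟩ := exists_line h hΔ hb2
    have hno : ∀ c : ZMod 3, (σ • x - x) ≠ c • P := fun c e => hR1 (by
      have := inE1_smul_val h hPE c
      rw [← e] at this
      exact this)
    obtain ⟨a, b, e⟩ := exists_coords (FR.finrank_torsion W (p := 3) hΔ).1 hP0 hno x
    apply hx0
    rw [e, Submodule.coe_add, coe_smul_val, coe_smul_val]
    exact InE0.add h (integralAt_overQbar W h)
      (InE1.inE0 (Fermat.EC.Dichotomy.inE1_nsmul h (integralAt_overQbar W h) hPE _))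
      (InE0.nsmul h (integralAt_overQbar W h) hR _)

/-- A basis of the three-torsion on which the decomposition group is diagonal. -/
structure SplitData (A : ValuationSubring ℚbar) (W : WeierstrassCurve ℤ)
    (P Q : TorW (modQ W) 3) : Prop where
  /-- The first vector is nonzero. -/
  ne : P ≠ 0
  /-- The second vector is not a multiple of the first. -/
  indep : ∀ c : ZMod 3, Q ≠ c • P
  /-- The first vector reduces to zero. -/
  kernel : InE1 A 3 (P : (overQbar W).Point)
  /-- The decomposition group acts on both lines, with product of characters cyclotomic. -/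
  decomp : ∀ σ ∈ A.decompositionSubgroup ℚ, ∃ c s : ZMod 3, σ • P = c • P ∧ σ • Q = s • Q ∧
    c * s = ((cycChar 3 σ : (ZMod 3)ˣ) : ZMod 3)
  /-- Inertia fixes the second vector. -/
  inertia : ∀ ι ∈ A.inertiaSubgroupIn ℚ, ι • Q = Q

/-- The decomposition group preserves the line. -/
lemma exists_smul_line (h : IsPlace A 3) {P : TorW (modQ W) 3}
    (hPE : InE1 A 3 (P : (overQbar W).Point))
    (hline : ∀ x : TorW (modQ W) 3, InE1 A 3 (x : (overQbar W).Point) → ∃ c : ZMod 3, x = c • P)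
    {σ : Γℚ} (hσ : σ ∈ A.decompositionSubgroup ℚ) : ∃ c : ZMod 3, σ • P = c • P :=
  hline _ (Fermat.HT.Mazur.inE1_smul_decomp h hσ hPE)

/-- **The split basis.** For a curve ordinary at three with cube discriminant the three-torsion has
a basis with `SplitData`. -/
theorem exists_split (h : IsPlace A 3) (hΔ : W.Δ ≠ 0) (hb2 : ¬ (3 : ℤ) ∣ W.b₂)
    (hcube : CubeAt A W) :
    ∃ P Q : TorW (modQ W) 3, SplitData A W P Q := by
  classical
  obtain ⟨δ, hδ, hδfix⟩ := hcube
  have h2 := (FR.finrank_torsion W (p := 3) hΔ).1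
  have : Module.Finite (ZMod 3) (TorW (modQ W) 3) := (FR.finrank_torsion W (p := 3) hΔ).2
  obtain ⟨P, hP0, hPE, hline⟩ := exists_line h hΔ hb2
  obtain ⟨x, hx⟩ : ∃ x : TorW (modQ W) 3, ∀ c : ZMod 3, x ≠ c • P := by
    by_contra hall
    push Not at hall
    have htop : Submodule.span (ZMod 3) {P} = ⊤ := eq_top_iff.mpr fun y _ => by
      obtain ⟨c, rfl⟩ := hall y
      exact Submodule.mem_span_singleton.mpr ⟨c, rfl⟩
    have := finrank_span_singleton (K := ZMod 3) hP0
    rw [htop, finrank_top, h2] at this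
    norm_num at this
  obtain ⟨ω, hω⟩ := exists_primitiveRoot_qbar (q := 3)
  obtain ⟨τ, hτ, hns⟩ := Fermat.FLAT.exists_cycChar_not_square (p := 3) h (by norm_num)
  have hτd := Fermat.FLAT.inertia_le_decomposition A hτ
  have hτchi : ((cycChar 3 τ : (ZMod 3)ˣ) : ZMod 3) = -1 := by
    rw [eq_neg_one_of_not_square _ hns]; simp
  have hdet : ∀ (σ : Γℚ) {y : TorW (modQ W) 3}, (∀ c : ZMod 3, y ≠ c • P) → ∀ {c s a : ZMod 3},
      σ • P = c • P → σ • y = s • y + a • P →
      c * s = ((cycChar 3 σ : (ZMod 3)ˣ) : ZMod 3) := by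
    intro σ y hy c s a e1 e2
    rw [← det_galoisRep_eq_cycChar W hΔ σ, det_of_triangular h2 hP0 hy _ (c := c) (s := s) (a := a)
      (by rw [rep_apply, e1]) (by rw [rep_apply, e2])]
  -- the eigenvector
  obtain ⟨a, ha⟩ := hline _ (smul_sub_mem_line h hΔ hb2 hτ x)
  have hτx : τ • x = x + a • P := by rw [← ha]; abel
  obtain ⟨cτ, hcτ⟩ := exists_smul_line h hPE hline hτd
  have hτP : τ • P = (-1 : ZMod 3) • P := by
    have := hdet τ hx hcτ (s := 1) (a := a) (by rw [one_smul]; exact hτx)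
    rw [mul_one, hτchi] at this
    rw [← this, hcτ]
  set Q := x - a • P with hQ
  have hQi : ∀ c : ZMod 3, Q ≠ c • P := fun c e => hx (c + a) (by
    rw [add_smul, ← e, hQ]; abel)
  have hτQ : τ • Q = Q := by
    have h3 : ∀ a : ZMod 3, a * -1 = a + a := by decide
    rw [hQ, smul_sub, tor_smul_zsmul, hτx, hτP, smul_smul, h3, add_smul]
    abel
  -- commutation with `τ`
  have hcomm : ∀ σ ∈ A.decompositionSubgroup ℚ,
      ∃ c : ZMod 3, σ • P = c • P ∧ τ • (σ • Q) = σ • Q := by
    intro σ hσ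
    obtain ⟨c, hc⟩ := exists_smul_line h hPE hline hσ
    set g := (σ * τ)⁻¹ * (τ * σ) with hg
    have hgP : g • P = P := by
      have e : (τ * σ) • P = (σ * τ) • P := by
        rw [mul_smul, mul_smul, hc, hτP, tor_smul_zsmul, tor_smul_zsmul, hτP, hc, smul_smul,
          smul_smul, mul_comm]
      rw [hg, mul_smul, e, inv_smul_smul]
    have hgω : g ω = ω := (cycChar_eq_one_iff hω).mp (by
      rw [hg, map_mul, map_inv, map_mul, map_mul, mul_comm (cycChar 3 τ), inv_mul_cancel])
    have hgQ := smul_eq_self_of_cube_root W hΔ hω g hgω hδ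
      (hδfix g (mul_mem (inv_mem (mul_mem hσ hτd)) (mul_mem hτd hσ))) hP0 hgP Q
    rw [hg, mul_smul, inv_smul_eq_iff, mul_smul, mul_smul, hτQ] at hgQ
    exact ⟨c, hc, hgQ⟩
  refine ⟨P, Q, hP0, hQi, hPE, ?_, ?_⟩
  · intro σ hσ
    obtain ⟨c, hc, hgQ⟩ := hcomm σ hσ
    obtain ⟨α, s, e⟩ := exists_coords h2 hP0 hQi (σ • Q)
    rw [e, smul_add, tor_smul_zsmul, tor_smul_zsmul, hτP, hτQ, smul_smul] at hgQ
    have hα : α = 0 := by
      have h0 : (α * -1 - α) • P = 0 := by rw [sub_smul]; linear_combination (norm := abel) hgQ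
      have h3 : ∀ a : ZMod 3, a * -1 - a = 0 → a = 0 := by decide
      exact h3 α ((smul_eq_zero.mp h0).resolve_right hP0)
    rw [hα, zero_smul, zero_add] at e
    exact ⟨c, s, hc, e, hdet σ hQi hc (a := 0) (by rw [e, zero_smul, add_zero])⟩
  · intro ι hι
    obtain ⟨b, hb⟩ := hline _ (smul_sub_mem_line h hΔ hb2 hι Q)
    have hιQ : ι • Q = Q + b • P := by rw [← hb]; abel
    obtain ⟨c, hc, hgQ⟩ := hcomm ι (Fermat.FLAT.inertia_le_decomposition A hι)
    rw [hιQ, smul_add, tor_smul_zsmul, hτP, hτQ, smul_smul] at hgQ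
    have h0 : (b * -1 - b) • P = 0 := by rw [sub_smul]; linear_combination (norm := abel) hgQ
    have h3 : ∀ a : ZMod 3, a * -1 - a = 0 → a = 0 := by decide
    rw [hιQ, h3 b ((smul_eq_zero.mp h0).resolve_right hP0), zero_smul, add_zero]

end Fermat.SW
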