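import Fermat.Agent.SW.Family
import Fermat.Agent.SW.Forms5

/-!
# The icosahedral matrices

The generators include `matD` and `matS`, which preserve the covariants.
-/

set_option autoImplicit false

open Matrix

namespace Fermat.SW.Five

variable {K : Type} [Field K] [CharZero K] (ζ : K)

/-- `ζ + ζ⁴ = (√5 - 1)/2`. -/
def tau : K := ζ + ζ ^ 4

/-- The scaling constant of the involution. -/
def aS : K := (ζ - ζ ^ 4) / (2 * tau ζ + 1)

/-- The diagonal element. -/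
def matD : Matrix (Fin 2) (Fin 2) K := !![ζ ^ 3, 0; 0, ζ ^ 2]

/-- The element of order four permuting the coordinates. -/
def matW : Matrix (Fin 2) (Fin 2) K := !![0, 1; -1, 0]

/-- Klein's involution. -/
def matS : Matrix (Fin 2) (Fin 2) K := !![aS ζ, aS ζ * tau ζ; aS ζ * tau ζ, -aS ζ]

variable {ζ} (hζ : IsPrimitiveRoot ζ 5)

include hζ

omit [CharZero K] in
/-- `ζ⁴ + ζ³ + ζ² + ζ + 1 = 0`. -/
lemma sum_pow : ζ ^ 4 + ζ ^ 3 + ζ ^ 2 + ζ + 1 = 0 := by
  have h := hζ.geom_sum_eq_zero (by norm_num)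
  simp [Finset.sum_range_succ] at h
  linear_combination h

omit [CharZero K] in
/-- `τ² + τ = 1`. -/
lemma tau_sq : tau ζ ^ 2 + tau ζ - 1 = 0 := by
  unfold tau
  linear_combination sum_pow hζ + (ζ ^ 3 + 2) * hζ.pow_eq_one - 2 * sum_pow hζ + 2 * sum_pow hζ

/-- `2 τ + 1` is not zero. -/
lemma two_tau_ne : 2 * tau ζ + 1 ≠ 0 := by
  intro h
  have h5 : (5 : K) = 0 := by
    linear_combination -4 * tau_sq hζ + (2 * tau ζ + 1) * h
  norm_num at h5

/-- The defining relation `a² (2 - τ) = -1` of the scalar in `S`. -/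
lemma aS_sq : aS ζ ^ 2 * (2 - tau ζ) = -1 := by
  have h := two_tau_ne hζ
  have hs := sum_pow hζ
  have h5 := hζ.pow_eq_one
  unfold aS
  field_simp
  unfold tau
  linear_combination (-ζ ^ 7 + ζ ^ 4 + 6 * ζ ^ 3 - ζ ^ 2 + ζ + 4) * h5 + 5 * hs

/-- `a²⁰ (2 - τ)¹⁰ = 1`. -/
lemma aS_pow20 : aS ζ ^ 20 * (2 - tau ζ) ^ 10 = 1 := by
  calc aS ζ ^ 20 * (2 - tau ζ) ^ 10 = (aS ζ ^ 2 * (2 - tau ζ)) ^ 10 := by ring
    _ = 1 := by rw [aS_sq hζ]; ring

/-- `a³⁰ (2 - τ)¹⁵ = -1`. -/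
lemma aS_pow30 : aS ζ ^ 30 * (2 - tau ζ) ^ 15 = -1 := by
  calc aS ζ ^ 30 * (2 - tau ζ) ^ 15 = (aS ζ ^ 2 * (2 - tau ζ)) ^ 15 := by ring
    _ = -1 := by rw [aS_sq hζ]; ring

omit hζ

variable {R : Type} [CommRing R] [Algebra K R]

omit [CharZero K] in
/-- `-1` negates both parameters. -/
lemma act_neg_one (w : R × R) : act (-1 : Matrix (Fin 2) (Fin 2) K) w = (-w.1, -w.2) := by
  simp [act]

omit [CharZero K] in
/-- `W` sends `(u, v)` to `(v, -u)`. -/
lemma act_matW (w : R × R) : act (matW : Matrix (Fin 2) (Fin 2) K) w = (w.2, -w.1) := by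
  simp [act, matW]

omit [CharZero K] in
/-- `W` turns `N5` into `D5`. -/
lemma N5_matW (w : R × R) : N5 (act (matW : Matrix (Fin 2) (Fin 2) K) w) = D5 w := by
  rw [act_matW]; simp only [N5, D5]; ring

omit [CharZero K] in
/-- `W` turns `D5` into `-N5`. -/
lemma D5_matW (w : R × R) : D5 (act (matW : Matrix (Fin 2) (Fin 2) K) w) = -N5 w := by
  rw [act_matW]; simp only [N5, D5]; ring

omit [CharZero K] in
/-- `W` preserves `C4` and `C6`. -/
lemma pres_matW (w : R × R) : C4 (act (matW : Matrix (Fin 2) (Fin 2) K) w) = C4 w ∧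
    C6 (act (matW : Matrix (Fin 2) (Fin 2) K) w) = C6 w := by
  simp only [act_matW, C4, C6]
  constructor <;> ring

omit [CharZero K] in
/-- `D` multiplies the parameters by `ζ³` and `ζ²`. -/
lemma act_matD (w : R × R) :
    act (matD ζ) w = (algebraMap K R ζ ^ 3 * w.1, algebraMap K R ζ ^ 2 * w.2) := by
  simp [act, matD, map_pow]

include hζ

omit [CharZero K] in
/-- `D` preserves `C4` and `C6`. -/
lemma pres_matD (w : R × R) : C4 (act (matD ζ) w) = C4 w ∧ C6 (act (matD ζ) w) = C6 w := by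
  have h5 : algebraMap K R ζ ^ 5 = 1 := by rw [← map_pow, hζ.pow_eq_one, map_one]
  rw [act_matD]
  simp only [C4, C6, mul_pow, ← pow_mul]
  have e : ∀ n, 5 ∣ n → algebraMap K R ζ ^ n = 1 := fun n ⟨m, hm⟩ => by
    rw [hm, pow_mul, h5, one_pow]
  simp [e]

omit [CharZero K] in
/-- `D` keeps the fifth powers of both parameters. -/
lemma pow_x5 (w : R × R) :
    ((act (matD ζ) w).1) ^ 5 = w.1 ^ 5 ∧ ((act (matD ζ) w).2) ^ 5 = w.2 ^ 5 := by
  have h5 : algebraMap K R ζ ^ 5 = 1 := by rw [← map_pow, hζ.pow_eq_one, map_one]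
  rw [act_matD]
  constructor
  · rw [mul_pow, ← pow_mul, show 3 * 5 = 5 * 3 from rfl, pow_mul, h5, one_pow, one_mul]
  · rw [mul_pow, ← pow_mul, show 2 * 5 = 5 * 2 from rfl, pow_mul, h5, one_pow, one_mul]

omit hζ in
omit [CharZero K] in
/-- The action of `S` on the parameters. -/
lemma act_matS (w : R × R) : act (matS ζ) w =
    (algebraMap K R (aS ζ) * (w.1 + algebraMap K R (tau ζ) * w.2),
     algebraMap K R (aS ζ) * (algebraMap K R (tau ζ) * w.1 - w.2)) := by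
  simp [act, matS, map_mul, map_neg]
  constructor <;> ring

omit [CharZero K] in
/-- The value of `N5` after `S`. -/
lemma N5_matS (w : R × R) : N5 (act (matS ζ) w) = algebraMap K R (aS ζ) ^ 5 *
    (5 * w.1 ^ 5 + (25 * algebraMap K R (tau ζ) - 15) * w.2 ^ 5) := by
  rw [act_matS]
  have ht : algebraMap K R (tau ζ) ^ 2 + algebraMap K R (tau ζ) - 1 = 0 := by
    rw [← map_pow, ← map_add, ← map_one (algebraMap K R), ← map_sub, tau_sq hζ, map_zero]
  generalize algebraMap K R (tau ζ) = t at ht ⊢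
  generalize algebraMap K R (aS ζ) = c
  simp only [N5]
  linear_combination c ^ 5 * (((-15) + (9) * t + (-4) * t ^ 2 + (1) * t ^ 3) * w.1 ^ 0 * w.2 ^ 5 +
      ((-1) + (3) * t + (-6) * t ^ 2 + (3) * t ^ 3) * w.1 ^ 1 * w.2 ^ 4 +
      ((2) + (-6) * t + (2) * t ^ 2 + (4) * t ^ 3) * w.1 ^ 2 * w.2 ^ 3 +
      ((-4) + (2) * t + (6) * t ^ 2 + (2) * t ^ 3) * w.1 ^ 3 * w.2 ^ 2 +
      ((3) + (6) * t + (3) * t ^ 2 + (1) * t ^ 3) * w.1 ^ 4 * w.2 ^ 1 +
      ((4) + (1) * t + (1) * t ^ 2) * w.1 ^ 5 * w.2 ^ 0) * ht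

omit [CharZero K] in
/-- The value of `D5` after `S`. -/
lemma D5_matS (w : R × R) : D5 (act (matS ζ) w) = algebraMap K R (aS ζ) ^ 5 *
    ((25 * algebraMap K R (tau ζ) - 15) * w.1 ^ 5 - 5 * w.2 ^ 5) := by
  rw [act_matS]
  have ht : algebraMap K R (tau ζ) ^ 2 + algebraMap K R (tau ζ) - 1 = 0 := by
    rw [← map_pow, ← map_add, ← map_one (algebraMap K R), ← map_sub, tau_sq hζ, map_zero]
  generalize algebraMap K R (tau ζ) = t at ht ⊢
  generalize algebraMap K R (aS ζ) = c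
  simp only [D5]
  linear_combination c ^ 5 * (((-4) + (-1) * t + (-1) * t ^ 2) * w.1 ^ 0 * w.2 ^ 5 +
      ((3) + (6) * t + (3) * t ^ 2 + (1) * t ^ 3) * w.1 ^ 1 * w.2 ^ 4 +
      ((4) + (-2) * t + (-6) * t ^ 2 + (-2) * t ^ 3) * w.1 ^ 2 * w.2 ^ 3 +
      ((2) + (-6) * t + (2) * t ^ 2 + (4) * t ^ 3) * w.1 ^ 3 * w.2 ^ 2 +
      ((1) + (-3) * t + (6) * t ^ 2 + (-3) * t ^ 3) * w.1 ^ 4 * w.2 ^ 1 +
      ((-15) + (9) * t + (-4) * t ^ 2 + (1) * t ^ 3) * w.1 ^ 5 * w.2 ^ 0) * ht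

/-- The matrix `S` preserves `C4` and `C6`. -/
lemma pres_matS (w : R × R) : C4 (act (matS ζ) w) = C4 w ∧ C6 (act (matS ζ) w) = C6 w := by
  have ht : algebraMap K R (tau ζ) ^ 2 + algebraMap K R (tau ζ) - 1 = 0 := by
    rw [← map_pow, ← map_add, ← map_one (algebraMap K R), ← map_sub, tau_sq hζ, map_zero]
  have h20 : algebraMap K R (aS ζ) ^ 20 * (2 - algebraMap K R (tau ζ)) ^ 10 = 1 := by
    simpa only [map_mul, map_pow, map_sub, map_ofNat, map_one] using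
      congrArg (algebraMap K R) (aS_pow20 hζ)
  have h30 : algebraMap K R (aS ζ) ^ 30 * (2 - algebraMap K R (tau ζ)) ^ 15 = -1 := by
    simpa only [map_mul, map_pow, map_sub, map_ofNat, map_one, map_neg] using
      congrArg (algebraMap K R) (aS_pow30 hζ)
  -- `S` sends `(N, D)` to a linear image; both identities hold modulo `τ² + τ - 1`
  rw [C4_eq (act (matS ζ) w), C6_eq (act (matS ζ) w), N5_matS hζ, D5_matS hζ]
  generalize algebraMap K R (tau ζ) = t at ht h20 h30 ⊢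
  generalize algebraMap K R (aS ζ) = c at h20 h30 ⊢
  simp only [C4, C6]
  constructor
  · linear_combination c ^ 20 * (((51024) + (-329096) * t + (358448) * t ^ 2 + (13992) * t ^ 3 +
      (-4745) * t ^ 4 + (1183) * t ^ 5 + (-202) * t ^ 6 + (21) * t ^ 7 + (-1) * t ^ 8) *
        w.1 ^ 0 * w.2 ^ 20 +
      ((-383472) + (33888) * t + (2648856) * t ^ 2 + (-3190176) * t ^ 3 + (1081860) * t ^ 4 +
        (-269724) * t ^ 5 + (46056) * t ^ 6 + (-4788) * t ^ 7 + (228) * t ^ 8) *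
          w.1 ^ 5 * w.2 ^ 15 +
      ((-1044144) + (6176576) * t + (-10426688) * t ^ 2 + (6912048) * t ^ 3 + (-2344030) * t ^ 4 +
        (584402) * t ^ 5 + (-99788) * t ^ 6 + (10374) * t ^ 7 + (-494) * t ^ 8) *
          w.1 ^ 10 * w.2 ^ 10 +
      ((383472) + (-33888) * t + (-2648856) * t ^ 2 + (3190176) * t ^ 3 + (-1081860) * t ^ 4 +
        (269724) * t ^ 5 + (-46056) * t ^ 6 + (4788) * t ^ 7 + (-228) * t ^ 8) *
          w.1 ^ 15 * w.2 ^ 5 +
      ((51024) + (-329096) * t + (358448) * t ^ 2 + (13992) * t ^ 3 + (-4745) * t ^ 4 + (1183) *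
        t ^ 5 + (-202) * t ^ 6 + (21) * t ^ 7 + (-1) * t ^ 8) * w.1 ^ 20 * w.2 ^ 0) * ht +
      (w.1 ^ 20 + 228 * w.1 ^ 15 * w.2 ^ 5 + 494 * w.1 ^ 10 * w.2 ^ 10 - 228 * w.1 ^ 5 * w.2 ^ 15 +
        w.2 ^ 20) * h20
  · linear_combination c ^ 30 * (((49407768) + (-164587992) * t + (73179936) * t ^ 2 + (258290764) *
      t ^ 3 + (-251671280) * t ^ 4 + (3544412) * t ^ 5 + (-1423683) * t ^ 6 + (473369) * t ^ 7 +
        (-126634) * t ^ 8 + (26415) * t ^ 9 + (-4123) * t ^ 10 + (452) * t ^ 11 + (-31) * t ^ 12 +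
          (1) * t ^ 13) * w.1 ^ 0 * w.2 ^ 30 +
      ((478354896) + (-2946181824) * t + (6559301592) * t ^ 2 + (-5797221192) * t ^ 3 +
        (463529340) * t ^ 4 + (1850183064) * t ^ 5 + (-743162526) * t ^ 6 + (247098618) * t ^ 7 +
          (-66102948) * t ^ 8 + (13788630) * t ^ 9 + (-2152206) * t ^ 10 + (235944) * t ^ 11 +
            (-16182) * t ^ 12 + (522) * t ^ 13) * w.1 ^ 5 * w.2 ^ 25 +
      ((675281160) + (-7047140040) * t + (27209740320) * t ^ 2 + (-52949093820) * t ^ 3 +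
        (57033656400) * t ^ 4 + (-35461842060) * t ^ 5 + (14243948415) * t ^ 6 + (-4736056845) *
          t ^ 7 + (1266973170) * t ^ 8 + (-264282075) * t ^ 9 + (41250615) * t ^ 10 + (-4522260) *
            t ^ 11 + (310155) * t ^ 12 + (-10005) * t ^ 13) * w.1 ^ 10 * w.2 ^ 20 +
      ((675281160) + (-7047140040) * t + (27209740320) * t ^ 2 + (-52949093820) * t ^ 3 +
        (57033656400) * t ^ 4 + (-35461842060) * t ^ 5 + (14243948415) * t ^ 6 + (-4736056845) *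
          t ^ 7 + (1266973170) * t ^ 8 + (-264282075) * t ^ 9 + (41250615) * t ^ 10 + (-4522260) *
            t ^ 11 + (310155) * t ^ 12 + (-10005) * t ^ 13) * w.1 ^ 20 * w.2 ^ 10 +
      ((-478354896) + (2946181824) * t + (-6559301592) * t ^ 2 + (5797221192) * t ^ 3 +
        (-463529340) * t ^ 4 + (-1850183064) * t ^ 5 + (743162526) * t ^ 6 + (-247098618) * t ^ 7 +
          (66102948) * t ^ 8 + (-13788630) * t ^ 9 + (2152206) * t ^ 10 + (-235944) * t ^ 11 +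
            (16182) * t ^ 12 + (-522) * t ^ 13) * w.1 ^ 25 * w.2 ^ 5 +
      ((49407768) + (-164587992) * t + (73179936) * t ^ 2 + (258290764) * t ^ 3 + (-251671280) *
        t ^ 4 + (3544412) * t ^ 5 + (-1423683) * t ^ 6 + (473369) * t ^ 7 + (-126634) * t ^ 8 +
          (26415) * t ^ 9 + (-4123) * t ^ 10 + (452) * t ^ 11 + (-31) * t ^ 12 + (1) * t ^ 13) *
            w.1 ^ 30 * w.2 ^ 0) * ht -
      (-w.1 ^ 30 + 522 * w.1 ^ 25 * w.2 ^ 5 + 10005 * w.1 ^ 20 * w.2 ^ 10 + 10005 * w.1 ^ 10 *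
        w.2 ^ 20 - 522 * w.1 ^ 5 * w.2 ^ 25 - w.2 ^ 30) * h30

/-- `S² = -1`. -/
lemma matS_sq : matS ζ * matS ζ = -1 := by
  have e : aS ζ ^ 2 * (1 + tau ζ ^ 2) = -1 := by
    linear_combination aS_sq hζ + aS ζ ^ 2 * tau_sq hζ
  ext i j
  fin_cases i <;> fin_cases j <;> simp [matS, Matrix.mul_apply, Fin.sum_univ_two] <;>
    first | linear_combination e | linear_combination -e | ring

end Fermat.SW.Five
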