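import Fermat.Agent.SW.Twist
import Fermat.Agent.EC.PointIso
import Fermat.Prelude.Def_FLTPrelim_Modularity

/-!
# Short models, scalings, congruent models

The main results are `exists_equiv_short` and `apOfModel_of_scaledCong`, for models with
`ScaledCong`.
-/

set_option autoImplicit false

noncomputable section

open WeierstrassCurve WeierstrassCurve.Affine Fermat.EC
open scoped WeierstrassCurve.Affine

namespace Fermat.SW

local notation "ℚbar" => AlgebraicClosure ℚ
local notation "Γℚ" => (AlgebraicClosure ℚ ≃ₐ[ℚ] AlgebraicClosure ℚ)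

/-- A change of variables over `ℚ` on `ℚ̄`-points. -/
theorem exists_hom_of_change (W W' : WeierstrassCurve ℚ) (C : VariableChange ℚ) (h : C • W = W') :
    ∃ φ : ((W.toAffine)⁄ℚbar).Point →+ ((W'.toAffine)⁄ℚbar).Point, Function.Injective φ ∧
      ∀ (σ : Γℚ) (P : ((W.toAffine)⁄ℚbar).Point), φ (σ • P) = σ • φ P := by
  classical
  set C' := C.map (algebraMap ℚ ℚbar) with hC'
  have he : changed C' ((W.toAffine)⁄ℚbar) = ((W'.toAffine)⁄ℚbar) := by
    rw [← h]; exact WeierstrassCurve.map_variableChange W C _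
  refine ⟨(castHom he).comp (pointHom C' _),
    (castHom_injective he).comp (pointHom_injective C' _), fun σ P => ?_⟩
  rcases P with _ | ⟨x, y, hxy⟩
  · simp only [← Point.zero_def, _root_.map_zero]
    rw [show σ • (0 : ((W.toAffine)⁄ℚbar).Point) = 0 from rfl, _root_.map_zero]
    rfl
  · simp only [Point.algEquiv_smul_def, Point.map_some, AddMonoidHom.comp_apply, pointHom_some,
      castHom_some, Point.some.injEq]
    constructor <;>
      simp [newX, newY, hC', VariableChange.map, map_div₀]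

/-- The `p`-torsion over `ℚ̄` of a rational curve. -/
abbrev TorW (W : WeierstrassCurve ℚ) (p : ℕ) : Submodule ℤ ((W.toAffine)⁄ℚbar).Point :=
  Submodule.torsionBy ℤ ((W.toAffine)⁄ℚbar).Point (p : ℤ)

/-- There are `p ^ 2` points killed by `p` over `ℚ̄`. -/
lemma card_torW (W : WeierstrassCurve ℚ) (hΔ : W.Δ ≠ 0) {p : ℕ} (hp : 1 ≤ p) :
    Nat.card (TorW W p) = p ^ 2 :=
  card_torsionBy (by
    change (W.map (algebraMap ℚ ℚbar)).Δ ≠ 0
    rw [WeierstrassCurve.map_Δ]; exact (_root_.map_ne_zero _).mpr hΔ) hp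

/-- Galois equivariant identification of torsion under a change of variables. -/
theorem exists_equiv_of_change (W W' : WeierstrassCurve ℚ) (hΔ : W.Δ ≠ 0) (C : VariableChange ℚ)
    (h : C • W = W') {p : ℕ} (hp : 1 ≤ p) :
    ∃ e : TorW W p ≃+ TorW W' p, ∀ (σ : Γℚ) (x : TorW W p), e (σ • x) = σ • e x := by
  obtain ⟨φ, hφ, hφσ⟩ := exists_hom_of_change W W' C h
  have hΔ' : W'.Δ ≠ 0 := by
    rw [← h, variableChange_Δ]; exact mul_ne_zero (pow_ne_zero _ (Units.ne_zero _)) hΔ
  let f : TorW W p →+ TorW W' p :=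
    { toFun := fun x => ⟨φ x.1, by
        rw [Submodule.mem_torsionBy_iff, ← map_zsmul, (Submodule.mem_torsionBy_iff _ _).mp x.2,
          map_zero]⟩
      map_zero' := Subtype.ext (map_zero φ)
      map_add' := fun x y => Subtype.ext (map_add φ x.1 y.1) }
  have hf : Function.Injective f := fun x y e => Subtype.ext (hφ (congrArg Subtype.val e))
  have : Finite (TorW W' p) :=
    Nat.finite_of_card_ne_zero (by rw [card_torW W' hΔ' hp]; exact pow_ne_zero _ (by omega))
  have hbij : Function.Bijective f := by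
    have : Finite (TorW W p) := Finite.of_injective f hf
    exact (Nat.bijective_iff_injective_and_card f).mpr
      ⟨hf, (card_torW W hΔ hp).trans (card_torW W' hΔ' hp).symm⟩
  exact ⟨AddEquiv.ofBijective f hbij, fun σ x => Subtype.ext (hφσ σ x.1)⟩

/-- The change of variables to the short curve with the same invariants. -/
def toShort (W : WeierstrassCurve ℚ) : VariableChange ℚ :=
  ⟨Units.mk0 (1 / 6 : ℚ) (by norm_num), -W.b₂ / 12, -W.a₁ / 2,
    -(W.a₁ * (-W.b₂ / 12) + W.a₃) / 2⟩

/-- `toShort` carries a curve to the short curve of its invariants. -/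
lemma toShort_smul (W : WeierstrassCurve ℚ) : toShort W • W = shortCurve W.c₄ W.c₆ := by
  ext <;>
    simp [toShort, shortCurve, variableChange_a₁, variableChange_a₂, variableChange_a₃,
      variableChange_a₄, variableChange_a₆, WeierstrassCurve.c₄, WeierstrassCurve.c₆,
      WeierstrassCurve.b₂, WeierstrassCurve.b₄, WeierstrassCurve.b₆] <;> ring

/-- **The torsion of a curve is that of the short curve with its invariants.** -/
theorem exists_equiv_short (W : WeierstrassCurve ℚ) (hΔ : W.Δ ≠ 0) {p : ℕ} (hp : 1 ≤ p) :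
    ∃ e : TorW W p ≃+ TorQ W.c₄ W.c₆ p, ∀ (σ : Γℚ) (x : TorW W p), e (σ • x) = σ • e x :=
  exists_equiv_of_change W (shortCurve W.c₄ W.c₆) hΔ (toShort W) (toShort_smul W) hp

/-- Scaling a short curve by `u` divides the invariants by `u⁴` and `u⁶`. -/
lemma scale_short (a b : ℚ) (u : ℚˣ) :
    (⟨u, 0, 0, 0⟩ : VariableChange ℚ) • (shortCurve a b : WeierstrassCurve ℚ) =
      shortCurve (a / (u : ℚ) ^ 4) (b / (u : ℚ) ^ 6) := by
  have hu : (u : ℚ) ≠ 0 := u.ne_zero
  ext <;>
    simp [shortCurve, variableChange_a₁, variableChange_a₂, variableChange_a₃, variableChange_a₄,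
      variableChange_a₆] <;> field_simp

/-- Congruence of a model with a scaling of another one. -/
structure ScaledCong (W V : WeierstrassCurve ℤ) (m : ℤ) (n : ℤ) : Prop where
  /-- `a₁` is congruent to `n a₁'`. -/
  a₁ : m ∣ W.a₁ - n * V.a₁
  /-- `a₂` is congruent to `n ^ 2 a₂'`. -/
  a₂ : m ∣ W.a₂ - n ^ 2 * V.a₂
  /-- `a₃` is congruent to `n ^ 3 a₃'`. -/
  a₃ : m ∣ W.a₃ - n ^ 3 * V.a₃
  /-- `a₄` is congruent to `n ^ 4 a₄'`. -/
  a₄ : m ∣ W.a₄ - n ^ 4 * V.a₄
  /-- `a₆` is congruent to `n ^ 6 a₆'`. -/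
  a₆ : m ∣ W.a₆ - n ^ 6 * V.a₆

/-- Scaled congruent models have isomorphic reductions. -/
lemma reductionMod_of_scaledCong {W V : WeierstrassCurve ℤ} {q : ℕ} [hq : Fact q.Prime] {n : ℤ}
    (hn : ¬ (q : ℤ) ∣ n) (h : ScaledCong W V q n) :
    ∃ C : VariableChange (ZMod q), C • V.reductionMod q = W.reductionMod q := by
  have hn' : (n : ZMod q) ≠ 0 := by rwa [Ne, ZMod.intCast_zmod_eq_zero_iff_dvd]
  have key : ∀ {x y : ℤ}, (q : ℤ) ∣ x - y → ((x : ℤ) : ZMod q) = (y : ZMod q) := fun {x y} hd => by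
    rw [← ZMod.intCast_zmod_eq_zero_iff_dvd, Int.cast_sub, sub_eq_zero] at hd
    exact hd
  refine ⟨⟨Units.mk0 (n : ZMod q)⁻¹ (inv_ne_zero hn'), 0, 0, 0⟩, ?_⟩
  have e1 := key h.a₁
  have e2 := key h.a₂
  have e3 := key h.a₃
  have e4 := key h.a₄
  have e6 := key h.a₆
  push_cast at e1 e2 e3 e4 e6
  ext <;>
    simp [WeierstrassCurve.reductionMod, variableChange_a₁, variableChange_a₂, variableChange_a₃,
      variableChange_a₄, variableChange_a₆, e1, e2, e3, e4, e6]

/-- Congruent scaled models have the same divisibility of `Δ` and `c₄` by `q`. -/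
lemma delta_c4_of_scaledCong {W V : WeierstrassCurve ℤ} {q : ℕ} [hq : Fact q.Prime] {n : ℤ}
    (hn : ¬ (q : ℤ) ∣ n) (h : ScaledCong W V q n) :
    ((q : ℤ) ∣ W.Δ ↔ (q : ℤ) ∣ V.Δ) ∧ ((q : ℤ) ∣ W.c₄ ↔ (q : ℤ) ∣ V.c₄) := by
  obtain ⟨C, hC⟩ := reductionMod_of_scaledCong hn h
  have hd := congrArg WeierstrassCurve.Δ hC
  have hc := congrArg WeierstrassCurve.c₄ hC
  simp only [variableChange_Δ, variableChange_c₄, WeierstrassCurve.reductionMod,
    WeierstrassCurve.map_Δ, WeierstrassCurve.map_c₄, eq_intCast] at hd hc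
  rw [← ZMod.intCast_zmod_eq_zero_iff_dvd, ← ZMod.intCast_zmod_eq_zero_iff_dvd,
    ← ZMod.intCast_zmod_eq_zero_iff_dvd, ← ZMod.intCast_zmod_eq_zero_iff_dvd, ← hd, ← hc]
  exact ⟨mul_eq_zero_iff_left (pow_ne_zero _ (Units.ne_zero _)),
    mul_eq_zero_iff_left (pow_ne_zero _ (Units.ne_zero _))⟩

/-- A change of variables preserves the number of points over a finite field. -/
lemma card_point_change {K : Type} [Field K] [Finite K] [DecidableEq K] (C : VariableChange K)
    (W : WeierstrassCurve K) :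
    Nat.card (C • W).toAffine.Point = Nat.card W.toAffine.Point := by
  refine le_antisymm ?_ (Nat.card_le_card_of_injective _ (pointHom_injective C W.toAffine))
  have e : changed C⁻¹ (C • W).toAffine = W.toAffine := inv_smul_smul C W
  exact Nat.card_le_card_of_injective ((castHom e).comp (pointHom C⁻¹ _))
    ((castHom_injective e).comp (pointHom_injective C⁻¹ _))

/-- Congruent models have the same `a_q`. -/
theorem apOfModel_of_scaledCong {W V : WeierstrassCurve ℤ} {q : ℕ} [hq : Fact q.Prime] {n : ℤ}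
    (hn : ¬ (q : ℤ) ∣ n) (h : ScaledCong W V q n) : W.apOfModel q = V.apOfModel q := by
  obtain ⟨C, hC⟩ := reductionMod_of_scaledCong hn h
  simp only [WeierstrassCurve.apOfModel, WeierstrassCurve.traceOfFrobenius, WeierstrassCurve.card]
  rw [← hC, card_point_change]

end Fermat.SW
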