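import Fermat.Agent.SW.Cusps5

/-!
# Parameters near a cusp, polar forms

The main result is `exists_near`, and `pol` is the polar form of `C4`.
-/

set_option autoImplicit false

noncomputable section

open Fermat.EC.Val

namespace Fermat.SW.Five

local notation "ℚbar" => AlgebraicClosure ℚ
local notation "Γℚ" => (AlgebraicClosure ℚ ≃ₐ[ℚ] AlgebraicClosure ℚ)

variable {A : ValuationSubring ℚbar} (h : IsPlace A 3)

/-- The cross product of integral vectors is integral. -/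
lemma crs_mem {u c : ℚbar × ℚbar} (h1 : u.1 ∈ A) (h2 : u.2 ∈ A) (hc1 : c.1 ∈ A) (hc2 : c.2 ∈ A) :
    crs u c ∈ A := sub_mem (mul_mem h1 hc2) (mul_mem h2 hc1)

include h

/-- A point whose cross product with a cusp is small is congruent to a multiple of it. -/
lemma exists_mult_of_near {u c : ℚbar × ℚbar} (h1 : u.1 ∈ A) (h2 : u.2 ∈ A) (hc : c ∈ cusps)
    (hg : Gt A 3 (crs u c) 0) :
    ∃ α ∈ A, Gt A 3 (u.1 - α * c.1) 0 ∧ Gt A 3 (u.2 - α * c.2) 0 := by
  rcases mem_cusps.mp hc with rfl | ⟨r, -, rfl⟩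
  · exact ⟨u.1, h1, by simp [gt_zero], by simpa [crs] using hg.neg h⟩
  · exact ⟨u.2, h2, by simpa [crs] using hg, by simp [gt_zero]⟩

/-- Congruent vectors have congruent cross products with an integral vector. -/
lemma crs_congr {u u' c : ℚbar × ℚbar} (hc1 : c.1 ∈ A) (hc2 : c.2 ∈ A)
    (d1 : Gt A 3 (u.1 - u'.1) 0) (d2 : Gt A 3 (u.2 - u'.2) 0) :
    Gt A 3 (crs u c - crs u' c) 0 := by
  rw [show crs u c - crs u' c = (u.1 - u'.1) * c.2 - (u.2 - u'.2) * c.1 by simp only [crs]; ring]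
  exact Gt.sub h (by simpa using d1.mul_ge h ((mem_iff_ge h _).mp hc2))
    (by simpa using d2.mul_ge h ((mem_iff_ge h _).mp hc1))

/-- `C4` is small at a vector with both coordinates small. -/
lemma c4_zero_gt {u : ℚbar × ℚbar} (g1 : Gt A 3 u.1 0) (g2 : Gt A 3 u.2 0) : Gt A 3 (C4 u) 0 := by
  have := (form_congr h formC4 ((mem_iff_ge h _).mpr g1.ge) ((mem_iff_ge h _).mpr g2.ge)
    (zero_mem A) (zero_mem A) (u' := (0, 0)) (by simpa using g1) (by simpa using g2)).2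
  simpa [formC4, C4] using this

/-- **A parameter with unit `C4` and small `F12` is integral and close to one cusp only.** -/
theorem exists_near {v : ℚbar × ℚbar} (h4 : Is A 3 (C4 v) 0) (hF : Gt A 3 (F12 v) 0) :
    v.1 ∈ A ∧ v.2 ∈ A ∧ ∃ c₀ ∈ cusps, Gt A 3 (crs v c₀) 0 ∧
      (∀ c ∈ cusps, c ≠ c₀ → Is A 3 (crs v c) 0) ∧
      ∃ α, Is A 3 α 0 ∧ Gt A 3 (v.1 - α * c₀.1) 0 ∧ Gt A 3 (v.2 - α * c₀.2) 0 := by
  classical
  -- the case of integral coordinates
  have main : ∀ u : ℚbar × ℚbar, u.1 ∈ A → u.2 ∈ A → ¬ (Gt A 3 u.1 0 ∧ Gt A 3 u.2 0) →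
      Gt A 3 (F12 u) 0 → ∃ c₀ ∈ cusps, Gt A 3 (crs u c₀) 0 ∧
      (∀ c ∈ cusps, c ≠ c₀ → Is A 3 (crs u c) 0) ∧ Is A 3 (C4 u) 0 ∧
      ∃ α, Is A 3 α 0 ∧ Gt A 3 (u.1 - α * c₀.1) 0 ∧ Gt A 3 (u.2 - α * c₀.2) 0 := by
    intro u m1 m2 hu hF
    obtain ⟨c₀, hc₀, hg⟩ : ∃ c₀ ∈ cusps, Gt A 3 (crs u c₀) 0 := by
      by_contra hall
      push Not at hall
      have hI : ∀ c ∈ cusps, Is A 3 (crs u c) 0 := fun c hc =>
        ((mem_iff_ge h _).mp (crs_mem m1 m2 (cusp_mem h hc).1 (cusp_mem h hc).2)).is_of_not_gt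
          (hall c hc)
      rw [F12_eq_prod] at hF
      have := Is.prod h (s := cusps) (f := fun c => crs u c) (r := fun _ => (0 : ℚ)) hI
      rw [Finset.sum_const_zero] at this
      exact this.not_gt hF
    obtain ⟨α, hα, e1, e2⟩ := exists_mult_of_near h m1 m2 hc₀ hg
    obtain ⟨n1, n2⟩ := cusp_mem h hc₀
    have hαI : Is A 3 α 0 := by
      refine ((mem_iff_ge h _).mp hα).is_of_not_gt fun g => hu ⟨?_, ?_⟩
      · have := e1.add h (by simpa using g.mul_ge h ((mem_iff_ge h _).mp n1) : Gt A 3 (α * c₀.1) 0)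
        simpa using this
      · have := e2.add h (by simpa using g.mul_ge h ((mem_iff_ge h _).mp n2) : Gt A 3 (α * c₀.2) 0)
        simpa using this
    refine ⟨c₀, hc₀, hg, fun c hc hne => ?_, ?_, α, hαI, e1, e2⟩
    · have hd := crs_congr h (u := u) (u' := (α * c₀.1, α * c₀.2)) (cusp_mem h hc).1
        (cusp_mem h hc).2 e1 e2
      have hI := hαI.mul h (crs_ne_gt h hc₀ hc hne.symm)
      rw [add_zero, show α * crs c₀ c = crs (α * c₀.1, α * c₀.2) c by simp only [crs]; ring] at hI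
      have := hI.add h hd
      simpa using this
    · have hd := (form_congr h formC4 m1 m2 (mul_mem hα n1) (mul_mem hα n2)
        (u' := (α * c₀.1, α * c₀.2)) e1 e2).2
      have hI := (hαI.pow h 20).mul h (is_C4_cusp h hc₀)
      rw [show α ^ 20 * C4 c₀ = C4 (α * c₀.1, α * c₀.2) by simp only [C4]; ring] at hI
      simp only [Nat.cast_ofNat, mul_zero, add_zero] at hI
      have := hI.add h hd
      simpa [formC4] using this
  -- the coordinates are integral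
  have hint : v.1 ∈ A ∧ v.2 ∈ A := by
    by_contra hno
    obtain ⟨z, hz0, hzneg, hzle⟩ : ∃ z : ℚbar, z ≠ 0 ∧ ord A 3 z < 0 ∧
        Ge A 3 v.1 (ord A 3 z) ∧ Ge A 3 v.2 (ord A 3 z) ∧
        ¬ (Gt A 3 v.1 (ord A 3 z) ∧ Gt A 3 v.2 (ord A 3 z)) := by
      have key : ∀ a b : ℚbar, a ≠ 0 → ord A 3 a < 0 → (b = 0 ∨ ord A 3 a ≤ ord A 3 b) →
          Ge A 3 a (ord A 3 a) ∧ Ge A 3 b (ord A 3 a) ∧ ¬ Gt A 3 a (ord A 3 a) :=
            fun a b ha hn hb =>
        ⟨(is_ord ha).ge, hb.imp id id, (is_ord ha).not_gt⟩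
      rw [mem_iff_ge h, mem_iff_ge h] at hno
      rcases eq_or_ne v.1 0 with a0 | a0
      · have b0 : ¬ Ge A 3 v.2 0 := fun e => hno ⟨Or.inl a0, e⟩
        rw [Ge, not_or, not_le] at b0
        obtain ⟨k1, k2, k3⟩ := key v.2 v.1 b0.1 b0.2 (Or.inl a0)
        exact ⟨v.2, b0.1, b0.2, k2, k1, fun g => k3 g.2⟩
      rcases eq_or_ne v.2 0 with b0 | b0
      · have a1 : ¬ Ge A 3 v.1 0 := fun e => hno ⟨e, Or.inl b0⟩
        rw [Ge, not_or, not_le] at a1
        obtain ⟨k1, k2, k3⟩ := key v.1 v.2 a0 a1.2 (Or.inl b0)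
        exact ⟨v.1, a0, a1.2, k1, k2, fun g => k3 g.1⟩
      have hneg : min (ord A 3 v.1) (ord A 3 v.2) < 0 := by
        by_contra hh
        push Not at hh
        exact hno ⟨Or.inr (le_trans hh (min_le_left _ _)), Or.inr (le_trans hh (min_le_right _ _))⟩
      rcases le_total (ord A 3 v.1) (ord A 3 v.2) with e | e
      · rw [min_eq_left e] at hneg
        obtain ⟨k1, k2, k3⟩ := key v.1 v.2 a0 hneg (Or.inr e)
        exact ⟨v.1, a0, hneg, k1, k2, fun g => k3 g.1⟩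
      · rw [min_eq_right e] at hneg
        obtain ⟨k1, k2, k3⟩ := key v.2 v.1 b0 hneg (Or.inr e)
        exact ⟨v.2, b0, hneg, k2, k1, fun g => k3 g.2⟩
    obtain ⟨g1, g2, g3⟩ := hzle
    have hzI := is_ord (A := A) (q := 3) hz0
    set u : ℚbar × ℚbar := (v.1 / z, v.2 / z) with hu
    have u1 : Ge A 3 u.1 0 := by simpa [hu] using g1.div h hzI
    have u2 : Ge A 3 u.2 0 := by simpa [hu] using g2.div h hzI
    have hback : ∀ {x : ℚbar}, Gt A 3 (x / z) 0 → Gt A 3 x (ord A 3 z) := fun {x} hx => by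
      have := hx.mul_ge h hzI.ge
      rwa [div_mul_cancel₀ _ hz0, zero_add] at this
    have hFu : Gt A 3 (F12 u) 0 := by
      have e : F12 u = F12 v / z ^ 12 := by simp only [F12, hu]; field_simp
      rw [e]
      exact (hF.div h (hzI.pow h 12)).mono (by push_cast; linarith)
    obtain ⟨-, -, -, -, hC, -⟩ := main u ((mem_iff_ge h _).mpr u1) ((mem_iff_ge h _).mpr u2)
      (fun g => g3 ⟨hback g.1, hback g.2⟩) hFu
    have e : C4 u = C4 v / z ^ 20 := by simp only [C4, hu]; field_simp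
    rw [e] at hC
    have := hC.unique (h4.div h (hzI.pow h 20))
    push_cast at this
    linarith
  refine ⟨hint.1, hint.2, ?_⟩
  obtain ⟨c₀, h1, h2, h3, -, h5⟩ :=
    main v hint.1 hint.2 (fun g => h4.not_gt (c4_zero_gt h g.1 g.2)) hF
  exact ⟨c₀, h1, h2, h3, h5⟩

omit h

/-- Polar form of `C4`. -/
def pol (u d : ℚbar × ℚbar) : ℚbar := C4u u * d.1 + C4v u * d.2

/-- The polar of `C4` on the diagonal is `20 C4`. -/
lemma pol_self (c : ℚbar × ℚbar) : pol c c = 20 * C4 c := by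
  simp only [pol, C4u, C4v, C4]; ring

/-- The polar form has degree `19` in its first argument. -/
lemma pol_smul (l : ℚbar) (c d : ℚbar × ℚbar) : pol (l * c.1, l * c.2) d = l ^ 19 * pol c d := by
  simp only [pol, C4u, C4v]; ring

/-- The polar form is invariant under the symmetries of the family. -/
lemma pol_invariant {ζ : ℚbar} (hζ : IsPrimitiveRoot ζ 5) {g : Matrix (Fin 2) (Fin 2) ℚbar}
    (hg : (fam5 hζ).Pres g) (u d : ℚbar × ℚbar) : pol (act g u) (act g d) = pol u d := by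
  have hlin : act g (TrivSqZeroExt.inl u.1 + TrivSqZeroExt.inr d.1,
      TrivSqZeroExt.inl u.2 + TrivSqZeroExt.inr d.2) =
      ((TrivSqZeroExt.inl (act g u).1 + TrivSqZeroExt.inr (act g d).1 : DualNumber ℚbar),
        (TrivSqZeroExt.inl (act g u).2 + TrivSqZeroExt.inr (act g d).2 : DualNumber ℚbar)) := by
    ext <;> simp [act, TrivSqZeroExt.algebraMap_eq_inl]
  have h1 : C4 (act g ((TrivSqZeroExt.inl u.1 + TrivSqZeroExt.inr d.1 : DualNumber ℚbar),
      (TrivSqZeroExt.inl u.2 + TrivSqZeroExt.inr d.2 : DualNumber ℚbar))) = _ :=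
    (hg (R := DualNumber ℚbar) _).1
  rw [hlin] at h1
  have h2 := congrArg TrivSqZeroExt.snd h1
  rw [snd_C4] at h2
  rw [show (fam5 hζ).c4.toFun ((TrivSqZeroExt.inl u.1 + TrivSqZeroExt.inr d.1 : DualNumber ℚbar),
      (TrivSqZeroExt.inl u.2 + TrivSqZeroExt.inr d.2 : DualNumber ℚbar)) = C4 _ from rfl,
      snd_C4] at h2
  exact h2

/-- The polar form commutes with Galois. -/
lemma pol_natural (σ : Γℚ) (u d : ℚbar × ℚbar) :
    σ (pol u d) = pol (Prod.map σ σ u) (Prod.map σ σ d) := by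
  simp [pol, C4u, C4v, map_ofNat]

include h

/-- The polar form at a cusp, against a vector congruent to a multiple of the cusp. -/
lemma is_pol {c : ℚbar × ℚbar} (hc : c ∈ cusps) {α : ℚbar} (hα : Is A 3 α 0) {v : ℚbar × ℚbar}
    (e1 : Gt A 3 (v.1 - α * c.1) 0) (e2 : Gt A 3 (v.2 - α * c.2) 0) : Is A 3 (pol c v) 0 := by
  obtain ⟨a, b⟩ := cusp_mem h hc
  have cst : ∀ n : ℕ, ((n : ℕ) : ℚbar) ∈ A := natCast_mem A
  have mu : C4u c ∈ A := by
    rw [show C4u c = ((20 : ℕ) : ℚbar) * c.1 ^ 19 + ((3420 : ℕ) : ℚbar) * c.1 ^ 14 * c.2 ^ 5 +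
      ((4940 : ℕ) : ℚbar) * c.1 ^ 9 * c.2 ^ 10 - ((1140 : ℕ) : ℚbar) * c.1 ^ 4 * c.2 ^ 15 by
        simp only [C4u]; push_cast; ring]
    exact sub_mem (add_mem (add_mem (mul_mem (cst _) (pow_mem a _))
      (mul_mem (mul_mem (cst _) (pow_mem a _)) (pow_mem b _)))
      (mul_mem (mul_mem (cst _) (pow_mem a _)) (pow_mem b _)))
      (mul_mem (mul_mem (cst _) (pow_mem a _)) (pow_mem b _))
  have mv : C4v c ∈ A := by
    rw [show C4v c = ((1140 : ℕ) : ℚbar) * c.1 ^ 15 * c.2 ^ 4 + ((4940 : ℕ) : ℚbar) *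
      c.1 ^ 10 * c.2 ^ 9 -
      ((3420 : ℕ) : ℚbar) * c.1 ^ 5 * c.2 ^ 14 + ((20 : ℕ) : ℚbar) * c.2 ^ 19 by
        simp only [C4v]; push_cast; ring]
    exact add_mem (sub_mem (add_mem (mul_mem (mul_mem (cst _) (pow_mem a _)) (pow_mem b _))
      (mul_mem (mul_mem (cst _) (pow_mem a _)) (pow_mem b _)))
      (mul_mem (mul_mem (cst _) (pow_mem a _)) (pow_mem b _))) (mul_mem (cst _) (pow_mem b _))
  have e : pol c v = α * (20 * C4 c) + (C4u c * (v.1 - α * c.1) + C4v c * (v.2 - α * c.2)) := by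
    rw [← pol_self]; simp only [pol]; ring
  rw [e]
  have h20 : Is A 3 (20 : ℚbar) 0 := by simpa using is_natCast h (a := 20) (by norm_num)
  refine Is.add h (by simpa using hα.mul h (h20.mul h (is_C4_cusp h hc))) (Gt.add h ?_ ?_)
  · simpa using ((mem_iff_ge h _).mp mu).mul_gt h e1
  · simpa using ((mem_iff_ge h _).mp mv).mul_gt h e2

end Fermat.SW.Five
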