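import Fermat.Agent.SW.ParamGen

/-!
# The hypotheses of the general switch at level five

The family of level five scales (`GoodQ`) and is continuous (`Cont`), so the general switch
`exists_switch_model_gen` applies to it in `SW/Switch35`.
-/

set_option autoImplicit false

noncomputable section

open Fermat.EC.Val

namespace Fermat.SW

local notation "ℚbar" => AlgebraicClosure ℚ
local notation "Γℚ" => (AlgebraicClosure ℚ ≃ₐ[ℚ] AlgebraicClosure ℚ)

/-- The level five family scales away from `2`, `3`, `5`. -/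
lemma scales5 {ζ : ℚbar} (hζ : IsPrimitiveRoot ζ 5) {q : ℕ} (hq : q.Prime) (h2 : q ≠ 2) (h3 : q ≠ 3)
    (h5 : q ≠ 5) : ScalesAt 5 q := by
  intro B h a b hab hunr
  refine exists_scale_of_unramified h ?_ hζ hab hunr
  by_contra hle
  have h2q := hq.two_le
  interval_cases q <;> simp_all (config := { decide := true })

/-- The level five family is continuous. -/
lemma cont5 {ζ : ℚbar} (hζ : IsPrimitiveRoot ζ 5) {A : ValuationSubring ℚbar} {q : ℕ}
    {x : ℚbar × ℚbar × ℚbar} (h : IsPlace A q) (v w : ℚbar × ℚbar) :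
    ContAt A q x (fun y => y.2.2 ^ 4 * (Five.fam5 hζ).c4.toFun (comb v w y)) ∧
      ContAt A q x (fun y => y.2.2 ^ 6 * (Five.fam5 hζ).c6.toFun (comb v w y)) :=
  ⟨contAt_c4 h v w, contAt_c6 h v w⟩

end Fermat.SW
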