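import Fermat.Agent.SW.Align
import Fermat.Agent.SW.Fam5Def
import Fermat.Agent.SW.FactFive

/-!
# The shear of the level five family

The shear is `shear5`.
-/

set_option autoImplicit false

noncomputable section

namespace Fermat.SW.Five

local notation "ℚbar" => AlgebraicClosure ℚ

variable {ζ : ℚbar} (hζ : IsPrimitiveRoot ζ 5)

/-- The action commutes with scalars. -/
lemma act_scalar (g : Matrix (Fin 2) (Fin 2) ℚbar) (c : ℚbar) (z : ℚbar × ℚbar) :
    act g (c * z.1, c * z.2) = (c * (act g z).1, c * (act g z).2) := by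
  simp [act]; constructor <;> ring

/-- Fifth roots of unity fix the marked point. -/
lemma XY_scalar (c : ℚbar) (hc : c ^ 5 = 1) (z : ℚbar × ℚbar) :
    X5 (c * z.1, c * z.2) = X5 z ∧ Y5 (c * z.1, c * z.2) = Y5 z := by
  have hN : N5 (c * z.1, c * z.2) = N5 z := by
    simp only [N5]
    linear_combination (z.1 ^ 5 + 3 * z.1 ^ 4 * z.2 + 4 * z.1 ^ 3 * z.2 ^ 2 +
      2 * z.1 ^ 2 * z.2 ^ 3 + z.1 * z.2 ^ 4) * hc
  have hD : D5 (c * z.1, c * z.2) = D5 z := by
    simp only [D5]
    linear_combination (z.1 ^ 4 * z.2 - 2 * z.1 ^ 3 * z.2 ^ 2 +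
      4 * z.1 ^ 2 * z.2 ^ 3 - 3 * z.1 * z.2 ^ 4 + z.2 ^ 5) * hc
  simp only [X5, Y5, hN, hD, and_self]

include hζ in
/-- Fifth roots of unity fix every labelled point. -/
lemma px_scalar (c : ℚbar) (hc : c ^ 5 = 1) (j : (fam5 hζ).κ) (z : ℚbar × ℚbar) :
    (fam5 hζ).px j (c * z.1, c * z.2) = (fam5 hζ).px j z ∧
      (fam5 hζ).py j (c * z.1, c * z.2) = (fam5 hζ).py j z := by
  simp only [Fam.px, Fam.py, act_scalar]
  exact XY_scalar c hc _

include hζ in
/-- A matrix fixing the label of `S` acts as a scalar times a power of `D`. -/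
lemma stab5 (h : Matrix (Fin 2) (Fin 2) ℚbar) (hh : (fam5 hζ).Pres h) (v : ℚbar × ℚbar)
    (hv : (fam5 hζ).Reg v) (hx : X5 (act (matS ζ) (act h v)) = X5 (act (matS ζ) v))
    (hy : Y5 (act (matS ζ) (act h v)) = Y5 (act (matS ζ) v)) :
    ∃ (c : ℚbar) (n : ℕ), n < 5 ∧ c ^ 5 = 1 ∧
      act h v = (c * (act (matD ζ ^ n) v).1, c * (act (matD ζ ^ n) v).2) := by
  classical
  set F := fam5 hζ with hF
  have hS : F.Pres (matS ζ) := fun {R} _ _ w => pres_matS hζ w
  set v' := act (matS ζ) v with hv'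
  have hv'r : F.Reg v' := hS.reg hv
  -- `S (h v)` is a symmetry image of `v'`
  obtain ⟨i, j, e⟩ := F.exists_pres_act hv'r (w := act (matS ζ) (act h v)) (by
    rw [hS.cval_eq, hh.cval_eq, hv', hS.cval_eq])
  -- with the same `X5, Y5`, so only the scalar and `D` part remains
  have hj : j = ((0, some 0) : Fin 4 × Option (Fin 5)) := by
    refine F.label_inj hv'r ?_ ?_
    · rw [← (F.px_r i j v').1, e]
      change X5 _ = X5 (act (tMat5 ζ (0, some 0)) v')
      rw [hx, tMat5]
      simp [act_one]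
    · rw [← (F.px_r i j v').2, e]
      change Y5 _ = Y5 (act (tMat5 ζ (0, some 0)) v')
      rw [hy, tMat5]
      simp [act_one]
  subst hj
  refine ⟨ζ ^ (i.1 : ℕ), (i.2 : ℕ), i.2.isLt, by rw [← pow_mul, mul_comm, pow_mul,
    hζ.pow_eq_one, one_pow], ?_⟩
  -- undo `S`, using `S ^ 2 = -1`
  have hmat : act (matS ζ) (act h v) =
      act (matS ζ) (act (ζ ^ (i.1 : ℕ) • (matD ζ ^ (i.2 : ℕ))) v) := by
    rw [← e, hv', ← act_mul, ← act_mul (matS ζ)]
    congr 1
    change rMat5 ζ i * tMat5 ζ (0, some 0) * matS ζ = _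
    simp only [rMat5, tMat5]
    simp only [Fin.val_zero, pow_zero, mul_one, Matrix.smul_mul, Matrix.mul_smul, neg_mul]
    rw [mul_assoc _ (matS ζ) (matS ζ), matS_sq hζ, mul_neg, mul_one, neg_neg]
  have h2 := congrArg (act (matS ζ)) hmat
  rw [← act_mul (matS ζ) (matS ζ), ← act_mul (matS ζ) (matS ζ), matS_sq hζ, act_neg_one,
    act_neg_one] at h2
  simp only [Prod.mk.injEq, neg_inj] at h2
  refine (Prod.ext h2.1 h2.2).trans ?_
  rw [act_smul]
  simp

include hζ in
/-- **The shear of level five.** The diagonal matrix of `ζ` as a shear of `fam5`. -/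
def shear5 : (fam5 hζ).Shear where
  g := matD ζ
  pres := fun {R} _ _ w => pres_matD hζ w
  pow_eq := by
    rw [matD_pow_eq, show 3 * 5 = 5 * 3 from rfl, show 2 * 5 = 5 * 2 from rfl, pow_mul, pow_mul,
      hζ.pow_eq_one, one_pow, one_pow]
    exact Matrix.one_fin_two.symm
  j0 := ((0, none) : Fin 4 × Option (Fin 5))
  j1 := ((0, some 0) : Fin 4 × Option (Fin 5))
  j2 := ((0, some 1) : Fin 4 × Option (Fin 5))
  ne := by intro h; exact absurd (congrArg Prod.snd h) (by decide)
  fix0 := fun v => by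
    change X5 (act (tMat5 ζ (0, none)) (act (matD ζ) v)) = X5 (act (tMat5 ζ (0, none)) v) ∧
      Y5 (act (tMat5 ζ (0, none)) (act (matD ζ) v)) = Y5 (act (tMat5 ζ (0, none)) v)
    simp only [tMat5, Fin.val_zero, pow_zero, one_mul]
    simp only [X5, Y5, N5_matS hζ, D5_matS hζ, (pow_x5 hζ v).1, (pow_x5 hζ v).2, and_self]
  move := fun v => by
    change X5 (act (tMat5 ζ (0, some 0)) (act (matD ζ) v)) = X5 (act (tMat5 ζ (0, some 1)) v) ∧
      Y5 (act (tMat5 ζ (0, some 0)) (act (matD ζ) v)) = Y5 (act (tMat5 ζ (0, some 1)) v)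
    simp [tMat5, act_one]
  deg := 5
  deg_pos := by norm_num
  hom := fun c v => by
    change C4 (c * v.1, c * v.2) = _ * C4 v ∧ C6 (c * v.1, c * v.2) = _ * C6 v
    simp only [C4, C6]
    constructor <;> ring
  -- the matrices fixing the first mark are scalars times powers of the shear
  stab := fun h hh v hv hx hy => by
    obtain ⟨c, n, -, hc, e⟩ := stab5 hζ h hh v hv
      (by simpa [Fam.px, fam5, tMat5, formX] using hx)
      (by simpa [Fam.py, fam5, tMat5, formY] using hy)
    exact ⟨n, fun j => by rw [e]; exact px_scalar hζ c hc j _⟩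
  -- those fixing every mark are scalars
  scalar := fun h hh v hv hall => by
    obtain ⟨c, n, hn, hc, e⟩ := stab5 hζ h hh v hv
      (by simpa [Fam.px, fam5, tMat5, formX] using (hall ((0, none) : Fin 4 × Option (Fin 5))).1)
      (by simpa [Fam.py, fam5, tMat5, formY] using (hall ((0, none) : Fin 4 × Option (Fin 5))).2)
    obtain ⟨h1, h2⟩ := hall ((0, some 0) : Fin 4 × Option (Fin 5))
    rw [e] at h1 h2
    replace h1 := (px_scalar hζ c hc _ _).1.symm.trans h1
    replace h2 := (px_scalar hζ c hc _ _).2.symm.trans h2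
    have hj : ((0, some ⟨n, hn⟩) : Fin 4 × Option (Fin 5)) =
        ((0, some 0) : Fin 4 × Option (Fin 5)) := by
      refine (fam5 hζ).label_inj hv (j := ((0, some ⟨n, hn⟩) : Fin 4 × Option (Fin 5))) ?_ ?_
      · refine Eq.trans ?_ h1
        simp [Fam.px, fam5, tMat5, act_one]
      · refine Eq.trans ?_ h2
        simp [Fam.py, fam5, tMat5, act_one]
    have : n = 0 := by
      have := congrArg Fin.val (Option.some.inj (congrArg Prod.snd hj))
      simpa using this
    subst this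
    exact ⟨c, hc, by rw [e, pow_zero, act_one]⟩

end Fermat.SW.Five
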