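import Fermat.Agent.SW.Build
import Fermat.Agent.SW.Cont
import Fermat.Agent.SW.GoodQ
import Fermat.Agent.SW.Shear5

/-!
# The global switch for a general family and approximate targets

`exists_switch_model_gen`: rational parameters are chosen close to local ones at the primes of `T`;
the invariants so obtained are rescaled to be integral and minimal outside `T`, and an integral
model with the prescribed congruences at `T` is built (`Build`). Its hypotheses on the family are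
checked in `Param` for level five and in `GoodQ3` for level three; `Switch35` applies it.
-/

set_option autoImplicit false

noncomputable section

open Fermat.EC.Val

namespace Fermat.SW

local notation "ℚbar" => AlgebraicClosure ℚ
local notation "Γℚ" => (AlgebraicClosure ℚ ≃ₐ[ℚ] AlgebraicClosure ℚ)

variable {A : ValuationSubring ℚbar} {q : ℕ}

/-- A nonzero rational has its `q`-adic valuation as order. -/
lemma is_rat (h : IsPlace A q) {x : ℚ} (hx : x ≠ 0) :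
    Is A q (algebraMap ℚ ℚbar x) (padicValRat q x) := by
  refine ⟨(_root_.map_ne_zero _).mpr hx, ?_⟩
  rw [eq_ratCast, ord_ratCast h hx]

/-- A rational integral at the place has denominator prime to `q`. -/
lemma not_dvd_den (h : IsPlace A q) {x : ℚ} (hx : Ge A q (algebraMap ℚ ℚbar x) 0) :
    ¬ q ∣ x.den := by
  intro hd
  have := Fact.mk h.1
  rcases eq_or_ne x 0 with rfl | hx0
  · simp at hd; exact h.1.one_lt.ne' hd
  have h1 := (is_rat h hx0).le_of_ge hx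
  have h2 : (0 : ℤ) ≤ padicValRat q x := by exact_mod_cast h1
  have h3 : 1 ≤ padicValNat q x.den := one_le_padicValNat_of_dvd x.den_nz hd
  have h4 : padicValInt q x.num = 0 := by
    refine padicValInt.eq_zero_of_not_dvd fun hn => h.1.one_lt.ne' ?_
    exact Nat.eq_one_of_dvd_coprimes x.reduced (Int.natCast_dvd.mp hn) hd
  rw [padicValRat, h4] at h2
  omega

/-- An integer of order at least `k` is divisible by `q ^ k`. -/
lemma dvd_of_ge_intCast (h : IsPlace A q) {a : ℤ} {k : ℕ} (ha : Ge A q (a : ℚbar) k) :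
    (q : ℤ) ^ k ∣ a := by
  rcases eq_or_ne a 0 with rfl | h0
  · exact dvd_zero _
  have := Fact.mk h.1
  rw [padicValInt_dvd_iff]
  refine Or.inr ?_
  have := Is.le_of_ge (⟨Int.cast_ne_zero.mpr h0, ord_intCast h h0⟩ : Is A q (a : ℚbar) _) ha
  exact_mod_cast this

/-- A rational number with denominator prime to `q` is integral at `q`. -/
lemma ge_zero_of_not_dvd_den (h : IsPlace A q) {x : ℚ} (hx : ¬ q ∣ x.den) :
    Ge A q (algebraMap ℚ ℚbar x) 0 := by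
  rcases eq_or_ne x 0 with rfl | hx0
  · exact Or.inl (map_zero _)
  · refine (is_rat h hx0).ge.mono ?_
    have : (0 : ℤ) ≤ padicValRat q x := by
      rw [padicValRat, padicValNat.eq_zero_of_not_dvd hx]; simp
    exact_mod_cast this

/-- A rational number integral at `q` is close to an integer. -/
lemma exists_intCast_near (h : IsPlace A q) {r : ℚ} (hr : Ge A q (algebraMap ℚ ℚbar r) 0) (N : ℕ) :
    ∃ z : ℤ, Ge A q (algebraMap ℚ ℚbar r - (z : ℚbar)) N := by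
  obtain ⟨a, b, hab⟩ : IsCoprime ((q : ℤ) ^ N) (r.den : ℤ) := by
    refine IsCoprime.pow_left ?_
    rw [Int.isCoprime_iff_nat_coprime]
    simpa using h.1.coprime_iff_not_dvd.mpr (not_dvd_den h hr)
  refine ⟨r.num * b, ?_⟩
  have e : algebraMap ℚ ℚbar r - ((r.num * b : ℤ) : ℚbar) =
      ((a * (q : ℤ) ^ N : ℤ) : ℚbar) * algebraMap ℚ ℚbar r := by
    have h1 : ((r.den : ℤ) : ℚbar) * algebraMap ℚ ℚbar r = ((r.num : ℤ) : ℚbar) := by
      rw [← map_intCast (algebraMap ℚ ℚbar), ← map_intCast (algebraMap ℚ ℚbar), ← map_mul]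
      congr 1
      rw [mul_comm]; exact_mod_cast Rat.mul_den_eq_num r
    have h2 := congrArg (fun z : ℤ => (z : ℚbar)) hab
    push_cast at h1 h2 ⊢
    linear_combination (-(algebraMap ℚ ℚbar r)) * h2 + (b : ℚbar) * h1
  rw [e]
  simpa using (ge_intCast_of_dvd (L := ℚbar) h (k := N) (dvd_mul_left _ a)).mul h hr

/-- An integer close to a unit is prime to `q`. -/
lemma not_dvd_of_ge_sub (h : IsPlace A q) {x : ℚbar} {z : ℤ} {N : ℕ} (hN : 0 < N) (hx : Is A q x 0)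
    (hz : Ge A q (x - (z : ℚbar)) N) : ¬ (q : ℤ) ∣ z := by
  intro hd
  have g1 : Gt A q (z : ℚbar) 0 :=
    (ge_intCast_of_dvd (L := ℚbar) h (k := 1) (by simpa using hd)).gt (by norm_num)
  have g2 := (hz.gt (show (0 : ℚ) < (N : ℚ) by exact_mod_cast hN)).add h g1
  rw [sub_add_cancel] at g2
  exact hx.not_gt g2

/-- Powers of close integral numbers are close. -/
lemma ge_pow_sub_pow (h : IsPlace A q) {x z : ℚbar} (e : ℕ) {N : ℚ} (hx : Ge A q x 0)
    (hz : Ge A q z 0) (hxz : Ge A q (x - z) N) : Ge A q (x ^ e - z ^ e) N := by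
  rw [← geom_sum₂_mul, mul_comm]
  simpa using hxz.mul h ((mem_iff_ge h _).mp (sum_mem fun i _ =>
    mul_mem (pow_mem ((mem_iff_ge h _).mpr hx) _) (pow_mem ((mem_iff_ge h _).mpr hz) _)))

/-- The congruence satisfied by a scaled integral invariant. -/
lemma dvd_sub_of_scaled (h : IsPlace A q) {lam al : ℚ} {C c n : ℤ} {e K : ℕ}
    (hC : (C : ℚ) = lam ^ e * al) (hlam : Ge A q (algebraMap ℚ ℚbar lam) 0)
    (hn : Ge A q (algebraMap ℚ ℚbar lam - (n : ℚbar)) K)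
    (hal : Ge A q (algebraMap ℚ ℚbar al - (c : ℚbar)) K) : (q : ℤ) ^ K ∣ C - n ^ e * c := by
  refine dvd_of_ge_intCast h ?_
  set l := algebraMap ℚ ℚbar lam
  have hCq : (C : ℚbar) = l ^ e * algebraMap ℚ ℚbar al := by
    rw [← map_intCast (algebraMap ℚ ℚbar), hC, map_mul, map_pow]
  have : ((C - n ^ e * c : ℤ) : ℚbar) =
      l ^ e * (algebraMap ℚ ℚbar al - (c : ℚbar)) + (l ^ e - (n : ℚbar) ^ e) * (c : ℚbar) := by
    push_cast
    rw [hCq]
    ring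
  rw [this]
  refine Ge.add h ?_ ?_
  · simpa using (hlam.pow h e).mul h hal
  · simpa using (ge_pow_sub_pow h e hlam (ge_intCast h n) hn).mul h (ge_intCast h c)

/-- Torsion of scaled short curves. -/
lemma exists_equiv_scale {a b : ℚ} (hab : a ^ 3 ≠ b ^ 2) (u : ℚˣ) {p : ℕ} (hp : 1 ≤ p) :
    ∃ e : TorQ a b p ≃+ TorQ ((u : ℚ) ^ 4 * a) ((u : ℚ) ^ 6 * b) p,
      ∀ (σ : Γℚ) (x : TorQ a b p), e (σ • x) = σ • e x :=
  exists_equiv_of_change (shortCurve a b) (shortCurve ((u : ℚ) ^ 4 * a) ((u : ℚ) ^ 6 * b))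
    (Fam.delta_ne_zero hab) ⟨u⁻¹, 0, 0, 0⟩ (by
      have hu : (u : ℚ) ≠ 0 := u.ne_zero
      rw [scale_short, Units.val_inv_eq_inv_val]
      congr 1 <;> field_simp) hp

/-- The scaling property of a family at a prime. -/
def ScalesAt (p q : ℕ) : Prop :=
  ∀ (B : ValuationSubring ℚbar), IsPlace B q → ∀ a b : ℚ, a ^ 3 ≠ b ^ 2 →
    (∀ ι ∈ B.inertiaSubgroupIn ℚ, ∀ x : TorQ a b p, ι • x = x) →
    ∃ k : ℤ, Ge B q (algebraMap ℚ ℚbar (a * (q : ℚ) ^ (4 * k))) 0 ∧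
      Ge B q (algebraMap ℚ ℚbar (b * (q : ℚ) ^ (6 * k))) 0 ∧
      ¬ (Gt B q (algebraMap ℚ ℚbar (a * (q : ℚ) ^ (4 * k))) 0 ∧
        Gt B q (algebraMap ℚ ℚbar ((a ^ 3 - b ^ 2) * (q : ℚ) ^ (12 * k))) 0)

/-! ### Rational parameters -/

/-- **Weak approximation of parameters**: local parameters fixed by the decomposition groups are
approached by global rational ones, as precisely as two continuous functions require. -/
theorem exists_rat_param_near (T : Finset ℕ) (P : ℕ → ValuationSubring ℚbar)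
    (hP : ∀ q ∈ T, IsPlace (P q) q) (x : ℕ → ℚbar × ℚbar × ℚbar)
    (hx : ∀ q ∈ T, ∀ σ ∈ (P q).decompositionSubgroup ℚ,
      σ (x q).1 = (x q).1 ∧ σ (x q).2.1 = (x q).2.1 ∧ σ (x q).2.2 = (x q).2.2)
    {F G : ℚbar × ℚbar × ℚbar → ℚbar} (hF : ∀ q ∈ T, ContAt (P q) q (x q) F)
    (hG : ∀ q ∈ T, ContAt (P q) q (x q) G) (N : ℕ → ℕ) :
    ∃ s t μ : ℚ, ∀ q ∈ T,
      Ge (P q) q (F (algebraMap ℚ ℚbar s, algebraMap ℚ ℚbar t, algebraMap ℚ ℚbar μ) - F (x q))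
        (N q) ∧
      Ge (P q) q (G (algebraMap ℚ ℚbar s, algebraMap ℚ ℚbar t, algebraMap ℚ ℚbar μ) - G (x q))
        (N q) := by
  classical
  choose! MF hMF using fun q hq => hF q hq (N q)
  choose! MG hMG using fun q hq => hG q hq (N q)
  set K := T.sup fun q => max (MF q) (MG q)
  choose! rs hrs using fun q hq => exists_rat_approx (hP q hq) (fun σ hσ => (hx q hq σ hσ).1) K
  choose! rt hrt using fun q hq => exists_rat_approx (hP q hq) (fun σ hσ => (hx q hq σ hσ).2.1) K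
  choose! rm hrm using fun q hq => exists_rat_approx (hP q hq) (fun σ hσ => (hx q hq σ hσ).2.2) K
  obtain ⟨s, hs⟩ := exists_rat_forall_ge T P hP rs K
  obtain ⟨t, ht⟩ := exists_rat_forall_ge T P hP rt K
  obtain ⟨μ, hμ⟩ := exists_rat_forall_ge T P hP rm K
  refine ⟨s, t, μ, fun q hq => ?_⟩
  have hK : max (MF q) (MG q) ≤ K := Finset.le_sup (f := fun q => max (MF q) (MG q)) hq
  have hF' : (MF q : ℚ) ≤ (K : ℚ) := by exact_mod_cast (le_max_left _ _).trans hK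
  have hG' : (MG q : ℚ) ≤ (K : ℚ) := by exact_mod_cast (le_max_right _ _).trans hK
  have d : ∀ {z r y : ℚbar}, Ge (P q) q (z - r) (K : ℚ) → Ge (P q) q (y - r) (K : ℚ) →
      Ge (P q) q (z - y) (K : ℚ) := fun {z r y} ha hb => by
    rw [show z - y = (z - r) - (y - r) by ring]
    exact ha.sub (hP q hq) hb
  have a := d (hs q hq) (hrs q hq)
  have b := d (ht q hq) (hrt q hq)
  have c := d (hμ q hq) (hrm q hq)
  exact ⟨hMF q hq _ (a.mono hF') (b.mono hF') (c.mono hF'),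
    hMG q hq _ (a.mono hG') (b.mono hG') (c.mono hG')⟩

/-- Invariants sufficiently near those of a nonsingular curve are nonsingular. -/
theorem cube_ne_sq_of_near (h : IsPlace A q) {V : WeierstrassCurve ℤ} (hV : V.Δ ≠ 0) {N : ℕ}
    (hN : padicValInt q (1728 * V.Δ) < N) {a b : ℚ}
    (ha : Ge A q (algebraMap ℚ ℚbar a - (V.c₄ : ℚbar)) N)
    (hb : Ge A q (algebraMap ℚ ℚbar b - (V.c₆ : ℚbar)) N) : a ^ 3 ≠ b ^ 2 := by
  intro heq
  set x := algebraMap ℚ ℚbar a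
  set y := algebraMap ℚ ℚbar b
  have hxy : x ^ 3 = y ^ 2 := by rw [← map_pow, ← map_pow, heq]
  have mx : Ge A q x 0 := by simpa using (ha.mono (Nat.cast_nonneg N)).add h (ge_intCast h V.c₄)
  have my : Ge A q y 0 := by simpa using (hb.mono (Nat.cast_nonneg N)).add h (ge_intCast h V.c₆)
  have hne : (1728 * V.Δ : ℤ) ≠ 0 := mul_ne_zero (by norm_num) hV
  have k := (ge_pow_sub_pow h 2 my (ge_intCast h V.c₆) hb).sub h
    (ge_pow_sub_pow h 3 mx (ge_intCast h V.c₄) ha)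
  rw [show y ^ 2 - (V.c₆ : ℚbar) ^ 2 - (x ^ 3 - (V.c₄ : ℚbar) ^ 3) =
      ((1728 * V.Δ : ℤ) : ℚbar) by
    rw [V.c_relation]; push_cast; linear_combination -hxy] at k
  have hle := Is.le_of_ge (⟨Int.cast_ne_zero.mpr hne, ord_intCast h hne⟩ : Is A q _ _) k
  have : N ≤ padicValInt q (1728 * V.Δ) := by exact_mod_cast hle
  omega

/-- The torsion of `W` is that of any rational parameter twisted like the one over `W`, rescaled. -/
theorem exists_equiv_param {p : ℕ} [hp : Fact p.Prime] (F : Fam ℚbar p) (hp2 : p ≠ 2)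
    {W : WeierstrassCurve ℤ} (hΔ : W.Δ ≠ 0) {v u : ℚbar × ℚbar}
    (hv : F.Over (modQ W).c₄ (modQ W).c₆ v) (hu : F.Twisted v u) {a b : ℚ} (hu' : F.Over a b u)
    (hab : a ^ 3 ≠ b ^ 2) {μ : ℚ} (hμ : μ ≠ 0) :
    ∃ e : TorW (modQ W) p ≃+ TorQ (μ ^ 4 * a) (μ ^ 6 * b) p,
      ∀ (σ : Γℚ) x, e (σ • x) = σ • e x := by
  obtain ⟨e1, he1⟩ := exists_equiv_short (modQ W) (modQ_Δ_ne hΔ) (p := p) hp.out.one_le
  obtain ⟨e2, he2⟩ :=
    F.exists_equiv_of_twisted hp2 (c_ne_of_delta (modQ_Δ_ne hΔ)) hab hv hu' hu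
  obtain ⟨e3, he3⟩ := exists_equiv_scale hab (Units.mk0 μ hμ) (p := p) hp.out.one_le
  refine ⟨(e1.trans e2).trans e3, fun σ x => ?_⟩
  change e3 (e2 (e1 (σ • x))) = σ • e3 (e2 (e1 x))
  rw [he1, he2]
  exact he3 σ _

/-! ### Rescaling to integral minimal invariants -/

/-- The exponent of a prime in a product of prime powers. -/
lemma padicValRat_prod_zpow (k : ℕ → ℤ) {U : Finset ℕ} (hU : ∀ r ∈ U, r.Prime) {q : ℕ}
    (hq : q.Prime) :
    padicValRat q (∏ r ∈ U, (r : ℚ) ^ k r) = if q ∈ U then k q else 0 := by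
  have := Fact.mk hq
  have hgen : ∀ S : Finset ℕ, (∀ r ∈ S, r.Prime) →
      padicValRat q (∏ r ∈ S, (r : ℚ) ^ k r) = ∑ r ∈ S, if r = q then k r else 0 := by
    intro S
    induction S using Finset.induction_on with
    | empty => simp
    | @insert r S hr ih =>
      intro hS
      have hr0 : (r : ℚ) ≠ 0 := by exact_mod_cast (hS r (Finset.mem_insert_self _ _)).ne_zero
      rw [Finset.prod_insert hr, Finset.sum_insert hr, padicValRat.mul (zpow_ne_zero _ hr0)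
        (Finset.prod_ne_zero_iff.mpr fun x hx => zpow_ne_zero _ (by
          exact_mod_cast (hS x (Finset.mem_insert_of_mem hx)).ne_zero)),
        ih fun x hx => hS x (Finset.mem_insert_of_mem hx), padicValRat.zpow, padicValRat.of_nat]
      congr 1
      rcases eq_or_ne r q with rfl | hne
      · simp [padicValNat_self]
      · rw [if_neg hne, @padicValNat_primes q r ⟨hq⟩ ⟨hS r (Finset.mem_insert_self _ _)⟩ hne.symm,
          Nat.cast_zero, mul_zero]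
  rw [hgen U hU, Finset.sum_ite_eq']

/-- Invariants `a, b` with discriminant `d` are integral and minimal at the place. -/
def MinimalAt (A : ValuationSubring ℚbar) (q : ℕ) (a b d : ℚ) : Prop :=
  Ge A q (algebraMap ℚ ℚbar a) 0 ∧ Ge A q (algebraMap ℚ ℚbar b) 0 ∧
    ¬ (Gt A q (algebraMap ℚ ℚbar a) 0 ∧ Gt A q (algebraMap ℚ ℚbar d) 0)

/-- Minimality only depends on the exponent of `q` in the scaling factor. -/
lemma minimalAt_of_padicValRat_eq (h : IsPlace A q) {lam : ℚ} (hlam : lam ≠ 0) {k : ℤ}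
    (hk : padicValRat q lam = k) {a b d : ℚ}
    (hm : MinimalAt A q (a * (q : ℚ) ^ (4 * k)) (b * (q : ℚ) ^ (6 * k)) (d * (q : ℚ) ^ (12 * k))) :
    MinimalAt A q (lam ^ 4 * a) (lam ^ 6 * b) (lam ^ 12 * d) := by
  have := Fact.mk h.1
  have hq0 : (q : ℚ) ≠ 0 := by exact_mod_cast h.1.ne_zero
  have hunit : Is A q (algebraMap ℚ ℚbar (lam * (q : ℚ) ^ (-k))) 0 := by
    have := is_rat h (mul_ne_zero hlam (zpow_ne_zero (-k) hq0))
    rwa [padicValRat.mul hlam (zpow_ne_zero _ hq0), hk, padicValRat.zpow,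
      padicValRat.self h.1.one_lt, mul_one, add_neg_cancel, Int.cast_zero] at this
  have key : ∀ (e : ℕ) (x : ℚ), algebraMap ℚ ℚbar (lam ^ e * x) =
      algebraMap ℚ ℚbar (lam * (q : ℚ) ^ (-k)) ^ e *
        algebraMap ℚ ℚbar (x * (q : ℚ) ^ ((e : ℤ) * k)) := by
    intro e x
    rw [← map_pow, ← map_mul]
    congr 1
    rw [mul_pow, ← zpow_natCast ((q : ℚ) ^ (-k)), ← zpow_mul]
    have e0 : (q : ℚ) ^ (-k * (e : ℤ)) * (q : ℚ) ^ ((e : ℤ) * k) = 1 := by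
      rw [← zpow_add₀ hq0, show -k * (e : ℤ) + (e : ℤ) * k = 0 by ring, zpow_zero]
    linear_combination (-(lam ^ e * x)) * e0
  have ge' : ∀ (e : ℕ) {x : ℚbar}, Ge A q x 0 →
      Ge A q (algebraMap ℚ ℚbar (lam * (q : ℚ) ^ (-k)) ^ e * x) 0 := fun e x hx => by
    simpa using ((hunit.pow h e).ge).mul h hx
  have gt' : ∀ (e : ℕ) {x : ℚbar},
      Gt A q (algebraMap ℚ ℚbar (lam * (q : ℚ) ^ (-k)) ^ e * x) 0 → Gt A q x 0 := by
    intro e x hx
    have hpI := hunit.pow h e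
    have := hx.div h hpI
    rw [mul_div_cancel_left₀ _ hpI.1] at this
    simpa using this
  unfold MinimalAt
  rw [key 4, key 6, key 12]
  exact ⟨ge' 4 hm.1, ge' 6 hm.2.1, fun hh => hm.2.2 ⟨gt' 4 hh.1, gt' 12 hh.2⟩⟩

/-- Invariants without bad factors at `q` are minimal there. -/
lemma minimalAt_of_not_dvd (h : IsPlace A q) {a b d : ℚ} (ha : ¬ q ∣ a.den) (hb : ¬ q ∣ b.den)
    (hd0 : d ≠ 0) (hd : ¬ q ∣ d.num.natAbs) (hd' : ¬ q ∣ d.den) : MinimalAt A q a b d := by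
  refine ⟨ge_zero_of_not_dvd_den h ha, ge_zero_of_not_dvd_den h hb, fun hh => ?_⟩
  have := Fact.mk h.1
  have := is_rat h hd0
  rw [padicValRat, padicValNat.eq_zero_of_not_dvd hd', padicValInt,
    padicValNat.eq_zero_of_not_dvd hd, Nat.cast_zero, sub_zero, Int.cast_zero] at this
  exact this.not_gt hh.2

/-- **One scaling factor for all primes outside `T`**, prime to `T`. -/
theorem exists_global_scale (T : Finset ℕ) (hT : ∀ q ∈ T, q.Prime) {a b d : ℚ} (hd : d ≠ 0)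
    (hloc : ∀ q : ℕ, q.Prime → q ∉ T → ∃ (B : ValuationSubring ℚbar) (k : ℤ), IsPlace B q ∧
      MinimalAt B q (a * (q : ℚ) ^ (4 * k)) (b * (q : ℚ) ^ (6 * k)) (d * (q : ℚ) ^ (12 * k))) :
    ∃ lam : ℚ, lam ≠ 0 ∧ (∀ q ∈ T, padicValRat q lam = 0) ∧
      ∀ q : ℕ, q.Prime → q ∉ T → ∃ B : ValuationSubring ℚbar, IsPlace B q ∧
        MinimalAt B q (lam ^ 4 * a) (lam ^ 6 * b) (lam ^ 12 * d) := by
  classical
  choose! B k hB hk using hloc
  set U : Finset ℕ := ((a.den).primeFactors ∪ (b.den).primeFactors ∪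
    (d.num.natAbs).primeFactors ∪ (d.den).primeFactors) \ T with hU
  have hUp : ∀ q ∈ U, q.Prime := fun q hq => by
    simp only [hU, Finset.mem_sdiff, Finset.mem_union] at hq
    rcases hq.1 with ((h | h) | h) | h <;> exact Nat.prime_of_mem_primeFactors h
  have hlam0 : (∏ q ∈ U, (q : ℚ) ^ k q) ≠ 0 :=
    Finset.prod_ne_zero_iff.mpr fun q hq => zpow_ne_zero _ (by exact_mod_cast (hUp q hq).ne_zero)
  refine ⟨_, hlam0, fun q hq => ?_, fun q hq hqT => ⟨B q, hB q hq hqT, ?_⟩⟩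
  · rw [padicValRat_prod_zpow k hUp (hT q hq), if_neg fun hqU => (Finset.mem_sdiff.mp hqU).2 hq]
  by_cases hqU : q ∈ U
  · exact minimalAt_of_padicValRat_eq (hB q hq hqT) hlam0
      (by rw [padicValRat_prod_zpow k hUp hq, if_pos hqU]) (hk q hq hqT)
  refine minimalAt_of_padicValRat_eq (hB q hq hqT) hlam0
    (by rw [padicValRat_prod_zpow k hUp hq, if_neg hqU]) ?_
  simp only [mul_zero, zpow_zero, mul_one]
  simp only [hU, Finset.mem_sdiff, Finset.mem_union, Nat.mem_primeFactors, not_and, not_not,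
    hqT, imp_false, not_or, ne_eq] at hqU
  obtain ⟨⟨⟨ha, hb⟩, hn⟩, hd'⟩ := hqU
  exact minimalAt_of_not_dvd (hB q hq hqT) (fun e => Rat.den_nz _ (ha hq e))
    (fun e => Rat.den_nz _ (hb hq e)) hd
    (fun e => Int.natAbs_ne_zero.mpr (Rat.num_ne_zero.mpr hd) (hn hq e))
    (fun e => Rat.den_nz _ (hd' hq e))

/-- A rational number integral at every prime is an integer. -/
lemma exists_intCast_eq_of_ge {x : ℚ}
    (hx : ∀ q : ℕ, q.Prime → ∃ B : ValuationSubring ℚbar,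
      IsPlace B q ∧ Ge B q (algebraMap ℚ ℚbar x) 0) : ∃ z : ℤ, (z : ℚ) = x := by
  refine ⟨x.num, Rat.coe_int_num_of_den_eq_one ?_⟩
  by_contra hne
  obtain ⟨q, hq, hd⟩ := Nat.exists_prime_and_dvd hne
  obtain ⟨B, hB, hge⟩ := hx q hq
  exact not_dvd_den hB hge hd

/-- A curve with integral invariants minimal at `q` is semistable at `q`. -/
lemma not_dvd_c4_of_minimalAt (h : IsPlace A q) {W : WeierstrassCurve ℤ}
    (hm : MinimalAt A q W.c₄ W.c₆ ((W.c₄ : ℚ) ^ 3 - (W.c₆ : ℚ) ^ 2)) (hΔ : (q : ℤ) ∣ W.Δ) :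
    ¬ (q : ℤ) ∣ W.c₄ := by
  intro h4
  have g1 : ∀ z : ℤ, (q : ℤ) ∣ z → Gt A q (z : ℚbar) 0 := fun z hz =>
    (ge_intCast_of_dvd (L := ℚbar) h (k := 1) (by simpa using hz)).gt (by norm_num)
  refine hm.2.2 ⟨by rw [map_intCast]; exact g1 _ h4, ?_⟩
  have := g1 _ (dvd_mul_of_dvd_right hΔ 1728)
  rw [W.c_relation] at this
  simpa using this

/-- **The rescaled model**: invariants near those of `V q` at `T`, with local scalings outside `T`,
give an integral model congruent to `V q` at `T` and semistable outside. -/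
theorem exists_scaled_model (T : Finset ℕ) (hT : ∀ q ∈ T, q.Prime) (h2 : 2 ∈ T) (h3 : 3 ∈ T)
    (V : ℕ → WeierstrassCurve ℤ) (P : ℕ → ValuationSubring ℚbar) (hP : ∀ q ∈ T, IsPlace (P q) q)
    (M : ℕ) {a b : ℚ} (hab : a ^ 3 ≠ b ^ 2)
    (hnear : ∀ q ∈ T, Ge (P q) q (algebraMap ℚ ℚbar a - ((V q).c₄ : ℚbar)) (M + 6 : ℕ) ∧
      Ge (P q) q (algebraMap ℚ ℚbar b - ((V q).c₆ : ℚbar)) (M + 6 : ℕ))
    (hloc : ∀ q : ℕ, q.Prime → q ∉ T → ∃ (B : ValuationSubring ℚbar) (k : ℤ), IsPlace B q ∧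
      MinimalAt B q (a * (q : ℚ) ^ (4 * k)) (b * (q : ℚ) ^ (6 * k))
        ((a ^ 3 - b ^ 2) * (q : ℚ) ^ (12 * k))) :
    ∃ (W' : WeierstrassCurve ℤ) (lam : ℚ), lam ≠ 0 ∧
      (W'.c₄ : ℚ) = lam ^ 4 * a ∧ (W'.c₆ : ℚ) = lam ^ 6 * b ∧
      (∀ q : ℕ, q.Prime → q ∉ T → (q : ℤ) ∣ W'.Δ → ¬ (q : ℤ) ∣ W'.c₄) ∧
      ∀ q ∈ T, ∃ n : ℤ, ¬ (q : ℤ) ∣ n ∧ ScaledCong W' (V q) ((q : ℤ) ^ M) n := by
  classical
  -- one scale for all primes, a unit at those of `T`
  obtain ⟨lam, hlam0, hlT', hout⟩ := exists_global_scale T hT (sub_ne_zero.mpr hab) hloc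
  have hlT : ∀ q ∈ T, Is (P q) q (algebraMap ℚ ℚbar lam) 0 := fun q hq => by
    have := is_rat (hP q hq) hlam0
    rwa [hlT' q hq, Int.cast_zero] at this
  have hin : ∀ q ∈ T, ∀ (e : ℕ) {x : ℚ} {c : ℤ},
      Ge (P q) q (algebraMap ℚ ℚbar x - (c : ℚbar)) (M + 6 : ℕ) →
      Ge (P q) q (algebraMap ℚ ℚbar (lam ^ e * x)) 0 := fun q hq e x c hx => by
    have hx0 : Ge (P q) q (algebraMap ℚ ℚbar x) 0 := by
      simpa using (hx.mono (Nat.cast_nonneg _)).add (hP q hq) (ge_intCast (hP q hq) c)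
    rw [map_mul, map_pow]
    simpa using ((hlT q hq).pow (hP q hq) e).ge.mul (hP q hq) hx0
  -- the scaled invariants are integers
  obtain ⟨C4, hC4⟩ := exists_intCast_eq_of_ge (x := lam ^ 4 * a) fun q hq => by
    by_cases hqT : q ∈ T
    · exact ⟨P q, hP q hqT, hin q hqT 4 (hnear q hqT).1⟩
    · obtain ⟨B, hB, hm⟩ := hout q hq hqT
      exact ⟨B, hB, hm.1⟩
  obtain ⟨C6, hC6⟩ := exists_intCast_eq_of_ge (x := lam ^ 6 * b) fun q hq => by
    by_cases hqT : q ∈ T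
    · exact ⟨P q, hP q hqT, hin q hqT 6 (hnear q hqT).2⟩
    · obtain ⟨B, hB, hm⟩ := hout q hq hqT
      exact ⟨B, hB, hm.2.1⟩
  choose! n hnl using fun q hq => exists_intCast_near (hP q hq) (hlT q hq).ge (M + 6)
  -- an integral model with these invariants and congruences
  obtain ⟨W', e4, e6, hW'⟩ := exists_int_model T hT h2 h3 C4 C6 V n M fun q hq =>
    ⟨dvd_sub_of_scaled (hP q hq) hC4 (hlT q hq).ge (hnl q hq) (hnear q hq).1,
      dvd_sub_of_scaled (hP q hq) hC6 (hlT q hq).ge (hnl q hq) (hnear q hq).2⟩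
  refine ⟨W', lam, hlam0, by rw [e4, hC4], by rw [e6, hC6], fun q hq hqT => ?_, fun q hq =>
    ⟨n q, not_dvd_of_ge_sub (hP q hq) (Nat.succ_pos _) (hlT q hq) (hnl q hq), hW' q hq⟩⟩
  -- off `T` it is minimal, hence semistable
  obtain ⟨B, hB, hm⟩ := hout q hq hqT
  refine not_dvd_c4_of_minimalAt hB ?_
  rwa [e4, e6, hC4, hC6, show (lam ^ 4 * a) ^ 3 - (lam ^ 6 * b) ^ 2 = lam ^ 12 * (a ^ 3 - b ^ 2) by
    ring]

/-- The torsion of a model with scaled invariants. -/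
theorem exists_equiv_scaled_model {W' : WeierstrassCurve ℤ} {a b lam : ℚ} (hab : a ^ 3 ≠ b ^ 2)
    (hlam : lam ≠ 0) (h4 : (W'.c₄ : ℚ) = lam ^ 4 * a) (h6 : (W'.c₆ : ℚ) = lam ^ 6 * b) {p : ℕ}
    (hp : 1 ≤ p) :
    W'.Δ ≠ 0 ∧ ∃ f : TorQ a b p ≃+ TorW (modQ W') p, ∀ (σ : Γℚ) x, f (σ • x) = σ • f x := by
  have hΔ : W'.Δ ≠ 0 := by
    intro hz
    have := congrArg (fun z : ℤ => (z : ℚ)) W'.c_relation
    push_cast at this
    rw [hz, h4, h6, Int.cast_zero, mul_zero] at this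
    refine hab (mul_left_cancel₀ (pow_ne_zero 12 hlam) ?_)
    linear_combination -this
  obtain ⟨e5, he5⟩ := exists_equiv_short (modQ W') (modQ_Δ_ne hΔ) (p := p) hp
  have key : ∀ {a' b' : ℚ}, a' = (modQ W').c₄ → b' = (modQ W').c₆ →
      ∃ f : TorQ a' b' p ≃+ TorW (modQ W') p, ∀ (σ : Γℚ) x, f (σ • x) = σ • f x := by
    rintro _ _ rfl rfl
    refine ⟨e5.symm, fun σ x => e5.injective ?_⟩
    rw [he5, e5.apply_symm_apply, e5.apply_symm_apply]
  obtain ⟨f, hf⟩ := key (a' := (Units.mk0 lam hlam : ℚ) ^ 4 * a)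
    (b' := (Units.mk0 lam hlam : ℚ) ^ 6 * b) (by rw [WeierstrassCurve.map_c₄, eq_intCast, h4]; rfl)
    (by rw [WeierstrassCurve.map_c₆, eq_intCast, h6]; rfl)
  obtain ⟨e4, he4⟩ := exists_equiv_scale hab (Units.mk0 lam hlam) (p := p) hp
  refine ⟨hΔ, e4.trans f, fun σ x => ?_⟩
  change f (e4 (σ • x)) = σ • f (e4 x)
  rw [← hf]
  exact congrArg _ (he4 σ x)

/-- **The global switch**, with targets given approximately. -/
theorem exists_switch_model_gen {p : ℕ} [hp : Fact p.Prime] (F : Fam ℚbar p) (hp2 : p ≠ 2)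
    (W : WeierstrassCurve ℤ) (hΔ : W.Δ ≠ 0) {v w : ℚbar × ℚbar}
    (hv : F.Over (modQ W).c₄ (modQ W).c₆ v) (hw : F.Twisted v w)
    (T : Finset ℕ) (hT : ∀ q ∈ T, q.Prime) (h2 : 2 ∈ T) (h3 : 3 ∈ T) (hpT : p ∈ T)
    (hbad : ∀ q : ℕ, q.Prime → (q : ℤ) ∣ W.Δ → q ∈ T)
    (hsc : ∀ q : ℕ, q.Prime → q ∉ T → ScalesAt p q)
    (hcont : ∀ {A : ValuationSubring ℚbar} {q : ℕ} {x : ℚbar × ℚbar × ℚbar}, IsPlace A q →
      ContAt A q x (fun y => y.2.2 ^ 4 * F.c4.toFun (comb v w y)) ∧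
        ContAt A q x (fun y => y.2.2 ^ 6 * F.c6.toFun (comb v w y)))
    (V : ℕ → WeierstrassCurve ℤ) (hV : ∀ q ∈ T, (V q).Δ ≠ 0) (P : ℕ → ValuationSubring ℚbar)
    (hP : ∀ q ∈ T, IsPlace (P q) q) (M : ℕ)
    (hpar : ∀ q ∈ T, ∃ s t μ : ℚbar,
      (∀ σ ∈ (P q).decompositionSubgroup ℚ, σ s = s ∧ σ t = t ∧ σ μ = μ) ∧
      Ge (P q) q (μ ^ 4 * F.c4.toFun (comb v w (s, t, μ)) - ((V q).c₄ : ℚbar)) (M + 6 : ℕ) ∧
      Ge (P q) q (μ ^ 6 * F.c6.toFun (comb v w (s, t, μ)) - ((V q).c₆ : ℚbar)) (M + 6 : ℕ) ∧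
      (q = 2 → μ ^ 4 * F.c4.toFun (comb v w (s, t, μ)) = ((V q).c₄ : ℚbar) ∧
        μ ^ 6 * F.c6.toFun (comb v w (s, t, μ)) = ((V q).c₆ : ℚbar))) :
    ∃ W' : WeierstrassCurve ℤ, W'.Δ ≠ 0 ∧
      (∃ e : TorW (modQ W) p ≃+ TorW (modQ W') p, ∀ (σ : Γℚ) x, e (σ • x) = σ • e x) ∧
      (∀ q : ℕ, q.Prime → q ∉ T → (q : ℤ) ∣ W'.Δ → ¬ (q : ℤ) ∣ W'.c₄) ∧
      ∀ q ∈ T, ∃ n : ℤ, ¬ (q : ℤ) ∣ n ∧ ScaledCong W' (V q) ((q : ℤ) ^ M) n := by
  classical
  choose! sl tl μl hfix hp4 hp6 hex using hpar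
  -- at two the approximation must in addition keep the invariants nonsingular
  set N : ℕ := M + 6 + padicValInt 2 (1728 * (V 2).Δ) + 1 with hN
  obtain ⟨s, t, μ, hclose⟩ := exists_rat_param_near T P hP (fun q => (sl q, tl q, μl q)) hfix
    (fun q hq => (hcont (hP q hq)).1) (fun q hq => (hcont (hP q hq)).2) (fun _ => N)
  set u : ℚbar × ℚbar := comb v w (algebraMap ℚ ℚbar s, algebraMap ℚ ℚbar t, algebraMap ℚ ℚbar μ)
  have hu : F.Twisted v u := F.twisted_lin (F.twisted_self v) hw s t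
  obtain ⟨a, b, hu'⟩ := F.exists_rat_cval (c_ne_of_delta (modQ_Δ_ne hΔ)) hv hu
  have c4 : F.c4.toFun u = algebraMap ℚ ℚbar a := congrArg Prod.fst hu'
  have c6 : F.c6.toFun u = algebraMap ℚ ℚbar b := congrArg Prod.snd hu'
  have hclose' : ∀ q ∈ T,
      Ge (P q) q (algebraMap ℚ ℚbar (μ ^ 4 * a) -
        μl q ^ 4 * F.c4.toFun (comb v w (sl q, tl q, μl q))) N ∧
      Ge (P q) q (algebraMap ℚ ℚbar (μ ^ 6 * b) -
        μl q ^ 6 * F.c6.toFun (comb v w (sl q, tl q, μl q))) N := by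
    intro q hq
    rw [map_mul, map_mul, map_pow, map_pow, ← c4, ← c6]
    exact hclose q hq
  have hnear : ∀ q ∈ T,
      Ge (P q) q (algebraMap ℚ ℚbar (μ ^ 4 * a) - ((V q).c₄ : ℚbar)) (M + 6 : ℕ) ∧
      Ge (P q) q (algebraMap ℚ ℚbar (μ ^ 6 * b) - ((V q).c₆ : ℚbar)) (M + 6 : ℕ) := by
    intro q hq
    have hle : ((M + 6 : ℕ) : ℚ) ≤ (N : ℚ) := by exact_mod_cast (by omega : M + 6 ≤ N)
    constructor
    · simpa using ((hclose' q hq).1.mono hle).add (hP q hq) (hp4 q hq)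
    · simpa using ((hclose' q hq).2.mono hle).add (hP q hq) (hp6 q hq)
  have hα : (μ ^ 4 * a) ^ 3 ≠ (μ ^ 6 * b) ^ 2 := by
    obtain ⟨n4, n6⟩ := hclose' 2 h2
    rw [(hex 2 h2 rfl).1] at n4
    rw [(hex 2 h2 rfl).2] at n6
    exact cube_ne_sq_of_near (hP 2 h2) (hV 2 h2) (by omega) n4 n6
  have hμ0 : μ ≠ 0 := fun e => hα (by simp [e])
  have hab : a ^ 3 ≠ b ^ 2 := fun e => hα (by linear_combination μ ^ 12 * e)
  obtain ⟨e, he⟩ := exists_equiv_param F hp2 hΔ hv hu hu' hab hμ0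
  obtain ⟨W', lam, hlam, h4, h6, hout, hin⟩ := exists_scaled_model T hT h2 h3 V P hP M hα hnear
    fun q hq hqT => by
      obtain ⟨B, hB⟩ := Fermat.CFT.exists_place hq
      obtain ⟨k, hk⟩ := hsc q hq hqT B ⟨hq, hB⟩ _ _ hα fun ι hι x => by
        obtain ⟨z, rfl⟩ := e.surjective x
        rw [← he, smul_tor_eq_self_of_good (W := W) ⟨hq, hB⟩ (fun hd => hqT (hbad q hq hd)) hp.out
          hp2 (fun e => hqT (e ▸ hpT)) hι z]
      exact ⟨B, k, ⟨hq, hB⟩, hk⟩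
  obtain ⟨hW'Δ, f, hf⟩ := exists_equiv_scaled_model hα hlam h4 h6 hp.out.one_le
  exact ⟨W', hW'Δ, ⟨e.trans f, fun σ x => (congrArg f (he σ x)).trans (hf σ _)⟩, hout, hin⟩

end Fermat.SW
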