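import Fermat.Agent.SW.Family

/-!
# All regular members of a family have the same `p`-torsion

The labelling `mark` of the torsion of a member by its points `P` moved by the matrices `t`; the
addition law of the labels does not depend on the parameter (`exists_add_label`). `Twist` turns
this into identifications of Galois modules over `ℚ`.
-/

set_option autoImplicit false
set_option linter.unusedSectionVars false

open WeierstrassCurve

namespace Fermat.SW

/-- The `p`-torsion of the short curve. -/
abbrev Tor {K : Type} [Field K] [DecidableEq K] (a b : K) (p : ℕ) :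
    Submodule ℤ (shortCurve a b).Point :=
  Submodule.torsionBy ℤ (shortCurve a b).Point (p : ℤ)

/-- Negation of torsion points is negation of points. -/
lemma coe_neg_tor {K : Type} [Field K] [DecidableEq K] {a b : K} {p : ℕ} (x : Tor a b p) :
    ((-x : Tor a b p) : (shortCurve a b).Point) = -(x : (shortCurve a b).Point) := rfl

/-- Addition of torsion points is addition of points. -/
lemma coe_add_tor {K : Type} [Field K] [DecidableEq K] {a b : K} {p : ℕ} (x y : Tor a b p) :
    ((x + y : Tor a b p) : (shortCurve a b).Point) =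
      (x : (shortCurve a b).Point) + (y : (shortCurve a b).Point) := rfl

namespace Fam

variable {K : Type} [Field K] [CharZero K] {p : ℕ} (F : Fam K p)

/-- Abscissa of the `j`-th point. -/
def px (j : F.κ) (v : K × K) : K := F.X.toFun (act (F.tMat j) v)

/-- Ordinate of the `j`-th point. -/
def py (j : F.κ) (v : K × K) : K := F.Y.toFun (act (F.tMat j) v)

/-- The labelled points lie on the curve of the parameter. -/
lemma equation_px (j : F.κ) {a b : K} {v : K × K} (h : F.cval v = (a, b)) :
    (shortCurve a b).Equation (F.px j v) (F.py j v) := by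
  have := F.onCurve (act (F.tMat j) v)
  rw [(F.t_pres j v).1, (F.t_pres j v).2] at this
  simp only [cval, Prod.mk.injEq] at h
  rw [h.1, h.2] at this
  exact this

/-- The short curve of regular invariants is non-singular. -/
lemma delta_ne_zero {a b : K} (h : a ^ 3 ≠ b ^ 2) : (shortCurve a b).Δ ≠ 0 := by
  rw [shortCurve_Δ]
  exact mul_ne_zero (mul_ne_zero (pow_ne_zero _ (by norm_num)) (pow_ne_zero _ (by norm_num)))
    (sub_ne_zero.mpr h)

/-- A parameter with regular invariants is regular. -/
lemma reg_of_cval {a b : K} (hab : a ^ 3 ≠ b ^ 2) {v : K × K} (h : F.cval v = (a, b)) :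
    F.Reg v := by
  simp only [cval, Prod.mk.injEq] at h
  unfold Reg
  rw [h.1, h.2]; exact hab

/-- The labelled points are non-singular points. -/
lemma nonsingular_px (j : F.κ) {a b : K} (hab : a ^ 3 ≠ b ^ 2) {v : K × K}
    (h : F.cval v = (a, b)) : (shortCurve a b).Nonsingular (F.px j v) (F.py j v) :=
  (Affine.equation_iff_nonsingular_of_Δ_ne_zero (delta_ne_zero hab)).mp (F.equation_px j h)

/-- A matrix fixing the point does not change the labelled coordinates. -/
lemma px_r (i : F.ι) (j : F.κ) (v : K × K) :
    F.X.toFun (act (F.rMat i * F.tMat j) v) = F.px j v ∧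
      F.Y.toFun (act (F.rMat i * F.tMat j) v) = F.py j v := by
  rw [act_mul]
  exact ⟨(F.r_pres i _).2.2.1, (F.r_pres i _).2.2.2⟩

/-- The products `r t` preserve the forms. -/
lemma pres_rt (i : F.ι) (j : F.κ) : F.Pres (F.rMat i * F.tMat j) :=
  Pres.mul (F.pres_r i) (F.pres_t j)

/-- The matrices `t` keep regular parameters regular. -/
lemma reg_t (j : F.κ) {v : K × K} (hv : F.Reg v) : F.Reg (act (F.tMat j) v) :=
  Pres.reg (F.pres_t j) hv

/-- The marked point is killed by `p`, for given invariants. -/
lemma torsion' [DecidableEq K] {a b : K} (hab : a ^ 3 ≠ b ^ 2) {w : K × K}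
    (hw : F.c4.toFun w = a ∧ F.c6.toFun w = b)
    (hns : (shortCurve a b).Nonsingular (F.X.toFun w) (F.Y.toFun w)) :
    (p : ℤ) • Affine.Point.some _ _ hns = 0 := by
  obtain ⟨rfl, rfl⟩ := hw
  exact F.torsion w hns hab

/-- At a regular parameter `(r, t) ↦ r t v` is injective. -/
lemma rt_inj {i i' : F.ι} {j j' : F.κ} {v : K × K} (hv : F.Reg v)
    (e : act (F.rMat i * F.tMat j) v = act (F.rMat i' * F.tMat j') v) : i = i' ∧ j = j' := by
  have hm := pres_eq (F.pres_rt i j) (F.pres_rt i' j') hv e
  have hj : j = j' := F.t_sep j j' fun w => by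
    have h1 := F.px_r i j w
    rw [hm] at h1
    have h2 := F.px_r i' j' w
    exact ⟨h1.1.symm.trans h2.1, h1.2.symm.trans h2.2⟩
  subst hj
  refine ⟨F.r_inj ?_, rfl⟩
  rw [act_mul, act_mul] at e
  exact pres_eq (F.pres_r i) (F.pres_r i') (F.reg_t j hv) e

/-- The points of the different labels are distinct. -/
lemma label_inj {v : K × K} (hv : F.Reg v) {j j' : F.κ} (hx : F.px j v = F.px j' v)
    (hy : F.py j v = F.py j' v) : j = j' := by
  classical
  by_contra hne
  let f : F.ι ⊕ F.ι → K × K := Sum.elim (fun i => act (F.rMat i * F.tMat j) v)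
    (fun i => act (F.rMat i * F.tMat j') v)
  have hf : Function.Injective f := by
    rintro (i | i) (i' | i') e <;> simp only [f, Sum.elim_inl, Sum.elim_inr] at e
    · rw [(F.rt_inj hv e).1]
    · exact absurd (F.rt_inj hv e).2 hne
    · exact absurd (F.rt_inj hv e).2.symm hne
    · rw [(F.rt_inj hv e).1]
  have hne0 : 0 < Fintype.card F.ι := by
    have h := F.fibre v hv {v} (by simp)
    simp at h
    omega
  have hle := F.fibre (act (F.tMat j) v) (F.reg_t j hv) (Finset.univ.image f) (by
    intro w hw
    obtain ⟨s, -, rfl⟩ := Finset.mem_image.mp hw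
    rcases s with i | i <;> simp only [f, Sum.elim_inl, Sum.elim_inr]
    · exact ⟨(F.pres_rt i j v).1.trans (F.t_pres j v).1.symm,
        (F.pres_rt i j v).2.trans (F.t_pres j v).2.symm,
        (F.px_r i j v).1, (F.px_r i j v).2⟩
    · exact ⟨(F.pres_rt i j' v).1.trans (F.t_pres j v).1.symm,
        (F.pres_rt i j' v).2.trans (F.t_pres j v).2.symm,
        (F.px_r i j' v).1.trans hx.symm, (F.px_r i j' v).2.trans hy.symm⟩)
  rw [Finset.card_image_of_injective _ hf, Finset.card_univ, Fintype.card_sum] at hle
  omega

variable [DecidableEq K]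

/-- The `j`-th torsion point. -/
noncomputable def pt (j : F.κ) {a b : K} (hab : a ^ 3 ≠ b ^ 2) {v : K × K}
    (h : F.cval v = (a, b)) : Tor a b p :=
  ⟨Affine.Point.some _ _ (F.nonsingular_px j hab h), by
    rw [Submodule.mem_torsionBy_iff]
    have hc : F.c4.toFun (act (F.tMat j) v) = a ∧ F.c6.toFun (act (F.tMat j) v) = b := by
      simp only [cval, Prod.mk.injEq] at h
      exact ⟨(F.t_pres j v).1.trans h.1, (F.t_pres j v).2.trans h.2⟩
    obtain ⟨rfl, rfl⟩ := hc
    exact F.torsion (act (F.tMat j) v) _ hab⟩

/-- The coordinates of a labelled point. -/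
lemma pt_coe (j : F.κ) {a b : K} (hab : a ^ 3 ≠ b ^ 2) {v : K × K} (h : F.cval v = (a, b)) :
    (F.pt j hab h : (shortCurve a b).Point) = Affine.Point.some _ _ (F.nonsingular_px j hab h) :=
  rfl

/-- A labelled point is `(x, y)` iff its coordinates are `x` and `y`. -/
lemma pt_eq_iff {j : F.κ} {a b : K} {hab : a ^ 3 ≠ b ^ 2} {v : K × K} {h : F.cval v = (a, b)}
    {x y : K} {hns : (shortCurve a b).Nonsingular x y} :
    (F.pt j hab h : (shortCurve a b).Point) = Affine.Point.some _ _ hns ↔
      F.px j v = x ∧ F.py j v = y := by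
  simp [pt]

variable [IsAlgClosed K] [hp : Fact p.Prime]

/-- The labelling of the torsion at a parameter. -/
noncomputable def markFun {a b : K} (hab : a ^ 3 ≠ b ^ 2) {v : K × K} (h : F.cval v = (a, b)) :
    Option F.κ → Tor a b p :=
  fun o => o.elim 0 fun j => F.pt j hab h

/-- The labelling exhausts the `p`-torsion without repetition. -/
lemma markFun_bijective {a b : K} (hab : a ^ 3 ≠ b ^ 2) {v : K × K} (h : F.cval v = (a, b)) :
    Function.Bijective (F.markFun hab h) := by
  have hp1 : 1 ≤ p := hp.out.one_lt.le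
  have hc : Nat.card (Tor a b p) = p ^ 2 := Fermat.EC.card_torsionBy (delta_ne_zero hab) hp1
  have : Finite (Tor a b p) := Nat.finite_of_card_ne_zero (by rw [hc]; positivity)
  rw [Nat.bijective_iff_injective_and_card]
  refine ⟨?_, ?_⟩
  · intro o o' e
    have e' := congrArg Subtype.val e
    rcases o with _ | j <;> rcases o' with _ | j' <;>
      simp [markFun, pt] at e' ⊢
    exact F.label_inj (F.reg_of_cval hab h) e'.1 e'.2
  · rw [hc, Nat.card_eq_fintype_card, Fintype.card_option]
    exact F.card_κ

/-- The bijection between the labels and the `p`-torsion of the member over `v`. -/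
noncomputable def mark {a b : K} (hab : a ^ 3 ≠ b ^ 2) {v : K × K} (h : F.cval v = (a, b)) :
    Option F.κ ≃ Tor a b p :=
  Equiv.ofBijective _ (F.markFun_bijective hab h)

/-- The empty label is the origin. -/
lemma mark_none {a b : K} (hab : a ^ 3 ≠ b ^ 2) {v : K × K} (h : F.cval v = (a, b)) :
    F.mark hab h none = 0 := rfl

/-- A label gives its point. -/
lemma mark_some {a b : K} (hab : a ^ 3 ≠ b ^ 2) {v : K × K} (h : F.cval v = (a, b)) (j : F.κ) :
    F.mark hab h (some j) = F.pt j hab h := rfl

include F in
/-- Transitivity on fibres. -/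
lemma exists_pres_act {v w : K × K} (hv : F.Reg v) (h : F.cval w = F.cval v) :
    ∃ i j, act (F.rMat i * F.tMat j) v = w := by
  classical
  set a := F.c4.toFun v
  set b := F.c6.toFun v
  have hcw : F.c4.toFun w = a ∧ F.c6.toFun w = b := by
    simpa [cval] using h
  have heq : (shortCurve a b).Equation (F.X.toFun w) (F.Y.toFun w) := by
    have := F.onCurve w
    rwa [hcw.1, hcw.2] at this
  have hns := (Affine.equation_iff_nonsingular_of_Δ_ne_zero (delta_ne_zero hv)).mp heq
  have hmem : Affine.Point.some _ _ hns ∈ Tor a b p := by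
    rw [Submodule.mem_torsionBy_iff]
    exact F.torsion' hv hcw hns
  -- the point at `w` is one of the marked torsion points
  obtain ⟨o, ho⟩ := (F.markFun_bijective (v := v) hv rfl).2 ⟨_, hmem⟩
  rcases o with _ | j
  · exact absurd (congrArg Subtype.val ho).symm
      (Affine.Point.some_ne_zero _)
  have hj := (F.pt_eq_iff (j := j) (hab := hv) (h := rfl)).mp (congrArg Subtype.val ho)
  by_contra hno
  push Not at hno
  -- the fibre bound leaves no room for a further `w`
  have hle := F.fibre (act (F.tMat j) v) (F.reg_t j hv)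
    (insert w (Finset.univ.image fun i => act (F.rMat i * F.tMat j) v)) (by
      intro x hx
      rcases Finset.mem_insert.mp hx with rfl | hx
      · exact ⟨hcw.1.trans (F.t_pres j v).1.symm, hcw.2.trans (F.t_pres j v).2.symm,
          hj.1.symm, hj.2.symm⟩
      · obtain ⟨i, -, rfl⟩ := Finset.mem_image.mp hx
        exact ⟨(F.pres_rt i j v).1.trans (F.t_pres j v).1.symm,
          (F.pres_rt i j v).2.trans (F.t_pres j v).2.symm,
          (F.px_r i j v).1, (F.px_r i j v).2⟩)
  rw [Finset.card_insert_of_notMem, Finset.card_image_of_injective, Finset.card_univ] at hle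
  · omega
  · intro i i' e
    exact (F.rt_inj hv e).1
  · intro hx
    obtain ⟨i, -, hi⟩ := Finset.mem_image.mp hx
    exact hno i j hi

/-- Every preserving matrix is one of the products `r * t`. -/
lemma pres_cases {g : Matrix (Fin 2) (Fin 2) K} (hg : F.Pres g) :
    ∃ i j, g = F.rMat i * F.tMat j := by
  obtain ⟨v, hv1, hv2⟩ := F.exists_value 1 0 (by norm_num)
  have hv : F.Reg v := by unfold Reg; rw [hv1, hv2]; norm_num
  obtain ⟨i, j, e⟩ := F.exists_pres_act hv (hg.cval_eq v)
  exact ⟨i, j, (pres_eq (F.pres_rt i j) hg hv e).symm⟩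

/-! ### The pattern of sums does not depend on the parameter -/

/-- The generic parameters: the two variables. -/
noncomputable def gen : MvPolynomial (Fin 2) K × MvPolynomial (Fin 2) K :=
  (MvPolynomial.X 0, MvPolynomial.X 1)

/-- Evaluating a form at the generic parameter gives its value. -/
lemma eval_act (G : Form) (g : Matrix (Fin 2) (Fin 2) K) (v : K × K) :
    MvPolynomial.aeval ![v.1, v.2] (G.toFun (act g (gen (K := K)))) =
      G.toFun (act g v) := by
  rw [G.natural', ← act_map]
  simp [gen, Prod.map]

/-- If at every regular parameter some member of a finite family of pairs of polynomials vanishes,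
then some member vanishes identically. -/
lemma exists_uniform {α : Type} [Fintype α]
    (q : α → MvPolynomial (Fin 2) K × MvPolynomial (Fin 2) K)
    (hq : ∀ v : K × K, F.Reg v → ∃ k, MvPolynomial.aeval ![v.1, v.2] (q k).1 = 0 ∧
      MvPolynomial.aeval ![v.1, v.2] (q k).2 = 0) :
    ∃ k, (q k).1 = 0 ∧ (q k).2 = 0 := by
  classical
  by_contra hno
  push Not at hno
  -- the product of a nonzero polynomial of each pair and the discriminant vanishes everywhere
  let sel : α → MvPolynomial (Fin 2) K := fun k => if (q k).1 = 0 then (q k).2 else (q k).1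
  have hsel : ∀ k, sel k ≠ 0 := fun k => by
    simp only [sel]
    split_ifs with h
    · exact hno k h
    · exact h
  let reg : MvPolynomial (Fin 2) K :=
    F.c4.toFun (act (1 : Matrix (Fin 2) (Fin 2) K) (gen (K := K))) ^ 3 -
    F.c6.toFun (act (1 : Matrix (Fin 2) (Fin 2) K) (gen (K := K))) ^ 2
  have hreg : ∀ v : K × K, MvPolynomial.aeval ![v.1, v.2] reg =
      F.c4.toFun v ^ 3 - F.c6.toFun v ^ 2 := fun v => by
    simp only [reg, map_sub, map_pow, eval_act]
    simp only [act_one]
  have hreg0 : reg ≠ 0 := by
    obtain ⟨v, hv1, hv2⟩ := F.exists_value 1 0 (by norm_num)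
    intro h0
    have := hreg v
    rw [h0, map_zero, hv1, hv2] at this
    norm_num at this
  have hprod : reg * ∏ k, sel k = 0 := by
    refine MvPolynomial.funext fun x => ?_
    rw [map_zero]
    have hx : x = ![x 0, x 1] := by
      funext i; fin_cases i <;> simp
    change MvPolynomial.eval x _ = 0
    rw [hx, ← MvPolynomial.coe_aeval_eq_eval]
    simp only [RingHom.coe_coe, map_mul, map_prod]
    rw [show MvPolynomial.aeval ![x 0, x 1] reg = _ from hreg (x 0, x 1)]
    by_cases hv : F.Reg (x 0, x 1)
    · obtain ⟨k, hk1, hk2⟩ := hq _ hv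
      refine mul_eq_zero_of_right _ (Finset.prod_eq_zero (Finset.mem_univ k) ?_)
      simp only [sel]
      split_ifs <;> assumption
    · refine mul_eq_zero_of_left ?_ _
      exact sub_eq_zero.mpr (not_not.mp hv)
  rcases mul_eq_zero.mp hprod with h | h
  · exact hreg0 h
  · obtain ⟨k, -, hk⟩ := Finset.prod_eq_zero_iff.mp h
    exact hsel k hk

/-- Negation acts on the labels, uniformly in the family. -/
lemma exists_neg_label (i : F.κ) :
    ∃ k, ∀ {a b : K} (hab : a ^ 3 ≠ b ^ 2) {v : K × K} (h : F.cval v = (a, b)),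
      F.pt k hab h = -F.pt i hab h := by
  obtain ⟨k, hk1, hk2⟩ := F.exists_uniform (fun k =>
    (F.X.toFun (act (F.tMat k) gen) - F.X.toFun (act (F.tMat i) gen),
      F.Y.toFun (act (F.tMat k) gen) + F.Y.toFun (act (F.tMat i) gen))) (by
    intro v hv
    obtain ⟨o, ho⟩ := (F.markFun_bijective (v := v) hv rfl).2 (-F.pt i hv rfl)
    have ho' := congrArg Subtype.val ho
    rcases o with _ | k
    · simp [markFun, pt, Affine.Point.neg_some] at ho'
    · refine ⟨k, ?_⟩
      simp only [markFun, Option.elim] at ho'
      rw [coe_neg_tor, pt_coe, pt_coe, Affine.Point.neg_some, Affine.Point.some.injEq] at ho'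
      simp only [Affine.negY, shortCurve] at ho'
      simp only [map_sub, map_add, eval_act]
      unfold px py at ho'
      exact ⟨by rw [ho'.1, sub_self], by rw [ho'.2]; ring⟩)
  refine ⟨k, fun {a b} hab {v} h => ?_⟩
  have e1 := congrArg (MvPolynomial.aeval ![v.1, v.2]) hk1
  have e2 := congrArg (MvPolynomial.aeval ![v.1, v.2]) hk2
  simp only [map_sub, map_add, eval_act, map_zero] at e1 e2
  apply Subtype.ext
  rw [coe_neg_tor, pt_coe, pt_coe, Affine.Point.neg_some, Affine.Point.some.injEq]
  simp only [Affine.negY, shortCurve, px, py]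
  exact ⟨sub_eq_zero.mp e1, by linear_combination e2⟩

/-- Addition acts on the labels, uniformly in the family. -/
lemma exists_add_label (i j : F.κ) :
    ∃ k : Option F.κ, i ≠ j → ∀ {a b : K} (hab : a ^ 3 ≠ b ^ 2) {v : K × K} (h : F.cval v = (a, b)),
      F.mark hab h k = F.pt i hab h + F.pt j hab h := by
  obtain ⟨n, hn⟩ := F.exists_neg_label i
  by_cases hij : i = j
  · exact ⟨none, fun h => absurd hij h⟩
  by_cases hjn : j = n
  · subst hjn
    exact ⟨none, fun _ a b hab v h => by rw [mark_none, hn hab h, add_neg_cancel]⟩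
  -- the abscissae are different at every parameter
  have hxne : ∀ v : K × K, F.Reg v → F.px i v ≠ F.px j v := by
    intro v hv hx
    rcases Affine.Y_eq_of_X_eq (F.equation_px i (v := v) rfl) (F.equation_px j (v := v) rfl) hx with
      hy | hy
    · exact hij (F.label_inj hv hx hy)
    · have hN := congrArg Subtype.val
        (hn (v := v) hv rfl)
      rw [coe_neg_tor, pt_coe, pt_coe, Affine.Point.neg_some, Affine.Point.some.injEq] at hN
      simp only [Affine.negY, shortCurve] at hN hy
      refine hjn (F.label_inj hv (hx.symm.trans hN.1.symm) ?_)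
      linear_combination hy - hN.2
  obtain ⟨k, hk1, hk2⟩ := F.exists_uniform (fun k =>
    ((F.X.toFun (act (F.tMat j) gen) - F.X.toFun (act (F.tMat i) gen)) ^ 2 *
        (F.X.toFun (act (F.tMat k) gen) + F.X.toFun (act (F.tMat i) gen) +
          F.X.toFun (act (F.tMat j) gen)) -
      (F.Y.toFun (act (F.tMat j) gen) - F.Y.toFun (act (F.tMat i) gen)) ^ 2,
     (F.X.toFun (act (F.tMat j) gen) - F.X.toFun (act (F.tMat i) gen)) *
        F.Y.toFun (act (F.tMat k) gen) +
      ((F.Y.toFun (act (F.tMat j) gen) - F.Y.toFun (act (F.tMat i) gen)) *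
          (F.X.toFun (act (F.tMat k) gen) - F.X.toFun (act (F.tMat i) gen)) +
        F.Y.toFun (act (F.tMat i) gen) *
          (F.X.toFun (act (F.tMat j) gen) - F.X.toFun (act (F.tMat i) gen))))) (by
    intro v hv
    obtain ⟨o, ho⟩ := (F.markFun_bijective (v := v) hv rfl).2 (F.pt i hv rfl + F.pt j hv rfl)
    have hx := hxne v hv
    have ho' := congrArg Subtype.val ho
    rw [coe_add_tor, pt_coe, pt_coe, Affine.Point.add_of_X_ne hx] at ho'
    rcases o with _ | k
    · exact absurd ho'.symm (Affine.Point.some_ne_zero _)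
    · refine ⟨k, ?_⟩
      simp only [markFun, Option.elim] at ho'
      rw [pt_coe, Affine.Point.some.injEq, Affine.slope_of_X_ne hx] at ho'
      simp only [Affine.addX, Affine.addY, Affine.negY, Affine.negAddY, shortCurve] at ho'
      obtain ⟨e1, e2⟩ := ho'
      have hd : F.px i v - F.px j v ≠ 0 := sub_ne_zero.mpr hx
      simp only [map_sub, map_add, map_mul, map_pow, eval_act]
      change (F.px j v - F.px i v) ^ 2 * (F.px k v + F.px i v + F.px j v) -
          (F.py j v - F.py i v) ^ 2 = 0 ∧
        (F.px j v - F.px i v) * F.py k v + ((F.py j v - F.py i v) * (F.px k v - F.px i v) +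
          F.py i v * (F.px j v - F.px i v)) = 0
      constructor
      · rw [e1]; field_simp; ring
      · rw [e2, e1]; field_simp; ring)
  refine ⟨some k, fun _ a b hab v h => ?_⟩
  have hv := F.reg_of_cval hab h
  have hx := hxne v hv
  have e1 := congrArg (MvPolynomial.aeval ![v.1, v.2]) hk1
  have e2 := congrArg (MvPolynomial.aeval ![v.1, v.2]) hk2
  simp only [map_sub, map_add, map_mul, map_pow, eval_act, map_zero] at e1 e2
  change (F.px j v - F.px i v) ^ 2 * (F.px k v + F.px i v + F.px j v) -
      (F.py j v - F.py i v) ^ 2 = 0 at e1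
  change (F.px j v - F.px i v) * F.py k v + ((F.py j v - F.py i v) * (F.px k v - F.px i v) +
      F.py i v * (F.px j v - F.px i v)) = 0 at e2
  have hd : F.px i v - F.px j v ≠ 0 := sub_ne_zero.mpr hx
  have k1 : F.px k v = ((F.py i v - F.py j v) / (F.px i v - F.px j v)) ^ 2 - F.px i
      v - F.px j v := by
    field_simp
    linear_combination e1
  apply Subtype.ext
  rw [mark_some, coe_add_tor, pt_coe, pt_coe, pt_coe, Affine.Point.add_of_X_ne hx,
    Affine.Point.some.injEq, Affine.slope_of_X_ne hx]
  simp only [Affine.addX, Affine.addY, Affine.negY, Affine.negAddY, shortCurve]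
  refine ⟨by linear_combination k1, ?_⟩
  field_simp
  rw [k1] at e2
  field_simp at e2
  linear_combination -e2

end Fam

end Fermat.SW
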