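import Fermat.Agent.SW.Surj

/-!
# Irreducible semistable representations modulo three are surjective

The main result is `surjective_three`.
-/

set_option autoImplicit false

noncomputable section

open Fermat.CFT Matrix

namespace Fermat.SW.Surj

local notation "ℚbar" => AlgebraicClosure ℚ
local notation "Γℚ" => (AlgebraicClosure ℚ ≃ₐ[ℚ] AlgebraicClosure ℚ)

local notation "M2" => Matrix (Fin 2) (Fin 2) (ZMod 3)
local notation "GL2" => GL (Fin 2) (ZMod 3)

/-- Squares are trivial in the group of order two. -/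
lemma sq_two : ∀ x : Multiplicative (ZMod 2), x ^ 2 = 1 := by decide

/-- A subgroup of `GL₂(𝔽₃)` without elements of order three is a two-group. -/
private lemma isPGroup_range {ρ : Γℚ →* GL2} (hτ : ∀ τ, ρ τ ≠ 1 → ρ τ ^ 3 ≠ 1) :
    IsPGroup 2 ρ.range := by
  have hGL : Nat.card GL2 = 48 := by
    rw [Matrix.card_GL_field]; simp [Fin.prod_univ_two]
  set G := ρ.range with hG
  have hdvd : Nat.card G ∣ 2 ^ 4 * 3 := by
    have := Subgroup.card_subgroup_dvd_card G
    rwa [hGL] at this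
  have hco : Nat.Coprime (Nat.card G) 3 := by
    rw [Nat.coprime_comm, Nat.prime_three.coprime_iff_not_dvd]
    intro h3
    obtain ⟨g, hg⟩ := exists_prime_orderOf_dvd_card' 3 h3
    obtain ⟨τ, hτg⟩ := g.2
    have e3 : (g : GL2) ^ 3 = 1 := by
      have := pow_orderOf_eq_one g
      rw [hg] at this
      exact congrArg Subtype.val this
    refine hτ τ (fun e => ?_) (by rw [hτg]; exact e3)
    have : g = 1 := Subtype.ext (by rw [← hτg, e]; rfl)
    rw [this, orderOf_one] at hg
    omega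
  obtain ⟨k, -, hk⟩ := (Nat.dvd_prime_pow Nat.prime_two).mp (hco.dvd_of_dvd_mul_right hdvd)
  exact IsPGroup.of_card hk

/-- The determinant at complex conjugation. -/
private lemma det_complexConj {ρ : Γℚ →* GL2}
    (hdet : ∀ σ, (ρ σ : M2).det = ((cycChar 3 σ : (ZMod 3)ˣ) : ZMod 3)) {c : Γℚ}
    (hcz : ∀ (z : ℚbar) (n : ℕ), 0 < n → z ^ n = 1 → c z = z⁻¹) : (ρ c : M2).det = -1 := by
  obtain ⟨z, hz⟩ := exists_primitiveRoot_qbar (q := 3)
  have e : c z = z ^ 2 := by
    have h1 := hcz z 3 (by norm_num) hz.pow_eq_one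
    rw [h1]
    exact inv_eq_of_mul_eq_one_right (by rw [← pow_succ', hz.pow_eq_one])
  rw [hdet, cycChar_eq_of_apply hz e]
  decide

/-- A coatom of a finite two-group has index two. -/
private lemma index_eq_two_of_coatom {G : Type*} [Group G] [Finite G] (hP : IsPGroup 2 G)
    {M : Subgroup G} [M.Normal] (hM : IsCoatom M) : M.index = 2 := by
  have : Fact (Nat.Prime 2) := ⟨Nat.prime_two⟩
  obtain ⟨j, hj⟩ := (hP.to_quotient M).exists_card_eq
  rw [Subgroup.index_eq_card]
  have hj1 : 1 ≤ j := by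
    by_contra h0
    simp only [not_le, Nat.lt_one_iff] at h0
    rw [h0, pow_zero] at hj
    exact hM.1 (Subgroup.index_eq_one.mp (by rw [Subgroup.index_eq_card, hj]))
  obtain ⟨x, hx⟩ := exists_prime_orderOf_dvd_card' (G := G ⧸ M) 2
    (by rw [hj]; exact dvd_pow_self 2 (by omega))
  set K := (Subgroup.zpowers x).comap (QuotientGroup.mk' M) with hK
  have hKM : M ≤ K := fun y hy => by
    simp [hK, (QuotientGroup.eq_one_iff y).mpr hy]
  have hKne : K ≠ M := by
    obtain ⟨y, rfl⟩ := QuotientGroup.mk'_surjective M x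
    intro e
    have hy : y ∈ M := e ▸ (Subgroup.mem_zpowers (QuotientGroup.mk' M y))
    rw [QuotientGroup.mk'_apply, (QuotientGroup.eq_one_iff y).mpr hy, orderOf_one] at hx
    omega
  have htop : Subgroup.zpowers x = ⊤ := by
    have := congrArg (Subgroup.map (QuotientGroup.mk' M))
      (hM.2 K (lt_of_le_of_ne hKM (Ne.symm hKne)))
    rw [hK, Subgroup.map_comap_eq_self_of_surjective (QuotientGroup.mk'_surjective M),
      Subgroup.map_top_of_surjective _ (QuotientGroup.mk'_surjective M)] at this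
    exact this
  rw [← Nat.card_congr (Subgroup.topEquiv).toEquiv, ← htop, Nat.card_zpowers, hx]

/-- A two-group image unramified outside three is generated by complex conjugation. -/
private lemma zpowers_complexConj_eq_top {ρ : Γℚ →* GL2} (hopen : IsOpen (ρ.ker : Set Γℚ))
    (hdet : ∀ σ, (ρ σ : M2).det = ((cycChar 3 σ : (ZMod 3)ˣ) : ZMod 3))
    (hunr : ∀ ℓ : ℕ, ℓ.Prime → ℓ ≠ 3 → ∀ B : ValuationSubring ℚbar, B.LiesOverPrime ℓ →
      ∀ σ ∈ B.inertiaSubgroupIn ℚ, ρ σ = 1)
    (hP : IsPGroup 2 ρ.range) {c : Γℚ} (hdc : (ρ c : M2).det = -1) :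
    Subgroup.zpowers (ρ.rangeRestrict c) = ⊤ := by
  have : Fact (Nat.Prime 2) := ⟨Nat.prime_two⟩
  set G := ρ.range
  by_contra hne
  obtain ⟨M, hM, hle⟩ :=
    (eq_top_or_exists_le_coatom (Subgroup.zpowers (ρ.rangeRestrict c))).resolve_left hne
  have := hP.isNilpotent
  have hnorm : M.Normal :=
    Subgroup.NormalizerCondition.normal_of_coatom M Group.normalizerCondition_of_isNilpotent hM
  have hidx : M.index = 2 := index_eq_two_of_coatom hP hM
  have : Fact (Nat.card (G ⧸ M) = 2) := ⟨hidx⟩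
  -- the quadratic character
  let e : G ⧸ M ≃* Multiplicative (ZMod 2) :=
    mulEquivOfPrimeCardEq (p := 2) hidx (by simp)
  set χ : Γℚ →* Multiplicative (ZMod 2) :=
    e.toMonoidHom.comp ((QuotientGroup.mk' M).comp ρ.rangeRestrict) with hχ
  have hker : ∀ x, ρ x = 1 → χ x = 1 := fun x hx => by
    have : ρ.rangeRestrict x = 1 := Subtype.ext hx
    simp [hχ, this]
  have hχopen : IsOpen (χ.ker : Set Γℚ) :=
    Subgroup.isOpen_mono (fun x hx => hker x hx) hopen
  have key : ∀ σ, cycChar 3 σ = 1 → χ σ = 1 := fun σ hσ =>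
    eq_one_of_sq (p := 3) χ hχopen sq_two (by norm_num)
      (fun ℓ hℓ hne B hB σ hσ => hker σ (hunr ℓ hℓ hne B hB σ hσ)) hσ
  have hχc : χ c = 1 := by
    have : ρ.rangeRestrict c ∈ M := hle (Subgroup.mem_zpowers _)
    simp only [hχ, MonoidHom.comp_apply, QuotientGroup.mk'_apply,
      (QuotientGroup.eq_one_iff _).mpr this, map_one]
  refine hM.1 (eq_top_iff.mpr fun y _ => ?_)
  obtain ⟨x, hx⟩ : ∃ x, ρ.rangeRestrict x = y := ρ.rangeRestrict_surjective y
  have hc1 : cycChar 3 c = -1 := Units.ext (by rw [← hdet, hdc]; rfl)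
  have hχx : χ x = 1 := by
    have hu : ∀ u : (ZMod 3)ˣ, u = 1 ∨ u = -1 := by decide
    rcases hu (cycChar 3 x) with h1 | h1
    · exact key x h1
    · have := key (c * x) (by rw [map_mul, hc1, h1, neg_mul_neg, one_mul])
      rwa [map_mul, hχc, one_mul] at this
  have h1 : (QuotientGroup.mk' M) (ρ.rangeRestrict x) = 1 := by
    have h2 : e ((QuotientGroup.mk' M) (ρ.rangeRestrict x)) = e 1 := by
      rw [map_one]; exact hχx
    exact e.injective h2
  rw [hx] at h1
  exact (QuotientGroup.eq_one_iff y).mp h1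

/-- An involution modulo three has an eigenvector. -/
private lemma exists_eigenvector {X : M2} (hX : X * X = 1) :
    ∃ v : Fin 2 → ZMod 3, v ≠ 0 ∧ ∃ a : ZMod 3, X *ᵥ v = a • v := by
  by_cases hd : (X - 1).det = 0
  · obtain ⟨v, hv, h⟩ := Matrix.exists_mulVec_eq_zero_iff.mpr hd
    exact ⟨v, hv, 1, by rw [one_smul]; rwa [Matrix.sub_mulVec, Matrix.one_mulVec, sub_eq_zero] at h⟩
  · obtain ⟨v, hv, h⟩ := Matrix.exists_mulVec_eq_zero_iff.mpr (show (X + 1).det = 0 by
      have h0 : (X - 1) * (X + 1) = 0 := by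
        rw [sub_mul, mul_add, mul_one, one_mul, hX]
        abel
      have := congrArg Matrix.det h0
      rw [Matrix.det_mul, Matrix.det_zero] at this
      exact (mul_eq_zero.mp this).resolve_left hd)
    refine ⟨v, hv, -1, ?_⟩
    rw [Matrix.add_mulVec, Matrix.one_mulVec, add_eq_zero_iff_eq_neg] at h
    rw [h, neg_one_smul]

/-- **Surjectivity modulo three.** An irreducible representation with cyclotomic determinant and
unipotent inertia away from three is onto. -/
theorem surjective_three {ρ : Γℚ →* GL2} (hopen : IsOpen (ρ.ker : Set Γℚ))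
    (hdet : ∀ σ, (ρ σ : M2).det = ((cycChar 3 σ : (ZMod 3)ˣ) : ZMod 3)) (hirr : Irr ρ)
    (hunip : ∀ ℓ : ℕ, ℓ.Prime → ℓ ≠ 3 → ∀ B : ValuationSubring ℚbar, B.LiesOverPrime ℓ →
      ∀ σ ∈ B.inertiaSubgroupIn ℚ, ((ρ σ : M2) - 1) * ((ρ σ : M2) - 1) = 0) :
    Function.Surjective ρ := by
  classical
  by_cases hτ : ∃ τ, ρ τ ≠ 1 ∧ ρ τ ^ 3 = 1
  · obtain ⟨τ, h1, h2⟩ := hτ
    exact surjective_of_order hirr hdet h1 h2
  exfalso
  push Not at hτ
  have hunr : ∀ ℓ : ℕ, ℓ.Prime → ℓ ≠ 3 → ∀ B : ValuationSubring ℚbar, B.LiesOverPrime ℓ →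
      ∀ σ ∈ B.inertiaSubgroupIn ℚ, ρ σ = 1 := fun ℓ hℓ hne B hB σ hσ => by
    by_contra hne1
    exact hτ σ hne1 (Units.ext (by
      rw [Units.val_pow_eq_pow_val, Units.val_one]
      exact pow_eq_one_of_sq (hunip ℓ hℓ hne B hB σ hσ)))
  -- complex conjugation generates
  obtain ⟨c, hcc, hcz⟩ := exists_complexConj
  set g : ρ.range := ρ.rangeRestrict c with hg
  have hgen : Subgroup.zpowers g = ⊤ :=
    zpowers_complexConj_eq_top hopen hdet hunr (isPGroup_range hτ) (det_complexConj hdet hcz)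
  have hg2 : g * g = 1 := by rw [hg, ← map_mul, hcc, map_one]
  -- an eigenvector of complex conjugation is stable
  have himg : ∀ σ, ρ σ = 1 ∨ ρ σ = ρ c := by
    intro σ
    obtain ⟨n, hn⟩ :=
      Subgroup.mem_zpowers_iff.mp (hgen ▸ Subgroup.mem_top (⟨ρ σ, σ, rfl⟩ : ρ.range))
    rcases Int.even_or_odd n with ⟨m, rfl⟩ | ⟨m, rfl⟩
    · left
      have := congrArg Subtype.val hn
      rw [← two_mul, _root_.zpow_mul, zpow_two, hg2, _root_.one_zpow] at this
      exact this.symm
    · right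
      have := congrArg Subtype.val hn
      rw [_root_.zpow_add, zpow_one, _root_.zpow_mul, zpow_two, hg2, _root_.one_zpow,
        one_mul] at this
      exact this.symm
  obtain ⟨v, hv, a, ha⟩ := exists_eigenvector (X := (ρ c : M2))
    (by rw [← Units.val_mul, ← map_mul, hcc, map_one, Units.val_one])
  obtain ⟨σ, hσ⟩ := hirr v hv
  rcases himg σ with e | e
  · exact hσ 1 (by rw [e, Units.val_one, Matrix.one_mulVec, one_smul])
  · exact hσ a (by rw [e]; exact ha)

end Fermat.SW.Surj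

end
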