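import Fermat.Agent.SW.Param
import Fermat.Agent.SW.AuxCurve
import Fermat.Prelude.Def_FLTPrelim_ModularRep

/-!
# Ingredients of the three-five switch

Congruence of traces for curves with the same torsion, the prescribed curve with trace zero at an
auxiliary prime, and the finite set of primes at which the switch prescribes; the switch itself is
in `SW/Switch35`, which combines them with the global switch of `ParamGen`.
-/

set_option autoImplicit false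

noncomputable section

open WeierstrassCurve.Affine Fermat.EC.Val

namespace Fermat.SW

local notation "ℚbar" => AlgebraicClosure ℚ
local notation "Γℚ" => (AlgebraicClosure ℚ ≃ₐ[ℚ] AlgebraicClosure ℚ)

/-- Galois equivariant identification of `p`-torsion. -/
def TorEquiv (p : ℕ) (W W' : WeierstrassCurve ℤ) : Prop :=
  ∃ e : TorW (modQ W) p ≃+ TorW (modQ W') p, ∀ (σ : Γℚ) x, e (σ • x) = σ • e x

variable {p : ℕ} [hp : Fact p.Prime]

/-- Isomorphic torsion has the same traces. -/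
theorem galoisTrace_eq_of_torEquiv {W W' : WeierstrassCurve ℤ} (he : TorEquiv p W W') (σ : Γℚ) :
    Point.galoisTrace (K := ℚbar) ℚ (modQ W).toAffine p σ =
      Point.galoisTrace (K := ℚbar) ℚ (modQ W').toAffine p σ := by
  obtain ⟨e, he⟩ := he
  let L : TorW (modQ W) p ≃ₗ[ZMod p] TorW (modQ W') p :=
    { e with map_smul' := fun c x => ZMod.map_smul e.toAddMonoidHom c x }
  rw [Point.galoisTrace_def, Point.galoisTrace_def,
    ← LinearMap.trace_conj' (Point.galoisRepModuleEnd (K := ℚbar) ℚ (modQ W).toAffine p σ) L]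
  congr 1
  refine LinearMap.ext fun x => ?_
  obtain ⟨y, rfl⟩ := L.surjective x
  simp only [LinearEquiv.conj_apply, LinearMap.coe_comp, LinearEquiv.coe_coe, Function.comp_apply,
    LinearEquiv.symm_apply_apply]
  exact he σ y

/-- Congruence of traces from an equivariant identification. -/
theorem apOfModel_congr_of_equiv {W W' : WeierstrassCurve ℤ}
    (e : TorW (modQ W) p ≃+ TorW (modQ W') p) (he : ∀ (σ : Γℚ) x, e (σ • x) = σ • e x) {ℓ : ℕ}
    (hℓ : ℓ.Prime) (hℓp : ℓ ≠ p) (hg : ¬ (ℓ : ℤ) ∣ W.Δ) (hg' : ¬ (ℓ : ℤ) ∣ W'.Δ) :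
    (p : ℤ) ∣ W'.apOfModel ℓ - W.apOfModel ℓ := by
  obtain ⟨A, hA⟩ := Fermat.CFT.exists_place hℓ
  obtain ⟨σ, hσ⟩ := Fermat.CFT.exists_isFrobeniusAt hℓ hA
  have h := galoisTrace_eq_of_torEquiv ⟨e, he⟩ σ
  rw [FR.galoisTrace_frobenius W hℓ hℓp hg hA hσ,
    FR.galoisTrace_frobenius W' hℓ hℓp hg' hA hσ] at h
  rw [← ZMod.intCast_zmod_eq_zero_iff_dvd, Int.cast_sub, sub_eq_zero]
  exact h.symm

/-- Irreducibility from one Frobenius without eigenvalues. -/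
theorem irreducible_of_frobenius (W : WeierstrassCurve ℤ) {ℓ : ℕ} (hℓ : ℓ.Prime)
    (hℓp : ℓ ≠ p) (hg : ¬ (ℓ : ℤ) ∣ W.Δ)
    (hroot : ∀ x : ZMod p, x ^ 2 - (W.apOfModel ℓ : ZMod p) * x + (ℓ : ZMod p) ≠ 0) :
    W.ModRepIsIrreducible p := by
  obtain ⟨A, hA⟩ := Fermat.CFT.exists_place hℓ
  obtain ⟨σ, hσ⟩ := Fermat.CFT.exists_isFrobeniusAt hℓ hA
  have hW : W.Δ ≠ 0 := fun e => hg (e ▸ dvd_zero _)
  obtain ⟨h2, hfin⟩ := FR.finrank_torsion W (p := p) hW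
  set L := Point.galoisRepModuleEnd (K := ℚbar) ℚ (modQ W).toAffine p σ with hL
  have htr : LinearMap.trace (ZMod p) _ L = (W.apOfModel ℓ : ZMod p) :=
    FR.galoisTrace_frobenius W hℓ hℓp hg hA hσ
  have hdet : LinearMap.det L = (ℓ : ZMod p) := FR.det_frobenius W hW hℓ hℓp hA hσ
  refine ⟨Module.nontrivial_of_finrank_pos (R := ZMod p) (M := TorW (modQ W) p)
    (by rw [h2]; norm_num),
    fun N hN => ?_⟩
  by_contra hcon
  push Not at hcon
  obtain ⟨hbot, htop⟩ := hcon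
  have hlt : Module.finrank (ZMod p) N < 2 := h2 ▸ Submodule.finrank_lt htop
  have hone : Module.finrank (ZMod p) N = 1 := by
    have hpos : 0 < Module.finrank (ZMod p) N :=
      Nat.pos_of_ne_zero fun e => hbot (Submodule.finrank_eq_zero.mp e)
    omega
  obtain ⟨x, hxne, hspan⟩ := finrank_eq_one_iff'.mp hone
  obtain ⟨c, hc⟩ := hspan ⟨σ • x.1, hN σ x.1 x.2⟩
  have hc' : L x.1 = c • x.1 := (congrArg Subtype.val hc).symm
  have h := Conj2.cayley h2 L x.1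
  rw [hc', map_smul, hc', htr, hdet] at h
  have h0 : (c ^ 2 - (W.apOfModel ℓ : ZMod p) * c + (ℓ : ZMod p)) • x.1 = 0 := by
    rw [add_smul, sub_smul, pow_two, mul_smul, mul_smul, h]
    abel
  rcases smul_eq_zero.mp h0 with h1 | h1
  · exact hroot c h1
  · exact hxne (Subtype.ext h1)

/-- A scaled congruence persists to divisors of the modulus. -/
lemma ScaledCong.of_dvd {W V : WeierstrassCurve ℤ} {m m' n : ℤ} (hc : ScaledCong W V m n)
    (hd : m' ∣ m) : ScaledCong W V m' n :=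
  ⟨hd.trans hc.a₁, hd.trans hc.a₂, hd.trans hc.a₃, hd.trans hc.a₄, hd.trans hc.a₆⟩

/-- The `c`-invariants of an integral model, read in `ℚbar`. -/
theorem algebraMap_modQ_c (U : WeierstrassCurve ℤ) :
    algebraMap ℚ ℚbar (modQ U).c₄ = (U.c₄ : ℚbar) ∧
      algebraMap ℚ ℚbar (modQ U).c₆ = (U.c₆ : ℚbar) := by
  rw [WeierstrassCurve.map_c₄, WeierstrassCurve.map_c₆]
  exact ⟨map_intCast _ _, map_intCast _ _⟩

/-- At an auxiliary prime with vanishing trace some fixed parameter gives the curve `auxE`. -/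
theorem exists_fixed_param_auxE {F : Fam ℚbar p} (S : F.Shear) (hp2 : p ≠ 2)
    {W : WeierstrassCurve ℤ} {ℓ : ℕ} [hℓ : Fact ℓ.Prime] (hℓ2 : ℓ ≠ 2)
    (hℓp : ℓ ≠ p) (hℓ4 : ℓ % 4 = 3) (hℓgood : ¬ (ℓ : ℤ) ∣ W.Δ)
    (hℓa : (W.apOfModel ℓ : ZMod p) = 0) {A : ValuationSubring ℚbar} (hA : IsPlace A ℓ)
    {v w : ℚbar × ℚbar} (hv : F.Over (modQ W).c₄ (modQ W).c₆ v) (hw : F.Twisted v w)
    (hind : w.1 * v.2 - w.2 * v.1 ≠ 0) :
    ∃ s t μ : ℚbar, (∀ σ ∈ A.decompositionSubgroup ℚ, σ s = s ∧ σ t = t ∧ σ μ = μ) ∧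
      μ ^ 4 * F.c4.toFun (comb v w (s, t, μ)) = (auxE.c₄ : ℚbar) ∧
      μ ^ 6 * F.c6.toFun (comb v w (s, t, μ)) = (auxE.c₆ : ℚbar) := by
  have hsep : (W.apOfModel ℓ : ZMod p) ^ 2 - 4 * (ℓ : ZMod p) ≠ 0 := by
    have h4 : ((4 : ℕ) : ZMod p) ≠ 0 := by
      rw [Ne, ZMod.natCast_eq_zero_iff]
      exact fun hd => hp2 ((Nat.prime_dvd_prime_iff_eq hp.out Nat.prime_two).mp
        (hp.out.dvd_of_dvd_pow (n := 2) (by norm_num; exact hd)))
    have hℓ0 : (ℓ : ZMod p) ≠ 0 := by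
      rw [Ne, ZMod.natCast_eq_zero_iff]
      exact fun hd => hℓp ((Nat.prime_dvd_prime_iff_eq hp.out hℓ.out).mp hd).symm
    rw [hℓa]
    simpa using mul_ne_zero h4 hℓ0
  have hE := auxE_not_dvd hℓ.out hℓ2
  have hD := localDatum_of_good (p := p) hA hℓgood hE hp2 hℓp
    (by rw [hℓa, apOfModel_auxE hℓ4, Int.cast_zero]) hsep
  have hE0 : auxE.Δ ≠ 0 := by rw [auxE_Δ]; norm_num
  have hΔ : W.Δ ≠ 0 := fun e => hℓgood (e ▸ dvd_zero _)
  obtain ⟨f, hf⟩ := exists_equiv_short (modQ W) (modQ_Δ_ne hΔ) (p := p) hp.out.one_le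
  obtain ⟨g, hg⟩ := exists_equiv_short (modQ auxE) (modQ_Δ_ne hE0) (p := p) hp.out.one_le
  obtain ⟨e, he, hz⟩ := hD.transport (W' := shortCurve (modQ W).c₄ (modQ W).c₆)
    (V' := shortCurve (modQ auxE).c₄ (modQ auxE).c₆) f hf g hg
  obtain ⟨s, t, μ, -, hfix, e4, e6⟩ := S.exists_fixed_param hp2
    (c_ne_of_delta (modQ_Δ_ne hΔ)) (c_ne_of_delta (modQ_Δ_ne hE0)) hv hw hind _ e he hz
  rw [(algebraMap_modQ_c auxE).1] at e4
  rw [(algebraMap_modQ_c auxE).2] at e6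
  exact ⟨s, t, μ, hfix, e4, e6⟩

omit hp in
/-- The parameter `(1, 0, 1)` gives the curve itself. -/
theorem self_param {F : Fam ℚbar p} {W : WeierstrassCurve ℤ} {v : ℚbar × ℚbar}
    (hv : F.Over (modQ W).c₄ (modQ W).c₆ v) (w : ℚbar × ℚbar) :
    (1 : ℚbar) ^ 4 * F.c4.toFun (comb v w (1, 0, 1)) = (W.c₄ : ℚbar) ∧
      (1 : ℚbar) ^ 6 * F.c6.toFun (comb v w (1, 0, 1)) = (W.c₆ : ℚbar) := by
  simp only [comb, one_mul, zero_mul, add_zero, one_pow, Prod.mk.eta]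
  rw [← (algebraMap_modQ_c W).1, ← (algebraMap_modQ_c W).2]
  exact ⟨congrArg Prod.fst hv, congrArg Prod.snd hv⟩

/-- Semistability from congruences with semistable models at the primes of `T`. -/
theorem isSemistableModel_of_scaledCong {W' : WeierstrassCurve ℤ} (T : Finset ℕ)
    (V : ℕ → WeierstrassCurve ℤ) {M : ℕ} (hM : M ≠ 0)
    (hout : ∀ q : ℕ, q.Prime → q ∉ T → (q : ℤ) ∣ W'.Δ → ¬ (q : ℤ) ∣ W'.c₄)
    (hin : ∀ q ∈ T, ∃ n : ℤ, ¬ (q : ℤ) ∣ n ∧ ScaledCong W' (V q) ((q : ℤ) ^ M) n)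
    (hV : ∀ q ∈ T, q.Prime → (q : ℤ) ∣ (V q).Δ → ¬ (q : ℤ) ∣ (V q).c₄) :
    W'.IsSemistableModel := by
  intro q hq hd
  by_cases hqT : q ∈ T
  · have := Fact.mk hq
    obtain ⟨n, hn, hc⟩ := hin q hqT
    obtain ⟨h1, h2⟩ := delta_c4_of_scaledCong hn (hc.of_dvd (dvd_pow_self _ hM))
    rw [h2]
    exact hV q hqT hq (h1.mp hd)
  · exact hout q hq hqT hd

/-- The primes at which a switch prescribes local parameters. -/
def switchPrimes (W : WeierstrassCurve ℤ) (p ℓ : ℕ) : Finset ℕ :=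
  ({2, 3, p, ℓ} : Finset ℕ) ∪ W.Δ.natAbs.primeFactors

omit hp in
/-- Membership in `switchPrimes`. -/
private theorem mem_switchPrimes {W : WeierstrassCurve ℤ} {ℓ q : ℕ} :
    q ∈ switchPrimes W p ℓ ↔
      (q = 2 ∨ q = 3 ∨ q = p ∨ q = ℓ) ∨ q ∈ W.Δ.natAbs.primeFactors := by
  simp [switchPrimes, or_assoc]

/-- The primes of a switch are primes. -/
theorem prime_of_mem_switchPrimes {W : WeierstrassCurve ℤ} {ℓ q : ℕ} (hℓ : ℓ.Prime)
    (hq : q ∈ switchPrimes W p ℓ) : q.Prime := by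
  rcases mem_switchPrimes.mp hq with (rfl | rfl | rfl | rfl) | hq
  exacts [Nat.prime_two, Nat.prime_three, hp.out, hℓ, Nat.prime_of_mem_primeFactors hq]

omit hp in
/-- The bad primes are among the primes of a switch. -/
theorem mem_switchPrimes_of_dvd {W : WeierstrassCurve ℤ} (hΔ : W.Δ ≠ 0) {ℓ q : ℕ} (hq : q.Prime)
    (hd : (q : ℤ) ∣ W.Δ) : q ∈ switchPrimes W p ℓ :=
  Finset.mem_union_right _
    (Nat.mem_primeFactors.mpr ⟨hq, Int.natCast_dvd.mp hd, Int.natAbs_ne_zero.mpr hΔ⟩)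

/-- `X ^ 2 + 1` has no root modulo three. -/
lemma sq_add_one_ne_zero_zmod_three : ∀ x : ZMod 3, x ^ 2 + 1 ≠ 0 := by decide

/-- A curve congruent to `auxE` at a prime `ℓ ≡ 7 (mod 12)` has irreducible three-torsion, as
Frobenius at `ℓ` has characteristic polynomial `X ^ 2 + 1`. -/
theorem irreducible_three_of_auxE [Fact (Nat.Prime 3)] {W' : WeierstrassCurve ℤ}
    {ℓ : ℕ} [hℓ : Fact ℓ.Prime] (hℓ2 : ℓ ≠ 2) (hℓne : ℓ ≠ 3) (hℓ4 : ℓ % 4 = 3) (hℓ3 : ℓ % 3 = 1)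
    {n : ℤ} (hn : ¬ (ℓ : ℤ) ∣ n) (hc : ScaledCong W' auxE ℓ n) : W'.ModRepIsIrreducible 3 := by
  refine irreducible_of_frobenius W' hℓ.out (p := 3) hℓne ?_ fun x => ?_
  · exact fun hd => auxE_not_dvd hℓ.out hℓ2 ((delta_c4_of_scaledCong hn hc).1.mp hd)
  · rw [apOfModel_of_scaledCong hn hc, apOfModel_auxE hℓ4, Int.cast_zero, zero_mul, sub_zero,
      show (ℓ : ZMod 3) = 1 by rw [← ZMod.natCast_mod, hℓ3]; rfl]
    exact sq_add_one_ne_zero_zmod_three x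

end Fermat.SW
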