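import Fermat.Agent.SW.Curves3

/-!
# Targets at three

`target5_of_datum`, `target3_of_datum`: a local datum at three between the curve and a prescribed
one is a target of the switches (`Switch35`); `target3_self`: a curve is a target for itself. With
what a congruence to a target says about reduction (`good_of_scaledCong`), these are the moves of
`SW/Chain`.
-/

set_option autoImplicit false

noncomputable section

namespace Fermat.SW

local notation "ℚbar" => AlgebraicClosure ℚ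
local notation "Γℚ" => (AlgebraicClosure ℚ ≃ₐ[ℚ] AlgebraicClosure ℚ)

variable {A : ValuationSubring ℚbar}

/-- A local datum at three gives a target for five. -/
theorem target5_of_datum {W V : WeierstrassCurve ℤ} (hW : W.Δ ≠ 0) (hV : V.Δ ≠ 0) (M : ℕ)
    (hD : LocalDatum 5 (A.decompositionSubgroup ℚ : Set Γℚ) (modQ W) (modQ V)) :
      Target5 A W V M := by
  obtain ⟨ζ, hζ⟩ := Fermat.CFT.exists_primitiveRoot_qbar (q := 5)
  have hWc : (modQ W).c₄ ^ 3 ≠ (modQ W).c₆ ^ 2 := c_ne_of_delta (modQ_Δ_ne hW)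
  obtain ⟨v, hv4, hv6⟩ := (Five.fam5 hζ).exists_value (algebraMap ℚ ℚbar (modQ W).c₄)
    (algebraMap ℚ ℚbar (modQ W).c₆) (Fam.pow_ne hWc)
  have hv : (Five.fam5 hζ).Over (modQ W).c₄ (modQ W).c₆ v := Prod.ext hv4 hv6
  obtain ⟨w, hw, hind⟩ := (Five.fam5 hζ).exists_twisted_indep hWc hv
  obtain ⟨f, hf⟩ := exists_equiv_short (modQ W) (modQ_Δ_ne hW) (p := 5) (by norm_num)
  obtain ⟨g, hg⟩ := exists_equiv_short (modQ V) (modQ_Δ_ne hV) (p := 5) (by norm_num)
  obtain ⟨e, he, hz⟩ := hD.transport (W' := shortCurve (modQ W).c₄ (modQ W).c₆)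
    (V' := shortCurve (modQ V).c₄ (modQ V).c₆) f hf g hg
  obtain ⟨s, t, μ, -, hfix, e4, e6⟩ := (Five.shear5 hζ).exists_fixed_param (by norm_num)
    (c_ne_of_delta (modQ_Δ_ne hW)) (c_ne_of_delta (modQ_Δ_ne hV)) hv hw hind _ e he hz
  rw [(algebraMap_modQ_c V).1] at e4
  rw [(algebraMap_modQ_c V).2] at e6
  exact ⟨ζ, hζ, v, w, hv, hw, hind, s, t, μ, hfix, Or.inl (sub_eq_zero.mpr e4),
    Or.inl (sub_eq_zero.mpr e6)⟩

/-- A local datum at three gives a target for three. -/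
theorem target3_of_datum {W V : WeierstrassCurve ℤ} (hW : W.Δ ≠ 0) (hV : V.Δ ≠ 0) (M : ℕ)
    (hD : LocalDatum 3 (A.decompositionSubgroup ℚ : Set Γℚ) (modQ W) (modQ V)) :
      Target3 A W V M := by
  intro ω hω v w hv hw hind
  obtain ⟨f, hf⟩ := exists_equiv_short (modQ W) (modQ_Δ_ne hW) (p := 3) (by norm_num)
  obtain ⟨g, hg⟩ := exists_equiv_short (modQ V) (modQ_Δ_ne hV) (p := 3) (by norm_num)
  obtain ⟨e, he, hz⟩ := hD.transport (W' := shortCurve (modQ W).c₄ (modQ W).c₆)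
    (V' := shortCurve (modQ V).c₄ (modQ V).c₆) f hf g hg
  obtain ⟨s, t, μ, -, hfix, e4, e6⟩ := (Three.shear3 hω).exists_fixed_param (by norm_num)
    (c_ne_of_delta (modQ_Δ_ne hW)) (c_ne_of_delta (modQ_Δ_ne hV)) hv hw hind _ e he hz
  rw [(algebraMap_modQ_c V).1] at e4
  rw [(algebraMap_modQ_c V).2] at e6
  exact ⟨s, t, μ, hfix, Or.inl (sub_eq_zero.mpr e4), Or.inl (sub_eq_zero.mpr e6)⟩

/-- A curve is a target for itself, with the parameters `(1, 0, 1)`. -/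
theorem target3_self {W : WeierstrassCurve ℤ} (M : ℕ) : Target3 A W W M := by
  intro ω hω v w hv hw hind
  refine ⟨1, 0, 1, fun σ _ => ⟨map_one σ, map_zero σ, map_one σ⟩, Or.inl (sub_eq_zero.mpr ?_),
    Or.inl (sub_eq_zero.mpr ?_)⟩
  · simp only [comb, one_mul, zero_mul, add_zero, one_pow, Prod.mk.eta]
    rw [← (algebraMap_modQ_c W).1]; exact congrArg Prod.fst hv
  · simp only [comb, one_mul, zero_mul, add_zero, one_pow, Prod.mk.eta]
    rw [← (algebraMap_modQ_c W).2]; exact congrArg Prod.snd hv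

/-- Congruent models have congruent invariants. -/
lemma invariants_of_scaledCong {W V : WeierstrassCurve ℤ} {m n : ℤ} (hc : ScaledCong W V m n) :
    m ∣ W.b₂ - n ^ 2 * V.b₂ ∧ m ∣ W.Δ - n ^ 12 * V.Δ := by
  have key : ∀ z : ℤ, ((z : ℤ) : ZMod m.natAbs) = 0 ↔ m ∣ z := fun z => by
    rw [ZMod.intCast_zmod_eq_zero_iff_dvd, Int.natAbs_dvd]
  have k : ∀ {x y : ℤ}, m ∣ x - y → ((x : ℤ) : ZMod m.natAbs) = (y : ZMod m.natAbs) :=
      fun {x y} h => by
    have := (key _).mpr h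
    push_cast at this
    exact sub_eq_zero.mp this
  constructor <;> rw [← key] <;> push_cast <;>
    simp only [WeierstrassCurve.b₂, WeierstrassCurve.Δ, WeierstrassCurve.b₄, WeierstrassCurve.b₆,
      WeierstrassCurve.b₈] <;> push_cast <;>
    rw [k hc.a₁, k hc.a₂] <;> (try rw [k hc.a₃, k hc.a₄, k hc.a₆]) <;> push_cast <;> ring

/-- Properties at three of a curve congruent to a good one. -/
theorem good_of_scaledCong {W V : WeierstrassCurve ℤ} {n : ℤ} (hn : ¬ (3 : ℤ) ∣ n)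
    (hc : ScaledCong W V ((3 : ℤ) ^ 2) n) (hgood : ¬ (3 : ℤ) ∣ V.Δ) :
    ¬ (3 : ℤ) ∣ W.Δ ∧ ((3 : ℤ) ∣ W.b₂ ↔ (3 : ℤ) ∣ V.b₂) ∧ W.apOfModel 3 = V.apOfModel 3 ∧
      ((V.Δ : ZMod 9) = 1 ∨ (V.Δ : ZMod 9) = -1 → (W.Δ : ZMod 9) = 1 ∨ (W.Δ : ZMod 9) = -1) := by
  have : Fact (Nat.Prime 3) := ⟨Nat.prime_three⟩
  obtain ⟨h2, h12⟩ := invariants_of_scaledCong hc
  have hc1 : ScaledCong W V ((3 : ℕ) : ℤ) n := by
    simpa using hc.of_dvd (m' := (3 : ℤ)) (dvd_pow_self _ (by norm_num))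
  have hn' : ¬ ((3 : ℕ) : ℤ) ∣ n := by exact_mod_cast hn
  refine ⟨fun hd => hgood ?_, ⟨fun hd => ?_, fun hd => ?_⟩, apOfModel_of_scaledCong hn' hc1, ?_⟩
  · exact_mod_cast (delta_c4_of_scaledCong hn' hc1).1.mp (by exact_mod_cast hd)
  · have := dvd_sub hd ((dvd_pow_self (3 : ℤ) (two_ne_zero (α := ℕ))).trans h2)
    rw [sub_sub_cancel] at this
    exact (Int.prime_three.dvd_or_dvd this).resolve_left fun h =>
      hn (Int.prime_three.dvd_of_dvd_pow h)
  · have := dvd_add ((dvd_pow_self (3 : ℤ) (two_ne_zero (α := ℕ))).trans h2) (hd.mul_left (n ^ 2))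
    rwa [sub_add_cancel] at this
  · intro hV
    have e : (W.Δ : ZMod 9) = (n : ZMod 9) ^ 12 * (V.Δ : ZMod 9) := by
      have := (ZMod.intCast_zmod_eq_zero_iff_dvd (W.Δ - n ^ 12 * V.Δ) 9).mpr (by simpa using h12)
      push_cast at this
      exact sub_eq_zero.mp this
    have hpow : ∀ z : ZMod 9, z * 3 ≠ 0 → z ^ 12 = 1 := by decide
    rw [e, hpow (n : ZMod 9) ?_, one_mul]
    · exact hV
    · intro h0
      apply hn
      have : (((n * 3 : ℤ)) : ZMod 9) = 0 := by push_cast; exact h0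
      obtain ⟨k, hk⟩ := (ZMod.intCast_zmod_eq_zero_iff_dvd _ 9).mp this
      exact ⟨k, by push_cast at hk; linarith⟩

end Fermat.SW
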