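import Fermat.Agent.SW.Pattern
import Fermat.Agent.GR.RatInstances
import Fermat.Prelude.Def_FLTPrelim_GaloisRep

/-!
# Twisting a family by a curve over `ℚ`

For `v` over the invariants of a rational curve, Galois moves `v` by preserving matrices forming a
cocycle (`cocycle_mul`), and `psi` identifies the torsion of two members. `Descent` finds the
rational plane of parameters whose members have Galois-equivariantly the torsion of the curve.
-/

set_option autoImplicit false
set_option linter.unusedSectionVars false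

open WeierstrassCurve WeierstrassCurve.Affine Matrix
open scoped WeierstrassCurve.Affine

namespace Fermat.SW

local notation "ℚbar" => AlgebraicClosure ℚ
local notation "Γℚ" => (AlgebraicClosure ℚ ≃ₐ[ℚ] AlgebraicClosure ℚ)

/-- Torsion of a rational short curve, as used by the Galois representations. -/
noncomputable abbrev TorQ (a b : ℚ) (p : ℕ) : Submodule ℤ ((shortCurve a b)⁄ℚbar).Point :=
  Submodule.torsionBy ℤ ((shortCurve a b)⁄ℚbar).Point (p : ℤ)

/-- Transport of torsion along an equality of curves. -/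
def castTor {K : Type} [Field K] [DecidableEq K] {W W' : Affine K} (h : W = W') (p : ℕ) :
    Submodule.torsionBy ℤ W.Point (p : ℤ) ≃+ Submodule.torsionBy ℤ W'.Point (p : ℤ) := by
  subst h; exact AddEquiv.refl _

/-- Transport of torsion keeps coordinates. -/
lemma castTor_coe {K : Type} [Field K] [DecidableEq K] {W W' : Affine K} (h : W = W') (p : ℕ)
    (P : Submodule.torsionBy ℤ W.Point (p : ℤ)) {x y : K} {hns : W.Nonsingular x y}
    (hP : (P : W.Point) = .some x y hns) :
    ((castTor h p P : Submodule.torsionBy ℤ W'.Point (p : ℤ)) : W'.Point) =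
      .some x y (h ▸ hns) := by
  subst h; simpa [castTor] using hP

/-- The short curve of rational invariants over `ℚ̄` is a base change. -/
lemma curveQ_eq (a b : ℚ) :
    shortCurve (algebraMap ℚ ℚbar a) (algebraMap ℚ ℚbar b) = (shortCurve a b)⁄ℚbar :=
  (shortCurve_map (algebraMap ℚ ℚbar) a b).symm

/-- For a non-singular curve `c₄³ ≠ c₆²`. -/
lemma c_ne_of_delta {W : WeierstrassCurve ℚ} (h : W.Δ ≠ 0) : W.c₄ ^ 3 ≠ W.c₆ ^ 2 := fun e =>
  h (by have := W.c_relation; linarith)

namespace Fam

variable {p : ℕ} [hp : Fact p.Prime] (F : Fam ℚbar p)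

/-- `v` lies over the rational invariants `(a, b)`. -/
def Over (a b : ℚ) (v : ℚbar × ℚbar) : Prop :=
  F.cval v = (algebraMap ℚ ℚbar a, algebraMap ℚ ℚbar b)

/-- Regular rational invariants stay regular in `ℚ̄`. -/
lemma pow_ne {a b : ℚ} (hab : a ^ 3 ≠ b ^ 2) :
    (algebraMap ℚ ℚbar a) ^ 3 ≠ (algebraMap ℚ ℚbar b) ^ 2 := by
  rw [← map_pow, ← map_pow]
  exact fun h => hab ((algebraMap ℚ ℚbar).injective h)

/-- The labelling over `ℚ`. -/
noncomputable def markQ {a b : ℚ} (hab : a ^ 3 ≠ b ^ 2) {v : ℚbar × ℚbar} (h : F.Over a b v) :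
    Option F.κ ≃ TorQ a b p :=
  (F.mark (pow_ne hab) h).trans (castTor (curveQ_eq a b) p).toEquiv

/-- The empty label is the origin. -/
lemma markQ_none {a b : ℚ} (hab : a ^ 3 ≠ b ^ 2) {v : ℚbar × ℚbar} (h : F.Over a b v) :
    F.markQ hab h none = 0 := by
  change castTor (curveQ_eq a b) p (F.mark (pow_ne hab) h none) = 0
  rw [mark_none, map_zero]

/-- The coordinates of a labelled rational torsion point. -/
lemma markQ_some_coe {a b : ℚ} (hab : a ^ 3 ≠ b ^ 2) {v : ℚbar × ℚbar} (h : F.Over a b v)
    (j : F.κ) :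
    ∃ hns, (F.markQ hab h (some j) : ((shortCurve a b)⁄ℚbar).Point) =
      .some (F.px j v) (F.py j v) hns :=
  ⟨_, castTor_coe (curveQ_eq a b) p (F.mark (pow_ne hab) h (some j)) rfl⟩

/-- Distinct labels add by the uniform rule. -/
lemma markQ_add {a b : ℚ} (hab : a ^ 3 ≠ b ^ 2) {v : ℚbar × ℚbar} (h : F.Over a b v)
    {i j : F.κ} (hij : i ≠ j) :
    F.markQ hab h (F.exists_add_label i j).choose =
      F.markQ hab h (some i) + F.markQ hab h (some j) := by
  change castTor (curveQ_eq a b) p (F.mark (pow_ne hab) h (F.exists_add_label i j).choose) =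
    castTor (curveQ_eq a b) p (F.mark (pow_ne hab) h (some i)) +
      castTor (curveQ_eq a b) p (F.mark (pow_ne hab) h (some j))
  rw [mark_some, mark_some, (F.exists_add_label i j).choose_spec hij (pow_ne hab) h, map_add]

/-- A map fixing `0` and additive on pairs of distinct elements is additive,
in a group with more than three elements and without `2`-torsion. -/
lemma add_of_add_ne {A B : Type*} [AddCommGroup A] [AddCommGroup B] (φ : A → B) (h0 : φ 0 = 0)
    (hadd : ∀ x y, x ≠ y → φ (x + y) = φ x + φ y) (h2 : ∀ x : A, x + x = 0 → x = 0)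
    (h3 : ∀ x : A, ∃ y : A, y ≠ 0 ∧ y ≠ x ∧ y ≠ -x) (x y : A) : φ (x + y) = φ x + φ y := by
  by_cases hxy : x = y
  · subst hxy
    obtain ⟨z, hz0, hz1, hz2⟩ := h3 x
    have hneg : φ (-z) = -φ z := by
      have hne : z ≠ -z := fun e => hz0 (h2 z (by nth_rewrite 2 [e]; abel))
      have := hadd z (-z) hne
      rw [add_neg_cancel, h0] at this
      exact eq_neg_of_add_eq_zero_right this.symm
    have e1 : x + z ≠ x + -z := fun e => hz0 (h2 z (by
      have := add_left_cancel e
      nth_rewrite 2 [this]; abel))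
    have := hadd (x + z) (x + -z) e1
    rw [hadd x z (Ne.symm hz1), hadd x (-z) (fun e => hz2 (by rw [e, neg_neg])), hneg,
      show x + z + (x + -z) = x + x by abel] at this
    rw [this]; abel
  · exact hadd x y hxy

/-- The natural identification of the torsion of two members. -/
noncomputable def psi (hp2 : p ≠ 2) {a b a' b' : ℚ} (hab : a ^ 3 ≠ b ^ 2) (hab' : a' ^ 3 ≠ b' ^ 2)
    {v w : ℚbar × ℚbar} (hv : F.Over a b v) (hw : F.Over a' b' w) :
    TorQ a b p ≃+ TorQ a' b' p :=
  { (F.markQ hab hv).symm.trans (F.markQ hab' hw) with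
    map_add' := by
      have hcard : Nat.card (TorQ a b p) = p ^ 2 := by
        rw [Nat.card_congr (F.markQ hab hv).symm, Nat.card_eq_fintype_card, Fintype.card_option]
        exact F.card_κ
      have hp3 : 3 ≤ p := by
        have := hp.out.two_le
        omega
      -- additivity at distinct points is enough, the group having odd order `p²`
      refine add_of_add_ne _ ?_ ?_ ?_ ?_
      · change F.markQ hab' hw ((F.markQ hab hv).symm 0) = 0
        rw [← F.markQ_none hab hv, Equiv.symm_apply_apply, markQ_none]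
      · intro x y hxy
        obtain ⟨o, rfl⟩ := (F.markQ hab hv).surjective x
        obtain ⟨o', rfl⟩ := (F.markQ hab hv).surjective y
        change F.markQ hab' hw ((F.markQ hab hv).symm _) = F.markQ hab' hw ((F.markQ hab hv).symm _)
          + F.markQ hab' hw ((F.markQ hab hv).symm _)
        rcases o with _ | i
        · simp only [Equiv.symm_apply_apply]
          rw [markQ_none, markQ_none, zero_add, Equiv.symm_apply_apply, zero_add]
        rcases o' with _ | j
        · simp only [Equiv.symm_apply_apply]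
          rw [markQ_none, markQ_none, add_zero, Equiv.symm_apply_apply, add_zero]
        have hij : i ≠ j := fun e => hxy (by rw [e])
        rw [← F.markQ_add hab hv hij]
        simp only [Equiv.symm_apply_apply]
        exact F.markQ_add hab' hw hij
      · intro x hx
        have hpx : p • x = 0 := by
          apply Subtype.ext
          have := x.2
          rw [Submodule.mem_torsionBy_iff, natCast_zsmul] at this
          simp
        have h2x : 2 • x = 0 := by rw [two_nsmul]; exact hx
        have hord := Nat.dvd_gcd (addOrderOf_dvd_of_nsmul_eq_zero hpx)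
          (addOrderOf_dvd_of_nsmul_eq_zero h2x)
        have hg : Nat.gcd p 2 = 1 := by
          rw [← Nat.coprime_iff_gcd_eq_one]
          exact (Nat.coprime_primes hp.out Nat.prime_two).mpr hp2
        rw [hg, Nat.dvd_one] at hord
        exact AddMonoid.addOrderOf_eq_one_iff.mp hord
      · intro x
        classical
        have : Finite (TorQ a b p) := Nat.finite_of_card_ne_zero (by rw [hcard]; positivity)
        have := Fintype.ofFinite (TorQ a b p)
        have hlt : ({0, x, -x} : Finset (TorQ a b p)).card < Fintype.card (TorQ a b p) := by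
          rw [← Nat.card_eq_fintype_card, hcard]
          exact lt_of_le_of_lt Finset.card_le_three (by nlinarith)
        obtain ⟨y, hy⟩ : ∃ y, y ∉ ({0, x, -x} : Finset (TorQ a b p)) := by
          by_contra hcon
          push Not at hcon
          exact absurd hlt (not_lt.mpr (Finset.card_le_card (fun y _ => hcon y)))
        exact ⟨y, by aesop⟩ }

/-- The identification matches equal labels. -/
lemma psi_apply (hp2 : p ≠ 2) {a b a' b' : ℚ} (hab : a ^ 3 ≠ b ^ 2) (hab' : a' ^ 3 ≠ b' ^ 2)
    {v w : ℚbar × ℚbar} (hv : F.Over a b v) (hw : F.Over a' b' w) (o : Option F.κ) :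
    F.psi hp2 hab hab' hv hw (F.markQ hab hv o) = F.markQ hab' hw o := by
  change F.markQ hab' hw ((F.markQ hab hv).symm _) = _
  rw [Equiv.symm_apply_apply]

/-- Galois conjugation of matrices. -/
noncomputable def matσ (σ : Γℚ) (g : Matrix (Fin 2) (Fin 2) ℚbar) :
    Matrix (Fin 2) (Fin 2) ℚbar := g.map σ

/-- Galois commutes with the action of matrices. -/
lemma act_matσ (σ : Γℚ) (g : Matrix (Fin 2) (Fin 2) ℚbar) (v : ℚbar × ℚbar) :
    Prod.map σ σ (act g v) = act (matσ σ g) (Prod.map σ σ v) := by
  simp [act, matσ, map_add, map_mul]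

/-- Conjugation fixes the identity matrix. -/
lemma matσ_one (σ : Γℚ) : matσ σ 1 = 1 := by
  simp [matσ, Matrix.map_one σ (map_zero σ) (map_one σ)]

variable {F}

/-- Conjugates of preserving matrices preserve the forms. -/
lemma pres_matσ (σ : Γℚ) {g : Matrix (Fin 2) (Fin 2) ℚbar} (hg : F.Pres g) :
    F.Pres (matσ σ g) := by
  intro R _ inst w
  exact @hg R _ ((algebraMap ℚbar R).comp (σ.toRingEquiv.toRingHom)).toAlgebra w

variable (F)

/-- Forms commute with Galois. -/
lemma natural_σ (G : Form) (σ : Γℚ) (v : ℚbar × ℚbar) :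
    σ (G.toFun v) = G.toFun (Prod.map σ σ v) :=
  G.natural σ.toRingEquiv.toRingHom v

/-- The image label under `σ`, for parameters moved by `c`. -/
lemma exists_label_image (σ : Γℚ) {c : Matrix (Fin 2) (Fin 2) ℚbar} (hc : F.Pres c) (j : F.κ) :
    ∃ k, ∀ v : ℚbar × ℚbar, Prod.map σ σ v = act c v →
      σ (F.px j v) = F.px k v ∧ σ (F.py j v) = F.py k v := by
  obtain ⟨i, k, e⟩ := F.pres_cases (Pres.mul (pres_matσ σ (F.pres_t j)) hc)
  refine ⟨k, fun v hv => ?_⟩
  unfold px py
  rw [natural_σ, natural_σ, act_matσ, hv, ← act_mul, e]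
  exact F.px_r i k v

/-- `ψ` commutes with the Galois automorphisms moving both parameters by the same matrix. -/
theorem psi_smul (hp2 : p ≠ 2) {a b a' b' : ℚ} (hab : a ^ 3 ≠ b ^ 2) (hab' : a' ^ 3 ≠ b' ^ 2)
    {v w : ℚbar × ℚbar} (hv : F.Over a b v) (hw : F.Over a' b' w) (σ : Γℚ)
    {c : Matrix (Fin 2) (Fin 2) ℚbar} (hc : F.Pres c)
    (hcv : Prod.map σ σ v = act c v) (hcw : Prod.map σ σ w = act c w) (x : TorQ a b p) :
    F.psi hp2 hab hab' hv hw (σ • x) = σ • F.psi hp2 hab hab' hv hw x := by
  obtain ⟨o, rfl⟩ := (F.markQ hab hv).surjective x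
  rw [psi_apply]
  rcases o with _ | j
  · rw [markQ_none, markQ_none, smul_zero, map_zero, smul_zero]
  obtain ⟨k, hk⟩ := F.exists_label_image σ hc j
  have key : ∀ {a b : ℚ} (hab : a ^ 3 ≠ b ^ 2) {u : ℚbar × ℚbar} (hu : F.Over a b u),
      Prod.map σ σ u = act c u → σ • F.markQ hab hu (some j) = F.markQ hab hu (some k) := by
    intro a b hab u hu hcu
    obtain ⟨h1, e1⟩ := F.markQ_some_coe hab hu j
    obtain ⟨h2, e2⟩ := F.markQ_some_coe hab hu k
    apply Subtype.ext
    change σ • (F.markQ hab hu (some j) : ((shortCurve a b)⁄ℚbar).Point) = _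
    rw [e1, e2, Affine.Point.algEquiv_smul_def, Affine.Point.map_some]
    congr 1
    · exact (hk u hcu).1
    · exact (hk u hcu).2
  rw [key hab hv hcv, key hab' hw hcw, psi_apply]

/-! ### The cocycle of a parameter over rational invariants -/

/-- Some preserving matrix moves `v` to `σ v`. -/
lemma exists_cocycle {a b : ℚ} (hab : a ^ 3 ≠ b ^ 2) {v : ℚbar × ℚbar} (hv : F.Over a b v)
    (σ : Γℚ) : ∃ c, F.Pres c ∧ Prod.map σ σ v = act c v := by
  have hreg : F.Reg v := F.reg_of_cval (pow_ne hab) hv
  obtain ⟨i, j, e⟩ := F.exists_pres_act hreg (w := Prod.map σ σ v) (by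
    have h1 : F.c4.toFun v = algebraMap ℚ ℚbar a := congrArg Prod.fst hv
    have h2 : F.c6.toFun v = algebraMap ℚ ℚbar b := congrArg Prod.snd hv
    unfold cval
    rw [← natural_σ, ← natural_σ, h1, h2, AlgEquiv.commutes, AlgEquiv.commutes])
  exact ⟨_, F.pres_rt i j, e.symm⟩

/-- The matrices moving `v` to its conjugates satisfy the cocycle relation. -/
lemma cocycle_mul {a b : ℚ} (hab : a ^ 3 ≠ b ^ 2) {v : ℚbar × ℚbar} (hv : F.Over a b v)
    {σ τ : Γℚ} {cσ cτ cστ : Matrix (Fin 2) (Fin 2) ℚbar} (h1 : F.Pres cσ) (h2 : F.Pres cτ)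
    (h3 : F.Pres cστ) (e1 : Prod.map σ σ v = act cσ v) (e2 : Prod.map τ τ v = act cτ v)
    (e3 : Prod.map (σ * τ : Γℚ) (σ * τ : Γℚ) v = act cστ v) : cστ = matσ σ cτ * cσ := by
  refine pres_eq h3 (Pres.mul (pres_matσ σ h2) h1) (F.reg_of_cval (pow_ne hab) hv) ?_
  rw [← e3, act_mul, ← e1, ← act_matσ, ← e2]
  rfl

end Fam

end Fermat.SW
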